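import Fermat.Agent.S19.h92_Nonspecial
import Fermat.Agent.S18.GR_ChartPt
import Fermat.Prelude.Def_AlgebraicCurve_BaseChangeGalois

/-!
# S19 / C6 EQUIV, generic half: Riemann–Roch calculus under a semilinear automorphism

`g : SemilinearAut K F` (Prelude): a ring automorphism of `F` inducing an automorphism
`baseAut g` of the constants `K`; it acts on places, divisors and `Pic⁰` (frozen action).

* `h82_smul_mem_rr`, `h82_rr_smul_image` : `L(g • D) = g (L(D))`;
* `h82_finrank_rr_smul` : `l(g • D) = l(D)`;
* `h82_smul_nonneg`, `h82_smul_principal_iff`;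
* `h82_effective_smul` : the unique effective divisor of a class with `l = 1` is equivariant;
* `h82_val_smul` : values at places; `h82_smul_place_of_unique`, `h82_smul_place_fixed`;
* `h82_smul_sum_single`, `h82_smul_divisor_of_fixed`, `h82_smul_mem_rr_of_fixed`;
* `h82_smul_sum_smul(_of_fixed)`, `h82_linearIndependent_smul`, `h82_smul_mem_span(_iff)` :
  semilinear algebra (coordinates in a fixed family are conjugated).
-/

set_option autoImplicit false

open AlgebraicCurve

namespace Fermat.Agent.S19

open Fermat.Agent.S18 Fermat.Agent.S27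

variable {K F : Type*} [Field K] [Field F] [Algebra K F]

/-- `ord` at `g • P`. -/
theorem h82_ord_smul_place (g : SemilinearAut K F) (P : Place K F) (f : F) :
    (g • P).ord f = P.ord (g⁻¹ • f) := by
  have h := SemilinearAut.ord_smul g P (g⁻¹ • f)
  rwa [smul_inv_smul] at h

/-- **(S1)** `g • f ∈ L(g • D) ↔ f ∈ L(D)`. -/
theorem h82_smul_mem_rr (g : SemilinearAut K F) (D : Divisor K F) (f : F) :
    g • f ∈ riemannRochSpace (g • D) ↔ f ∈ riemannRochSpace D := by
  rw [mem_riemannRochSpace_iff, mem_riemannRochSpace_iff]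
  constructor
  · intro h v
    rcases h (g • v) with h0 | h1
    · left
      exact (smul_eq_zero_iff_eq g).mp h0
    · right
      rwa [SemilinearAut.divisor_smul_apply_smul, SemilinearAut.ord_smul] at h1
  · intro h w
    rcases h (g⁻¹ • w) with h0 | h1
    · left
      rw [h0, smul_zero]
    · right
      have h2 := SemilinearAut.ord_smul g (g⁻¹ • w) f
      rw [smul_inv_smul] at h2
      rw [SemilinearAut.divisor_smul_apply, h2]
      exact h1

/-- `f ∈ L(g • D) ↔ g⁻¹ • f ∈ L(D)`. -/
theorem h82_mem_rr_smul (g : SemilinearAut K F) (D : Divisor K F) (f : F) :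
    f ∈ riemannRochSpace (g • D) ↔ g⁻¹ • f ∈ riemannRochSpace D := by
  rw [← h82_smul_mem_rr g D (g⁻¹ • f), smul_inv_smul]

/-- `L(g • D) = g (L(D))`. -/
theorem h82_rr_smul_image (g : SemilinearAut K F) (D : Divisor K F) :
    (riemannRochSpace (g • D) : Set F) = (fun f : F => g • f) '' (riemannRochSpace D : Set F) := by
  ext f
  constructor
  · intro hf
    exact ⟨g⁻¹ • f, (h82_mem_rr_smul g D f).mp hf, smul_inv_smul g f⟩
  · rintro ⟨f', hf', rfl⟩
    exact (h82_smul_mem_rr g D f').mpr hf'

/-- the semilinear action on scalar multiples. -/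
theorem h82_smul_smul_semilinear (g : SemilinearAut K F) (a : K) (f : F) :
    g • (a • f) = (SemilinearAut.baseAut g a) • (g • f) := by
  rw [Algebra.smul_def, Algebra.smul_def, smul_mul', SemilinearAut.smul_algebraMap]

/-- **(S2)** `l(g • D) = l(D)`. -/
theorem h82_finrank_rr_smul (g : SemilinearAut K F) (D : Divisor K F) :
    Module.finrank K ↥(riemannRochSpace (g • D)) = Module.finrank K ↥(riemannRochSpace D) := by
  let j : ↥(riemannRochSpace D) ≃+ ↥(riemannRochSpace (g • D)) :=
    { toFun := fun f => ⟨g • (f : F), (h82_smul_mem_rr g D f).mpr f.2⟩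
      invFun := fun f => ⟨g⁻¹ • (f : F), (h82_mem_rr_smul g D f).mp f.2⟩
      left_inv := fun f => Subtype.ext (inv_smul_smul g (f : F))
      right_inv := fun f => Subtype.ext (smul_inv_smul g (f : F))
      map_add' := fun f f' => Subtype.ext (smul_add g (f : F) (f' : F)) }
  have h := rank_eq_of_equiv_equiv (SemilinearAut.baseAut g) j (SemilinearAut.baseAut g).bijective
    (fun a f => Subtype.ext (h82_smul_smul_semilinear g a (f : F)))
  unfold Module.finrank
  rw [h]

/-- effectivity is preserved. -/
theorem h82_smul_nonneg (g : SemilinearAut K F) (E : Divisor K F) : 0 ≤ g • E ↔ 0 ≤ E := by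
  rw [Finsupp.le_def, Finsupp.le_def]
  constructor
  · intro h v
    have := h (g • v)
    rwa [SemilinearAut.divisor_smul_apply_smul] at this
  · intro h w
    rw [SemilinearAut.divisor_smul_apply]
    exact h (g⁻¹ • w)

/-- principal divisors. -/
theorem h82_smul_principal_iff (g : SemilinearAut K F) (D : Divisor K F) :
    g • D ∈ Divisor.principal (K := K) (F := F) ↔ D ∈ Divisor.principal (K := K) (F := F) := by
  constructor
  · intro h
    have := SemilinearAut.smul_mem_principal g⁻¹ h
    rwa [inv_smul_smul] at this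
  · exact SemilinearAut.smul_mem_principal g

/-- **(S3)** the unique effective divisor of a class with `l = 1` is equivariant. -/
theorem h82_effective_smul (g : SemilinearAut K F) {D : Divisor K F}
    (h1 : Module.finrank K ↥(riemannRochSpace D) = 1) {E : Divisor K F} (hE : 0 ≤ E)
    (hED : E - D ∈ Divisor.principal (K := K) (F := F)) {E' : Divisor K F} (hE' : 0 ≤ E')
    (hED' : E' - g • D ∈ Divisor.principal (K := K) (F := F)) : E' = g • E := by
  have h1' : Module.finrank K ↥(riemannRochSpace (g • D)) = 1 := by
    rw [h82_finrank_rr_smul, h1]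
  obtain ⟨f, hf, -⟩ := finrank_eq_one_iff'.mp h1'
  have hf0 : (f : F) ≠ 0 := fun h => hf (Subtype.ext h)
  have hgE : 0 ≤ g • E := (h82_smul_nonneg g E).mpr hE
  have hgED : g • E - g • D ∈ Divisor.principal (K := K) (F := F) := by
    rw [← smul_sub]
    exact SemilinearAut.smul_mem_principal g hED
  ext P
  rw [h92_effective_apply h1' hE' hED' f.2 hf0 P, h92_effective_apply h1' hgE hgED f.2 hf0 P]

/-- **(S4)** values at places. -/
theorem h82_val_smul (g : SemilinearAut K F) {P : Place K F} {f : F} {a : K}
    (h : h39_Val P f a) : h39_Val (g • P) (g • f) (SemilinearAut.baseAut g a) := by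
  rcases h with h | h
  · left
    rw [h, SemilinearAut.smul_algebraMap]
  · right
    rw [← SemilinearAut.smul_algebraMap, ← smul_sub, SemilinearAut.ord_smul]
    exact h

/-- values at places, for functions fixed by `g`. -/
theorem h82_val_smul_of_fixed (g : SemilinearAut K F) {P : Place K F} {f : F} {a : K}
    (hf : g • f = f) (h : h39_Val P f a) : h39_Val (g • P) f (SemilinearAut.baseAut g a) := by
  have := h82_val_smul g h
  rwa [hf] at this

/-- the place determined by the values of two `g`-fixed functions moves to the place determined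
by the conjugate values. -/
theorem h82_smul_place_of_unique (g : SemilinearAut K F) {x y : F} (hx : g • x = x)
    (hy : g • y = y) {a b : K} {Q Q' : Place K F} (hQa : h39_Val Q x a) (hQb : h39_Val Q y b)
    (hQ' : ∀ P : Place K F, h39_Val P x (SemilinearAut.baseAut g a) →
      h39_Val P y (SemilinearAut.baseAut g b) → P = Q') : g • Q = Q' :=
  hQ' _ (h82_val_smul_of_fixed g hx hQa) (h82_val_smul_of_fixed g hy hQb)

/-- a place determined by values fixed by `g` is fixed by `g`. -/
theorem h82_smul_place_fixed (g : SemilinearAut K F) {x y : F} (hx : g • x = x)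
    (hy : g • y = y) {a b : K} (ha : SemilinearAut.baseAut g a = a)
    (hb : SemilinearAut.baseAut g b = b) {Q : Place K F} (hQa : h39_Val Q x a)
    (hQb : h39_Val Q y b)
    (hQ : ∀ P : Place K F, h39_Val P x a → h39_Val P y b → P = Q) : g • Q = Q := by
  refine h82_smul_place_of_unique g hx hy hQa hQb ?_
  rw [ha, hb]
  exact hQ

/-- **(S5)** sums of points. -/
theorem h82_smul_sum_single (g : SemilinearAut K F) {ι : Type*} (s : Finset ι)
    (Q : ι → Place K F) (n : ι → ℤ) :
    g • (∑ i ∈ s, Finsupp.single (Q i) (n i)) = ∑ i ∈ s, Finsupp.single (g • Q i) (n i) := by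
  rw [Finset.smul_sum]
  exact Finset.sum_congr rfl fun i _ => SemilinearAut.smul_single g (Q i) (n i)

/-- a divisor given by a formula in the orders of `g`-fixed functions is `g`-fixed
(e.g. `M = m • (x)_∞`, `D P = m * max (-P.ord x) 0`). -/
theorem h82_smul_divisor_of_fixed (g : SemilinearAut K F) {ι : Type*} (x : ι → F)
    (hx : ∀ i, g • x i = x i) (φ : (ι → ℤ) → ℤ) (D : Divisor K F)
    (hD : ∀ P : Place K F, D P = φ (fun i => P.ord (x i))) : g • D = D := by
  ext P
  rw [SemilinearAut.divisor_smul_apply, hD, hD]
  congr 1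
  funext i
  have h := h82_ord_smul_place g (g⁻¹ • P) (x i)
  rw [smul_inv_smul] at h
  rw [h]
  have h2 : g⁻¹ • x i = x i := by
    conv_lhs => rw [← hx i]
    exact inv_smul_smul g (x i)
  rw [h2]

/-- `L(D)` of a `g`-fixed divisor is `g`-stable. -/
theorem h82_smul_mem_rr_of_fixed (g : SemilinearAut K F) {D : Divisor K F} (hD : g • D = D)
    {f : F} (hf : f ∈ riemannRochSpace D) : g • f ∈ riemannRochSpace D := by
  have := (h82_smul_mem_rr g D f).mpr hf
  rwa [hD] at this

/-- values at places, both directions. -/
theorem h82_val_smul_iff (g : SemilinearAut K F) {P : Place K F} {f : F} {a : K} :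
    h39_Val (g • P) (g • f) (SemilinearAut.baseAut g a) ↔ h39_Val P f a := by
  refine ⟨fun h => ?_, h82_val_smul g⟩
  have h2 := h82_val_smul g⁻¹ h
  rwa [inv_smul_smul, inv_smul_smul, SemilinearAut.baseAut_inv, RingEquiv.symm_apply_apply] at h2

/-- **(S6)** semilinearity on finite combinations. -/
theorem h82_smul_sum_smul (g : SemilinearAut K F) {ι : Type*} (s : Finset ι) (c : ι → K)
    (v : ι → F) :
    g • (∑ i ∈ s, c i • v i) = ∑ i ∈ s, (SemilinearAut.baseAut g (c i)) • (g • v i) := by
  rw [Finset.smul_sum]
  exact Finset.sum_congr rfl fun i _ => h82_smul_smul_semilinear g (c i) (v i)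

/-- coordinates in a `g`-fixed family are conjugated. -/
theorem h82_smul_sum_smul_of_fixed (g : SemilinearAut K F) {ι : Type*} (s : Finset ι) (c : ι → K)
    (b : ι → F) (hb : ∀ i, g • b i = b i) :
    g • (∑ i ∈ s, c i • b i) = ∑ i ∈ s, (SemilinearAut.baseAut g (c i)) • b i := by
  rw [h82_smul_sum_smul]
  exact Finset.sum_congr rfl fun i _ => by rw [hb i]

/-- linear independence is preserved. -/
theorem h82_linearIndependent_smul (g : SemilinearAut K F) {ι : Type*} (v : ι → F) :
    LinearIndependent K (fun i => g • v i) ↔ LinearIndependent K v := by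
  have key : ∀ (g : SemilinearAut K F) (v : ι → F), LinearIndependent K v →
      LinearIndependent K (fun i => g • v i) := by
    intro g v hv
    rw [linearIndependent_iff'] at hv ⊢
    intro s c hc i hi
    have h1 : g⁻¹ • (∑ i ∈ s, c i • (g • v i)) = 0 := by rw [hc, smul_zero]
    rw [h82_smul_sum_smul] at h1
    simp only [inv_smul_smul] at h1
    have h2 := hv s (fun i => SemilinearAut.baseAut g⁻¹ (c i)) h1 i hi
    exact (map_eq_zero_iff _ (SemilinearAut.baseAut g⁻¹).injective).mp h2
  refine ⟨fun h => ?_, key g v⟩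
  have := key g⁻¹ _ h
  simpa only [inv_smul_smul] using this

/-- spans are preserved. -/
theorem h82_smul_mem_span (g : SemilinearAut K F) (S : Set F) {f : F}
    (hf : f ∈ Submodule.span K S) : g • f ∈ Submodule.span K ((fun f : F => g • f) '' S) := by
  induction hf using Submodule.span_induction with
  | mem x hx => exact Submodule.subset_span ⟨x, hx, rfl⟩
  | zero => rw [smul_zero]; exact Submodule.zero_mem _
  | add x y _ _ hx hy => rw [smul_add]; exact Submodule.add_mem _ hx hy
  | smul a x _ hx =>
    rw [h82_smul_smul_semilinear]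
    exact Submodule.smul_mem _ _ hx

/-- spans are preserved, both directions. -/
theorem h82_smul_mem_span_iff (g : SemilinearAut K F) (S : Set F) (f : F) :
    g • f ∈ Submodule.span K ((fun f : F => g • f) '' S) ↔ f ∈ Submodule.span K S := by
  refine ⟨fun h => ?_, h82_smul_mem_span g S⟩
  have h2 := h82_smul_mem_span g⁻¹ _ h
  rw [inv_smul_smul, Set.image_image] at h2
  simpa only [inv_smul_smul, Set.image_id'] using h2

end Fermat.Agent.S19
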