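import Fermat.Agent.S19.h38_Top

/-!
# S19, top level: the exports consumed by S32 (helper38)

* `h38_order_of_hasCoords` : integral coordinates give a Hopf order (T1, first half, bundled);
* `h38_finite_tors` : the torsion groups `Submodule.torsionBy ℤ (JZero N) n`, `n ≠ 0`, are finite;
* `h38_exists_order` : a Hopf order on `J₀(N)[ℓ^k]` at EVERY level `N` prime to `ℓ`, given
  chart-level coordinates (`h38_ChartCoords`).
-/

set_option autoImplicit false

noncomputable section

open ModularCurve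

namespace Fermat.Agent.S19

local notation "Qb" => AlgebraicClosure ℚ
local notation "Γℚ" => (AlgebraicClosure ℚ ≃ₐ[ℚ] AlgebraicClosure ℚ)

/-- T1, first half, in bundled form: integral coordinates give a Hopf order. -/
theorem h38_order_of_hasCoords (ℓ : ℕ) [Fact ℓ.Prime] {G : Type} [AddCommGroup G] [Finite G]
    [DistribMulAction Γℚ G] (h : h38_HasCoords ℓ G) :
    ∃ H : Subalgebra (GaloisRep.ratLocalizedAt ℓ) (G → Qb), h26_IsHopfOrder ℓ H := by
  obtain ⟨𝒜, A₀, hA₀, hstab, hR, C, hCfin, hCstab, hCgood, hCint, hCsep, hCadd⟩ := h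
  exact h26_order_of_coords ℓ 𝒜 A₀ hA₀ hstab hR C hCfin hCstab hCgood hCint hCsep hCadd

/-- The torsion groups of `J₀(N)` are finite. -/
theorem h38_finite_tors (N : ℕ) [NeZero N] (n : ℤ) (hn : n ≠ 0) :
    Finite ↥(Submodule.torsionBy ℤ (JZero N) n) :=
  h54_finite_torsionBy N n hn

/-- A Hopf order on `J₀(N)[ℓ^k]` at every level prime to `ℓ`, from chart-level coordinates. -/
theorem h38_exists_order (hcoords : h38_ChartCoords) (N : ℕ) [NeZero N] (ℓ : ℕ)
    [hℓ : Fact ℓ.Prime] (hℓN : ¬ ℓ ∣ N) (k : ℕ) :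
    ∃ H : Subalgebra (GaloisRep.ratLocalizedAt ℓ)
        (↥(Submodule.torsionBy ℤ (JZero N) ((ℓ : ℤ) ^ k)) → Qb), h26_IsHopfOrder ℓ H := by
  have hpow : ((ℓ : ℤ) ^ k) ≠ 0 := pow_ne_zero _ (Int.natCast_ne_zero.mpr hℓ.out.ne_zero)
  have := h38_finite_tors N _ hpow
  exact h38_order_of_hasCoords ℓ (h38_hasCoords_all hcoords N ℓ hℓN k)

end Fermat.Agent.S19

end
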