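import Fermat.Agent.S19.CoordsOfChart
import Fermat.Agent.S19.h38_Order

/-!
# S19, final assembly (helper38): unconditional exports

* `h38_chartCoords : h38_ChartCoords` (helper26's modular glue `h26_coords_of_chart`);
* `h38_hasCoords N ℓ hℓN k` : integral coordinates on `J₀(N)[ℓ^k]` at every level prime to `ℓ`;
* `h38_order N ℓ hℓN k` : a Hopf order on `J₀(N)[ℓ^k]` (consumed by S32);
* `h38_S19` : the frozen statement S19.
-/

set_option autoImplicit false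

noncomputable section

open ModularCurve

namespace Fermat.Agent.S19

local notation "Qb" => AlgebraicClosure ℚ

/-- Integral coordinates at every level with a chart. -/
theorem h38_chartCoords : h38_ChartCoords :=
  fun N _ ℓ _ hℓN hch k => h26_coords_of_chart N ℓ hℓN hch k

/-- Integral coordinates on `J₀(N)[ℓ^k]` at every level prime to `ℓ`. -/
theorem h38_hasCoords (N : ℕ) [NeZero N] (ℓ : ℕ) [Fact ℓ.Prime] (hℓN : ¬ ℓ ∣ N) (k : ℕ) :
    h38_HasCoords ℓ ↥(Submodule.torsionBy ℤ (JZero N) ((ℓ : ℤ) ^ k)) :=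
  h38_hasCoords_all h38_chartCoords N ℓ hℓN k

/-- A Hopf order on `J₀(N)[ℓ^k]` at every level prime to `ℓ`. -/
theorem h38_order (N : ℕ) [NeZero N] (ℓ : ℕ) [Fact ℓ.Prime] (hℓN : ¬ ℓ ∣ N) (k : ℕ) :
    ∃ H : Subalgebra (GaloisRep.ratLocalizedAt ℓ)
        (↥(Submodule.torsionBy ℤ (JZero N) ((ℓ : ℤ) ^ k)) → Qb), h26_IsHopfOrder ℓ H :=
  h38_exists_order h38_chartCoords N ℓ hℓN k

/-- **S19** (the frozen statement). -/
theorem h38_S19 (p : ℕ) [NeZero p] (ℓ : ℕ) [Fact ℓ.Prime] (hℓp : ¬ ℓ ∣ p) (k : ℕ) :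
    ∃ (H : Type) (_ : CommRing H) (_ : HopfAlgebra (GaloisRep.ratLocalizedAt ℓ) H),
      Module.Finite (GaloisRep.ratLocalizedAt ℓ) H ∧ Module.Flat (GaloisRep.ratLocalizedAt ℓ) H ∧
      Coalgebra.IsCocomm (GaloisRep.ratLocalizedAt ℓ) H ∧
      ∃ e : WithConv (H →ₐ[GaloisRep.ratLocalizedAt ℓ] AlgebraicClosure ℚ) ≃
          ↥(Submodule.torsionBy ℤ (JZero p) ((ℓ : ℤ) ^ k)),
        (∀ f g, e (f * g) = e f + e g) ∧
        ∀ (σ : AlgebraicClosure ℚ ≃ₐ[ℚ] AlgebraicClosure ℚ)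
          (f g : WithConv (H →ₐ[GaloisRep.ratLocalizedAt ℓ] AlgebraicClosure ℚ)),
          (∀ h : H, g h = σ (f h)) → ((e g : JZero p)) = σ • (e f : JZero p) :=
  h38_S19_of_chart_coords h38_chartCoords p ℓ hℓp k

end Fermat.Agent.S19

end
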