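import Mathlib

/-!
# S19 / EXIST, row X2 FRAME (Mathlib only)

* `h82_exists_common_disjoint` : over an infinite field, finitely many subspaces of dimension
  `≤ d` of a finite-dimensional space `E` with `d + m ≤ dim E` have a common `m`-dimensional
  subspace meeting each of them trivially;
* `h82_fr` : the Frobenius twist of a coordinate vector, with its basic calculus;
* `h82_exists_completion` : an independent family of `g` vectors of `k^(n'+g)` is the last `g`
  columns of an invertible matrix;
* `h23_exists_frame` : the row export (skeleton `origin/helper23 : skel/h23_SkelExist.lean`).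
-/

set_option autoImplicit false

noncomputable section

namespace Fermat.Agent.S19

section CommonDisjoint

variable {k E : Type*} [Field k] [Infinite k] [AddCommGroup E] [Module k E]
  [FiniteDimensional k E]

/-- **common disjoint subspace**: finitely many subspaces of dimension `≤ d`, `d + m ≤ dim E`,
over an infinite field: there are `m` independent vectors whose span meets each of them
trivially. -/
theorem h82_exists_common_disjoint : ∀ (m d : ℕ) (s : Finset (Submodule k E)),
    (∀ U ∈ s, Module.finrank k U ≤ d) → d + m ≤ Module.finrank k E →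
    ∃ c : Fin m → E, LinearIndependent k c ∧
      ∀ U ∈ s, Disjoint U (Submodule.span k (Set.range c)) := by
  classical
  intro m
  induction m with
  | zero =>
    intro d s _ _
    refine ⟨Fin.elim0, linearIndependent_empty_type, fun U _ => ?_⟩
    rw [Set.range_eq_empty, Submodule.span_empty]
    exact disjoint_bot_right
  | succ m ih =>
    intro d s hs hd
    -- a vector outside all `U` and nonzero
    have htop : (⊤ : Submodule k E) ∉ insert ⊥ s := by
      intro h
      rcases Finset.mem_insert.mp h with h | h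
      · have h1 : Module.finrank k (⊤ : Submodule k E) = 0 := by rw [h, finrank_bot]
        rw [finrank_top] at h1
        omega
      · have := hs ⊤ h
        rw [finrank_top] at this
        omega
    have hne := Subspace.biUnion_ne_univ_of_top_notMem htop
    obtain ⟨v, hv⟩ : ∃ v : E, ∀ U ∈ insert ⊥ s, v ∉ U := by
      by_contra hall
      push Not at hall
      refine hne (Set.eq_univ_of_forall fun v => ?_)
      obtain ⟨U, hU, hvU⟩ := hall v
      exact Set.mem_biUnion hU hvU
    have hv0 : v ≠ 0 := fun h => hv ⊥ (Finset.mem_insert_self _ _) (by rw [h]; exact zero_mem _)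
    have hvU : ∀ U ∈ s, v ∉ U := fun U hU => hv U (Finset.mem_insert_of_mem hU)
    -- the enlarged family
    let s' : Finset (Submodule k E) := (insert ⊥ s).image (fun U => U ⊔ Submodule.span k {v})
    have hs' : ∀ U' ∈ s', Module.finrank k U' ≤ d + 1 := by
      intro U' hU'
      obtain ⟨U, hU, rfl⟩ := Finset.mem_image.mp hU'
      have h1 := Submodule.finrank_add_le_finrank_add_finrank U (Submodule.span k {v})
      have h2 := finrank_span_singleton (K := k) hv0
      have h3 : Module.finrank k U ≤ d := by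
        rcases Finset.mem_insert.mp hU with h | h
        · rw [h, finrank_bot]
          exact Nat.zero_le d
        · exact hs U h
      omega
    obtain ⟨c', hc'li, hc'⟩ := ih (d + 1) s' hs' (by omega)
    have hvc' : v ∉ Submodule.span k (Set.range c') := by
      intro hmem
      have hd' := hc' (⊥ ⊔ Submodule.span k {v})
        (Finset.mem_image_of_mem _ (Finset.mem_insert_self _ _))
      have : v ∈ (⊥ ⊔ Submodule.span k {v}) ⊓ Submodule.span k (Set.range c') :=
        ⟨Submodule.mem_sup_right (Submodule.mem_span_singleton_self v), hmem⟩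
      rw [hd'.eq_bot] at this
      exact hv0 ((Submodule.mem_bot k).mp this)
    refine ⟨Fin.cons v c', ?_, ?_⟩
    · rw [linearIndependent_finCons]
      exact ⟨hc'li, hvc'⟩
    · intro U hU
      rw [Submodule.disjoint_def]
      intro u huU hu
      rw [Fin.range_cons, Submodule.mem_span_insert] at hu
      obtain ⟨a, z, hz, rfl⟩ := hu
      have hd' := hc' (U ⊔ Submodule.span k {v})
        (Finset.mem_image_of_mem _ (Finset.mem_insert_of_mem hU))
      have hz' : z ∈ (U ⊔ Submodule.span k {v}) ⊓ Submodule.span k (Set.range c') := by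
        refine ⟨?_, hz⟩
        have : z = (a • v + z) - a • v := by abel
        rw [this]
        exact Submodule.sub_mem _ (Submodule.mem_sup_left huU)
          (Submodule.mem_sup_right (Submodule.smul_mem _ _ (Submodule.mem_span_singleton_self v)))
      rw [hd'.eq_bot] at hz'
      have hz0 : z = 0 := (Submodule.mem_bot k).mp hz'
      rw [hz0, add_zero] at huU ⊢
      by_cases ha : a = 0
      · rw [ha, zero_smul]
      · exfalso
        apply hvU U hU
        have : v = a⁻¹ • (a • v) := by rw [smul_smul, inv_mul_cancel₀ ha, one_smul]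
        rw [this]
        exact U.smul_mem _ huU

end CommonDisjoint

section Frob

variable {k : Type*} [Field k] (ℓ : ℕ) [Fact ℓ.Prime] [CharP k ℓ]

/-- the Frobenius twist of a coordinate vector. -/
def h82_fr {n : ℕ} (t : ℕ) (v : Fin n → k) : Fin n → k := fun i => v i ^ (ℓ ^ t)

omit [Fact ℓ.Prime] [CharP k ℓ] in
theorem h82_fr_apply {n : ℕ} (t : ℕ) (v : Fin n → k) (i : Fin n) :
    h82_fr ℓ t v i = v i ^ (ℓ ^ t) := rfl

omit [CharP k ℓ] in
theorem h82_fr_zero {n : ℕ} (t : ℕ) : h82_fr ℓ t (0 : Fin n → k) = 0 := by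
  funext i
  have hℓ : ℓ.Prime := Fact.out
  rw [h82_fr_apply, Pi.zero_apply, zero_pow (pow_ne_zero t hℓ.ne_zero)]

theorem h82_fr_add {n : ℕ} (t : ℕ) (v w : Fin n → k) :
    h82_fr ℓ t (v + w) = h82_fr ℓ t v + h82_fr ℓ t w := by
  funext i
  simp only [h82_fr_apply, Pi.add_apply]
  exact add_pow_char_pow ..

omit [Fact ℓ.Prime] [CharP k ℓ] in
theorem h82_fr_smul {n : ℕ} (t : ℕ) (a : k) (v : Fin n → k) :
    h82_fr ℓ t (a • v) = a ^ (ℓ ^ t) • h82_fr ℓ t v := by
  funext i
  simp only [h82_fr_apply, Pi.smul_apply, smul_eq_mul, mul_pow]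

theorem h82_fr_sum {n : ℕ} (t : ℕ) {ι : Type*} (s : Finset ι) (a : ι → k)
    (w : ι → Fin n → k) :
    h82_fr ℓ t (∑ j ∈ s, a j • w j) = ∑ j ∈ s, a j ^ (ℓ ^ t) • h82_fr ℓ t (w j) := by
  classical
  induction s using Finset.induction_on with
  | empty => simp [h82_fr_zero]
  | insert j s hj ih =>
    rw [Finset.sum_insert hj, Finset.sum_insert hj, h82_fr_add, h82_fr_smul, ih]

theorem h82_fr_injective {n : ℕ} (t : ℕ) : Function.Injective (h82_fr ℓ t (k := k) (n := n)) := by
  intro v w h
  funext i
  have h1 := congrFun h i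
  simp only [h82_fr_apply] at h1
  have h2 : (v i - w i) ^ (ℓ ^ t) = 0 := by
    rw [sub_pow_char_pow, h1, sub_self]
  exact sub_eq_zero.mp (pow_eq_zero_iff (pow_ne_zero t (Fact.out : ℓ.Prime).ne_zero) |>.mp h2)

omit [Fact ℓ.Prime] [CharP k ℓ] in
theorem h82_fr_fr {n : ℕ} (s t : ℕ) (v : Fin n → k) :
    h82_fr ℓ t (h82_fr ℓ s v) = h82_fr ℓ (s + t) v := by
  funext i
  simp only [h82_fr_apply]
  rw [← pow_mul, ← pow_add]

omit [Fact ℓ.Prime] [CharP k ℓ] in
/-- a vector fixed by `Fr^M` is fixed by `Fr^(M q)`. -/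
theorem h82_fr_period {n : ℕ} (M : ℕ) (x : Fin n → k) (hx : h82_fr ℓ M x = x) (q : ℕ) :
    h82_fr ℓ (M * q) x = x := by
  induction q with
  | zero =>
    funext i
    simp [h82_fr_apply]
  | succ q ih =>
    rw [Nat.mul_succ, ← h82_fr_fr, ih, hx]

omit [Fact ℓ.Prime] [CharP k ℓ] in
/-- the twists of a periodic vector depend on the exponent modulo the period. -/
theorem h82_fr_mod {n : ℕ} (M : ℕ) (x : Fin n → k) (hx : h82_fr ℓ M x = x) (s : ℕ) :
    h82_fr ℓ s x = h82_fr ℓ (s % M) x := by
  conv_lhs => rw [← Nat.div_add_mod s M]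
  rw [← h82_fr_fr, h82_fr_period ℓ M x hx]

/-- elements of the span of a twisted family are twists of elements of the span. -/
theorem h82_mem_span_fr [IsAlgClosed k] {n : ℕ} (t : ℕ) {ι : Type*} [Fintype ι]
    (w : ι → Fin n → k) {v : Fin n → k}
    (hv : v ∈ Submodule.span k (Set.range fun j => h82_fr ℓ t (w j))) :
    ∃ u ∈ Submodule.span k (Set.range w), v = h82_fr ℓ t u := by
  have hℓ : ℓ.Prime := Fact.out
  obtain ⟨a, ha⟩ := (Submodule.mem_span_range_iff_exists_fun k).mp hv
  choose b hb using fun j => IsAlgClosed.exists_pow_nat_eq (a j) (pow_pos hℓ.pos t)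
  refine ⟨∑ j, b j • w j, Submodule.sum_mem _ fun j _ =>
    Submodule.smul_mem _ _ (Submodule.subset_span ⟨j, rfl⟩), ?_⟩
  rw [h82_fr_sum, ← ha]
  exact Finset.sum_congr rfl fun j _ => by rw [hb j]

omit [Fact ℓ.Prime] [CharP k ℓ] in
/-- a common period for finitely many periodic elements. -/
theorem h82_exists_period (hk : ∀ c : k, ∃ n : ℕ, 0 < n ∧ c ^ (ℓ ^ n) = c) (S : Finset k) :
    ∃ M : ℕ, 0 < M ∧ ∀ c ∈ S, c ^ (ℓ ^ M) = c := by
  classical
  have key : ∀ (c : k) (n : ℕ), c ^ (ℓ ^ n) = c → ∀ q : ℕ, c ^ (ℓ ^ (n * q)) = c := by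
    intro c n h q
    induction q with
    | zero => simp
    | succ q ih => rw [Nat.mul_succ, pow_add, pow_mul, ih, h]
  induction S using Finset.induction_on with
  | empty => exact ⟨1, Nat.one_pos, fun c hc => absurd hc (Finset.notMem_empty c)⟩
  | insert a S _ ih =>
    obtain ⟨M, hM0, hM⟩ := ih
    obtain ⟨n, hn0, hn⟩ := hk a
    refine ⟨n * M, Nat.mul_pos hn0 hM0, fun c hc => ?_⟩
    rcases Finset.mem_insert.mp hc with rfl | hcS
    · exact key c n hn M
    · rw [Nat.mul_comm]
      exact key c M (hM c hcS) n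

end Frob

section Completion

variable {k : Type*} [Field k]

/-- an independent family of `g` vectors of `k^(n'+g)` is the last `g` columns of an invertible
matrix. -/
theorem h82_exists_completion {n' g : ℕ} (c : Fin g → Fin (n' + g) → k)
    (hc : LinearIndependent k c) :
    ∃ Θ : Matrix (Fin (n' + g)) (Fin (n' + g)) k, Θ.det ≠ 0 ∧
      ∀ j i, Θ i (Fin.natAdd n' j) = c j i := by
  classical
  obtain ⟨Q, hQ⟩ := Submodule.exists_isCompl (Submodule.span k (Set.range c))
  have hdim := Submodule.finrank_add_eq_of_isCompl hQ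
  rw [finrank_span_eq_card hc, Fintype.card_fin, Module.finrank_fin_fun] at hdim
  have hQd : Module.finrank k Q = n' := by omega
  let bQ := Module.finBasisOfFinrankEq k Q hQd
  let d : Fin n' → Fin (n' + g) → k := fun j => ((bQ j : Q) : Fin (n' + g) → k)
  have hdli : LinearIndependent k d :=
    bQ.linearIndependent.map' Q.subtype (Submodule.ker_subtype Q)
  have hdle : Submodule.span k (Set.range d) ≤ Q := by
    rw [Submodule.span_le]
    rintro _ ⟨j, rfl⟩
    exact (bQ j).2
  have hsum : LinearIndependent k (Sum.elim d c) :=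
    hdli.sum_type hc (hQ.symm.disjoint.mono_left hdle)
  let col : Fin (n' + g) → Fin (n' + g) → k := fun j => Sum.elim d c (finSumFinEquiv.symm j)
  have hcol : LinearIndependent k col := hsum.comp _ finSumFinEquiv.symm.injective
  let Θ : Matrix (Fin (n' + g)) (Fin (n' + g)) k := Matrix.of fun i j => col j i
  refine ⟨Θ, ?_, fun j i => ?_⟩
  · have h1 : LinearIndependent k Θ.col := hcol
    have h2 := Matrix.linearIndependent_cols_iff_isUnit.mp h1
    exact ((Matrix.isUnit_iff_isUnit_det Θ).mp h2).ne_zero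
  · show col (Fin.natAdd n' j) i = c j i
    simp only [col]
    rw [finSumFinEquiv_symm_apply_natAdd, Sum.elim_inr]

end Completion

/-! ## X2 FRAME -/

/-- **(FRAME)** over an algebraic closure of `𝔽_ℓ`: for finitely many subspaces of `k^(n'+g)` of
dimension `≤ n'` there is an invertible matrix all of whose Frobenius twists have their last
`g` columns in general position with respect to all of them. -/
theorem h23_exists_frame {k : Type*} [Field k] [IsAlgClosed k] (ℓ : ℕ) [Fact ℓ.Prime]
    [CharP k ℓ] (hk : ∀ c : k, ∃ n : ℕ, 0 < n ∧ c ^ (ℓ ^ n) = c) {n' g : ℕ}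
    (𝒲 : Set (Submodule k (Fin (n' + g) → k))) (h𝒲 : 𝒲.Finite)
    (hdim : ∀ W ∈ 𝒲, Module.finrank k W ≤ n') :
    ∃ Θ : Matrix (Fin (n' + g)) (Fin (n' + g)) k, Θ.det ≠ 0 ∧
      ∀ (t : ℕ), ∀ W ∈ 𝒲, ∀ v ∈ W,
        v ∈ Submodule.span k
          (Set.range fun j : Fin g => fun i => (Θ i (Fin.natAdd n' j)) ^ (ℓ ^ t)) → v = 0 := by
  classical
  have hinf : Infinite k := IsAlgClosed.instInfinite
  -- a periodic basis of each `W`
  have hW : ∀ W : Submodule k (Fin (n' + g) → k), ∃ (r : ℕ) (u : Fin r → Fin (n' + g) → k)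
      (M : ℕ), (W ∈ 𝒲 → r ≤ n') ∧ 0 < M ∧ Submodule.span k (Set.range u) = W ∧
        ∀ j, h82_fr ℓ M (u j) = u j := by
    intro W
    let bW := Module.finBasis k W
    let u : Fin (Module.finrank k W) → Fin (n' + g) → k := fun j => ((bW j : W) : Fin (n' + g) → k)
    have hspan : Submodule.span k (Set.range u) = W := by
      have h1 : Set.range u = W.subtype '' (Set.range bW) := by
        rw [← Set.range_comp]
        rfl
      rw [h1, Submodule.span_image, bW.span_eq, Submodule.map_top, Submodule.range_subtype]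
    obtain ⟨M, hM0, hM⟩ := h82_exists_period ℓ hk
      (Finset.univ.image fun p : Fin (Module.finrank k W) × Fin (n' + g) => u p.1 p.2)
    refine ⟨Module.finrank k W, u, M, fun hWmem => hdim W hWmem, hM0, hspan, fun j => ?_⟩
    funext i
    exact hM _ (Finset.mem_image.mpr ⟨(j, i), Finset.mem_univ _, rfl⟩)
  choose r u M hr hM0 hspan hfix using hW
  -- the finite family of all twists
  let 𝒰 : Finset (Submodule k (Fin (n' + g) → k)) := h𝒲.toFinset.biUnion fun W =>
    (Finset.range (M W)).image fun s => Submodule.span k (Set.range fun j => h82_fr ℓ s (u W j))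
  have h𝒰 : ∀ U ∈ 𝒰, Module.finrank k U ≤ n' := by
    intro U hU
    obtain ⟨W, hWmem, hU⟩ := Finset.mem_biUnion.mp hU
    obtain ⟨s, -, rfl⟩ := Finset.mem_image.mp hU
    calc Module.finrank k ↥(Submodule.span k (Set.range fun j => h82_fr ℓ s (u W j)))
        ≤ Fintype.card (Fin (r W)) := finrank_range_le_card _
      _ = r W := Fintype.card_fin _
      _ ≤ n' := hr W (h𝒲.mem_toFinset.mp hWmem)
  obtain ⟨c, hcli, hc⟩ := h82_exists_common_disjoint (k := k) g n' 𝒰 h𝒰
    (by rw [Module.finrank_fin_fun])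
  obtain ⟨Θ, hΘdet, hΘc⟩ := h82_exists_completion c hcli
  refine ⟨Θ, hΘdet, ?_⟩
  intro t W hWmem v hvW hv
  have hgen : (fun j : Fin g => fun i => (Θ i (Fin.natAdd n' j)) ^ (ℓ ^ t)) =
      fun j => h82_fr ℓ t (c j) := by
    funext j i
    rw [hΘc, h82_fr_apply]
  rw [hgen] at hv
  obtain ⟨u0, hu0, rfl⟩ := h82_mem_span_fr ℓ t c hv
  -- the `W`-side
  set s := t * (M W - 1) with hs
  have hst : s + t = M W * t := by
    have := hM0 W
    rw [hs]
    obtain ⟨m, hm⟩ : ∃ m, M W = m + 1 := ⟨M W - 1, by omega⟩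
    rw [hm, Nat.add_sub_cancel]
    ring
  have hback : ∀ j, h82_fr ℓ t (h82_fr ℓ s (u W j)) = u W j := by
    intro j
    rw [h82_fr_fr, hst, h82_fr_period ℓ (M W) (u W j) (hfix W j)]
  have hvW' : h82_fr ℓ t u0 ∈
      Submodule.span k (Set.range fun j => h82_fr ℓ t (h82_fr ℓ s (u W j))) := by
    have : (fun j => h82_fr ℓ t (h82_fr ℓ s (u W j))) = u W := funext hback
    rw [this, hspan W]
    exact hvW
  obtain ⟨u1, hu1, h01⟩ := h82_mem_span_fr ℓ t (fun j => h82_fr ℓ s (u W j)) hvW'
  have heq : u0 = u1 := h82_fr_injective ℓ t h01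
  have hmod : (fun j => h82_fr ℓ s (u W j)) = fun j => h82_fr ℓ (s % M W) (u W j) :=
    funext fun j => h82_fr_mod ℓ (M W) (u W j) (hfix W j) s
  rw [hmod] at hu1
  have hUmem : Submodule.span k (Set.range fun j => h82_fr ℓ (s % M W) (u W j)) ∈ 𝒰 :=
    Finset.mem_biUnion.mpr ⟨W, h𝒲.mem_toFinset.mpr hWmem,
      Finset.mem_image.mpr ⟨s % M W, Finset.mem_range.mpr (Nat.mod_lt _ (hM0 W)), rfl⟩⟩
  have hdis := hc _ hUmem
  have hu0' : u0 ∈ Submodule.span k (Set.range fun j => h82_fr ℓ (s % M W) (u W j)) ⊓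
      Submodule.span k (Set.range c) := ⟨heq ▸ hu1, hu0⟩
  rw [hdis.eq_bot] at hu0'
  rw [(Submodule.mem_bot k).mp hu0', h82_fr_zero]

end Fermat.Agent.S19

end
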