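import Fermat.Agent.S19.h92_RRDiv
import Fermat.Agent.S27.h64_SpecRed
import Fermat.Agent.S27.h64_LiftDiv
import Fermat.Agent.S27.h64_LiftEff

/-!
# S19 (ADD): dimension counts upstairs and downstairs (helper24)

Support for the assembly of (ADD): the hypotheses `hrK` / `hrk` of the division steps.

* `h24_finrank_rr_of_principal` : linearly equivalent divisors have Riemann–Roch spaces of the
  same dimension (no hypothesis on the curve);
* `h24_finrank_up_down` : for `deg D > 2g - 2` both `l(D)` and `l(r0_* D)` are `deg D + 1 - g`;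
* `h24_finrank_one_up`, `h24_finrank_one_down` : if `D ~ E2` and `l(E2) = 1`
  (resp. `l(r0_* E2) = 1`) then `l(D) = 1` (resp. `l(r0_* D) = 1`)  [step 5, (G1)];
* `h24_ord_of_finrank_one` : if `D ~ E2`, `E2 ≥ 0`, `l(E2) = 1`, every nonzero `t ∈ L(D)` has
  `div t = E2 - D`  [the divisor of the generator of the line of step 5].
-/

set_option autoImplicit false

open AlgebraicCurve

namespace Fermat.Agent.S19

open Fermat.Agent.S18 Fermat.Agent.S27

variable {K F k Fb : Type*} [Field K] [Field F] [Algebra K F] [Field k] [Field Fb] [Algebra k Fb]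

/-- Linearly equivalent divisors have Riemann–Roch spaces of the same dimension. -/
theorem h24_finrank_rr_of_principal (D D' : Divisor K F)
    (h : D - D' ∈ Divisor.principal (K := K) (F := F)) :
    Module.finrank K (riemannRochSpace D) = Module.finrank K (riemannRochSpace D') := by
  obtain ⟨f, hf, hDf⟩ := h
  have hinj : Function.Injective (LinearMap.mulLeft K f) := fun a b hab =>
    mul_left_cancel₀ hf (show f * a = f * b from hab)
  have hmap : (riemannRochSpace D).map (LinearMap.mulLeft K f) = riemannRochSpace D' := by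
    ext g
    rw [Submodule.mem_map]
    have hD : D' + (D - D') = D := by abel
    constructor
    · rintro ⟨u, hu, rfl⟩
      show f * u ∈ riemannRochSpace D'
      rw [h92_rr_mul_iff hf (D - D') hDf D' u, hD]
      exact hu
    · intro hg
      refine ⟨f⁻¹ * g, ?_, ?_⟩
      · rw [← hD, ← h92_rr_mul_iff hf (D - D') hDf D' (f⁻¹ * g), mul_inv_cancel_left₀ hf]
        exact hg
      · show f * (f⁻¹ * g) = g
        exact mul_inv_cancel_left₀ hf g
  rw [← hmap]
  exact (Submodule.equivMapOfInjective (LinearMap.mulLeft K f) hinj (riemannRochSpace D)).finrank_eq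

/-- (G1) upstairs: `D ~ E2`, `l(E2) = 1` ⟹ `l(D) = 1`. -/
theorem h24_finrank_one_up (D E2 : Divisor K F)
    (hl : Module.finrank K (riemannRochSpace E2) = 1)
    (h : D - E2 ∈ Divisor.principal (K := K) (F := F)) :
    Module.finrank K (riemannRochSpace D) = 1 := by
  rw [h24_finrank_rr_of_principal D E2 h, hl]

/-- (G1) downstairs: `D ~ E2`, `l(r0_* E2) = 1` ⟹ `l(r0_* D) = 1`. -/
theorem h24_finrank_one_down (R : h39_RedDatum K F k Fb) (S : h39_PlaceRed R)
    (D E2 : Divisor K F)
    (hl : Module.finrank k (riemannRochSpace (Finsupp.mapDomain S.r0 E2)) = 1)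
    (h : D - E2 ∈ Divisor.principal (K := K) (F := F)) :
    Module.finrank k (riemannRochSpace (Finsupp.mapDomain S.r0 D)) = 1 := by
  have h1 := h64_mapDomain_principal R S (D - E2) h
  have h2 : Finsupp.mapDomain S.r0 (D - E2) =
      Finsupp.mapDomain S.r0 D - Finsupp.mapDomain S.r0 E2 :=
    map_sub (Finsupp.mapDomain.addMonoidHom S.r0) D E2
  rw [h2] at h1
  rw [h24_finrank_rr_of_principal _ _ h1, hl]

/-- Riemann–Roch upstairs and downstairs in degree `> 2g - 2`. -/
theorem h24_finrank_up_down [IsAlgClosed K] [IsAlgClosed k] (R : h39_RedDatum K F k Fb)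
    (S : h39_PlaceRed R) {x : F} {xb : Fb} (hx : h75_IsChart K x) (hxb : h75_IsChart k xb)
    (hg : h75_genus k xb = h75_genus K x) (D : Divisor K F)
    (hD : 2 * (h75_genus K x : ℤ) - 2 < Divisor.degree D) :
    (Module.finrank K (riemannRochSpace D) : ℤ) = Divisor.degree D + 1 - h75_genus K x ∧
    (Module.finrank k (riemannRochSpace (Finsupp.mapDomain S.r0 D)) : ℤ) =
      Divisor.degree D + 1 - h75_genus K x := by
  refine ⟨h15_finrank_rr_of_deg hx D hD, ?_⟩
  have hdeg := h64_degree_mapDomain_r0 R S hx hxb D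
  rw [h15_finrank_rr_of_deg hxb (Finsupp.mapDomain S.r0 D) (by rw [hdeg, hg]; exact hD), hdeg, hg]

/-- the same with a natural number `r`. -/
theorem h24_finrank_up_down_nat [IsAlgClosed K] [IsAlgClosed k] (R : h39_RedDatum K F k Fb)
    (S : h39_PlaceRed R) {x : F} {xb : Fb} (hx : h75_IsChart K x) (hxb : h75_IsChart k xb)
    (hg : h75_genus k xb = h75_genus K x) (D : Divisor K F)
    (hD : 2 * (h75_genus K x : ℤ) - 2 < Divisor.degree D) (r : ℕ)
    (hr : (r : ℤ) = Divisor.degree D + 1 - h75_genus K x) :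
    Module.finrank K (riemannRochSpace D) = r ∧
    Module.finrank k (riemannRochSpace (Finsupp.mapDomain S.r0 D)) = r := by
  obtain ⟨h1, h2⟩ := h24_finrank_up_down R S hx hxb hg D hD
  constructor
  · exact_mod_cast h1.trans hr.symm
  · exact_mod_cast h2.trans hr.symm

/-- if `D ~ E2` with `E2 ≥ 0` and `l(E2) = 1`, every nonzero `t ∈ L(D)` has `div t = E2 - D`. -/
theorem h24_ord_of_finrank_one [IsAlgClosed K] {x : F} (hx : h75_IsChart K x)
    (D E2 : Divisor K F) (hE2 : 0 ≤ E2) (hl : Module.finrank K (riemannRochSpace E2) = 1)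
    (h : D - E2 ∈ Divisor.principal (K := K) (F := F)) {t : F} (ht : t ∈ riemannRochSpace D)
    (ht0 : t ≠ 0) (P : Place K F) : P.ord t = E2 P - D P := by
  obtain ⟨Dt, hDt⟩ := h7_exists_div hx t ht0
  have hnn : ∀ Q, 0 ≤ (D + Dt) Q := by
    intro Q
    rw [mem_riemannRochSpace_iff] at ht
    rcases ht Q with h0 | h0
    · exact absurd h0 ht0
    · rw [Finsupp.add_apply, hDt Q]
      omega
  have hlin : D + Dt - E2 ∈ Divisor.principal (K := K) (F := F) := by
    have h1 : D + Dt - E2 = (D - E2) + Dt := by abel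
    rw [h1]
    exact (Divisor.principal (K := K) (F := F)).add_mem h ⟨t, ht0, hDt⟩
  have heq := h64_eq_of_effective_of_finrank_one E2 (D + Dt)
    (fun Q => Finsupp.le_def.mp hE2 Q) hl hnn hlin
  have h2 := DFunLike.congr_fun heq P
  rw [Finsupp.add_apply, hDt P] at h2
  omega

end Fermat.Agent.S19
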