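import Fermat.Agent.S18.GR_ON
import Fermat.Agent.S18.h52_ONCore
import Fermat.Agent.S18.h64_CoreAdapter
import Fermat.Agent.S18.h64_Star
import Fermat.Agent.S18.RR_Riemann
import Fermat.Agent.S18.GR_RedAPI
import Fermat.Agent.S27.h64_LiftEff

/-!
# S19, block B (GEOM), row B3 RED-L: reduction of Riemann–Roch spaces and of their subspaces

`R` a reduction datum with a weak chart `x`, `S` a place reduction (`r0 := S.r0`).

* `h24_on_mem_iff`, `h24_on_redF`, `h24_on_linearIndependent` : calculus of families of `O` with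
  `k`-independent reductions ("orthonormal" families);
* `h24_redSub R W` : the reduction `red (W ∩ O)` of a `K`-subspace `W` of `F`, a `k`-subspace
  of `Fb`; `h24_mem_redSub`, `h24_exists_of_mem_redSub` (every element is a reduction),
  `h24_redSub_mono`, `h24_redSub_finrank` (**full dimension**);
* `h24_exists_on_basis` : every finite-dimensional `W` has a `K`-basis in `W ∩ O` whose
  reductions are a `k`-basis of `h24_redSub R W`, and `W ∩ O` is its `A`-span;
* `h24_redSub_rr` (RL3) : `red (L(Y) ∩ O) = L(r0_* Y)` for `S.c ≤ deg Y`;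
* `h24_rr_on_basis` (RL1) : an orthonormal basis of `L(Y)` reducing to a basis of `L(r0_* Y)`;
* `h24_exists_on_matrix` (RL2) : a subspace `W` of the span of an orthonormal family `b` is the
  column span of a matrix over `A` whose reduction has independent columns; the reduced columns
  present `h24_redSub R W` in the reduced family;
* `h24_mul_coords` (RL5) : structure constants of the multiplication in orthonormal families
  lie in `A` and reduce to the structure constants of the reduced families;
* `h24_effective_unique`, `h24_exists_unique_effective` (RL4) : for `deg D' ≥ g` with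
  `l(r0_* D') = 1` there is a unique effective `E ~ D'`, `l(D') = 1`, and `r0_* E` is the unique
  effective divisor linearly equivalent to `r0_* D'`.
-/

set_option autoImplicit false

noncomputable section

open AlgebraicCurve Fermat.Agent.S18

namespace Fermat.Agent.S19

variable {K F k Fb : Type*} [Field K] [Field F] [Algebra K F] [Field k] [Field Fb] [Algebra k Fb]

/-! ### Orthonormal families -/

/-- A combination of a family with independent reductions lies in `O` iff its coefficients lie
in `A`. -/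
theorem h24_on_mem_iff (R : h39_RedDatum K F k Fb) {ι : Type*} [Fintype ι] (u : ι → F)
    (hu : ∀ i, u i ∈ R.O) (hli : LinearIndependent k (fun i => R.redF (u i))) (a : ι → K) :
    ∑ i, a i • u i ∈ R.O ↔ ∀ i, a i ∈ R.A :=
  ⟨h52_coord_mem R u hu hli a, fun h => (h52_redF_comb R u hu a h).1⟩

/-- Reduction of an integral combination is computed coefficientwise. -/
theorem h24_on_redF (R : h39_RedDatum K F k Fb) {ι : Type*} [Fintype ι] (u : ι → F)
    (hu : ∀ i, u i ∈ R.O) (a : ι → K) (ha : ∀ i, a i ∈ R.A) :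
    R.redF (∑ i, a i • u i) = ∑ i, R.resK (a i) • R.redF (u i) :=
  (h52_redF_comb R u hu a ha).2

/-- A family of `O` with `k`-independent reductions is `K`-independent. -/
theorem h24_on_linearIndependent (R : h39_RedDatum K F k Fb) {ι : Type*} [Fintype ι]
    (u : ι → F) (hu : ∀ i, u i ∈ R.O) (hli : LinearIndependent k (fun i => R.redF (u i))) :
    LinearIndependent K u :=
  h64_linearIndependent_of_on R.O u (h20_on_of_linearIndependent_red R u hu hli)

/-! ### The reduction of a subspace -/

/-- The reduction `red (W ∩ O)` of a `K`-subspace `W` of `F`. -/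
def h24_redSub (R : h39_RedDatum K F k Fb) (W : Submodule K F) : Submodule k Fb :=
  Submodule.span k {fb | ∃ f ∈ W, f ∈ R.O ∧ R.redF f = fb}

theorem h24_mem_redSub (R : h39_RedDatum K F k Fb) (W : Submodule K F) {f : F} (hf : f ∈ W)
    (hfO : f ∈ R.O) : R.redF f ∈ h24_redSub R W :=
  Submodule.subset_span ⟨f, hf, hfO, rfl⟩

/-- Every element of the reduction of `W` is the reduction of an element of `W ∩ O`. -/
theorem h24_exists_of_mem_redSub (R : h39_RedDatum K F k Fb) (W : Submodule K F) {fb : Fb}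
    (h : fb ∈ h24_redSub R W) : ∃ f ∈ W, f ∈ R.O ∧ R.redF f = fb := by
  induction h using Submodule.span_induction with
  | mem fb h => exact h
  | zero => exact ⟨0, W.zero_mem, R.O.zero_mem, h39_redF_zero R⟩
  | add fb gb _ _ hf hg =>
    obtain ⟨f, hfW, hfO, rfl⟩ := hf
    obtain ⟨g, hgW, hgO, rfl⟩ := hg
    exact ⟨f + g, W.add_mem hfW hgW, R.O.add_mem _ _ hfO hgO, h39_redF_add R hfO hgO⟩
  | smul c fb _ hf =>
    obtain ⟨f, hfW, hfO, rfl⟩ := hf
    obtain ⟨a, haA, rfl⟩ := h39_resK_surjective R c
    have haO : algebraMap K F a ∈ R.O := (R.mem_iff a).mp haA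
    refine ⟨a • f, W.smul_mem a hfW, ?_, ?_⟩
    · rw [Algebra.smul_def]
      exact R.O.mul_mem _ _ haO hfO
    · rw [Algebra.smul_def, h39_redF_mul R haO hfO, h39_redF_algebraMap R haA, Algebra.smul_def]

theorem h24_redSub_mono (R : h39_RedDatum K F k Fb) {W W' : Submodule K F} (h : W ≤ W') :
    h24_redSub R W ≤ h24_redSub R W' :=
  Submodule.span_mono fun _ ⟨f, hf, hfO, hfb⟩ => ⟨f, h hf, hfO, hfb⟩

/-- If `W ∩ O` reduces into `V`, then `h24_redSub R W ≤ V`. -/
theorem h24_redSub_le (R : h39_RedDatum K F k Fb) (W : Submodule K F) (V : Submodule k Fb)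
    (h : ∀ f ∈ W, f ∈ R.O → R.redF f ∈ V) : h24_redSub R W ≤ V := by
  refine Submodule.span_le.mpr ?_
  rintro _ ⟨f, hf, hfO, rfl⟩
  exact h f hf hfO

/-- Products reduce to products. -/
theorem h24_redF_mul_mem (R : h39_RedDatum K F k Fb) (W : Submodule K F) {f g : F}
    (hf : f ∈ R.O) (hg : g ∈ R.O) (hfg : f * g ∈ W) :
    R.redF f * R.redF g ∈ h24_redSub R W := by
  rw [← h39_redF_mul R hf hg]
  exact h24_mem_redSub R W hfg (R.O.mul_mem _ _ hf hg)

section Chart

variable (R : h39_RedDatum K F k Fb) {x : F} (hx : h39_WeakChart R x)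

include hx

/-- **Orthonormal bases**: a finite-dimensional `W` has a `K`-basis in `W ∩ O` whose reductions
are a `k`-basis of the reduction of `W`; `W ∩ O` is the `A`-span of this basis. -/
theorem h24_exists_on_basis (W : Submodule K F) [FiniteDimensional K W] :
    ∃ w : Fin (Module.finrank K W) → F,
      (∀ j, w j ∈ W) ∧ (∀ j, w j ∈ R.O) ∧ LinearIndependent K w ∧
      Submodule.span K (Set.range w) = W ∧
      LinearIndependent k (fun j => R.redF (w j)) ∧
      Submodule.span k (Set.range fun j => R.redF (w j)) = h24_redSub R W ∧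
      ∀ f ∈ W, f ∈ R.O → ∃ c : Fin (Module.finrank K W) → K, (∀ j, c j ∈ R.A) ∧
        f = ∑ j, c j • w j := by
  obtain ⟨w, hwW, hwO, hind⟩ := h39_exists_on R hx W
  have hliK : LinearIndependent K w := h24_on_linearIndependent R w hwO hind
  have hspan : Submodule.span K (Set.range w) = W := by
    apply Submodule.eq_of_le_of_finrank_eq
    · rw [Submodule.span_le]
      rintro _ ⟨j, rfl⟩
      exact hwW j
    · rw [finrank_span_eq_card hliK, Fintype.card_fin]
  have hcoord : ∀ f ∈ W, f ∈ R.O → ∃ c : Fin (Module.finrank K W) → K, (∀ j, c j ∈ R.A) ∧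
      f = ∑ j, c j • w j := by
    intro f hf hfO
    rw [← hspan] at hf
    obtain ⟨c, hc⟩ := (Submodule.mem_span_range_iff_exists_fun K).mp hf
    exact ⟨c, h52_coord_mem R w hwO hind c (by rw [hc]; exact hfO), hc.symm⟩
  refine ⟨w, hwW, hwO, hliK, hspan, hind, ?_, hcoord⟩
  apply le_antisymm
  · rw [Submodule.span_le]
    rintro _ ⟨j, rfl⟩
    exact h24_mem_redSub R W (hwW j) (hwO j)
  · refine h24_redSub_le R W _ fun f hf hfO => ?_
    obtain ⟨c, hcA, rfl⟩ := hcoord f hf hfO
    rw [h24_on_redF R w hwO c hcA]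
    exact Submodule.sum_mem _ fun j _ =>
      Submodule.smul_mem _ _ (Submodule.subset_span ⟨j, rfl⟩)

/-- **Full dimension**: the reduction of a finite-dimensional subspace has the same
dimension. -/
theorem h24_redSub_finrank (W : Submodule K F) [FiniteDimensional K W] :
    Module.finrank k (h24_redSub R W) = Module.finrank K W := by
  obtain ⟨w, -, -, -, -, hind, hspan, -⟩ := h24_exists_on_basis R hx W
  rw [← hspan, finrank_span_eq_card hind, Fintype.card_fin]

theorem h24_redSub_finite (W : Submodule K F) [FiniteDimensional K W] :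
    FiniteDimensional k (h24_redSub R W) := by
  obtain ⟨w, -, -, -, -, -, hspan, -⟩ := h24_exists_on_basis R hx W
  rw [← hspan]
  exact FiniteDimensional.span_of_finite k (Set.finite_range _)

/-- Equality of reductions from an inclusion and a dimension bound. -/
theorem h24_redSub_eq_of_le (W : Submodule K F) [FiniteDimensional K W] (V : Submodule k Fb)
    [FiniteDimensional k V] (h : ∀ f ∈ W, f ∈ R.O → R.redF f ∈ V)
    (hd : Module.finrank k V ≤ Module.finrank K W) : h24_redSub R W = V := by
  have := h24_redSub_finite R hx W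
  apply Submodule.eq_of_le_of_finrank_le (h24_redSub_le R W V h)
  rw [h24_redSub_finrank R hx W]
  exact hd

/-- **(RL2) matrices**: a subspace `W` of the span of an orthonormal family `b` is the column
span of a matrix `P` over `A` whose reduction has independent columns; `W ∩ O` is the `A`-column
span, and the reduced columns span the reduction of `W`. -/
theorem h24_exists_on_matrix {n : ℕ} (b : Fin n → F) (hbO : ∀ i, b i ∈ R.O)
    (hbli : LinearIndependent k (fun i => R.redF (b i)))
    (W : Submodule K F) [FiniteDimensional K W] (hW : W ≤ Submodule.span K (Set.range b)) :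
    ∃ P : Matrix (Fin n) (Fin (Module.finrank K W)) R.A,
      (∀ j, ∑ i, ((P i j : R.A) : K) • b i ∈ W) ∧
      Submodule.span K (Set.range fun j => ∑ i, ((P i j : R.A) : K) • b i) = W ∧
      LinearIndependent k (fun (j : Fin (Module.finrank K W)) (i : Fin n) => R.res (P i j)) ∧
      Submodule.span k (Set.range fun j => ∑ i, R.res (P i j) • R.redF (b i)) =
        h24_redSub R W ∧
      ∀ f ∈ W, f ∈ R.O → ∃ c : Fin (Module.finrank K W) → R.A,
        f = ∑ j, ((c j : R.A) : K) • ∑ i, ((P i j : R.A) : K) • b i := by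
  classical
  obtain ⟨w, hwW, hwO, -, hspan, hind, hspanb, hcoord⟩ := h24_exists_on_basis R hx W
  have hex : ∀ j, ∃ a : Fin n → K, ∑ i, a i • b i = w j := fun j =>
    (Submodule.mem_span_range_iff_exists_fun K).mp (hW (hwW j))
  choose a ha using hex
  have haA : ∀ j i, a j i ∈ R.A := fun j =>
    h52_coord_mem R b hbO hbli (a j) (by rw [ha j]; exact hwO j)
  have hcol : ∀ j, ∑ i, (((⟨a j i, haA j i⟩ : R.A) : R.A) : K) • b i = w j := fun j => ha j
  have hredw : ∀ j, R.redF (w j) = ∑ i, R.res ⟨a j i, haA j i⟩ • R.redF (b i) := by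
    intro j
    rw [← ha j, h24_on_redF R b hbO (a j) (haA j)]
    refine Finset.sum_congr rfl fun i _ => ?_
    rw [R.resK_of_mem (haA j i)]
  refine ⟨fun i j => ⟨a j i, haA j i⟩, fun j => ?_, ?_, ?_, ?_, ?_⟩
  · rw [hcol j]
    exact hwW j
  · have h1 : (fun j => ∑ i, (((⟨a j i, haA j i⟩ : R.A) : R.A) : K) • b i) = w := funext hcol
    show Submodule.span K (Set.range fun j => ∑ i, (((⟨a j i, haA j i⟩ : R.A) : R.A) : K) • b i)
      = W
    rw [h1]
    exact hspan
  · rw [Fintype.linearIndependent_iff]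
    intro c hc j
    refine Fintype.linearIndependent_iff.mp hind c ?_ j
    have h1 : ∑ j, c j • R.redF (w j) =
        ∑ i, (∑ j, c j * R.res ⟨a j i, haA j i⟩) • R.redF (b i) := by
      simp only [hredw, Finset.smul_sum, Finset.sum_smul, smul_smul]
      exact Finset.sum_comm
    rw [h1]
    refine Finset.sum_eq_zero fun i _ => ?_
    have h2 := congrFun hc i
    simp only [Finset.sum_apply, Pi.smul_apply, smul_eq_mul, Pi.zero_apply] at h2
    rw [h2, zero_smul]
  · have h1 : (fun j => ∑ i, R.res ⟨a j i, haA j i⟩ • R.redF (b i)) = fun j => R.redF (w j) :=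
      funext fun j => (hredw j).symm
    show Submodule.span k (Set.range fun j => ∑ i, R.res ⟨a j i, haA j i⟩ • R.redF (b i)) =
      h24_redSub R W
    rw [h1]
    exact hspanb
  · intro f hf hfO
    obtain ⟨c, hcA, hc⟩ := hcoord f hf hfO
    refine ⟨fun j => ⟨c j, hcA j⟩, ?_⟩
    rw [hc]
    refine Finset.sum_congr rfl fun j _ => ?_
    rw [hcol j]

end Chart

/-! ### Riemann–Roch spaces -/

section RR

variable [IsAlgClosed K] [CharZero K] [IsAlgClosed k]
variable (R : h39_RedDatum K F k Fb) {x : F} (hx : h39_WeakChart R x) (S : h39_PlaceRed R)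

include hx

omit [IsAlgClosed k] in
/-- The reduction of `L(Y) ∩ O` lies in `L(r0_* Y)` (any degree). -/
theorem h24_redSub_rr_le (Y : Divisor K F) :
    h24_redSub R (riemannRochSpace Y) ≤ riemannRochSpace (Finsupp.mapDomain S.r0 Y) := by
  have hxK := h39_weakChart_isChart R hx
  have := h75_hasPrincipalDivisors hxK
  exact h24_redSub_le R _ _ fun f hf hfO => h64_red_mem_rr R S.r0 S.compat Y hf hfO

/-- **(RL3)** `red (L(Y) ∩ O) = L(r0_* Y)` in large degree. -/
theorem h24_redSub_rr (Y : Divisor K F) (hY : S.c ≤ Divisor.degree Y) :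
    h24_redSub R (riemannRochSpace Y) = riemannRochSpace (Finsupp.mapDomain S.r0 Y) := by
  have hxK := h39_weakChart_isChart R hx
  have hxk := h39_weakChart_isChart_red R hx
  have := h75_hasPrincipalDivisors hxK
  have : FiniteDimensional K (riemannRochSpace Y) := (h75_riemann hxK Y).1
  have : FiniteDimensional k (riemannRochSpace (Finsupp.mapDomain S.r0 Y)) :=
    (h75_riemann hxk _).1
  exact h24_redSub_eq_of_le R hx _ _
    (fun f hf hfO => h64_red_mem_rr R S.r0 S.compat Y hf hfO) (S.finrank_eq Y hY).ge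

/-- **(RL1)** an orthonormal basis of `L(Y)` reducing to a basis of `L(r0_* Y)`; `L(Y) ∩ O` is
its `A`-span. -/
theorem h24_rr_on_basis (Y : Divisor K F) (hY : S.c ≤ Divisor.degree Y) :
    ∃ b : Fin (Module.finrank K (riemannRochSpace Y)) → F,
      (∀ i, b i ∈ riemannRochSpace Y) ∧ (∀ i, b i ∈ R.O) ∧ LinearIndependent K b ∧
      Submodule.span K (Set.range b) = riemannRochSpace Y ∧
      LinearIndependent k (fun i => R.redF (b i)) ∧
      Submodule.span k (Set.range fun i => R.redF (b i)) =
        riemannRochSpace (Finsupp.mapDomain S.r0 Y) ∧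
      ∀ f ∈ riemannRochSpace Y, f ∈ R.O →
        ∃ c : Fin (Module.finrank K (riemannRochSpace Y)) → K, (∀ i, c i ∈ R.A) ∧
          f = ∑ i, c i • b i := by
  have hxK := h39_weakChart_isChart R hx
  have : FiniteDimensional K (riemannRochSpace Y) := (h75_riemann hxK Y).1
  obtain ⟨b, h1, h2, h3, h4, h5, h6, h7⟩ := h24_exists_on_basis R hx (riemannRochSpace Y)
  refine ⟨b, h1, h2, h3, h4, h5, ?_, h7⟩
  rw [h6, h24_redSub_rr R hx S Y hY]

end RR

/-! ### Structure constants -/

/-- **(RL5)** structure constants of the multiplication of integral families in an orthonormal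
family lie in `A`, and reduce to the structure constants of the reductions. -/
theorem h24_mul_coords (R : h39_RedDatum K F k Fb) {n₁ n₂ n₃ : ℕ} (b₁ : Fin n₁ → F)
    (b₂ : Fin n₂ → F) (b₃ : Fin n₃ → F) (hb₁ : ∀ i, b₁ i ∈ R.O) (hb₂ : ∀ j, b₂ j ∈ R.O)
    (hb₃ : ∀ l, b₃ l ∈ R.O) (hli : LinearIndependent k (fun l => R.redF (b₃ l)))
    (hmul : ∀ i j, b₁ i * b₂ j ∈ Submodule.span K (Set.range b₃)) :
    ∃ m : Fin n₁ → Fin n₂ → Fin n₃ → R.A,
      (∀ i j, b₁ i * b₂ j = ∑ l, ((m i j l : R.A) : K) • b₃ l) ∧
      ∀ i j, R.redF (b₁ i) * R.redF (b₂ j) = ∑ l, R.res (m i j l) • R.redF (b₃ l) := by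
  have hex : ∀ i j, ∃ a : Fin n₃ → K, ∑ l, a l • b₃ l = b₁ i * b₂ j := fun i j =>
    (Submodule.mem_span_range_iff_exists_fun K).mp (hmul i j)
  choose a ha using hex
  have haA : ∀ i j l, a i j l ∈ R.A := fun i j =>
    h52_coord_mem R b₃ hb₃ hli (a i j) (by rw [ha i j]; exact R.O.mul_mem _ _ (hb₁ i) (hb₂ j))
  refine ⟨fun i j l => ⟨a i j l, haA i j l⟩, fun i j => (ha i j).symm, fun i j => ?_⟩
  rw [← h39_redF_mul R (hb₁ i) (hb₂ j), ← ha i j, h24_on_redF R b₃ hb₃ (a i j) (haA i j)]
  refine Finset.sum_congr rfl fun l _ => ?_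
  rw [R.resK_of_mem (haA i j l)]

/-! ### The unique effective divisor of a non-special class -/

/-- Two effective divisors linearly equivalent to `D'` are equal when `l(D') = 1`. -/
theorem h24_effective_unique (D' E E' : Divisor K F)
    (hrr : Module.finrank K (riemannRochSpace D') = 1)
    (hE : ∀ P, 0 ≤ E P) (hE' : ∀ P, 0 ≤ E' P)
    (h : E - D' ∈ Divisor.principal (K := K) (F := F))
    (h' : E' - D' ∈ Divisor.principal (K := K) (F := F)) : E' = E := by
  obtain ⟨w, hw0, hw⟩ := h
  obtain ⟨w', hw0', hw'⟩ := h'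
  have hwL : w ∈ riemannRochSpace D' := by
    rw [mem_riemannRochSpace_iff]
    intro v
    right
    rw [← hw v, Finsupp.sub_apply]
    linarith [hE v]
  have hwL' : w' ∈ riemannRochSpace D' := by
    rw [mem_riemannRochSpace_iff]
    intro v
    right
    rw [← hw' v, Finsupp.sub_apply]
    linarith [hE' v]
  have hne : (⟨w, hwL⟩ : riemannRochSpace D') ≠ 0 := fun h => hw0 (congrArg Subtype.val h)
  obtain ⟨c, hc⟩ := (finrank_eq_one_iff_of_nonzero' _ hne).mp hrr ⟨w', hwL'⟩
  have hwc : w' = algebraMap K F c * w := by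
    have h1 : c • w = w' := congrArg Subtype.val hc
    rw [← h1, Algebra.smul_def]
  have hc0 : c ≠ 0 := by
    rintro rfl
    rw [map_zero, zero_mul] at hwc
    exact hw0' hwc
  ext Q
  have h2 := hw Q
  have h2' := hw' Q
  rw [hwc, Q.ord_mul ((_root_.map_ne_zero (algebraMap K F)).mpr hc0) hw0,
    Fermat.Agent.S24.h35_ord_algebraMap, zero_add] at h2'
  rw [Finsupp.sub_apply] at h2 h2'
  linarith

/-- **(RL4)** Let `deg D' ≥ g` and `l(r0_* D') = 1` on the reduced curve.  Then `l(D') = 1`,
there is a unique effective `E ~ D'`, and `r0_* E` is the unique effective divisor linearly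
equivalent to `r0_* D'`. -/
theorem h24_exists_unique_effective [IsAlgClosed K] [CharZero K] [IsAlgClosed k]
    (R : h39_RedDatum K F k Fb) {x : F} (hx : h39_WeakChart R x) (S : h39_PlaceRed R)
    (D' : Divisor K F) (hdeg : (h75_genus K x : ℤ) ≤ Divisor.degree D')
    (hrr : Module.finrank k (riemannRochSpace (Finsupp.mapDomain S.r0 D')) = 1) :
    Module.finrank K (riemannRochSpace D') = 1 ∧
    ∃ E : Divisor K F, (∀ P, 0 ≤ E P) ∧ E - D' ∈ Divisor.principal (K := K) (F := F) ∧
      (∀ E' : Divisor K F, (∀ P, 0 ≤ E' P) →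
        E' - D' ∈ Divisor.principal (K := K) (F := F) → E' = E) ∧
      (∀ Q, 0 ≤ Finsupp.mapDomain S.r0 E Q) ∧
      Finsupp.mapDomain S.r0 E - Finsupp.mapDomain S.r0 D' ∈
        Divisor.principal (K := k) (F := Fb) ∧
      ∀ Eb : Divisor k Fb, (∀ Q, 0 ≤ Eb Q) →
        Eb - Finsupp.mapDomain S.r0 D' ∈ Divisor.principal (K := k) (F := Fb) →
        Eb = Finsupp.mapDomain S.r0 E := by
  have hxK := h39_weakChart_isChart R hx
  have hxk := h39_weakChart_isChart_red R hx
  have := h75_hasPrincipalDivisors hxK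
  have hfinK : FiniteDimensional K (riemannRochSpace D') := (h75_riemann hxK D').1
  have hfink : FiniteDimensional k (riemannRochSpace (Finsupp.mapDomain S.r0 D')) :=
    (h75_riemann hxk _).1
  have hle : Module.finrank K (riemannRochSpace D') ≤ 1 := by
    rw [← hrr]
    exact h39_finrank_le_of_red R hx _ _
      (fun f hf hfO => h64_red_mem_rr R S.r0 S.compat D' hf hfO)
  have hge : 1 ≤ Module.finrank K (riemannRochSpace D') := by
    have h1 := (h75_riemann hxK D').2
    have h2 : (1 : ℤ) ≤ (Module.finrank K (riemannRochSpace D') : ℤ) := by linarith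
    exact_mod_cast h2
  have hrrK : Module.finrank K (riemannRochSpace D') = 1 := le_antisymm hle hge
  refine ⟨hrrK, ?_⟩
  obtain ⟨h, hh0, hpos⟩ := Fermat.Agent.S27.h64_exists_effective hxK D' hdeg
  obtain ⟨Dh, hDh⟩ := h7_exists_div hxK h hh0
  have hEnn : ∀ P, 0 ≤ (D' + Dh) P := fun P => by
    rw [Finsupp.add_apply, hDh]
    exact hpos P
  have hEp : D' + Dh - D' ∈ Divisor.principal (K := K) (F := F) := by
    rw [add_sub_cancel_left]
    exact ⟨h, hh0, hDh⟩
  have hmapp : Finsupp.mapDomain S.r0 (D' + Dh) - Finsupp.mapDomain S.r0 D' ∈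
      Divisor.principal (K := k) (F := Fb) := by
    rw [Finsupp.mapDomain_add, add_sub_cancel_left]
    exact Fermat.Agent.S27.h64_mapDomain_principal R S Dh ⟨h, hh0, hDh⟩
  have hmapnn : ∀ Q, 0 ≤ Finsupp.mapDomain S.r0 (D' + Dh) Q := fun Q =>
    h53_mapDomain_nonneg S.r0 (D' + Dh) Q fun P _ => hEnn P
  exact ⟨D' + Dh, hEnn, hEp, fun E' hE' hp => h24_effective_unique D' _ E' hrrK hEnn hE' hEp hp,
    hmapnn, hmapp, fun Eb hEb hp => h24_effective_unique _ _ Eb hrr hmapnn hEb hmapp hp⟩

end Fermat.Agent.S19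

end
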