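import Fermat.Agent.S19.h23_DatumDefs
import Fermat.Agent.S19.h24_RedL
import Fermat.Agent.S19.h24_AddRed

/-!
# S19, EXIST block, row X1 GOODPTS (helper66)

`h23_good_of_points`: goodness of the datum `(∑ Q_i, b', b'')` at a reduction datum from two
conditions on the reduced curve (statement verbatim from the skeleton of helper23).
-/

set_option autoImplicit false

noncomputable section

open AlgebraicCurve Fermat.Agent.S18 Fermat.Agent.S27 Polynomial IntermediateField

namespace Fermat.Agent.S19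

section Red

variable {K F k Fb : Type*} [Field K] [Field F] [Algebra K F] [Field k] [Field Fb] [Algebra k Fb]

omit [Field k] [Field Fb] [Algebra k Fb] in
/-- two divisors of degree zero with the same class differ by a principal divisor. -/
theorem h66_sub_principal_of_mk_eq (D D' : Divisor K F)
    (hD : D ∈ Divisor.degZero (K := K) (F := F)) (hD' : D' ∈ Divisor.degZero (K := K) (F := F))
    (h : Pic0.mk ⟨D, hD⟩ = Pic0.mk ⟨D', hD'⟩) :
    D - D' ∈ Divisor.principal (K := K) (F := F) := by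
  have h1 : -(⟨D, hD⟩ : Divisor.degZero (K := K) (F := F)) + ⟨D', hD'⟩ ∈
      (Divisor.principal (K := K) (F := F)).addSubgroupOf (Divisor.degZero (K := K) (F := F)) :=
    QuotientAddGroup.eq.mp h
  rw [AddSubgroup.mem_addSubgroupOf] at h1
  have h2 : -(-D + D') ∈ Divisor.principal (K := K) (F := F) :=
    (Divisor.principal (K := K) (F := F)).neg_mem h1
  have h3 : -(-D + D') = D - D' := by abel
  rwa [h3] at h2

/-- the reduction of an effective divisor in a class `z + ∑ Q_i` is linearly equivalent to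
`r0_* (rep z) + ∑ r0 Q_i`. -/
theorem h66_rep_red_principal (R : h39_RedDatum K F k Fb) (S : h39_PlaceRed R)
    {g : ℕ} (Q : Fin g → Place K F) (z : Pic0 K F) (Dz : Divisor K F)
    (hDz : ∃ h : Dz ∈ Divisor.degZero (K := K) (F := F), Pic0.mk ⟨Dz, h⟩ = z)
    (E : Divisor K F) (hE : h23_IsRep (∑ i, Finsupp.single (Q i) (1 : ℤ)) E z) :
    Finsupp.mapDomain S.r0 E -
        (Finsupp.mapDomain S.r0 Dz + ∑ i, Finsupp.single (S.r0 (Q i)) (1 : ℤ)) ∈
      Divisor.principal (K := k) (F := Fb) := by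
  obtain ⟨hdeg, hcls⟩ := hE
  obtain ⟨hz, hz'⟩ := hDz
  have hp := h66_sub_principal_of_mk_eq _ _ hdeg hz (hcls.trans hz'.symm)
  have h1 := h64_mapDomain_principal R S _ hp
  have h2 : Finsupp.mapDomain S.r0 (E - ∑ i, Finsupp.single (Q i) (1 : ℤ) - Dz)
      = Finsupp.mapDomain S.r0 E -
        (Finsupp.mapDomain S.r0 Dz + ∑ i, Finsupp.single (S.r0 (Q i)) (1 : ℤ)) := by
    rw [Finsupp.mapDomain_sub, Finsupp.mapDomain_sub, Finsupp.mapDomain_finsetSum]
    simp only [Finsupp.mapDomain_single]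
    abel
  rwa [h2] at h1

variable [IsAlgClosed K] [CharZero K] [IsAlgClosed k]

/-- **(GOODPTS)** goodness from conditions on the reduced curve: `Dinf = ∑ Q_i`, an orthonormal
frame, (1) `l(r0_* D_z + ∑ r0 Q_i) = 1` and (2) for the effective divisors
`Eb ∼ r0_* D_z + ∑ r0 Q_i` the space `L(r0_* M - Eb)` meets the span of the reductions of
`b''` trivially. -/
theorem h23_good_of_points (R : h39_RedDatum K F k Fb) {x : F} (hx : h39_Chart R x)
    (S : h39_PlaceRed R) (M : Divisor K F)
    (G : Set (Pic0 K F)) (rep : Pic0 K F → Divisor K F)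
    (hrep : ∀ z ∈ G, ∃ h : rep z ∈ Divisor.degZero (K := K) (F := F), Pic0.mk ⟨rep z, h⟩ = z)
    (Q : Fin (h75_genus K x) → Place K F) {n' : ℕ} (b' : Fin n' → F)
    (b'' : Fin (h75_genus K x) → F) (hb : h26_ONBasis R S (Sum.elim b' b'') M)
    (h1 : ∀ z ∈ G, Module.finrank k ↥(riemannRochSpace
      (Finsupp.mapDomain S.r0 (rep z) + ∑ i, Finsupp.single (S.r0 (Q i)) (1 : ℤ))) = 1)
    (h2 : ∀ z ∈ G, ∀ Eb : Divisor k Fb, 0 ≤ Eb →
      Eb - (Finsupp.mapDomain S.r0 (rep z) + ∑ i, Finsupp.single (S.r0 (Q i)) (1 : ℤ)) ∈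
        Divisor.principal (K := k) (F := Fb) →
      ∀ v ∈ riemannRochSpace (Finsupp.mapDomain S.r0 M - Eb),
        v ∈ Submodule.span k (Set.range fun i => R.redF (b'' i)) → v = 0) :
    h23_Good R S M G (∑ i, Finsupp.single (Q i) (1 : ℤ)) b' b'' := by
  have hxK : h75_IsChart K x := h39_weakChart_isChart R hx.toh39_WeakChart
  refine ⟨?_, hb, ?_, ?_⟩
  · -- the degree
    rw [map_sum]
    simp only [Divisor.degree_single, h75_deg_eq_one hxK, Nat.cast_one, mul_one]
    simp
  · -- (G1)
    intro z hz E _ hE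
    have hp := h66_rep_red_principal R S Q z (rep z) (hrep z hz) E hE
    rw [h24_finrank_rr_of_principal _ _ hp]
    exact h1 z hz
  · -- the big cell
    intro z hz E hE0 hE f hf hfs
    have hp := h66_rep_red_principal R S Q z (rep z) (hrep z hz) E hE
    have hEb : 0 ≤ Finsupp.mapDomain S.r0 E := by
      intro Pb
      exact h53_mapDomain_nonneg S.r0 E Pb (fun P _ => hE0 P)
    rw [Finsupp.mapDomain_sub] at hf
    exact h2 z hz _ hEb hp f hf hfs

end Red

end Fermat.Agent.S19

end
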