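import Fermat.Agent.S19.h2_Tower
import Fermat.Agent.S19.h82_SemiRR
import Fermat.Agent.S27.h82_CoordAsm
import Fermat.Agent.S27.CoordDenom
import Fermat.Agent.S27.h33_LiftPts
import Fermat.Agent.S27.h24_LiftInjCore

/-!
# S19, block EXIST, row X3 POINTS (owner helper21)

`h23_exists_points` (verbatim from the skeleton of helper23): for a Galois-fixed chart `x` and a
Galois-fixed `y ∈ O`, regular on the chart, with primitive reduction, outside a finite set of
residues there is over every admissible value `a` a place `Q` with `x(Q) = a`, fixed by every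
`σ` fixing `a` and `η = y(Q)`, such that adjoining `η` to an `ℓ`-good field containing `a` gives
an `ℓ`-good field.

Proof: `Φ` := the model polynomial of `y` (`h2_model_of_prim`); it has rational coefficients
(uniqueness of the monic equation, `x` and `y` Galois-fixed).  `d` := the denominator of
`h2_model_denom`, `δ := Res_Y(Φ, Φ_Y)`, `Bad` := the zeros of `d̄ δ̄`.  For `a`: `g := Φ(a, T)`,
`η` a root, `Q` the place with `(x, y)(Q) = (a, η)` (`h2_point_of_root`), unique by
`h33_place_eq_of_xy`; the tower clause is `h2_lgood_step_of_resultant` (helper2).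
-/

set_option autoImplicit false

noncomputable section

open AlgebraicCurve Fermat.Agent.S18 Fermat.Agent.S27 Polynomial IntermediateField

namespace Fermat.Agent.S19

local notation "Qb" => AlgebraicClosure ℚ
local notation "Γℚ" => (AlgebraicClosure ℚ ≃ₐ[ℚ] AlgebraicClosure ℚ)

/-- elements of `ℚ̄` fixed by the absolute Galois group are rational. -/
theorem h21_fixed_rat (a : Qb) (ha : ∀ σ : Γℚ, σ a = a) : ∃ q : ℚ, algebraMap ℚ Qb q = a := by
  have h1 : Algebra.IsAlgebraic ℚ Qb := AlgebraicClosure.isAlgebraic ℚ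
  have h2 : IsAlgClosure ℚ Qb := ⟨inferInstance, inferInstance⟩
  have h3 : Normal ℚ Qb := IsAlgClosure.normal ℚ Qb
  have h4 : IsGalois ℚ Qb := { }
  have h := (InfiniteGalois.mem_bot_iff_fixed (k := ℚ) (K := Qb) a).mpr ha
  rw [IntermediateField.mem_bot] at h
  exact h

/-- the resultant of `g` and `g'` lies in every intermediate field containing the coefficients
of `g`. -/
theorem h21_resultant_mem {K0 L : Type*} [Field K0] [Field L] [Algebra K0 L]
    (E : IntermediateField K0 L) (g : Polynomial L) (hg : ∀ i, g.coeff i ∈ E) :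
    g.resultant g.derivative ∈ E := by
  have h1 : g ∈ Polynomial.lifts (algebraMap E L) := by
    rw [Polynomial.lifts_iff_coeff_lifts]
    intro i
    exact ⟨⟨g.coeff i, hg i⟩, rfl⟩
  obtain ⟨p, hp⟩ := (Polynomial.mem_lifts g).mp h1
  have hinj : Function.Injective (algebraMap E L) := (algebraMap E L).injective
  have h3 : g.natDegree = p.natDegree := by
    rw [← hp, Polynomial.natDegree_map_eq_of_injective hinj]
  have h4 : (derivative g).natDegree = (derivative p).natDegree := by
    rw [← hp, Polynomial.derivative_map, Polynomial.natDegree_map_eq_of_injective hinj]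
  have h5 := Polynomial.resultant_map_map p (derivative p) p.natDegree
    (derivative p).natDegree (algebraMap E L)
  rw [← Polynomial.derivative_map, hp] at h5
  rw [h3, h4, h5]
  exact (p.resultant (derivative p)).2

/-- evaluation `G ↦ G(x, y)` is semilinear for a ring endomorphism fixing `x` and `y`. -/
theorem h21_map_ev2 {K F : Type*} [Field K] [Field F] [Algebra K F] (t : F →+* F)
    (φ : K →+* K) (ht : ∀ a : K, t (algebraMap K F a) = algebraMap K F (φ a)) {x y : F}
    (hx : t x = x) (hy : t y = y) (G : Polynomial (Polynomial K)) :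
    t (h15_ev2 x y G) = h15_ev2 x y (G.map (Polynomial.mapRingHom φ)) := by
  unfold h15_ev2
  rw [Polynomial.hom_eval₂, Polynomial.eval₂_map, hy]
  congr 1
  refine Polynomial.ringHom_ext (fun a => ?_) ?_
  · simp only [RingHom.comp_apply, RingHom.coe_coe, aeval_C, Polynomial.coe_mapRingHom,
      Polynomial.map_C]
    exact ht a
  · simp only [RingHom.comp_apply, RingHom.coe_coe, aeval_X, Polynomial.coe_mapRingHom,
      Polynomial.map_X]
    exact hx

/-- the monic equation of a Galois-fixed primitive element over a Galois-fixed chart has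
Galois-fixed coefficients. -/
theorem h21_model_fixed {K F : Type*} [Field K] [Field F] [Algebra K F] {x y : F}
    (hx : Transcendental K x) (Ψ : Polynomial (Polynomial K)) (hmon : Ψ.Monic)
    (hdeg : Ψ.natDegree = Module.finrank K⟮x⟯ F) (hroot : h15_ev2 x y Ψ = 0)
    (hli : LinearIndependent K⟮x⟯ (fun i : Fin (Module.finrank K⟮x⟯ F) => y ^ (i : ℕ)))
    (t : F →+* F) (φ : K →+* K)
    (ht : ∀ a : K, t (algebraMap K F a) = algebraMap K F (φ a)) (htx : t x = x)
    (hty : t y = y) : Ψ.map (Polynomial.mapRingHom φ) = Ψ := by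
  have h0 : h15_ev2 x y (Ψ.map (Polynomial.mapRingHom φ)) = 0 := by
    rw [← h21_map_ev2 t φ ht htx hty, hroot, map_zero]
  have hdvd := h88_dvd_of_ev2_eq_zero hx Ψ hmon hdeg hroot hli _ h0
  exact Polynomial.eq_of_monic_of_dvd_of_natDegree_le hmon (hmon.map _) hdvd
    (by rw [hmon.natDegree_map])

section Qbar

variable {F : Type*} [Field F] [Algebra Qb F] {k Fb : Type*} [Field k] [Field Fb] [Algebra k Fb]
variable (gal : Γℚ →* SemilinearAut Qb F)

/-! ## X3 POINTS (C3 + C4) -/

/-- **(POINTS)** for a Galois-fixed chart `x` and a Galois-fixed `y ∈ O`, regular on the chart,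
with primitive reduction: outside a finite set `Bad` of residues, over every value `a ∈ A` such
that integrality at `A` of elements of `ℚ(a)` is integrality at all of `𝒜`, there is a place
`Q` with `x(Q) = a` and an `η` (`= y(Q)`) such that `Q` is fixed by every `σ` fixing `a` and
`η`, and adjoining `η` to an `ℓ`-good field containing `a` gives an `ℓ`-good field. -/
theorem h23_exists_points [IsAlgClosed k]
    (hgal : ∀ (σ : Γℚ) (a : Qb), gal σ • algebraMap Qb F a = algebraMap Qb F (σ a))
    (R : h39_RedDatum Qb F k Fb) (𝒜 : Set (ValuationSubring Qb))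
    {x : F} (hx : h39_Chart R x) (hxfix : ∀ σ, gal σ • x = x)
    {y : F} (hyfix : ∀ σ, gal σ • y = y) (hyO : y ∈ R.O) (hyreg : h39_Reg Qb x y)
    (hyprim : LinearIndependent k⟮R.redF x⟯
      (fun i : Fin (Module.finrank Qb⟮x⟯ F) => R.redF y ^ (i : ℕ))) :
    ∃ Bad : Set k, Bad.Finite ∧ ∀ a : Qb, a ∈ R.A →
      (∀ u ∈ IntermediateField.adjoin ℚ {a}, u ∈ R.A → h26_Int 𝒜 u) → R.resK a ∉ Bad →
      ∃ (η : Qb) (Q : Place Qb F), h39_Val Q x a ∧
        (∀ σ : Γℚ, σ a = a → σ η = η → gal σ • Q = Q) ∧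
        (∀ K' : IntermediateField ℚ Qb, h26_LGood 𝒜 K' → a ∈ K' →
          h26_LGood 𝒜 (K' ⊔ IntermediateField.adjoin ℚ {η})) := by
  have hw : h39_WeakChart R x := hx.toh39_WeakChart
  have hxK : h75_IsChart Qb x := h39_weakChart_isChart R hw
  have hxk : h75_IsChart k (R.redF x) := h39_weakChart_isChart_red R hw
  obtain ⟨Φ, hM⟩ := h2_model_of_prim R hx hyO hyreg hyprim
  obtain ⟨d, hd0, hden, -⟩ := h2_model_denom R hx hM
  -- the model over `ℚ̄`
  obtain ⟨ΦK, hΦK⟩ : ∃ ΦK : Polynomial (Polynomial Qb),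
      ΦK = Φ.map (Polynomial.mapRingHom R.A.subtype) := ⟨_, rfl⟩
  have hrootK : h15_ev2 x y ΦK = 0 := by rw [hΦK]; exact hM.root
  have hmonK : ΦK.Monic := by rw [hΦK]; exact hM.monic.map _
  obtain ⟨n0, hn0def⟩ : ∃ n0 : ℕ, n0 = Φ.natDegree := ⟨_, rfl⟩
  have hdegK0 : ΦK.natDegree = n0 := by rw [hΦK, hM.monic.natDegree_map, hn0def]
  have hdegK : ΦK.natDegree = Module.finrank Qb⟮x⟯ F := by
    rw [hdegK0, hn0def, hM.natDegree_eq]
  have hn0 : n0 ≠ 0 := by
    intro h0
    have h1 : Φ = 1 := Polynomial.eq_one_of_monic_natDegree_zero hM.monic (hn0def ▸ h0)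
    have h2 := hM.root
    rw [h1, Polynomial.map_one, h69_ev2_one] at h2
    exact one_ne_zero h2
  -- rationality of the model
  have hfix : ∀ (σ : Γℚ) (i j : ℕ), σ ((ΦK.coeff i).coeff j) = (ΦK.coeff i).coeff j := by
    intro σ i j
    have h1 := h21_model_fixed hxK.tr ΦK hmonK hdegK hrootK hM.li
      (SemilinearAut.toRingAut (gal σ) : F →+* F) (σ : Qb →+* Qb) (fun a => hgal σ a)
      (hxfix σ) (hyfix σ)
    have h2 := congrArg (fun P : Polynomial (Polynomial Qb) => (P.coeff i).coeff j) h1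
    simp only [Polynomial.coeff_map, Polynomial.coe_mapRingHom] at h2
    exact h2
  have hrat : ∀ i j : ℕ, ∃ q : ℚ, algebraMap ℚ Qb q = (ΦK.coeff i).coeff j :=
    fun i j => h21_fixed_rat _ (fun σ => hfix σ i j)
  -- the resultant
  obtain ⟨δ, hδ⟩ : ∃ δ : Polynomial R.A, δ = Φ.resultant (derivative Φ) n0 (n0 - 1) := ⟨_, rfl⟩
  -- the reduced model
  obtain ⟨Ψ, hΨ⟩ : ∃ Ψ : Polynomial (Polynomial k), Ψ = Φ.map (Polynomial.mapRingHom R.res) :=
    ⟨_, rfl⟩
  have hΨmon : Ψ.Monic := by rw [hΨ]; exact hM.monic.map _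
  have hΨdeg0 : Ψ.natDegree = n0 := by rw [hΨ, hM.monic.natDegree_map, hn0def]
  have hΨdeg : Ψ.natDegree = Module.finrank k⟮R.redF x⟯ Fb := by
    rw [hΨdeg0, hn0def, hM.natDegree_eq, hw.finrank_eq]
  have hΨroot : h15_ev2 (R.redF x) (R.redF y) Ψ = 0 := by
    have h := (h82_red_ev2 R hw hyO Φ).2
    rw [hM.root, h39_redF_zero] at h
    rw [hΨ]
    exact h.symm
  have hlib : LinearIndependent k⟮R.redF x⟯
      (fun i : Fin (Module.finrank k⟮R.redF x⟯ Fb) => R.redF y ^ (i : ℕ)) := by
    have h := hM.li_red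
    rw [← hw.finrank_eq] at h
    exact h
  have hresb : Ψ.resultant (derivative Ψ) ≠ 0 :=
    h69_resultant_ne_zero hxk Ψ hΨmon hΨdeg hΨroot hlib
  have hδb : δ.map R.res ≠ 0 := by
    have h1 : δ.map R.res = Ψ.resultant (derivative Ψ) n0 (n0 - 1) := by
      rw [hΨ, Polynomial.derivative_map, Polynomial.resultant_map_map, hδ,
        Polynomial.coe_mapRingHom]
    rw [h1]
    have h2 : (derivative Ψ).natDegree ≤ n0 - 1 := by
      have := Polynomial.natDegree_derivative_le Ψ
      rwa [hΨdeg0] at this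
    obtain ⟨κ, hκ⟩ := Nat.exists_eq_add_of_le h2
    rw [hκ, Polynomial.resultant_add_right_deg _ _ _ _ κ le_rfl]
    have h3 : Ψ.coeff n0 = 1 := by
      rw [← hΨdeg0]
      exact hΨmon.coeff_natDegree
    rw [h3, one_pow, one_mul]
    rw [← hΨdeg0]
    exact hresb
  refine ⟨{c : k | (d.map R.res * δ.map R.res).IsRoot c},
    Polynomial.finite_setOfPred_isRoot (mul_ne_zero hd0 hδb), ?_⟩
  intro a haA hInt hbad
  obtain ⟨ξ, hξdef⟩ : ∃ ξ : R.A, ξ = ⟨a, haA⟩ := ⟨_, rfl⟩
  have hξa : (ξ : Qb) = a := by rw [hξdef]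
  have hres_a : R.resK a = R.res ξ := by rw [R.resK_of_mem haA, hξdef]
  rw [hres_a] at hbad
  have hbad' : (d.map R.res).eval (R.res ξ) * (δ.map R.res).eval (R.res ξ) ≠ 0 := by
    intro h
    apply hbad
    show Polynomial.IsRoot _ _
    rw [Polynomial.IsRoot.def, Polynomial.eval_mul]
    exact h
  have hd1 : R.res (d.eval ξ) ≠ 0 := by
    rw [← h24_eval_map_res]
    exact left_ne_zero_of_mul hbad'
  have hδ1 : R.res (δ.eval ξ) ≠ 0 := by
    rw [← h24_eval_map_res]
    exact right_ne_zero_of_mul hbad'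
  have hdK : (d.map R.A.subtype).eval a ≠ 0 := by
    rw [← hξa, h24_eval_map_subtype]
    intro h
    apply hd1
    have : d.eval ξ = 0 := Subtype.ext h
    rw [this, map_zero]
  have hu : IsUnit (δ.eval ξ) := h24_isUnit_of_res_ne_zero R hδ1
  -- the specialised polynomial
  obtain ⟨g, hg⟩ : ∃ g : Polynomial Qb, g = ΦK.map (Polynomial.evalRingHom a) := ⟨_, rfl⟩
  have hgmon : g.Monic := by rw [hg]; exact hmonK.map _
  have hgdeg : g.natDegree = n0 := by rw [hg, hmonK.natDegree_map, hdegK0]
  have hgcoeff : ∀ i, g.coeff i = (ΦK.coeff i).eval a := by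
    intro i
    rw [hg, Polynomial.coeff_map]
    rfl
  -- coefficients in `ℚ(a)`
  have hgQ : ∀ i, g.coeff i ∈ IntermediateField.adjoin ℚ {a} := by
    intro i
    rw [hgcoeff, Polynomial.eval_eq_sum_range]
    refine sum_mem (fun j _ => ?_)
    obtain ⟨q, hq⟩ := hrat i j
    rw [← hq]
    exact mul_mem ((IntermediateField.adjoin ℚ {a}).algebraMap_mem q)
      (pow_mem (IntermediateField.mem_adjoin_simple_self ℚ a) j)
  -- coefficients in `A`
  have hgA : ∀ i, g.coeff i ∈ R.A := by
    intro i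
    rw [hgcoeff, hΦK, Polynomial.coeff_map, Polynomial.coe_mapRingHom, ← hξa,
      h24_eval_map_subtype]
    exact Subtype.property _
  -- the resultant
  have hgres : g.resultant g.derivative = ((δ.eval ξ : R.A) : Qb) := by
    have hg' : (derivative g).natDegree = n0 - 1 := by
      rw [Polynomial.natDegree_derivative, hgdeg]
    have e1 : g = Φ.map ((Polynomial.evalRingHom a).comp
        (Polynomial.mapRingHom R.A.subtype)) := by
      rw [hg, hΦK, Polynomial.map_map]
    rw [hgdeg, hg', e1, Polynomial.derivative_map, Polynomial.resultant_map_map, ← hδ,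
      RingHom.comp_apply, Polynomial.coe_mapRingHom, Polynomial.coe_evalRingHom, ← hξa,
      h24_eval_map_subtype]
  -- a root
  have hgdeg0 : g.degree ≠ 0 := by
    rw [Polynomial.degree_eq_natDegree hgmon.ne_zero, hgdeg]
    exact_mod_cast hn0
  obtain ⟨η, hη⟩ := IsAlgClosed.exists_root g hgdeg0
  have hη' : g.eval η = 0 := hη
  have h0 : (ΦK.eval (C η)).eval a = 0 := by
    have h1 := Polynomial.map_evalRingHom_eval a η ΦK
    rw [← hg, hη'] at h1
    exact h1.symm
  obtain ⟨Q, hQx, hQy⟩ := h2_point_of_root hxK hM.reg ΦK hmonK hdegK hrootK hM.li a η h0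
  refine ⟨η, Q, hQx, ?_, ?_⟩
  · intro σ hσa hση
    have hb : ∀ c : Qb, SemilinearAut.baseAut (gal σ) c = σ c := by
      intro c
      have h1 := hgal σ c
      rw [SemilinearAut.smul_algebraMap] at h1
      exact (algebraMap Qb F).injective h1
    refine h82_smul_place_fixed (gal σ) (hxfix σ) (hyfix σ) ((hb a).trans hσa)
      ((hb η).trans hση) hQx hQy ?_
    intro P hPx hPy
    exact h33_place_eq_of_xy hxK (d.map R.A.subtype) (h24_hden_K R d hden) P Q hPx hPy hQx hQy
      hdK
  · intro K' hK' haK'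
    have hle : IntermediateField.adjoin ℚ {a} ≤ K' := by
      rw [IntermediateField.adjoin_simple_le_iff]
      exact haK'
    have hresne : g.resultant g.derivative ≠ 0 := by
      rw [hgres]
      intro h
      exact hu.ne_zero (Subtype.ext h)
    refine h2_lgood_step_of_resultant 𝒜 K' hK' g hgmon (fun i => hle (hgQ i))
      (fun i => hInt _ (hgQ i) (hgA i)) hresne ?_ η hη'
    refine hInt _ (inv_mem (h21_resultant_mem _ g hgQ)) ?_
    rw [hgres]
    obtain ⟨v, hv⟩ := hu
    have h1 : ((v : R.A) : Qb) * (((v⁻¹ : R.Aˣ) : R.A) : Qb) = 1 := by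
      rw [← MulMemClass.coe_mul, ← Units.val_mul, mul_inv_cancel, Units.val_one]
      rfl
    rw [← hv, inv_eq_of_mul_eq_one_right h1]
    exact Subtype.property _

end Qbar

end Fermat.Agent.S19

end
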