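import Fermat.Agent.S19.h23_ExistOf
import Fermat.Agent.S19.GoodPts
import Fermat.Agent.S19.Frame
import Fermat.Agent.S19.Points

/-!
# S19 / X7 EXIST (owner helper23)

`h23_exist`, VERBATIM from the skeleton (origin/helper23 `skel/h23_SkelExist.lean`):
`h23_exist_of` (`S19/h23_ExistOf.lean`) applied to the rows X1 `h23_good_of_points`,
X2 `h23_exists_frame`, X3 `h23_exists_points`.
-/

set_option autoImplicit false

noncomputable section

open AlgebraicCurve Fermat.Agent.S18 Fermat.Agent.S27 Polynomial IntermediateField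

namespace Fermat.Agent.S19

local notation "Qb" => AlgebraicClosure ℚ
local notation "Γℚ" => (AlgebraicClosure ℚ ≃ₐ[ℚ] AlgebraicClosure ℚ)

section Qbar

variable {F : Type*} [Field F] [Algebra Qb F] {k Fb : Type*} [Field k] [Field Fb] [Algebra k Fb]
variable (gal : Γℚ →* SemilinearAut Qb F)

/-- **(EXIST)** a datum `(Dinf, b', b'')` defined over an `ℓ`-good tower all of whose Galois
conjugates are good at `R`.  (`b` = a Galois-fixed orthonormal basis of `L(M)`, from X5.) -/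
theorem h23_exist [IsAlgClosed k] (ℓ : ℕ) [Fact ℓ.Prime] [CharP k ℓ]
    (hgal : ∀ (σ : Γℚ) (a : Qb), gal σ • algebraMap Qb F a = algebraMap Qb F (σ a))
    (R : h39_RedDatum Qb F k Fb) (𝒜 : Set (ValuationSubring Qb)) (hAr : h23_Arith ℓ R 𝒜)
    {x : F} (hx : h39_Chart R x) (hxfix : ∀ σ, gal σ • x = x)
    (S : h39_PlaceRed R)
    (hS : ∃ r : Place Qb F → Place k Fb, h39_IsChartRed R x r ∧
      ∀ P : Place Qb F, h39_InDisc R x P → S.r0 P = r P)
    {y : F} (hyfix : ∀ σ, gal σ • y = y) (hyO : y ∈ R.O) (hyreg : h39_Reg Qb x y)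
    (hyprim : LinearIndependent k⟮R.redF x⟯
      (fun i : Fin (Module.finrank Qb⟮x⟯ F) => R.redF y ^ (i : ℕ)))
    (M : Divisor Qb F) (hMfix : ∀ σ, gal σ • M = M)
    (hMc : S.c ≤ Divisor.degree M) (hMg : 3 * (h75_genus Qb x : ℤ) ≤ Divisor.degree M)
    {n' : ℕ} (b : Fin (n' + h75_genus Qb x) → F) (hbmem : ∀ i, b i ∈ riemannRochSpace M)
    (hbfix : ∀ σ i, gal σ • b i = b i) (hbO : ∀ i, b i ∈ R.O)
    (hbli : LinearIndependent k (fun i => R.redF (b i)))
    (hcard : Module.finrank Qb ↥(riemannRochSpace M) = n' + h75_genus Qb x)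
    (G : Set (Pic0 Qb F)) (hG : G.Finite) :
    ∃ (Dinf : Divisor Qb F) (b' : Fin n' → F) (b'' : Fin (h75_genus Qb x) → F)
      (K' : IntermediateField ℚ Qb),
      h26_LGood 𝒜 K' ∧
      (∀ σ : Γℚ, (∀ a ∈ K', σ a = a) →
        gal σ • Dinf = Dinf ∧ (∀ j, gal σ • b' j = b' j) ∧ ∀ i, gal σ • b'' i = b'' i) ∧
      ∀ τ : Γℚ, h23_Good R S M G (gal τ • Dinf) (fun j => gal τ • b' j)
        (fun i => gal τ • b'' i) := by
  have _ := hMfix
  exact h23_exist_of gal ℓ hgal R 𝒜 hAr hx hxfix S hS M hMc hMg b hbmem hbfix hbO hbli hcard G hG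
    (fun rep hrep Q b' b'' => h23_good_of_points R hx S M G rep hrep Q b' b'')
    (fun 𝒲 h𝒲 hdim => h23_exists_frame ℓ hAr.orbit 𝒲 h𝒲 hdim)
    (h23_exists_points gal hgal R 𝒜 hx hxfix hyfix hyO hyreg hyprim)

end Qbar

end Fermat.Agent.S19

end
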