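import Mathlib

/-!
# S19 / HOPF, part 1: linear algebra of functions (helper38)

* `h38_linearIndependent_prod` : products `f i x * g j y` of two linearly independent families
  of functions are linearly independent functions on the product.
* `h38_linearIndependent_of_equivariant` : Galois-equivariant functions `G → Qb` that are
  linearly independent over `ℚ` are linearly independent over `Qb`.
-/

set_option autoImplicit false

namespace Fermat.Agent.S19

local notation "Qb" => AlgebraicClosure ℚ
local notation "Γℚ" => (AlgebraicClosure ℚ ≃ₐ[ℚ] AlgebraicClosure ℚ)

/-- Products of two linearly independent families of functions are linearly independent on the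
product. -/
theorem h38_linearIndependent_prod {K : Type*} [Field K] {X Y ι κ : Type*} [Fintype ι]
    [Fintype κ] {f : ι → X → K} {g : κ → Y → K} (hf : LinearIndependent K f)
    (hg : LinearIndependent K g) :
    LinearIndependent K (fun p : ι × κ => fun q : X × Y => f p.1 q.1 * g p.2 q.2) := by
  classical
  rw [Fintype.linearIndependent_iff] at hf hg ⊢
  intro c hc
  have key : ∀ (y : Y) (i : ι), ∑ j, c (i, j) * g j y = 0 := by
    intro y
    apply hf
    funext x
    have := congrFun hc (x, y)
    simp only [Finset.sum_apply, Pi.smul_apply, smul_eq_mul, Pi.zero_apply] at this ⊢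
    rw [Fintype.sum_prod_type] at this
    rw [← this]
    refine Finset.sum_congr rfl fun i _ => ?_
    rw [Finset.sum_mul]
    refine Finset.sum_congr rfl fun j _ => ?_
    ring
  rintro ⟨i, j⟩
  have h2 : ∑ j, c (i, j) • g j = 0 := by
    funext y
    simpa using key y i
  exact hg _ h2 j

/-- The fixed field of the absolute Galois group is `ℚ`. -/
theorem h38_fixed_rat (a : Qb) (ha : ∀ σ : Γℚ, σ a = a) : ∃ q : ℚ, algebraMap ℚ Qb q = a := by
  have h1 : Algebra.IsAlgebraic ℚ Qb := AlgebraicClosure.isAlgebraic ℚ
  have h2 : IsAlgClosure ℚ Qb := ⟨inferInstance, inferInstance⟩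
  have h3 : Normal ℚ Qb := IsAlgClosure.normal ℚ Qb
  have h4 : IsGalois ℚ Qb := { }
  have h := (InfiniteGalois.mem_bot_iff_fixed (k := ℚ) (K := Qb) a).mpr ha
  rw [IntermediateField.mem_bot] at h
  exact h

/-- Galois-equivariant functions that are linearly independent over `ℚ` are linearly independent
over `Qb`. -/
theorem h38_linearIndependent_of_equivariant {G : Type*} [MulAction Γℚ G] {ι : Type*}
    [Fintype ι] (h : ι → G → Qb) (hequiv : ∀ i (σ : Γℚ) (x : G), h i (σ • x) = σ (h i x))
    (hQ : ∀ q : ι → ℚ, (∑ i, algebraMap ℚ Qb (q i) • h i = 0) → ∀ i, q i = 0) :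
    LinearIndependent Qb h := by
  classical
  rw [Fintype.linearIndependent_iff]
  -- induction on the size of the support
  have main : ∀ (k : ℕ) (c : ι → Qb), (Finset.univ.filter fun i => c i ≠ 0).card ≤ k →
      (∑ i, c i • h i = 0) → ∀ i, c i = 0 := by
    intro k
    induction k with
    | zero =>
      intro c hk _ i
      by_contra hi
      have : i ∈ Finset.univ.filter fun i => c i ≠ 0 := by simp [hi]
      have h0 : (Finset.univ.filter fun i => c i ≠ 0) = ∅ := Finset.card_eq_zero.mp (by omega)
      rw [h0] at this
      exact absurd this (Finset.notMem_empty i)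
    | succ k ih =>
      intro c hk hc
      by_contra hne
      push Not at hne
      obtain ⟨i0, hi0⟩ := hne
      -- normalise
      set μ : ι → Qb := fun i => c i / c i0 with hμ
      have hμ0 : μ i0 = 1 := by simp [hμ, hi0]
      have hμrel : ∑ i, μ i • h i = 0 := by
        have : ∑ i, μ i • h i = (c i0)⁻¹ • ∑ i, c i • h i := by
          rw [Finset.smul_sum]
          refine Finset.sum_congr rfl fun i _ => ?_
          rw [smul_smul, hμ]
          congr 1
          field_simp
        rw [this, hc, smul_zero]
      -- all μ i are Galois fixed
      have hfix : ∀ (σ : Γℚ) (i : ι), σ (μ i) = μ i := by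
        intro σ
        have hrel2 : ∑ i, (σ (μ i) - μ i) • h i = 0 := by
          have h1 : ∑ i, σ (μ i) • h i = 0 := by
            funext x
            have := congrFun hμrel (σ⁻¹ • x)
            simp only [Finset.sum_apply, Pi.smul_apply, smul_eq_mul, Pi.zero_apply] at this ⊢
            have h2 := congrArg σ this
            rw [map_sum, map_zero] at h2
            rw [← h2]
            refine Finset.sum_congr rfl fun i _ => ?_
            rw [map_mul, ← hequiv i σ (σ⁻¹ • x), smul_inv_smul]
          simp only [sub_smul, Finset.sum_sub_distrib, h1, hμrel, sub_zero]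
        have hcard : (Finset.univ.filter fun i => σ (μ i) - μ i ≠ 0).card ≤ k := by
          have hsub : (Finset.univ.filter fun i => σ (μ i) - μ i ≠ 0) ⊆
              (Finset.univ.filter fun i => c i ≠ 0).erase i0 := by
            intro i hi
            simp only [Finset.mem_filter, Finset.mem_univ, true_and] at hi
            simp only [Finset.mem_erase, Finset.mem_filter, Finset.mem_univ, true_and]
            constructor
            · rintro rfl
              apply hi
              rw [hμ0, map_one, sub_self]
            · intro hci
              apply hi
              simp [hμ, hci]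
          have h3 := Finset.card_le_card hsub
          have h4 : ((Finset.univ.filter fun i => c i ≠ 0).erase i0).card
              = (Finset.univ.filter fun i => c i ≠ 0).card - 1 :=
            Finset.card_erase_of_mem (by simp [hi0])
          omega
        intro i
        have := ih _ hcard hrel2 i
        exact sub_eq_zero.mp this
      -- so they are rational
      choose q hq using fun i => h38_fixed_rat (μ i) (fun σ => hfix σ i)
      have hq0 := hQ q (by simpa [hq] using hμrel) i0
      have : μ i0 = 0 := by rw [← hq i0, hq0, map_zero]
      rw [hμ0] at this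
      exact one_ne_zero this
  intro c hc i
  exact main (Finset.univ.filter fun i => c i ≠ 0).card c le_rfl hc i

end Fermat.Agent.S19
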