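import Mathlib
import Fermat.Agent.S27.CoordModel
import Fermat.Agent.S19.h38_HopfLA
import Fermat.Prelude.Def_GaloisRep_Flat
import Fermat.Prelude.Def_AlgebraicCurve_BaseChangeGalois

/-!
# S19, block EXIST, row X4 RATNORM (row 541, helper34)

`h23_ratnorm` (statement verbatim from the skeleton of helper23): for a Galois-fixed chart `x`
and a Galois-fixed function `y ∈ O` with primitive reduction,

1. every nonzero Galois-fixed function `f` has Gauss norm in `ℓ^ℤ`: some `ℓ^m f` is a unit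
   of `O`;
2. a `k`-linear relation between the reductions of Galois-fixed elements of `O` implies a
   relation with integer coefficients, not all divisible by `ℓ`.

Proof.  The powers of `y` are an orthonormal `Qb(x)`-basis of `F` (`h10_li_pow`, `h10_on_pow`,
`h10_val_sum_pow`), the coordinates of a Galois-fixed function are Galois-fixed elements of
`Qb(x)` (`h34_coords`), and a Galois-fixed element of `Qb(x)` is a quotient of two polynomials
in `x` with integer coefficients (`h34_fixed_frac`: take a monic denominator of minimal degree,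
it is Galois-fixed by uniqueness; fixed constants are rational by `h38_fixed_rat`).  Factoring
out the powers of `ℓ` (`h34_factor_pow`) gives (1).  For (2), after clearing a common
denominator `D` with `D mod ℓ ≠ 0`, a `k`-linear relation between the reductions is a
`k`-linear relation between vectors with coordinates in the prime field; a linear functional
`k → 𝔽_ℓ` turns it into a relation over `𝔽_ℓ`, which is lifted to the integers.
-/

set_option autoImplicit false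

noncomputable section

open AlgebraicCurve Fermat.Agent.S18 Fermat.Agent.S27 Polynomial IntermediateField

namespace Fermat.Agent.S19

local notation "Qb" => AlgebraicClosure ℚ
local notation "Γℚ" => (AlgebraicClosure ℚ ≃ₐ[ℚ] AlgebraicClosure ℚ)

section Qbar

variable {F : Type*} [Field F] [Algebra Qb F] {k Fb : Type*} [Field k] [Field Fb] [Algebra k Fb]
variable (gal : Γℚ →* SemilinearAut Qb F)

/-- the Galois action on polynomials in a fixed `x` is the action on coefficients. -/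
theorem h34_gal_aeval
    (hgal : ∀ (σ : Γℚ) (a : Qb), gal σ • algebraMap Qb F a = algebraMap Qb F (σ a))
    {x : F} (hxfix : ∀ σ, gal σ • x = x) (σ : Γℚ) (p : Qb[X]) :
    gal σ • aeval x p = aeval x (p.map (σ : Qb →+* Qb)) := by
  have h : ((MulSemiringAction.toRingHom (SemilinearAut Qb F) F (gal σ)).comp
      ((aeval x : Qb[X] →ₐ[Qb] F) : Qb[X] →+* F)) =
      ((aeval x : Qb[X] →ₐ[Qb] F) : Qb[X] →+* F).comp (mapRingHom (σ : Qb →+* Qb)) := by
    apply Polynomial.ringHom_ext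
    · intro a
      simp only [RingHom.comp_apply, RingHom.coe_coe, aeval_C, coe_mapRingHom, map_C,
        MulSemiringAction.toRingHom_apply]
      exact hgal σ a
    · simp only [RingHom.comp_apply, RingHom.coe_coe, aeval_X, coe_mapRingHom, map_X,
        MulSemiringAction.toRingHom_apply]
      exact hxfix σ
  exact RingHom.congr_fun h p

/-- the Galois action preserves `Qb(x)` for a fixed `x`. -/
theorem h34_gal_mem_adjoin
    (hgal : ∀ (σ : Γℚ) (a : Qb), gal σ • algebraMap Qb F a = algebraMap Qb F (σ a))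
    {x : F} (hxfix : ∀ σ, gal σ • x = x) (σ : Γℚ) {c : F} (hc : c ∈ Qb⟮x⟯) :
    gal σ • c ∈ Qb⟮x⟯ := by
  rw [IntermediateField.mem_adjoin_simple_iff] at hc ⊢
  obtain ⟨r, s, rfl⟩ := hc
  refine ⟨r.map (σ : Qb →+* Qb), s.map (σ : Qb →+* Qb), ?_⟩
  rw [← h34_gal_aeval gal hgal hxfix, ← h34_gal_aeval gal hgal hxfix]
  simp only [SemilinearAut.smul_def, map_div₀]

omit [Field k] [Field Fb] [Algebra k Fb] in
/-- evaluation of integer polynomials at a transcendental element is injective. -/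
theorem h34_int_aeval_ne_zero {x : F} (hx : Transcendental Qb x) {P : ℤ[X]} (hP : P ≠ 0) :
    aeval x P ≠ 0 := by
  intro h0
  rw [← Polynomial.aeval_map_algebraMap Qb] at h0
  have h1 := (transcendental_iff.mp hx) _ h0
  have h2 : P.map (algebraMap ℤ Qb) = (0 : ℤ[X]).map (algebraMap ℤ Qb) := by
    rw [h1, Polynomial.map_zero]
  exact hP (Polynomial.map_injective _ (algebraMap ℤ Qb).injective_int h2)

/-- integer polynomials in `x ∈ O` lie in `O` and reduce coefficientwise. -/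
theorem h34_int_aeval_red (R : h39_RedDatum Qb F k Fb) {x : F} (hxO : x ∈ R.O) (P : ℤ[X]) :
    aeval x P ∈ R.O ∧ R.redF (aeval x P) = aeval (R.redF x) P := by
  have h1 : aeval x P = ((aeval (⟨x, hxO⟩ : R.O) P : R.O) : F) :=
    Polynomial.aeval_algHom_apply (R.O.subtype.toIntAlgHom) (⟨x, hxO⟩ : R.O) P
  have hmem : aeval x P ∈ R.O := by
    rw [h1]
    exact (aeval (⟨x, hxO⟩ : R.O) P).2
  refine ⟨hmem, ?_⟩
  rw [R.redF_of_mem hmem, R.redF_of_mem hxO]
  have h2 : R.red (aeval (⟨x, hxO⟩ : R.O) P) = aeval (R.red ⟨x, hxO⟩) P :=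
    (Polynomial.aeval_algHom_apply (R.red.toIntAlgHom) (⟨x, hxO⟩ : R.O) P).symm
  rw [← h2]
  congr 1
  exact Subtype.ext h1

/-- an integer polynomial which is nonzero modulo the residue characteristic has a unit value
at the chart. -/
theorem h34_int_aeval_redF_ne (R : h39_RedDatum Qb F k Fb) {x : F} (hxO : x ∈ R.O)
    (hxt : Transcendental k (R.redF x)) {P : ℤ[X]} (hP : P.map (Int.castRingHom k) ≠ 0) :
    R.redF (aeval x P) ≠ 0 := by
  rw [(h34_int_aeval_red R hxO P).2]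
  intro h0
  have h1 : aeval (R.redF x) (P.map (algebraMap ℤ k)) = 0 := by
    rw [Polynomial.aeval_map_algebraMap]
    exact h0
  exact hP ((transcendental_iff.mp hxt) _ h1)

/-- the residue characteristic is `ℓ`. -/
theorem h34_charP (ℓ : ℕ) [Fact ℓ.Prime] (R : h39_RedDatum Qb F k Fb)
    (hℓ : R.resK (ℓ : Qb) = 0) : CharP k ℓ := by
  have h1 : ((ℓ : ℕ) : Qb) ∈ R.A := natCast_mem R.A ℓ
  rw [R.resK_of_mem h1] at hℓ
  have h2 : (⟨((ℓ : ℕ) : Qb), h1⟩ : R.A) = ((ℓ : ℕ) : R.A) := Subtype.ext (by simp)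
  rw [h2, map_natCast] at hℓ
  exact (CharP.charP_iff_prime_eq_zero (Fact.out : ℓ.Prime)).mpr hℓ

/-- `ℓ` lies in the maximal ideal of `O`. -/
theorem h34_redF_ell (ℓ : ℕ) (R : h39_RedDatum Qb F k Fb)
    (hℓ : R.resK (ℓ : Qb) = 0) : ((ℓ : ℕ) : F) ∈ R.O ∧ R.redF ((ℓ : ℕ) : F) = 0 := by
  have h1 : ((ℓ : ℕ) : Qb) ∈ R.A := natCast_mem R.A ℓ
  have h2 : ((ℓ : ℕ) : F) = algebraMap Qb F ((ℓ : ℕ) : Qb) := (map_natCast _ ℓ).symm
  refine ⟨natCast_mem R.O ℓ, ?_⟩
  rw [h2, h39_redF_algebraMap R h1, hℓ, map_zero]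

/-- `redF g ≠ 0` iff `g` is a unit of `O`, i.e. has valuation one. -/
theorem h34_redF_ne_zero_iff (R : h39_RedDatum Qb F k Fb) (g : F) :
    R.redF g ≠ 0 ↔ R.O.valuation g = 1 := by
  constructor
  · intro h
    have hg : g ∈ R.O := h39_mem_of_redF_ne_zero R h
    have hg0 : g ≠ 0 := by
      rintro rfl
      exact h (h39_redF_zero R)
    have hinv : g⁻¹ ∈ R.O := (h39_inv_of_redF_ne_zero R h).1
    have h1 : R.O.valuation g ≤ 1 := (R.O.valuation_le_one_iff g).2 hg
    have h2 : R.O.valuation g⁻¹ ≤ 1 := (R.O.valuation_le_one_iff _).2 hinv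
    rw [map_inv₀] at h2
    have h3 : 0 < R.O.valuation g := by
      rw [zero_lt_iff, Ne, map_eq_zero]
      exact hg0
    exact le_antisymm h1 ((inv_le_one₀ h3).mp h2)
  · intro h
    have hg : g ∈ R.O := (R.O.valuation_le_one_iff g).1 h.le
    have hg0 : g ≠ 0 := by
      rintro rfl
      rw [map_zero] at h
      exact zero_ne_one h
    have hinv : g⁻¹ ∈ R.O := by
      rw [← R.O.valuation_le_one_iff, map_inv₀, h, inv_one]
    intro h0
    rcases (h39_redF_eq_zero_iff R hg).mp h0 with h1 | h1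
    · exact hg0 h1
    · exact h1 hinv

/-- factor out the exact power of `ℓ` from a nonzero integer polynomial. -/
theorem h34_factor_pow (k : Type*) [Field k] (ℓ : ℕ) [Fact ℓ.Prime] [CharP k ℓ] {P : ℤ[X]}
    (hP : P ≠ 0) :
    ∃ (e : ℕ) (P' : ℤ[X]), P = C (((ℓ : ℕ) : ℤ) ^ e) * P' ∧ P'.map (Int.castRingHom k) ≠ 0 := by
  have hprime : Prime ((ℓ : ℕ) : ℤ) := Nat.prime_iff_prime_int.mp Fact.out
  have hnu : ¬ IsUnit (C ((ℓ : ℕ) : ℤ) : ℤ[X]) := by
    rw [Polynomial.isUnit_C]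
    exact hprime.not_isUnit
  obtain ⟨e, P', hnd, hP'⟩ := WfDvdMonoid.max_power_factor' hP hnu
  refine ⟨e, P', ?_, ?_⟩
  · rw [C_pow]
    exact hP'
  · intro h0
    apply hnd
    rw [Polynomial.C_dvd_iff_dvd_coeff]
    intro i
    have h1 := congrArg (fun q => q.coeff i) h0
    simp only [coeff_map, coeff_zero, eq_intCast] at h1
    exact (CharP.intCast_eq_zero_iff k ℓ _).mp h1

omit [Field k] [Field Fb] [Algebra k Fb] in
/-- a Galois-fixed element of `Qb(x)` is a quotient of integer polynomials in `x`. -/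
theorem h34_fixed_frac
    (hgal : ∀ (σ : Γℚ) (a : Qb), gal σ • algebraMap Qb F a = algebraMap Qb F (σ a))
    {x : F} (hxt : Transcendental Qb x) (hxfix : ∀ σ, gal σ • x = x)
    {c : F} (hc : c ∈ Qb⟮x⟯) (hcfix : ∀ σ, gal σ • c = c) :
    ∃ P Q : ℤ[X], Q ≠ 0 ∧ c * aeval x Q = aeval x P := by
  classical
  -- Step 1: a monic denominator of minimal degree
  have hex : ∃ n : ℕ, ∃ p q : Qb[X], q.Monic ∧ q.natDegree = n ∧
      c * aeval x q = aeval x p := by
    rw [IntermediateField.mem_adjoin_simple_iff] at hc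
    obtain ⟨r, s, hrs⟩ := hc
    by_cases hs : s = 0
    · refine ⟨0, 0, 1, monic_one, natDegree_one, ?_⟩
      rw [hrs, hs]
      simp
    · have hs' : aeval x s ≠ 0 := fun h => hs (transcendental_iff.mp hxt s h)
      refine ⟨_, r * C s.leadingCoeff⁻¹, s * C s.leadingCoeff⁻¹,
        monic_mul_leadingCoeff_inv hs, rfl, ?_⟩
      rw [hrs, map_mul, map_mul, ← mul_assoc, div_mul_cancel₀ _ hs']
  obtain ⟨p, q, hqm, hqd, hpq⟩ := Nat.find_spec hex
  -- Step 2: the pair is Galois-fixed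
  have hrel : ∀ σ : Γℚ, c * aeval x (q.map (σ : Qb →+* Qb)) =
      aeval x (p.map (σ : Qb →+* Qb)) := by
    intro σ
    rw [← h34_gal_aeval gal hgal hxfix, ← h34_gal_aeval gal hgal hxfix, ← hpq, smul_mul',
      hcfix σ]
  have hqfix : ∀ σ : Γℚ, q.map (σ : Qb →+* Qb) = q := by
    intro σ
    by_contra hne
    have hq'm : (q.map (σ : Qb →+* Qb)).Monic := hqm.map _
    have hr0 : q - q.map (σ : Qb →+* Qb) ≠ 0 := sub_ne_zero.mpr (Ne.symm hne)
    have hdeg : (q - q.map (σ : Qb →+* Qb)).degree < q.degree := by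
      apply Polynomial.degree_sub_lt_left
      · rw [Polynomial.degree_map]
      · exact hqm.ne_zero
      · rw [hqm.leadingCoeff, hq'm.leadingCoeff]
    have hnat : (q - q.map (σ : Qb →+* Qb)).natDegree < Nat.find hex := by
      rw [← hqd]
      exact Polynomial.natDegree_lt_natDegree hr0 hdeg
    refine Nat.find_min hex
      (m := ((q - q.map (σ : Qb →+* Qb)) *
        C (q - q.map (σ : Qb →+* Qb)).leadingCoeff⁻¹).natDegree) ?_
      ⟨(p - p.map (σ : Qb →+* Qb)) * C (q - q.map (σ : Qb →+* Qb)).leadingCoeff⁻¹,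
        (q - q.map (σ : Qb →+* Qb)) * C (q - q.map (σ : Qb →+* Qb)).leadingCoeff⁻¹,
        monic_mul_leadingCoeff_inv hr0, rfl, ?_⟩
    · rw [natDegree_mul_leadingCoeff_inv _ hr0]
      exact hnat
    · rw [map_mul, map_mul, map_sub, map_sub, ← mul_assoc, mul_sub, hpq, hrel σ]
  have hpfix : ∀ σ : Γℚ, p.map (σ : Qb →+* Qb) = p := by
    intro σ
    have h1 := hrel σ
    rw [hqfix σ, hpq] at h1
    exact ((transcendental_iff_injective.mp hxt) h1).symm
  -- Step 3: rational coefficients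
  have hlift : ∀ r : Qb[X], (∀ σ : Γℚ, r.map (σ : Qb →+* Qb) = r) →
      ∃ r₀ : ℚ[X], r₀.map (algebraMap ℚ Qb) = r := by
    intro r hr
    have h1 : r ∈ Polynomial.lifts (algebraMap ℚ Qb) := by
      rw [Polynomial.lifts_iff_coeff_lifts]
      intro n
      obtain ⟨a, ha⟩ := h38_fixed_rat (r.coeff n) (fun σ => by
        have h2 := congrArg (fun s => s.coeff n) (hr σ)
        simpa [coeff_map] using h2)
      exact ⟨a, ha⟩
    exact h1
  obtain ⟨p₀, hp₀⟩ := hlift p hpfix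
  obtain ⟨q₀, hq₀⟩ := hlift q hqfix
  -- Step 4: integer polynomials
  have key : ∀ (R₁ : ℤ[X]) (r₀ : ℚ[X]) (b : ℤ), R₁.map (algebraMap ℤ ℚ) = b • r₀ →
      aeval x R₁ = (b : F) * aeval x (r₀.map (algebraMap ℚ Qb)) := by
    intro R₁ r₀ b h
    have h1 : R₁.map (algebraMap ℤ Qb) = b • r₀.map (algebraMap ℚ Qb) := by
      rw [IsScalarTower.algebraMap_eq ℤ ℚ Qb, ← Polynomial.map_map, h]
      exact map_zsmul (mapRingHom (algebraMap ℚ Qb)) b r₀
    rw [← Polynomial.aeval_map_algebraMap Qb, h1, map_zsmul, zsmul_eq_mul]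
  obtain ⟨bp, hbpM, hbp⟩ := IsLocalization.integerNormalization_spec (nonZeroDivisors ℤ) p₀
  obtain ⟨bq, hbqM, hbq⟩ := IsLocalization.integerNormalization_spec (nonZeroDivisors ℤ) q₀
  refine ⟨C bq * IsLocalization.integerNormalization (nonZeroDivisors ℤ) p₀,
    C bp * IsLocalization.integerNormalization (nonZeroDivisors ℤ) q₀, ?_, ?_⟩
  · refine mul_ne_zero (C_ne_zero.mpr (nonZeroDivisors.ne_zero hbpM)) ?_
    intro h
    rw [h, Polynomial.map_zero] at hbq
    rcases smul_eq_zero.mp hbq.symm with h1 | h1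
    · exact nonZeroDivisors.ne_zero hbqM h1
    · rw [h1, Polynomial.map_zero] at hq₀
      exact hqm.ne_zero hq₀.symm
  · rw [map_mul, map_mul, aeval_C, aeval_C, key _ _ _ hbp, key _ _ _ hbq, hp₀, hq₀, ← hpq]
    simp only [algebraMap_int_eq, eq_intCast]
    ring

omit [Field k] [Field Fb] [Algebra k Fb] in
/-- coordinates in the power basis of a fixed `y` of a `σ`-fixed function are `σ`-fixed. -/
theorem h34_coords_fixed
    (hgal : ∀ (σ : Γℚ) (a : Qb), gal σ • algebraMap Qb F a = algebraMap Qb F (σ a))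
    {x y : F} (hxfix : ∀ σ, gal σ • x = x) (hyfix : ∀ σ, gal σ • y = y) {n : ℕ}
    (hli : LinearIndependent Qb⟮x⟯ (fun i : Fin n => y ^ (i : ℕ))) (c : Fin n → Qb⟮x⟯) (σ : Γℚ)
    (hf : gal σ • (∑ j, c j • y ^ (j : ℕ)) = ∑ j, c j • y ^ (j : ℕ)) (i : Fin n) :
    gal σ • (c i : F) = (c i : F) := by
  let c' : Fin n → Qb⟮x⟯ := fun j =>
    ⟨gal σ • (c j : F), h34_gal_mem_adjoin gal hgal hxfix σ (c j).2⟩
  have h1 : ∑ j, c' j • y ^ (j : ℕ) = ∑ j, c j • y ^ (j : ℕ) := by
    rw [← hf, Finset.smul_sum]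
    refine Finset.sum_congr rfl fun j _ => ?_
    rw [Algebra.smul_def, Algebra.smul_def, smul_mul', smul_pow', hyfix σ]
    rfl
  have h2 : ∑ j, (c' j - c j) • y ^ (j : ℕ) = 0 := by
    simp only [sub_smul, Finset.sum_sub_distrib, h1, sub_self]
  have h3 := (Fintype.linearIndependent_iff.mp hli) (fun j => c' j - c j) h2 i
  have h4 : c' i = c i := sub_eq_zero.mp h3
  exact congrArg (fun z : Qb⟮x⟯ => (z : F)) h4

/-- a Galois-fixed function has Galois-fixed coordinates in the power basis of `y`. -/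
theorem h34_coords
    (hgal : ∀ (σ : Γℚ) (a : Qb), gal σ • algebraMap Qb F a = algebraMap Qb F (σ a))
    (R : h39_RedDatum Qb F k Fb) {x : F} (hx : h39_WeakChart R x) (hxfix : ∀ σ, gal σ • x = x)
    {y : F} (hyfix : ∀ σ, gal σ • y = y) (hyO : y ∈ R.O)
    (hyprim : LinearIndependent k⟮R.redF x⟯
      (fun i : Fin (Module.finrank Qb⟮x⟯ F) => R.redF y ^ (i : ℕ)))
    {f : F} (hf : ∀ σ, gal σ • f = f) :
    ∃ c : Fin (Module.finrank Qb⟮x⟯ F) → Qb⟮x⟯, f = ∑ i, c i • y ^ (i : ℕ) ∧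
      ∀ i σ, gal σ • (c i : F) = (c i : F) := by
  have hli : LinearIndependent Qb⟮x⟯ (fun i : Fin (Module.finrank Qb⟮x⟯ F) => y ^ (i : ℕ)) :=
    h10_li_pow R hx hyO hyprim
  have hfin : FiniteDimensional Qb⟮x⟯ F := hx.finite
  have hne : Nonempty (Fin (Module.finrank Qb⟮x⟯ F)) := ⟨⟨0, Module.finrank_pos⟩⟩
  let b : Module.Basis (Fin (Module.finrank Qb⟮x⟯ F)) Qb⟮x⟯ F :=
    basisOfLinearIndependentOfCardEqFinrank hli (Fintype.card_fin _)
  have hb : ∀ i, b i = y ^ (i : ℕ) := fun i => by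
    simp only [b, coe_basisOfLinearIndependentOfCardEqFinrank]
  have hsum : f = ∑ i, (b.repr f i) • y ^ (i : ℕ) := by
    conv_lhs => rw [← b.sum_repr f]
    exact Finset.sum_congr rfl fun i _ => by rw [hb]
  refine ⟨fun i => b.repr f i, hsum, fun i σ => ?_⟩
  refine h34_coords_fixed gal hgal hxfix hyfix hli (fun i => b.repr f i) σ ?_ i
  rw [← hsum]
  exact hf σ

omit [Field Fb] [Algebra k Fb] in
/-- a nonzero Galois-fixed element of `Qb(x)` is, up to a power of `ℓ`, a quotient of integer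
polynomials which are nonzero modulo `ℓ`. -/
theorem h34_fixed_scale (k : Type*) [Field k] (ℓ : ℕ) [Fact ℓ.Prime] [CharP k ℓ]
    (hgal : ∀ (σ : Γℚ) (a : Qb), gal σ • algebraMap Qb F a = algebraMap Qb F (σ a))
    {x : F} (hxt : Transcendental Qb x) (hxfix : ∀ σ, gal σ • x = x)
    {c : F} (hc : c ∈ Qb⟮x⟯) (hc0 : c ≠ 0) (hcfix : ∀ σ, gal σ • c = c) :
    ∃ (a b : ℕ) (P Q : ℤ[X]), P.map (Int.castRingHom k) ≠ 0 ∧ Q.map (Int.castRingHom k) ≠ 0 ∧
      ((ℓ : ℕ) : F) ^ a * c * aeval x Q = ((ℓ : ℕ) : F) ^ b * aeval x P := by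
  obtain ⟨P₁, Q₁, hQ₁, h⟩ := h34_fixed_frac gal hgal hxt hxfix hc hcfix
  have hP₁ : P₁ ≠ 0 := by
    rintro rfl
    rw [map_zero] at h
    rcases mul_eq_zero.mp h with h1 | h1
    · exact hc0 h1
    · exact h34_int_aeval_ne_zero hxt hQ₁ h1
  obtain ⟨a, Q, hQ, hQk⟩ := h34_factor_pow k ℓ hQ₁
  obtain ⟨b, P, hP, hPk⟩ := h34_factor_pow k ℓ hP₁
  refine ⟨a, b, P, Q, hPk, hQk, ?_⟩
  rw [hQ, hP, map_mul, map_mul, aeval_C, aeval_C] at h
  simp only [algebraMap_int_eq, eq_intCast, Int.cast_pow, Int.cast_natCast] at h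
  rw [← h]
  ring

omit [Field k] [Field Fb] [Algebra k Fb] in
theorem h34_ell_ne_zero (ℓ : ℕ) [Fact ℓ.Prime] : ((ℓ : ℕ) : F) ≠ 0 := by
  rw [← map_natCast (algebraMap Qb F), Ne, map_eq_zero]
  exact Nat.cast_ne_zero.mpr (Fact.out : ℓ.Prime).ne_zero

/-- a Galois-fixed element of `Qb(x) ∩ O` is a quotient of integer polynomials in `x` whose
denominator is nonzero modulo `ℓ`. -/
theorem h34_fixed_int (ℓ : ℕ) [Fact ℓ.Prime]
    (hgal : ∀ (σ : Γℚ) (a : Qb), gal σ • algebraMap Qb F a = algebraMap Qb F (σ a))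
    (R : h39_RedDatum Qb F k Fb) (hℓ : R.resK (ℓ : Qb) = 0)
    {x : F} (hx : h39_WeakChart R x) (hxt : Transcendental Qb x) (hxfix : ∀ σ, gal σ • x = x)
    {c : F} (hc : c ∈ Qb⟮x⟯) (hcO : c ∈ R.O) (hcfix : ∀ σ, gal σ • c = c) :
    ∃ Q P : ℤ[X], Q.map (Int.castRingHom k) ≠ 0 ∧ c * aeval x Q = aeval x P := by
  have hchar : CharP k ℓ := h34_charP ℓ R hℓ
  by_cases hc0 : c = 0
  · refine ⟨1, 0, ?_, ?_⟩
    · rw [Polynomial.map_one]
      exact one_ne_zero
    · rw [hc0, zero_mul, map_zero]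
  obtain ⟨a, b, P, Q, hPk, hQk, h⟩ := h34_fixed_scale gal k ℓ hgal hxt hxfix hc hc0 hcfix
  have hℓ0 : ((ℓ : ℕ) : F) ≠ 0 := h34_ell_ne_zero ℓ
  refine ⟨Q, C (((ℓ : ℕ) : ℤ) ^ (b - a)) * P, hQk, ?_⟩
  rcases le_or_gt a b with hab | hab
  · have h1 : ((ℓ : ℕ) : F) ^ a * (c * aeval x Q) =
        ((ℓ : ℕ) : F) ^ a * (((ℓ : ℕ) : F) ^ (b - a) * aeval x P) := by
      rw [← mul_assoc, h, ← mul_assoc, ← pow_add, Nat.add_sub_cancel' hab]
    have h2 := mul_left_cancel₀ (pow_ne_zero a hℓ0) h1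
    rw [h2, map_mul, aeval_C]
    simp
  · exfalso
    have h1 : ((ℓ : ℕ) : F) ^ (a - b) * c * aeval x Q = aeval x P := by
      have h3 : ((ℓ : ℕ) : F) ^ b * (((ℓ : ℕ) : F) ^ (a - b) * c * aeval x Q) =
          ((ℓ : ℕ) : F) ^ b * aeval x P := by
        rw [← h, ← mul_assoc, ← mul_assoc, ← pow_add, Nat.add_sub_cancel' hab.le]
      exact mul_left_cancel₀ (pow_ne_zero b hℓ0) h3
    have hne := h34_int_aeval_redF_ne R hx.mem hx.transcendental hPk
    rw [← h1] at hne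
    obtain ⟨hℓO, hℓr⟩ := h34_redF_ell ℓ R hℓ
    have hQO := (h34_int_aeval_red R hx.mem Q).1
    rw [h39_redF_mul R (R.O.mul_mem _ _ (R.O.pow_mem hℓO _) hcO) hQO,
      h39_redF_mul R (R.O.pow_mem hℓO _) hcO, h39_redF_pow R hℓO, hℓr,
      zero_pow (by omega), zero_mul, zero_mul] at hne
    exact hne rfl

/-- **(RATNORM), part 1.** -/
theorem h34_ratnorm_one (ℓ : ℕ) [Fact ℓ.Prime]
    (hgal : ∀ (σ : Γℚ) (a : Qb), gal σ • algebraMap Qb F a = algebraMap Qb F (σ a))
    (R : h39_RedDatum Qb F k Fb) (hℓ : R.resK (ℓ : Qb) = 0)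
    {x : F} (hx : h39_WeakChart R x) (hxfix : ∀ σ, gal σ • x = x)
    {y : F} (hyfix : ∀ σ, gal σ • y = y) (hyO : y ∈ R.O)
    (hyprim : LinearIndependent k⟮R.redF x⟯
      (fun i : Fin (Module.finrank Qb⟮x⟯ F) => R.redF y ^ (i : ℕ)))
    (f : F) (hf0 : f ≠ 0) (hf : ∀ σ, gal σ • f = f) :
    ∃ m : ℤ, R.redF (algebraMap Qb F ((ℓ : Qb) ^ m) * f) ≠ 0 := by
  have hchar : CharP k ℓ := h34_charP ℓ R hℓ
  have hxt : Transcendental Qb x := h39_transcendental_of_redF R hx.transcendental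
  obtain ⟨c, hsum, hcfix⟩ := h34_coords gal hgal R hx hxfix hyfix hyO hyprim hf
  have hex : ∃ i, c i ≠ 0 := by
    by_contra hall
    push Not at hall
    apply hf0
    rw [hsum]
    exact Finset.sum_eq_zero fun i _ => by rw [hall i, zero_smul]
  obtain ⟨i₀, hi₀⟩ := hex
  obtain ⟨j, hj, hmax⟩ := h10_exists_max R c i₀ hi₀
  have hval := h10_val_sum_pow R hx hyO hyprim c j hj hmax
  rw [← hsum] at hval
  have hj' : (c j : F) ≠ 0 := fun h => hj (Subtype.ext h)
  obtain ⟨a, b, P, Q, hPk, hQk, h⟩ :=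
    h34_fixed_scale gal k ℓ hgal hxt hxfix (c j).2 hj' (hcfix j)
  have hvP := (h34_redF_ne_zero_iff R _).mp
    (h34_int_aeval_redF_ne R hx.mem hx.transcendental hPk)
  have hvQ := (h34_redF_ne_zero_iff R _).mp
    (h34_int_aeval_redF_ne R hx.mem hx.transcendental hQk)
  have hℓ0 : R.O.valuation ((ℓ : ℕ) : F) ≠ 0 := by
    rw [Ne, map_eq_zero]
    exact h34_ell_ne_zero ℓ
  have hv := congrArg R.O.valuation h
  rw [map_mul, map_mul, map_mul, hvP, hvQ, mul_one, mul_one, map_pow, map_pow] at hv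
  refine ⟨(a : ℤ) - b, ?_⟩
  rw [h34_redF_ne_zero_iff, map_mul, hval, map_zpow₀, map_natCast, map_zpow₀, zpow_sub₀ hℓ0,
    zpow_natCast, zpow_natCast, div_mul_eq_mul_div, hv]
  exact div_self (pow_ne_zero _ hℓ0)

omit [Algebra Qb F] [Field Fb] [Algebra k Fb] in
/-- common denominators. -/
theorem h34_common_denom (k : Type*) [Field k] {ι : Type*} [Fintype ι] {x : F} (c : ι → F)
    (h : ∀ i, ∃ Q P : ℤ[X], Q.map (Int.castRingHom k) ≠ 0 ∧ c i * aeval x Q = aeval x P) :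
    ∃ D : ℤ[X], D.map (Int.castRingHom k) ≠ 0 ∧
      ∃ G : ι → ℤ[X], ∀ i, aeval x D * c i = aeval x (G i) := by
  classical
  choose Q P hQ hP using h
  refine ⟨∏ i, Q i, ?_, fun i => P i * ∏ j ∈ Finset.univ.erase i, Q j, fun i => ?_⟩
  · rw [Polynomial.map_prod]
    exact Finset.prod_ne_zero_iff.mpr fun i _ => hQ i
  · rw [← Finset.mul_prod_erase Finset.univ Q (Finset.mem_univ i), map_mul, map_mul, ← hP i]
    ring

/-- **(RATNORM), part 2.** -/
theorem h34_ratnorm_two (ℓ : ℕ) [Fact ℓ.Prime]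
    (hgal : ∀ (σ : Γℚ) (a : Qb), gal σ • algebraMap Qb F a = algebraMap Qb F (σ a))
    (R : h39_RedDatum Qb F k Fb) (hℓ : R.resK (ℓ : Qb) = 0)
    {x : F} (hx : h39_WeakChart R x) (hxfix : ∀ σ, gal σ • x = x)
    {y : F} (hyfix : ∀ σ, gal σ • y = y) (hyO : y ∈ R.O)
    (hyprim : LinearIndependent k⟮R.redF x⟯
      (fun i : Fin (Module.finrank Qb⟮x⟯ F) => R.redF y ^ (i : ℕ)))
    (n : ℕ) (f : Fin n → F) (hfix : ∀ i σ, gal σ • f i = f i) (hfO : ∀ i, f i ∈ R.O)
    (hdep : ¬ LinearIndependent k (fun i => R.redF (f i))) :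
    ∃ c : Fin n → ℤ, (∃ i, ¬ (ℓ : ℤ) ∣ c i) ∧
      R.redF (∑ i, algebraMap Qb F (c i : Qb) * f i) = 0 := by
  classical
  have hchar : CharP k ℓ := h34_charP ℓ R hℓ
  have hxt : Transcendental Qb x := h39_transcendental_of_redF R hx.transcendental
  -- coordinates
  have hco : ∀ s, ∃ c : Fin (Module.finrank Qb⟮x⟯ F) → Qb⟮x⟯, f s = ∑ i, c i • y ^ (i : ℕ) ∧
      ∀ i σ, gal σ • (c i : F) = (c i : F) :=
    fun s => h34_coords gal hgal R hx hxfix hyfix hyO hyprim (hfix s)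
  choose cs hsum hcsfix using hco
  have hcsO : ∀ s i, (cs s i : F) ∈ R.O := by
    intro s i
    refine h10_on_pow R hx hyO hyprim (cs s) ?_ i
    have h1 : ∑ i, (cs s i : F) * y ^ (i : ℕ) = f s := by
      rw [hsum s]
      exact Finset.sum_congr rfl fun i _ => by rw [Algebra.smul_def]; rfl
    rw [h1]
    exact hfO s
  -- a common denominator
  obtain ⟨D, hDk, G, hG⟩ := h34_common_denom k (x := x)
    (fun p : Fin n × Fin (Module.finrank Qb⟮x⟯ F) => (cs p.1 p.2 : F))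
    (fun p => h34_fixed_int gal ℓ hgal R hℓ hx hxt hxfix (cs p.1 p.2).2 (hcsO p.1 p.2)
      (hcsfix p.1 p.2))
  have hK1 : ∀ s, aeval x D * f s = ∑ i, aeval x (G (s, i)) * y ^ (i : ℕ) := by
    intro s
    rw [hsum s, Finset.mul_sum]
    refine Finset.sum_congr rfl fun i _ => ?_
    rw [Algebra.smul_def, ← mul_assoc]
    congr 1
    exact hG (s, i)
  have hDO := (h34_int_aeval_red R hx.mem D).1
  have hDne := h34_int_aeval_redF_ne R hx.mem hx.transcendental hDk
  have hyiO : ∀ i : ℕ, y ^ i ∈ R.O := fun i => R.O.pow_mem hyO i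
  -- the reduction formula
  have hred : ∀ (g : F) (T : Fin (Module.finrank Qb⟮x⟯ F) → ℤ[X]), g ∈ R.O →
      aeval x D * g = ∑ i, aeval x (T i) * y ^ (i : ℕ) →
      R.redF (aeval x D) * R.redF g = ∑ i, aeval (R.redF x) (T i) * R.redF y ^ (i : ℕ) := by
    intro g T hg h
    rw [← h39_redF_mul R hDO hg, h, h39_redF_sum R Finset.univ
      (fun i : Fin (Module.finrank Qb⟮x⟯ F) => aeval x (T i) * y ^ (i : ℕ))
      (fun i _ => R.O.mul_mem _ _ (h34_int_aeval_red R hx.mem _).1 (hyiO i))]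
    refine Finset.sum_congr rfl fun i _ => ?_
    rw [h39_redF_mul R (h34_int_aeval_red R hx.mem _).1 (hyiO i),
      (h34_int_aeval_red R hx.mem _).2, h39_redF_pow R hyO]
  -- the dependence relation
  obtain ⟨lam, hlam, s₀, hs₀⟩ := Fintype.not_linearIndependent_iff.mp hdep
  have hH : ∀ i, ∑ s, C (lam s) * (G (s, i)).map (Int.castRingHom k) = 0 := by
    have hmemk : ∀ H : k[X], aeval (R.redF x) H ∈ k⟮R.redF x⟯ := fun H =>
      IntermediateField.algebra_adjoin_le_adjoin k _ (Polynomial.aeval_mem_adjoin_singleton k _)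
    have h0 : ∑ i, (⟨aeval (R.redF x) (∑ s, C (lam s) * (G (s, i)).map (Int.castRingHom k)),
        hmemk _⟩ : k⟮R.redF x⟯) • R.redF y ^ (i : ℕ) = 0 := by
      have h1 : R.redF (aeval x D) * ∑ s, lam s • R.redF (f s) = 0 := by rw [hlam, mul_zero]
      rw [← h1, Finset.mul_sum]
      have h2 : ∀ s, R.redF (aeval x D) * (lam s • R.redF (f s)) =
          ∑ i, (algebraMap k Fb (lam s) * aeval (R.redF x) (G (s, i))) * R.redF y ^ (i : ℕ) := by
        intro s
        rw [mul_smul_comm, hred (f s) (fun i => G (s, i)) (hfO s) (hK1 s), Finset.smul_sum]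
        refine Finset.sum_congr rfl fun i _ => ?_
        rw [Algebra.smul_def, mul_assoc]
      simp_rw [h2]
      rw [Finset.sum_comm]
      refine Finset.sum_congr rfl fun i _ => ?_
      rw [Algebra.smul_def, ← Finset.sum_mul]
      congr 1
      change aeval (R.redF x) (∑ s, C (lam s) * (G (s, i)).map (Int.castRingHom k)) = _
      rw [map_sum]
      refine Finset.sum_congr rfl fun s _ => ?_
      rw [map_mul, aeval_C, ← algebraMap_int_eq, Polynomial.aeval_map_algebraMap]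
    intro i
    have h3 := (Fintype.linearIndependent_iff.mp hyprim) _ h0 i
    have h4 : aeval (R.redF x) (∑ s, C (lam s) * (G (s, i)).map (Int.castRingHom k)) = 0 :=
      congrArg (fun z : k⟮R.redF x⟯ => (z : Fb)) h3
    exact transcendental_iff.mp hx.transcendental _ h4
  have hcoef : ∀ i j, ∑ s, lam s * (((G (s, i)).coeff j : ℤ) : k) = 0 := by
    intro i j
    have h1 := congrArg (fun q => q.coeff j) (hH i)
    simpa [finsetSum_coeff, coeff_C_mul, coeff_map] using h1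
  -- descent to the prime field
  let _ : Algebra (ZMod ℓ) k := ZMod.algebra k ℓ
  obtain ⟨φ, hφ⟩ : ∃ φ : Module.Dual (ZMod ℓ) k, φ (lam s₀) ≠ 0 := by
    by_contra hall
    push Not at hall
    exact hs₀ ((Module.forall_dual_apply_eq_zero_iff (ZMod ℓ) (lam s₀)).mp hall)
  choose z hz using fun s => ZMod.intCast_surjective (φ (lam s))
  have hT : ∀ i, (∑ s, C (z s) * G (s, i)).map (Int.castRingHom k) = 0 := by
    intro i
    ext j
    rw [coeff_map, coeff_zero, finsetSum_coeff]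
    simp only [coeff_C_mul]
    rw [eq_intCast, CharP.intCast_eq_zero_iff k ℓ, ← ZMod.intCast_zmod_eq_zero_iff_dvd]
    push_cast
    have h1 : φ (∑ s, (((G (s, i)).coeff j : ℤ) : ZMod ℓ) • lam s) = 0 := by
      have h2 : ∑ s, (((G (s, i)).coeff j : ℤ) : ZMod ℓ) • lam s = 0 := by
        rw [← hcoef i j]
        refine Finset.sum_congr rfl fun s _ => ?_
        rw [Algebra.smul_def, map_intCast, mul_comm]
      rw [h2, map_zero]
    rw [map_sum] at h1
    rw [← h1]
    refine Finset.sum_congr rfl fun s _ => ?_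
    rw [map_smul, smul_eq_mul, hz s, mul_comm]
  refine ⟨z, ⟨s₀, ?_⟩, ?_⟩
  · rw [← ZMod.intCast_zmod_eq_zero_iff_dvd, hz s₀]
    exact hφ
  · have hmem : ∀ s, algebraMap Qb F (z s : Qb) * f s ∈ R.O := fun s => by
      rw [map_intCast]
      exact R.O.mul_mem _ _ (intCast_mem R.O (z s)) (hfO s)
    have hsumO : ∑ s, algebraMap Qb F (z s : Qb) * f s ∈ R.O := sum_mem fun s _ => hmem s
    have hK2 : aeval x D * ∑ s, algebraMap Qb F (z s : Qb) * f s =
        ∑ i, aeval x (∑ s, C (z s) * G (s, i)) * y ^ (i : ℕ) := by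
      rw [Finset.mul_sum]
      have h2 : ∀ s, aeval x D * (algebraMap Qb F (z s : Qb) * f s) =
          ∑ i, (aeval x (C (z s) * G (s, i))) * y ^ (i : ℕ) := by
        intro s
        rw [mul_left_comm, hK1 s, Finset.mul_sum]
        refine Finset.sum_congr rfl fun i _ => ?_
        rw [map_mul, aeval_C, map_intCast, ← mul_assoc]
        simp
      simp_rw [h2]
      rw [Finset.sum_comm]
      refine Finset.sum_congr rfl fun i _ => ?_
      rw [map_sum, Finset.sum_mul]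
    have h5 := hred _ _ hsumO hK2
    have h6 : ∑ i : Fin (Module.finrank Qb⟮x⟯ F),
        aeval (R.redF x) (∑ s, C (z s) * G (s, i)) * R.redF y ^ (i : ℕ) = 0 := by
      refine Finset.sum_eq_zero fun i _ => ?_
      rw [← Polynomial.aeval_map_algebraMap k, algebraMap_int_eq, hT i, map_zero, zero_mul]
    rw [h6] at h5
    rcases mul_eq_zero.mp h5 with h7 | h7
    · exact absurd h7 hDne
    · exact h7

/-! ## X4 RATNORM -/

/-- **(RATNORM)** Galois-fixed functions have Gauss norm in `ℓ^ℤ`, and their reductions are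
defined over the prime field: a `k`-linear relation between reductions of Galois-fixed elements
of `O` implies a relation with integer coefficients not all divisible by `ℓ`. -/
theorem h23_ratnorm [IsAlgClosed k] (ℓ : ℕ) [Fact ℓ.Prime]
    (hgal : ∀ (σ : Γℚ) (a : Qb), gal σ • algebraMap Qb F a = algebraMap Qb F (σ a))
    (R : h39_RedDatum Qb F k Fb)
    (hrat : ∀ q : ℚ, algebraMap ℚ Qb q ∈ R.A ↔ q ∈ GaloisRep.ratLocalizedAt ℓ)
    (hℓ : R.resK (ℓ : Qb) = 0)
    {x : F} (hx : h39_Chart R x) (hxfix : ∀ σ, gal σ • x = x)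
    {y : F} (hyfix : ∀ σ, gal σ • y = y) (hyO : y ∈ R.O) (hyreg : h39_Reg Qb x y)
    (hyprim : LinearIndependent k⟮R.redF x⟯
      (fun i : Fin (Module.finrank Qb⟮x⟯ F) => R.redF y ^ (i : ℕ))) :
    (∀ f : F, f ≠ 0 → (∀ σ, gal σ • f = f) →
      ∃ m : ℤ, R.redF (algebraMap Qb F ((ℓ : Qb) ^ m) * f) ≠ 0) ∧
    (∀ (n : ℕ) (f : Fin n → F), (∀ i σ, gal σ • f i = f i) → (∀ i, f i ∈ R.O) →
      ¬ LinearIndependent k (fun i => R.redF (f i)) →
      ∃ c : Fin n → ℤ, (∃ i, ¬ (ℓ : ℤ) ∣ c i) ∧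
        R.redF (∑ i, algebraMap Qb F (c i : Qb) * f i) = 0) := by
  have _ := hrat
  have _ := hyreg
  exact ⟨fun f hf0 hf =>
      h34_ratnorm_one gal ℓ hgal R hℓ hx.toh39_WeakChart hxfix hyfix hyO hyprim f hf0 hf,
    fun n f hfix hfO hdep =>
      h34_ratnorm_two gal ℓ hgal R hℓ hx.toh39_WeakChart hxfix hyfix hyO hyprim n f hfix hfO hdep⟩

end Qbar

end Fermat.Agent.S19

end
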