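import Mathlib

/-!
# S19 row B4-0a FAM-BASE (helper36): regular families over a ring of `A`-valued functions

`A` a valuation ring of a field `K`, `res : A →+* k` a surjection onto an infinite field
(the shape provided by a reduction datum), `T` finite, `B` an `A`-subalgebra of `T → A`.

* `h26_isUnit_of_pointwise` (U): a pointwise unit of `B` is a unit of `B`;
* `h26_regfam_kernel_res`, `h26_regfam_image_res` (RES): the two REGFAM statements for a matrix
  over `B` of pointwise constant rank over `K` and over `k`, with the residue map `res`;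
* `h26_regfam_ann` (ANN): the annihilator of a regular family is a regular family.

Statements verbatim as frozen by helper26 (S19 GEOM architect).  Mathlib only; self-contained
(generic multipliers by a polynomial non-vanishing argument over the infinite field `k`).
-/

set_option autoImplicit false

noncomputable section

namespace Fermat.Agent.S19

open Polynomial in
/-- A pointwise unit of a subalgebra of a finite power of `A` is a unit of the subalgebra
(it is a root of the monic polynomial `∏ t, (X - u t)` whose constant term is a unit). -/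
theorem h36_isUnit_of_pointwise {A : Type*} [CommRing A] {T : Type*} [Finite T]
    (B : Subalgebra A (T → A)) (u : B) (hu : ∀ t, IsUnit ((u : T → A) t)) : IsUnit u := by
  classical
  cases nonempty_fintype T
  set p : A[X] := ∏ t : T, (X - C ((u : T → A) t)) with hp
  have h0 : Polynomial.aeval u p = 0 := by
    apply Subtype.ext
    funext t
    have h1 : ((Polynomial.aeval u p : B) : T → A) t = Polynomial.aeval ((u : T → A) t) p := by
      have := Polynomial.aeval_algHom_apply ((Pi.evalAlgHom A (fun _ : T => A) t).comp B.val) u p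
      simpa using this.symm
    rw [h1, hp]
    simp only [Polynomial.coe_aeval_eq_eval, Polynomial.eval_prod, Polynomial.eval_sub,
      Polynomial.eval_X, Polynomial.eval_C]
    exact Finset.prod_eq_zero (Finset.mem_univ t) (sub_self _)
  have hc : IsUnit (p.coeff 0) := by
    rw [Polynomial.coeff_zero_eq_eval_zero, hp, Polynomial.eval_prod]
    simp only [Polynomial.eval_sub, Polynomial.eval_X, Polynomial.eval_C, zero_sub]
    rw [IsUnit.prod_univ_iff]
    intro t
    exact (hu t).neg
  have hdiv := Polynomial.divX_mul_X_add p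
  have h2 : Polynomial.aeval u p.divX * u + algebraMap A B (p.coeff 0) = 0 := by
    rw [← h0]
    conv_rhs => rw [← hdiv]
    simp
  obtain ⟨c, hc'⟩ := hc
  refine IsUnit.of_mul_eq_one (-(algebraMap A B (↑c⁻¹ : A)) * Polynomial.aeval u p.divX) ?_
  have h3 : Polynomial.aeval u p.divX * u = - algebraMap A B (p.coeff 0) := by
    linear_combination h2
  calc u * (-(algebraMap A B (↑c⁻¹ : A)) * Polynomial.aeval u p.divX)
      = -(algebraMap A B (↑c⁻¹ : A)) * (Polynomial.aeval u p.divX * u) := by ring
    _ = algebraMap A B (↑c⁻¹ : A) * algebraMap A B (p.coeff 0) := by rw [h3]; ring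
    _ = 1 := by rw [← map_mul, ← hc', Units.inv_mul, map_one]

/-- a matrix of rank `r` over a field has a two-sided "rank factorisation inverse" -/
theorem h36_exists_left_right {k : Type*} [Field k] {m n r : ℕ} (Nb : Matrix (Fin m) (Fin n) k)
    (h : Nb.rank = r) :
    ∃ (P : Matrix (Fin r) (Fin m) k) (Γ : Matrix (Fin n) (Fin r) k), P * Nb * Γ = 1 := by
  classical
  have hfr : Module.finrank k (LinearMap.range Nb.mulVecLin) = r := h
  let b := Module.finBasisOfFinrankEq k (LinearMap.range Nb.mulVecLin) hfr
  have hv : ∀ j : Fin r, ∃ v : Fin n → k, Nb.mulVecLin v = (b j : Fin m → k) := fun j =>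
    (b j).2
  choose v hv using hv
  let Γ : Matrix (Fin n) (Fin r) k := Matrix.of fun i j => v j i
  have hcol : (Nb * Γ).col = fun j => (b j : Fin m → k) := by
    funext j
    rw [← hv j]
    ext i
    simp [Matrix.col, Matrix.mul_apply, Matrix.mulVec, dotProduct, Γ]
  have hli : LinearIndependent k (Nb * Γ).col := by
    rw [hcol]
    exact b.linearIndependent.map' (LinearMap.range Nb.mulVecLin).subtype
      (Submodule.ker_subtype _)
  have hinj : Function.Injective (Nb * Γ).mulVecLin := by
    rw [Matrix.coe_mulVecLin]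
    exact Matrix.mulVec_injective_iff.mpr hli
  obtain ⟨g, hg⟩ := LinearMap.exists_leftInverse_of_injective (Nb * Γ).mulVecLin
    (LinearMap.ker_eq_bot.mpr hinj)
  refine ⟨LinearMap.toMatrix' g, Γ, ?_⟩
  have : LinearMap.toMatrix' g * (Nb * Γ) = 1 := by
    have h1 : LinearMap.toMatrix' (Nb * Γ).mulVecLin = Nb * Γ := by
      rw [← Matrix.toLin'_apply', LinearMap.toMatrix'_toLin']
    rw [← h1, ← LinearMap.toMatrix'_comp, hg, LinearMap.toMatrix'_id]
  rw [Matrix.mul_assoc, this]

open MvPolynomial in
/-- generic choice: simultaneous left/right multipliers for finitely many matrices of rank `r`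
over an infinite field. -/
theorem h36_generic {k : Type*} [Field k] [Infinite k] {T : Type*} [Finite T] {m n r : ℕ}
    (c : Fin r → Fin n) (hc : Function.Injective c)
    (Nb : T → Matrix (Fin m) (Fin n) k) (h : ∀ t, (Nb t).rank = r) :
    ∃ (P : Matrix (Fin r) (Fin m) k) (Q : Matrix (Fin n) (Fin n) k), Q.det ≠ 0 ∧
      ∀ t, (P * Nb t * Q.submatrix id c).det ≠ 0 := by
  classical
  cases nonempty_fintype T
  let σ := (Fin r × Fin m) ⊕ (Fin n × Fin n)
  let XP : Matrix (Fin r) (Fin m) (MvPolynomial σ k) := Matrix.of fun i j => X (Sum.inl (i, j))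
  let XQ : Matrix (Fin n) (Fin n) (MvPolynomial σ k) := Matrix.of fun i j => X (Sum.inr (i, j))
  let F : T → MvPolynomial σ k := fun t =>
    Matrix.det (XP * ((Nb t).map (C : k →+* MvPolynomial σ k) : Matrix (Fin m) (Fin n) (MvPolynomial σ k)) *
      (XQ.submatrix id c : Matrix (Fin n) (Fin r) (MvPolynomial σ k)))
  let G : MvPolynomial σ k := Matrix.det XQ
  have hevalF : ∀ (x : σ → k) (t : T), eval x (F t) =
      ((Matrix.of fun i j => x (Sum.inl (i, j)) : Matrix (Fin r) (Fin m) k) * Nb t *
        (Matrix.of fun i j => x (Sum.inr (i, j)) : Matrix (Fin n) (Fin n) k).submatrix id c).det := by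
    intro x t
    simp only [F]
    rw [RingHom.map_det, RingHom.mapMatrix_apply, Matrix.map_mul, Matrix.map_mul]
    congr 2
    · congr 1
      · ext i j; simp [XP]
      · ext i j; simp
    · ext i j; simp [XQ]
  have hevalG : ∀ (x : σ → k), eval x G =
      (Matrix.of fun i j => x (Sum.inr (i, j)) : Matrix (Fin n) (Fin n) k).det := by
    intro x
    simp only [G]
    rw [RingHom.map_det, RingHom.mapMatrix_apply]
    congr 1
    ext i j; simp [XQ]
  have hF : ∀ t, F t ≠ 0 := by
    intro t hzero
    obtain ⟨P, Γ, hPΓ⟩ := h36_exists_left_right (Nb t) (h t)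
    let x : σ → k := Sum.elim (fun ij => P ij.1 ij.2) (fun ij => Function.extend c (Γ ij.1) 0 ij.2)
    have h1 := hevalF x t
    rw [hzero, map_zero] at h1
    have h2 : (Matrix.of fun i j => x (Sum.inl (i, j)) : Matrix (Fin r) (Fin m) k) = P := by
      ext i j; simp [x]
    have h3 : (Matrix.of fun i j => x (Sum.inr (i, j)) : Matrix (Fin n) (Fin n) k).submatrix id c
        = Γ := by
      ext i j; simp [x, hc.extend_apply]
    rw [h2, h3, hPΓ, Matrix.det_one] at h1
    exact zero_ne_one h1
  have hG : G ≠ 0 := by
    intro hzero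
    let x : σ → k := Sum.elim (fun _ => 0) (fun ij => if ij.1 = ij.2 then 1 else 0)
    have h1 := hevalG x
    rw [hzero, map_zero] at h1
    have h2 : (Matrix.of fun i j => x (Sum.inr (i, j)) : Matrix (Fin n) (Fin n) k) = 1 := by
      ext i j; simp [x, Matrix.one_apply]
    rw [h2, Matrix.det_one] at h1
    exact zero_ne_one h1
  have hH : G * ∏ t, F t ≠ 0 := mul_ne_zero hG (Finset.prod_ne_zero_iff.mpr fun t _ => hF t)
  have hex : ∃ x : σ → k, eval x (G * ∏ t, F t) ≠ 0 := by
    by_contra hcon
    simp only [not_exists, not_not] at hcon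
    exact hH (MvPolynomial.funext fun x => by rw [hcon x, map_zero])
  obtain ⟨x, hx⟩ := hex
  rw [map_mul, map_prod] at hx
  refine ⟨Matrix.of fun i j => x (Sum.inl (i, j)), Matrix.of fun i j => x (Sum.inr (i, j)), ?_, ?_⟩
  · rw [← hevalG]; exact left_ne_zero_of_mul hx
  · intro t
    rw [← hevalF]
    exact (Finset.prod_ne_zero_iff.mp (right_ne_zero_of_mul hx)) t (Finset.mem_univ t)

/-- a matrix killed on the left by a "rank-detecting" multiplier is killed by `N` itself -/
theorem h36_ker_of_left {K : Type*} [Field K] {m n r : ℕ} {ι : Type*}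
    (N : Matrix (Fin m) (Fin n) K) (hN : N.rank = r)
    (P : Matrix (Fin r) (Fin m) K) (Γ : Matrix (Fin n) (Fin r) K)
    (hdet : (P * N * Γ).det ≠ 0) (W : Matrix (Fin n) ι K) (hW : P * N * W = 0) :
    N * W = 0 := by
  classical
  have hinj : Function.Injective (N * Γ).mulVecLin := by
    intro v w hvw
    apply Matrix.mulVec_injective_of_det_ne_zero hdet
    have hvw' : (N * Γ).mulVec v = (N * Γ).mulVec w := hvw
    have h1 : ∀ u, (P * N * Γ).mulVec u = P.mulVec ((N * Γ).mulVec u) := fun u => by
      rw [Matrix.mul_assoc, Matrix.mulVec_mulVec]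
    rw [h1, h1, hvw']
  have hle : LinearMap.range (N * Γ).mulVecLin ≤ LinearMap.range N.mulVecLin := by
    rintro _ ⟨v, rfl⟩
    exact ⟨Γ.mulVec v, by simp [Matrix.mulVec_mulVec]⟩
  have hfr : Module.finrank K (LinearMap.range (N * Γ).mulVecLin) = r := by
    rw [LinearMap.finrank_range_of_inj hinj]; simp
  have heq : LinearMap.range (N * Γ).mulVecLin = LinearMap.range N.mulVecLin :=
    Submodule.eq_of_le_of_finrank_eq hle (by rw [hfr]; exact hN.symm)
  ext i j
  have hmem : N.mulVecLin (fun i' => W i' j) ∈ LinearMap.range (N * Γ).mulVecLin := by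
    rw [heq]; exact ⟨_, rfl⟩
  obtain ⟨v, hv⟩ := hmem
  have hv' : (N * Γ).mulVec v = N.mulVec (fun i' => W i' j) := hv
  have h0 : (P * N * Γ).mulVec v = 0 := by
    have h1 : (P * N * Γ).mulVec v = P.mulVec ((N * Γ).mulVec v) := by
      rw [Matrix.mul_assoc, Matrix.mulVec_mulVec]
    rw [h1, hv', Matrix.mulVec_mulVec]
    ext a
    have h2 := congrFun (congrFun hW a) j
    simpa [Matrix.mul_apply, Matrix.mulVec, dotProduct] using h2
  have hv0 : v = 0 :=
    Matrix.mulVec_injective_of_det_ne_zero hdet (by rw [h0, Matrix.mulVec_zero])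
  have h3 : N.mulVec (fun i' => W i' j) = 0 := by
    rw [← hv', hv0, Matrix.mulVec_zero]
  have h4 := congrFun h3 i
  simpa [Matrix.mul_apply, Matrix.mulVec, dotProduct] using h4

/-- the columns `Γ' - Γ X` of an invertible matrix `(Γ | Γ')` are independent -/
theorem h36_indep_cols {k : Type*} [Field k] {n : ℕ} {α β : Type*} [Fintype α] [Fintype β]
    (Q : Matrix (Fin n) (Fin n) k) (hQ : Q.det ≠ 0) (e : α ⊕ β ≃ Fin n) (X : Matrix α β k) :
    LinearIndependent k
      (Q.submatrix id (e ∘ Sum.inr) - Q.submatrix id (e ∘ Sum.inl) * X).col := by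
  classical
  rw [← Matrix.mulVec_injective_iff]
  have key : ∀ c : β → k,
      (Q.submatrix id (e ∘ Sum.inr) - Q.submatrix id (e ∘ Sum.inl) * X).mulVec c = 0 → c = 0 := by
    intro c hc0
    rw [Matrix.sub_mulVec, ← Matrix.mulVec_mulVec] at hc0
    let d : Fin n → k := fun j => Sum.elim (-(X.mulVec c)) c (e.symm j)
    have hQd : Q.mulVec d = 0 := by
      ext i
      have h1 := congrFun hc0 i
      simp only [Matrix.mulVec, dotProduct, Pi.sub_apply, Matrix.submatrix_apply, id,
        Function.comp_apply, Pi.zero_apply] at h1 ⊢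
      rw [← Equiv.sum_comp e, Fintype.sum_sum_type]
      simp only [d, Equiv.symm_apply_apply, Sum.elim_inl, Sum.elim_inr, Pi.neg_apply, mul_neg,
        Finset.sum_neg_distrib]
      simp only [Matrix.mulVec, dotProduct] at h1 ⊢
      linear_combination h1
    have hd : d = 0 :=
      Matrix.mulVec_injective_of_det_ne_zero hQ (by rw [hQd, Matrix.mulVec_zero])
    funext b
    have h2 := congrFun hd (e (Sum.inr b))
    simpa [d] using h2
  intro c₁ c₂ h12
  have h3 := key (c₁ - c₂) (by rw [Matrix.mulVec_sub, h12, sub_self])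
  exact sub_eq_zero.mp h3

/-- (U) a pointwise unit of an `A`-subalgebra of `T → A` is a unit. -/
theorem h26_isUnit_of_pointwise {K : Type*} [Field K] (A : ValuationSubring K) {T : Type*}
    [Finite T] (B : Subalgebra A (T → A)) (u : B) (hu : ∀ t, IsUnit ((u : T → A) t)) :
    IsUnit u :=
  h36_isUnit_of_pointwise B u hu

/-- evaluation at `t` -/
def h36_evA {K : Type*} [Field K] (A : ValuationSubring K) {T : Type*}
    (B : Subalgebra A (T → A)) (t : T) : B →+* A :=
  (Pi.evalRingHom (fun _ : T => A) t).comp B.val.toRingHom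

theorem h36_evA_apply {K : Type*} [Field K] (A : ValuationSubring K) {T : Type*}
    (B : Subalgebra A (T → A)) (t : T) (f : B) :
    h36_evA A B t f = (f : T → A) t := rfl

theorem h36_evA_algebraMap {K : Type*} [Field K] (A : ValuationSubring K) {T : Type*}
    (B : Subalgebra A (T → A)) (t : T) (a : A) :
    h36_evA A B t (algebraMap A B a) = a := rfl

/-- a surjection of a valuation ring onto a field detects units -/
theorem h36_isUnit_of_res_ne_zero {K : Type*} [Field K] (A : ValuationSubring K) {k : Type*}
    [Field k] (res : A →+* k) (hres : Function.Surjective res) (a : A) (ha : res a ≠ 0) :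
    IsUnit a := by
  by_contra hna
  have hmax : (RingHom.ker res).IsMaximal := RingHom.ker_isMaximal_of_surjective res hres
  have heq : RingHom.ker res = IsLocalRing.maximalIdeal A := IsLocalRing.eq_maximalIdeal hmax
  have hmem : a ∈ IsLocalRing.maximalIdeal A := (IsLocalRing.mem_maximalIdeal a).mpr hna
  rw [← heq, RingHom.mem_ker] at hmem
  exact ha hmem

/-- the common core of the REGFAM statements: generic multipliers over `A` -/
theorem h36_regfam_core {K : Type*} [Field K] (A : ValuationSubring K) {k : Type*} [Field k]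
    [Infinite k] (res : A →+* k) (hres : Function.Surjective res) {T : Type*} [Finite T]
    (B : Subalgebra A (T → A)) {m n : ℕ} (r : ℕ) (N : Matrix (Fin m) (Fin n) B)
    (hk : ∀ t : T, (N.map (fun f : B => res ((f : T → A) t))).rank = r)
    (c : Fin r → Fin n) (hc : Function.Injective c) :
    ∃ (P : Matrix (Fin r) (Fin m) A) (Q : Matrix (Fin n) (Fin n) A),
      (Q.map res).det ≠ 0 ∧
      ∀ t, (P.map res * N.map (res.comp (h36_evA A B t)) * (Q.map res).submatrix id c).det ≠ 0 := by
  classical
  obtain ⟨Pb, Qb, hQb, hPQ⟩ := h36_generic c hc (fun t => N.map (res.comp (h36_evA A B t))) hk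
  choose liftk hliftk using hres
  have hP : (Pb.map liftk).map res = Pb := by
    ext i j; simp [hliftk]
  have hQ : (Qb.map liftk).map res = Qb := by
    ext i j; simp [hliftk]
  refine ⟨Pb.map liftk, Qb.map liftk, ?_, ?_⟩
  · rw [hQ]; exact hQb
  · intro t; rw [hP, hQ]; exact hPQ t

/-- (RES) kernel of a matrix of constant rank over a ring of `A`-valued functions, with an
arbitrary surjective residue map. -/
theorem h26_regfam_kernel_res {K : Type*} [Field K] (A : ValuationSubring K) {k : Type*}
    [Field k] [Infinite k] (res : A →+* k) (hres : Function.Surjective res) {T : Type*}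
    [Finite T] (B : Subalgebra A (T → A)) {m n : ℕ} (r : ℕ) (N : Matrix (Fin m) (Fin n) B)
    (hK : ∀ t : T, (N.map (fun f : B => (((f : T → A) t : A) : K))).rank = r)
    (hk : ∀ t : T, (N.map (fun f : B => res ((f : T → A) t))).rank = r) :
    ∃ W : Matrix (Fin n) (Fin (n - r)) B, N * W = 0 ∧
      ∀ t : T, LinearIndependent k
        (fun (j : Fin (n - r)) (i : Fin n) => res ((W i j : T → A) t)) := by
  classical
  rcases isEmpty_or_nonempty T with hT | ⟨⟨t₀⟩⟩
  · refine ⟨0, by simp, fun t => (hT.false t).elim⟩
  have hrn : r ≤ n := by rw [← hk t₀]; exact Matrix.rank_le_width _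
  let e : Fin r ⊕ Fin (n - r) ≃ Fin n := finSumFinEquiv.trans (finCongr (Nat.add_sub_of_le hrn))
  let c : Fin r → Fin n := e ∘ Sum.inl
  have hc : Function.Injective c := e.injective.comp Sum.inl_injective
  obtain ⟨P, Q, hQ, hPQ⟩ := h36_regfam_core A res hres B r N hk c hc
  let evk : T → (B →+* k) := fun t => res.comp (h36_evA A B t)
  let evK : T → (B →+* K) := fun t => A.subtype.comp (h36_evA A B t)
  let PB : Matrix (Fin r) (Fin m) B := P.map (algebraMap A B)
  let QB : Matrix (Fin n) (Fin n) B := Q.map (algebraMap A B)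
  let Γ : Matrix (Fin n) (Fin r) B := QB.submatrix id c
  let Γ' : Matrix (Fin n) (Fin (n - r)) B := QB.submatrix id (e ∘ Sum.inr)
  let M : Matrix (Fin r) (Fin r) B := PB * N * Γ
  have hPBk : ∀ t, PB.map (evk t) = P.map res := by
    intro t; ext i j; simp [PB, evk, h36_evA_algebraMap]
  have hQBk : ∀ t, QB.map (evk t) = Q.map res := by
    intro t; ext i j; simp [QB, evk, h36_evA_algebraMap]
  have hΓk : ∀ t, Γ.map (evk t) = (Q.map res).submatrix id c := by
    intro t; rw [← hQBk t]; rfl
  have hΓ'k : ∀ t, Γ'.map (evk t) = (Q.map res).submatrix id (e ∘ Sum.inr) := by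
    intro t; rw [← hQBk t]; rfl
  have hMk : ∀ t, M.map (evk t) = P.map res * N.map (evk t) * (Q.map res).submatrix id c := by
    intro t
    simp only [M]
    rw [Matrix.map_mul, Matrix.map_mul, hPBk t, hΓk t]
  have hu : IsUnit M.det := by
    apply h36_isUnit_of_pointwise
    intro t
    apply h36_isUnit_of_res_ne_zero A res hres
    have h1 : res ((M.det : T → A) t) = (M.map (evk t)).det := by
      rw [← RingHom.mapMatrix_apply, ← RingHom.map_det]; rfl
    rw [h1, hMk t]; exact hPQ t
  have hMinv : M * M⁻¹ = 1 := Matrix.mul_nonsing_inv M hu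
  let W : Matrix (Fin n) (Fin (n - r)) B := Γ' - Γ * (M⁻¹ * (PB * N * Γ'))
  refine ⟨W, ?_, ?_⟩
  · -- `N * W = 0`, checked pointwise over the field `K`
    have hpt : ∀ t, N.map (evK t) * W.map (evK t) = 0 := by
      intro t
      apply h36_ker_of_left (N.map (evK t)) (hK t) (PB.map (evK t)) (Γ.map (evK t))
      · have h1 : M.map (evK t) * (M⁻¹).map (evK t) = 1 := by
          rw [← Matrix.map_mul, hMinv, Matrix.map_one _ (map_zero _) (map_one _)]
        have h2 : PB.map (evK t) * N.map (evK t) * Γ.map (evK t) = M.map (evK t) := by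
          simp only [M]; rw [Matrix.map_mul, Matrix.map_mul]
        rw [h2]
        exact Matrix.det_ne_zero_of_right_inverse h1
      · have h3 : PB * N * W = 0 := by
          simp only [W]
          rw [Matrix.mul_sub, ← Matrix.mul_assoc (PB * N) Γ, ← Matrix.mul_assoc (PB * N * Γ)]
          change PB * N * Γ' - M * M⁻¹ * (PB * N * Γ') = 0
          rw [hMinv, Matrix.one_mul, sub_self]
        rw [← Matrix.map_mul, ← Matrix.map_mul, h3, Matrix.map_zero _ (map_zero _)]
    ext i j t
    have h4 := congrFun (congrFun (hpt t) i) j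
    rw [← Matrix.map_mul] at h4
    exact h4
  · intro t
    have h5 : W.map (evk t) = (Q.map res).submatrix id (e ∘ Sum.inr) -
        (Q.map res).submatrix id (e ∘ Sum.inl) * ((M⁻¹ * (PB * N * Γ')).map (evk t)) := by
      simp only [W]
      rw [Matrix.map_sub (⇑(evk t)) (fun a b => map_sub (evk t) a b),
        Matrix.map_mul, hΓ'k t, hΓk t]
    have h6 := h36_indep_cols (Q.map res) hQ e ((M⁻¹ * (PB * N * Γ')).map (evk t))
    rw [← h5] at h6
    exact h6

set_option linter.unusedVariables false in
/-- (RES) image version: generic combinations of the columns of a matrix of constant rank, with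
an arbitrary surjective residue map. -/
theorem h26_regfam_image_res {K : Type*} [Field K] (A : ValuationSubring K) {k : Type*}
    [Field k] [Infinite k] (res : A →+* k) (hres : Function.Surjective res) {T : Type*}
    [Finite T] (B : Subalgebra A (T → A)) {m n : ℕ} (r : ℕ) (N : Matrix (Fin m) (Fin n) B)
    (hK : ∀ t : T, (N.map (fun f : B => (((f : T → A) t : A) : K))).rank = r)
    (hk : ∀ t : T, (N.map (fun f : B => res ((f : T → A) t))).rank = r) :
    ∃ Γ : Matrix (Fin n) (Fin r) A,
      ∀ t : T, LinearIndependent k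
        (fun (j : Fin r) (i : Fin m) => res (((N * Γ.map (algebraMap A B)) i j : T → A) t)) := by
  classical
  rcases isEmpty_or_nonempty T with hT | ⟨⟨t₀⟩⟩
  · exact ⟨0, fun t => (hT.false t).elim⟩
  have hrn : r ≤ n := by rw [← hk t₀]; exact Matrix.rank_le_width _
  obtain ⟨P, Q, -, hPQ⟩ := h36_regfam_core A res hres B r N hk (Fin.castLE hrn)
    (Fin.castLE_injective hrn)
  refine ⟨Q.submatrix id (Fin.castLE hrn), fun t => ?_⟩
  have h1 : ((N * (Q.submatrix id (Fin.castLE hrn)).map (algebraMap A B)).map
      (res.comp (h36_evA A B t)))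
      = N.map (res.comp (h36_evA A B t)) * (Q.map res).submatrix id (Fin.castLE hrn) := by
    rw [Matrix.map_mul]
    congr 1
  have h2 : Function.Injective (N.map (res.comp (h36_evA A B t)) *
        (Q.map res).submatrix id (Fin.castLE hrn)).mulVec := by
    intro v w hvw
    apply Matrix.mulVec_injective_of_det_ne_zero (hPQ t)
    have hm : ∀ u, (P.map res * N.map (res.comp (h36_evA A B t)) *
        (Q.map res).submatrix id (Fin.castLE hrn)).mulVec u =
        (P.map res).mulVec ((N.map (res.comp (h36_evA A B t)) *
          (Q.map res).submatrix id (Fin.castLE hrn)).mulVec u) := fun u => by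
      rw [Matrix.mul_assoc, Matrix.mulVec_mulVec]
    rw [hm, hm, hvw]
  have h3 := Matrix.mulVec_injective_iff.mp h2
  rw [← h1] at h3
  exact h3

/-- a matrix with independent columns has full column rank -/
theorem h36_rank_of_indep_cols {k : Type*} [Field k] {n d : ℕ} (M : Matrix (Fin n) (Fin d) k)
    (hM : LinearIndependent k M.col) : M.rank = d := by
  have hinj : Function.Injective M.mulVecLin := by
    rw [Matrix.coe_mulVecLin]; exact Matrix.mulVec_injective_iff.mpr hM
  unfold Matrix.rank
  rw [LinearMap.finrank_range_of_inj hinj]; simp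

/-- full column rank modulo the maximal ideal implies full column rank over the field -/
theorem h36_rank_K_of_res {K : Type*} [Field K] (A : ValuationSubring K) {k : Type*}
    [Field k] (res : A →+* k) (hres : Function.Surjective res) {n d : ℕ}
    (M : Matrix (Fin n) (Fin d) A) (hM : (M.map res).rank = d) :
    (M.map A.subtype).rank = d := by
  classical
  obtain ⟨Pb, Γb, hPΓ⟩ := h36_exists_left_right (M.map res) hM
  choose liftk hliftk using hres
  have hP : (Pb.map liftk).map res = Pb := by ext i j; simp [hliftk]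
  have hΓ : (Γb.map liftk).map res = Γb := by ext i j; simp [hliftk]
  set P : Matrix (Fin d) (Fin n) A := Pb.map liftk with hPdef
  set Γ : Matrix (Fin d) (Fin d) A := Γb.map liftk with hΓdef
  have hdet : (P * M * Γ).det ≠ 0 := by
    intro h0
    have h1 : res (P * M * Γ).det = 1 := by
      rw [RingHom.map_det, RingHom.mapMatrix_apply, Matrix.map_mul, Matrix.map_mul, hP, hΓ, hPΓ,
        Matrix.det_one]
    rw [h0, map_zero] at h1
    exact zero_ne_one h1
  have hdetK : ((P * M * Γ).map A.subtype).det ≠ 0 := by
    rw [← RingHom.mapMatrix_apply, ← RingHom.map_det]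
    intro h0
    exact hdet (Subtype.ext h0)
  have hunit : IsUnit ((P * M * Γ).map A.subtype) :=
    (Matrix.isUnit_iff_isUnit_det _).mpr (IsUnit.mk0 _ hdetK)
  have hrk : ((P * M * Γ).map A.subtype).rank = d := by
    rw [Matrix.rank_of_isUnit _ hunit]; simp
  have hle1 : ((P * M * Γ).map A.subtype).rank ≤ (M.map A.subtype).rank := by
    rw [Matrix.map_mul, Matrix.map_mul]
    exact (Matrix.rank_mul_le_left _ _).trans (Matrix.rank_mul_le_right _ _)
  have hle2 : (M.map A.subtype).rank ≤ d := Matrix.rank_le_width _
  omega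

/-- (ANN) the annihilator of a regular family is a regular family. -/
theorem h26_regfam_ann {K : Type*} [Field K] (A : ValuationSubring K) {k : Type*}
    [Field k] [Infinite k] (res : A →+* k) (hres : Function.Surjective res) {T : Type*}
    [Finite T] (B : Subalgebra A (T → A)) {n d : ℕ} (W : Matrix (Fin n) (Fin d) B)
    (hW : ∀ t, LinearIndependent k (fun (j : Fin d) (i : Fin n) => res ((W i j : T → A) t))) :
    ∃ V : Matrix (Fin (n - d)) (Fin n) B, V * W = 0 ∧
      ∀ t, LinearIndependent k (fun (s : Fin (n - d)) (i : Fin n) => res ((V s i : T → A) t)) := by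
  classical
  have hrk : ∀ t, ((W.map (h36_evA A B t)).map res).rank = d := fun t =>
    h36_rank_of_indep_cols _ (hW t)
  have hk : ∀ t : T, (W.transpose.map (fun f : B => res ((f : T → A) t))).rank = d := by
    intro t
    have h1 : W.transpose.map (fun f : B => res ((f : T → A) t)) = ((W.map (h36_evA A B t)).map res).transpose := rfl
    rw [h1, Matrix.rank_transpose]; exact hrk t
  have hK : ∀ t : T, (W.transpose.map (fun f : B => (((f : T → A) t : A) : K))).rank = d := by
    intro t
    have h1 : W.transpose.map (fun f : B => (((f : T → A) t : A) : K)) =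
        ((W.map (h36_evA A B t)).map A.subtype).transpose := rfl
    rw [h1, Matrix.rank_transpose]
    exact h36_rank_K_of_res A res hres _ (hrk t)
  obtain ⟨W', hW'0, hW'⟩ := h26_regfam_kernel_res A res hres B d W.transpose hK hk
  refine ⟨W'.transpose, ?_, fun t => hW' t⟩
  have h1 : W'.transpose * W = (W.transpose * W').transpose := by
    rw [Matrix.transpose_mul, Matrix.transpose_transpose]
  rw [h1, hW'0, Matrix.transpose_zero]

end Fermat.Agent.S19

end
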