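import Mathlib

/-!
# S19 / B1 REGFAM : kernels and images of matrices of constant rank over rings of functions

`A` a valuation subring of a field `K` with infinite residue field `k`, `T` a finite set, `B` an
`A`-subalgebra of `T → A`, `N` a matrix over `B` whose pointwise rank is `r` over `K` and over
`k`.  Then

* `h26_regfam_image` : some constant matrix `Γ` over `A` makes the columns of `N * Γ` pointwise
  independent modulo the maximal ideal;
* `h26_regfam_kernel` : the kernel of `N` has `n - r` vectors with entries in `B` that are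
  pointwise independent modulo the maximal ideal.

(helper47; Mathlib only.)
-/

set_option autoImplicit false

namespace Fermat.Agent.S19

open IsLocalRing Module

/-! ### Linear algebra over a field -/

section Field

variable {k : Type*} [Field k]

/-- Columns of a product are images of the columns of the right factor. -/
theorem h47_col_mul {m n r : ℕ} (M : Matrix (Fin m) (Fin n) k) (G : Matrix (Fin n) (Fin r) k)
    (j : Fin r) : (M * G).col j = M.mulVec (G.col j) := by
  funext i
  simp [Matrix.col, Matrix.mul_apply, Matrix.mulVec, dotProduct]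

/-- Generic columns: finitely many matrices of rank `r` over an infinite field have a common
`r`-column combination of full rank. -/
theorem h47_generic_cols [Infinite k] {T : Type*} [Finite T] {m n : ℕ} (r : ℕ)
    (N : T → Matrix (Fin m) (Fin n) k) (hN : ∀ t, (N t).rank = r) :
    ∃ G : Matrix (Fin n) (Fin r) k, ∀ t, LinearIndependent k (N t * G).col := by
  classical
  have := Fintype.ofFinite T
  have key : ∀ s : ℕ, s ≤ r → ∃ g : Fin s → (Fin n → k),
      ∀ t, LinearIndependent k (fun j => (N t).mulVec (g j)) := by
    intro s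
    induction s with
    | zero =>
      intro _
      exact ⟨Fin.elim0, fun t => linearIndependent_empty_type⟩
    | succ s ih =>
      intro hs
      obtain ⟨g, hg⟩ := ih (Nat.le_of_succ_le hs)
      let U : T → Submodule k (Fin n → k) := fun t =>
        (Submodule.span k (Set.range fun j => (N t).mulVec (g j))).comap (N t).mulVecLin
      have hU : ∀ t, U t ≠ ⊤ := by
        intro t htop
        have hle : LinearMap.range (N t).mulVecLin ≤
            Submodule.span k (Set.range fun j => (N t).mulVec (g j)) := by
          rintro _ ⟨x, rfl⟩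
          have hx : x ∈ U t := by
            rw [htop]
            exact Submodule.mem_top
          exact hx
        have h1 := Submodule.finrank_mono hle
        have h2 : finrank k (Submodule.span k (Set.range fun j => (N t).mulVec (g j))) = s := by
          rw [finrank_span_eq_card (hg t), Fintype.card_fin]
        have h3 : finrank k (LinearMap.range (N t).mulVecLin) = r := hN t
        omega
      have hS : (⊤ : Submodule k (Fin n → k)) ∉ Finset.univ.image U := by
        intro h
        obtain ⟨t, -, ht⟩ := Finset.mem_image.mp h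
        exact hU t ht
      have hne := Subspace.biUnion_ne_univ_of_top_notMem hS
      obtain ⟨γ, hγ⟩ : ∃ γ : Fin n → k, γ ∉ ⋃ p ∈ Finset.univ.image U, (p : Set (Fin n → k)) := by
        by_contra hcon
        push Not at hcon
        exact hne (Set.eq_univ_of_forall hcon)
      have hγ' : ∀ t, (N t).mulVec γ ∉
          Submodule.span k (Set.range fun j => (N t).mulVec (g j)) := by
        intro t hmem
        apply hγ
        simp only [Set.mem_iUnion, Finset.mem_image, Finset.mem_univ, true_and, exists_prop]
        exact ⟨U t, ⟨t, rfl⟩, hmem⟩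
      refine ⟨Fin.snoc g γ, fun t => ?_⟩
      have heq : (fun j => (N t).mulVec ((Fin.snoc g γ : Fin (s + 1) → Fin n → k) j)) =
          Fin.snoc (fun j => (N t).mulVec (g j)) ((N t).mulVec γ) := by
        have := Fin.comp_snoc (fun v : Fin n → k => (N t).mulVec v) g γ
        exact this
      rw [heq]
      exact linearIndependent_finSnoc.mpr ⟨hg t, hγ' t⟩
  obtain ⟨g, hg⟩ := key r le_rfl
  refine ⟨Matrix.of fun i j => g j i, fun t => ?_⟩
  have : (N t * Matrix.of fun i j => g j i).col = fun j => (N t).mulVec (g j) := by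
    funext j
    rw [h47_col_mul]
    rfl
  rw [this]
  exact hg t

/-- A matrix with `r` independent columns has rank `r`. -/
theorem h47_rank_of_cols {m r : ℕ} (M : Matrix (Fin m) (Fin r) k)
    (h : LinearIndependent k M.col) : M.rank = r := by
  rw [Matrix.rank_eq_finrank_span_cols, finrank_span_eq_card h, Fintype.card_fin]

/-- If `mo⁻¹ * (δ * n * γ) = 1` and `n` has rank `r` (the size of `mo`), then
`n * (γ * mo⁻¹ * δ * n) = n`. -/
theorem h47_proj_eq {m n r : ℕ} (N : Matrix (Fin m) (Fin n) k) (hN : N.rank = r)
    (γ : Matrix (Fin n) (Fin r) k) (δ : Matrix (Fin r) (Fin m) k) (mi : Matrix (Fin r) (Fin r) k)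
    (h : mi * (δ * (N * γ)) = 1) : N * (γ * mi * δ * N) = N := by
  have hX : (N * γ).rank = r := by
    apply le_antisymm (Matrix.rank_le_width _)
    have h1 : (mi * (δ * (N * γ))).rank = r := by
      rw [h, Matrix.rank_one, Fintype.card_fin]
    have h2 := Matrix.rank_mul_le_right mi (δ * (N * γ))
    have h3 := Matrix.rank_mul_le_right δ (N * γ)
    omega
  have hle : LinearMap.range (N * γ).mulVecLin ≤ LinearMap.range N.mulVecLin := by
    rw [Matrix.mulVecLin_mul]
    exact LinearMap.range_comp_le_range _ _
  have heq : LinearMap.range (N * γ).mulVecLin = LinearMap.range N.mulVecLin :=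
    Submodule.eq_of_le_of_finrank_eq hle (by
      show (N * γ).rank = N.rank
      rw [hX, hN])
  apply Matrix.toLin'.injective
  apply LinearMap.ext
  intro x
  rw [Matrix.toLin'_apply, Matrix.toLin'_apply]
  have hx : N.mulVecLin x ∈ LinearMap.range (N * γ).mulVecLin := by
    rw [heq]
    exact LinearMap.mem_range_self _ _
  obtain ⟨y, hy⟩ := hx
  rw [Matrix.mulVecLin_apply, Matrix.mulVecLin_apply] at hy
  have e1 : N * (γ * mi * δ * N) = (N * γ * mi * δ) * N := by
    simp only [Matrix.mul_assoc]
  have e2 : N * γ * mi * δ * (N * γ) = (N * γ) * (mi * (δ * (N * γ))) := by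
    simp only [Matrix.mul_assoc]
  rw [e1, ← Matrix.mulVec_mulVec, ← hy, Matrix.mulVec_mulVec, e2, h, Matrix.mul_one]

/-- The complementary projector: if `h * g = 1` (of size `r`) then `1 - g * h` has rank
`n - r`. -/
theorem h47_rank_one_sub {n r : ℕ} (g : Matrix (Fin n) (Fin r) k) (h : Matrix (Fin r) (Fin n) k)
    (hg : h * g = 1) : (1 - g * h).rank = n - r := by
  have hgr : g.rank = r := by
    apply le_antisymm (Matrix.rank_le_width _)
    have h1 : (h * g).rank = r := by rw [hg, Matrix.rank_one, Fintype.card_fin]
    have h2 := Matrix.rank_mul_le_right h g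
    omega
  have hker : LinearMap.ker (1 - g * h).mulVecLin = LinearMap.range g.mulVecLin := by
    apply le_antisymm
    · intro x hx
      have hx' : (1 - g * h).mulVec x = 0 := hx
      rw [Matrix.sub_mulVec, Matrix.one_mulVec, sub_eq_zero] at hx'
      refine ⟨h.mulVec x, ?_⟩
      rw [Matrix.mulVecLin_apply, Matrix.mulVec_mulVec]
      exact hx'.symm
    · rintro _ ⟨y, rfl⟩
      rw [LinearMap.mem_ker, Matrix.mulVecLin_apply, Matrix.mulVecLin_apply, Matrix.sub_mulVec,
        Matrix.one_mulVec, Matrix.mulVec_mulVec, Matrix.mul_assoc, hg, Matrix.mul_one, sub_self]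
  have hrn := LinearMap.finrank_range_add_finrank_ker (1 - g * h).mulVecLin
  rw [hker] at hrn
  have h1 : finrank k (LinearMap.range g.mulVecLin) = r := hgr
  have h2 : finrank k (Fin n → k) = n := by simp
  unfold Matrix.rank
  omega

end Field

/-! ### Units of rings of functions -/

/-- A function of a subalgebra of `T → R` (`T` finite) with unit values is a unit of the
subalgebra. -/
theorem h47_isUnit_of_pointwise {R : Type*} [CommRing R] {T : Type*} [Finite T]
    (B : Subalgebra R (T → R)) (u : B) (hu : ∀ t, IsUnit ((u : T → R) t)) : IsUnit u := by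
  classical
  have := Fintype.ofFinite T
  let p : Polynomial R := ∏ t : T, (Polynomial.X - Polynomial.C ((u : T → R) t))
  have hpe : ∀ t, p.eval ((u : T → R) t) = 0 := by
    intro t
    rw [Polynomial.eval_prod]
    exact Finset.prod_eq_zero (Finset.mem_univ t) (by simp)
  have hc : IsUnit (p.coeff 0) := by
    rw [Polynomial.coeff_zero_eq_eval_zero, Polynomial.eval_prod]
    refine Finset.prod_induction _ IsUnit (fun a b ha hb => ha.mul hb) isUnit_one ?_
    intro t _
    simp only [Polynomial.eval_sub, Polynomial.eval_X, Polynomial.eval_C, zero_sub]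
    exact (hu t).neg
  obtain ⟨c, hc'⟩ := hc
  have hpq : ∀ x : R, p.eval x = p.divX.eval x * x + p.coeff 0 := by
    intro x
    conv_lhs => rw [← Polynomial.divX_mul_X_add p]
    simp
  have h1 : ∀ t, ((Polynomial.aeval u p.divX : B) : T → R) t = p.divX.eval ((u : T → R) t) := by
    intro t
    rw [Polynomial.aeval_subalgebra_coe]
    have := Polynomial.aeval_algHom_apply (Pi.evalAlgHom R (fun _ : T => R) t) (u : T → R) p.divX
    rw [Polynomial.coe_aeval_eq_eval] at this
    exact this.symm
  refine IsUnit.of_mul_eq_one (-((c⁻¹ : Rˣ) : R) • Polynomial.aeval u p.divX) ?_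
  apply Subtype.ext
  funext t
  have h2 := hpq ((u : T → R) t)
  rw [hpe t, ← hc'] at h2
  show (u : T → R) t * (-((c⁻¹ : Rˣ) : R) • ((Polynomial.aeval u p.divX : B) : T → R) t) = 1
  rw [h1 t, smul_eq_mul]
  have h3 : p.divX.eval ((u : T → R) t) * (u : T → R) t = -(c : R) := by
    linear_combination h2.symm
  calc (u : T → R) t * (-((c⁻¹ : Rˣ) : R) * p.divX.eval ((u : T → R) t))
      = -((c⁻¹ : Rˣ) : R) * (p.divX.eval ((u : T → R) t) * (u : T → R) t) := by ring
    _ = 1 := by rw [h3]; simp


/-! ### The regular-family lemmas -/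

section Val

open scoped Matrix

variable {K : Type*} [Field K] (A : ValuationSubring K) {T : Type*}

/-- Evaluation at `t`, as a ring homomorphism `B →+* A`. -/
def h47_evA (B : Subalgebra A (T → A)) (t : T) : B →+* A :=
  (Pi.evalRingHom (fun _ : T => A) t).comp (B.val : B →+* (T → A))

theorem h47_evA_apply (B : Subalgebra A (T → A)) (t : T) (f : B) :
    h47_evA A B t f = (f : T → A) t := rfl

theorem h47_evA_algebraMap (B : Subalgebra A (T → A)) (t : T) (a : A) :
    h47_evA A B t (algebraMap A B a) = a := rfl

/-- IMAGE, in terms of the evaluation homomorphisms. -/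
theorem h47_regfam_image [Infinite (ResidueField A)] [Finite T]
    (B : Subalgebra A (T → A)) {m n : ℕ} (r : ℕ) (N : Matrix (Fin m) (Fin n) B)
    (hk : ∀ t : T, (N.map ((residue A).comp (h47_evA A B t))).rank = r) :
    ∃ Γ : Matrix (Fin n) (Fin r) A, ∀ t : T, LinearIndependent (ResidueField A)
      ((N * Γ.map (algebraMap A B)).map ((residue A).comp (h47_evA A B t))).col := by
  obtain ⟨G, hG⟩ := h47_generic_cols r (fun t => N.map ((residue A).comp (h47_evA A B t))) hk
  have hsurj : ∀ i j, ∃ a : A, residue A a = G i j := fun i j => residue_surjective _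
  choose Γ hΓ using hsurj
  refine ⟨Matrix.of Γ, fun t => ?_⟩
  have h1 : (N * (Matrix.of Γ).map (algebraMap A B)).map ((residue A).comp (h47_evA A B t)) =
      N.map ((residue A).comp (h47_evA A B t)) * G := by
    rw [Matrix.map_mul]
    congr 1
    ext i j
    simp only [Matrix.map_apply, Matrix.of_apply, RingHom.comp_apply, h47_evA_algebraMap, hΓ]
  rw [h1]
  exact hG t

/-- KERNEL, in terms of the evaluation homomorphisms. -/
theorem h47_regfam_kernel [Infinite (ResidueField A)] [Finite T]
    (B : Subalgebra A (T → A)) {m n : ℕ} (r : ℕ) (N : Matrix (Fin m) (Fin n) B)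
    (hK : ∀ t : T, (N.map (A.subtype.comp (h47_evA A B t))).rank = r)
    (hk : ∀ t : T, (N.map ((residue A).comp (h47_evA A B t))).rank = r) :
    ∃ W : Matrix (Fin n) (Fin (n - r)) B, N * W = 0 ∧
      ∀ t : T, LinearIndependent (ResidueField A)
        (W.map ((residue A).comp (h47_evA A B t))).col := by
  classical
  -- generic columns
  obtain ⟨Γ, hΓ⟩ := h47_regfam_image A B r N hk
  set ΓB : Matrix (Fin n) (Fin r) B := Γ.map (algebraMap A B) with hΓB
  -- generic rows
  have hk2 : ∀ t, (((N * ΓB)ᵀ).map ((residue A).comp (h47_evA A B t))).rank = r := by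
    intro t
    rw [Matrix.transpose_map, Matrix.rank_transpose]
    exact h47_rank_of_cols _ (hΓ t)
  obtain ⟨Δt, hΔ⟩ := h47_regfam_image A B r (N * ΓB)ᵀ hk2
  set Δ : Matrix (Fin r) (Fin m) B := (Δt.map (algebraMap A B))ᵀ with hΔdef
  set Mo : Matrix (Fin r) (Fin r) B := Δ * (N * ΓB) with hMo
  have hMoT : Moᵀ = (N * ΓB)ᵀ * Δt.map (algebraMap A B) := by
    rw [hMo, Matrix.transpose_mul, hΔdef, Matrix.transpose_transpose]
  -- the determinant is pointwise a unit
  have hdet : ∀ t, IsUnit (((Mo.det : B) : T → A) t) := by
    intro t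
    have h1 : LinearIndependent (ResidueField A)
        ((Moᵀ).map ((residue A).comp (h47_evA A B t))).col := by
      rw [hMoT]
      exact hΔ t
    have h2 := Matrix.linearIndependent_cols_iff_isUnit.mp h1
    have h3 := (Matrix.isUnit_iff_isUnit_det _).mp h2
    have h4 : ((Moᵀ).map ((residue A).comp (h47_evA A B t))).det =
        ((residue A).comp (h47_evA A B t)) Mo.det := by
      rw [← RingHom.mapMatrix_apply, ← RingHom.map_det, Matrix.det_transpose]
    rw [h4] at h3
    have h5 : residue A (((Mo.det : B) : T → A) t) ≠ 0 := h3.ne_zero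
    by_contra hnu
    exact h5 ((residue_eq_zero_iff _).mpr ((mem_maximalIdeal _).mpr hnu))
  have hunit : IsUnit Mo.det := h47_isUnit_of_pointwise B Mo.det hdet
  have hMoinv : Mo⁻¹ * Mo = 1 := Matrix.nonsing_inv_mul Mo hunit
  set Q : Matrix (Fin n) (Fin n) B := 1 - ΓB * Mo⁻¹ * Δ * N with hQ
  -- `N * Q = 0`, checked pointwise over `K`
  have hNQ : N * Q = 0 := by
    have hmap : ∀ t, (N * Q).map (A.subtype.comp (h47_evA A B t)) = 0 := by
      intro t
      rw [Matrix.map_mul, hQ, Matrix.map_sub _ (map_sub _),
        Matrix.map_one _ (map_zero _) (map_one _),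
        Matrix.map_mul, Matrix.map_mul, Matrix.map_mul, Matrix.mul_sub, Matrix.mul_one,
        sub_eq_zero]
      symm
      apply h47_proj_eq _ (hK t)
      rw [← Matrix.map_mul, ← Matrix.map_mul, ← Matrix.map_mul, ← hMo, hMoinv,
        Matrix.map_one _ (map_zero _) (map_one _)]
    ext i j t
    exact congrFun (congrFun (hmap t) i) j
  -- the rank of `Q` modulo the maximal ideal
  have hQk : ∀ t, (Q.map ((residue A).comp (h47_evA A B t))).rank = n - r := by
    intro t
    have e1 : ΓB * Mo⁻¹ * Δ * N = ΓB * (Mo⁻¹ * Δ * N) := by simp only [Matrix.mul_assoc]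
    have e2 : Mo⁻¹ * Δ * N * ΓB = Mo⁻¹ * Mo := by rw [hMo]; simp only [Matrix.mul_assoc]
    rw [hQ, Matrix.map_sub _ (map_sub _), Matrix.map_one _ (map_zero _) (map_one _), e1,
      Matrix.map_mul]
    apply h47_rank_one_sub
    rw [← Matrix.map_mul, e2, hMoinv, Matrix.map_one _ (map_zero _) (map_one _)]
  obtain ⟨Γ2, hΓ2⟩ := h47_regfam_image A B (n - r) Q hQk
  refine ⟨Q * Γ2.map (algebraMap A B), ?_, hΓ2⟩
  rw [← Matrix.mul_assoc, hNQ, Matrix.zero_mul]

end Val

/-! ### The exported statements (verbatim) -/

/-- (B1 REGFAM) kernel of a matrix of constant rank over a ring of `A`-valued functions. -/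
theorem h26_regfam_kernel {K : Type*} [Field K] (A : ValuationSubring K)
    [Infinite (IsLocalRing.ResidueField A)] {T : Type*} [Finite T]
    (B : Subalgebra A (T → A)) {m n : ℕ} (r : ℕ) (N : Matrix (Fin m) (Fin n) B)
    (hK : ∀ t : T, (N.map (fun f : B => (((f : T → A) t : A) : K))).rank = r)
    (hk : ∀ t : T, (N.map (fun f : B => IsLocalRing.residue A ((f : T → A) t))).rank = r) :
    ∃ W : Matrix (Fin n) (Fin (n - r)) B, N * W = 0 ∧
      ∀ t : T, LinearIndependent (IsLocalRing.ResidueField A)
        (fun (j : Fin (n - r)) (i : Fin n) => IsLocalRing.residue A ((W i j : T → A) t)) :=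
  h47_regfam_kernel A B r N hK hk

set_option linter.unusedVariables false in
/-- (B1 REGFAM) image version: generic combinations of the columns of a matrix of constant rank. -/
theorem h26_regfam_image {K : Type*} [Field K] (A : ValuationSubring K)
    [Infinite (IsLocalRing.ResidueField A)] {T : Type*} [Finite T]
    (B : Subalgebra A (T → A)) {m n : ℕ} (r : ℕ) (N : Matrix (Fin m) (Fin n) B)
    (hK : ∀ t : T, (N.map (fun f : B => (((f : T → A) t : A) : K))).rank = r)
    (hk : ∀ t : T, (N.map (fun f : B => IsLocalRing.residue A ((f : T → A) t))).rank = r) :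
    ∃ Γ : Matrix (Fin n) (Fin r) A,
      ∀ t : T, LinearIndependent (IsLocalRing.ResidueField A)
        (fun (j : Fin r) (i : Fin m) => IsLocalRing.residue A
          (((N * Γ.map (algebraMap A B)) i j : T → A) t)) :=
  h47_regfam_image A B r N hk

end Fermat.Agent.S19
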