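import Mathlib
import Fermat.Agent.S19.h47_RegFam
import Fermat.Agent.S19.h36_FamBase

/-!
# S19 / B4-ABS : the calculus of regular families (helper76)

`A` a valuation subring of `K`, `res : A →+* k` a surjection onto an infinite field, `T` a finite
set, `B` an `A`-subalgebra of `T → A`.  A *family* (of vectors of a fixed space with frame `β`)
is a coefficient matrix `V` over `B`; it is *regular* if its reductions at every `t` have
independent columns.  The file turns the two REGFAM lemmas (B1) into the operations used by the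
six steps of (ADD): COLON (`h76_reg_colon`), PRODUCT (`h76_reg_prod`), GRAPH (`h76_reg_graph`).
-/

set_option autoImplicit false

noncomputable section

namespace Fermat.Agent.S19

open Matrix

/-! ### Evaluations, vectors, regular families -/

section Defs

variable {K : Type*} [Field K] (A : ValuationSubring K) {k : Type*} [Field k] (res : A →+* k)
  {T : Type*} (B : Subalgebra A (T → A))

/-- evaluation at `t`, with values in `K` -/
def h76_evK (t : T) : B →+* K := A.subtype.comp (h47_evA A B t)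

/-- evaluation at `t` followed by the residue map -/
def h76_evk (t : T) : B →+* k := res.comp (h47_evA A B t)

theorem h76_evK_apply (t : T) (f : B) : h76_evK A B t f = (((f : T → A) t : A) : K) := rfl

theorem h76_evk_apply (t : T) (f : B) : h76_evk A res B t f = res ((f : T → A) t) := rfl

/-- a family of coefficient matrices is regular if its reductions have independent columns -/
def h76_Reg {n ρ : Type*} (V : Matrix n ρ B) : Prop :=
  ∀ t, LinearIndependent k (V.map (h76_evk A res B t)).col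

end Defs

/-- the vectors `∑ i, U i j • β i` of a coefficient matrix w.r.t. a frame `β` -/
def h76_vec {κ Φ : Type*} [Field κ] [AddCommGroup Φ] [Module κ Φ]
    {n ρ : Type*} [Fintype n] (β : n → Φ) (U : Matrix n ρ κ) (j : ρ) : Φ :=
  ∑ i, U i j • β i

theorem h76_vec_eq {κ Φ : Type*} [Field κ] [AddCommGroup Φ] [Module κ Φ]
    {n ρ : Type*} [Fintype n] (β : n → Φ) (U : Matrix n ρ κ) (j : ρ) :
    h76_vec β U j = Fintype.linearCombination κ β (U.col j) := by
  rw [Fintype.linearCombination_apply]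
  rfl

theorem h76_vec_mem {κ Φ : Type*} [Field κ] [AddCommGroup Φ] [Module κ Φ]
    {n ρ : Type*} [Fintype n] (β : n → Φ) (U : Matrix n ρ κ) (j : ρ) :
    h76_vec β U j ∈ Submodule.span κ (Set.range β) :=
  Submodule.sum_mem _ fun i _ => Submodule.smul_mem _ _ (Submodule.subset_span ⟨i, rfl⟩)

/-- independence of the vectors from independence of the coordinate columns -/
theorem h76_vec_indep {κ Φ : Type*} [Field κ] [AddCommGroup Φ] [Module κ Φ]
    {n ρ : Type*} [Fintype n] (β : n → Φ) (hβ : LinearIndependent κ β)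
    (U : Matrix n ρ κ) (h : LinearIndependent κ U.col) :
    LinearIndependent κ (h76_vec β U) := by
  classical
  have h1 : h76_vec β U = (Fintype.linearCombination κ β) ∘ U.col :=
    funext fun j => h76_vec_eq β U j
  rw [h1]
  refine h.map' _ ?_
  rw [LinearMap.ker_eq_bot]
  exact linearIndependent_iff_injective_fintypeLinearCombination.mp hβ

/-- independence of the coordinate columns from independence of the vectors -/
theorem h76_col_indep {κ Φ : Type*} [Field κ] [AddCommGroup Φ] [Module κ Φ]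
    {n ρ : Type*} [Fintype n] (β : n → Φ)
    (U : Matrix n ρ κ) (h : LinearIndependent κ (h76_vec β U)) :
    LinearIndependent κ U.col := by
  classical
  have h1 : h76_vec β U = (Fintype.linearCombination κ β) ∘ U.col :=
    funext fun j => h76_vec_eq β U j
  rw [h1] at h
  exact LinearIndependent.of_comp _ h

/-- the vectors of a product `M * G` are the `G`-combinations of the vectors of `M` -/
theorem h76_vec_mul {κ Φ : Type*} [Field κ] [AddCommGroup Φ] [Module κ Φ]
    {n ρ σ : Type*} [Fintype n] [Fintype ρ] (β : n → Φ) (M : Matrix n ρ κ) (G : Matrix ρ σ κ)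
    (j : σ) : h76_vec β (M * G) j = ∑ p, G p j • h76_vec β M p := by
  unfold h76_vec
  simp only [Matrix.mul_apply, Finset.sum_smul, Finset.smul_sum, smul_smul]
  rw [Finset.sum_comm]
  exact Finset.sum_congr rfl fun p _ => Finset.sum_congr rfl fun i _ => by rw [mul_comm]

/-! ### Independence modulo the maximal ideal implies independence over `K` -/

theorem h76_indepK_of_indepk {K : Type*} [Field K] (A : ValuationSubring K) {k : Type*} [Field k]
    (res : A →+* k) {n ρ : Type*} [Finite ρ] (M : Matrix n ρ A)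
    (h : LinearIndependent k (M.map res).col) : LinearIndependent K (M.map A.subtype).col := by
  classical
  have := Fintype.ofFinite ρ
  rw [Fintype.linearIndependent_iff] at h ⊢
  intro g hg
  by_contra hne
  push Not at hne
  obtain ⟨j1, hj1⟩ := hne
  obtain ⟨j0, -, hj0⟩ := Finset.exists_max_image Finset.univ (fun j => A.valuation (g j))
    ⟨j1, Finset.mem_univ _⟩
  have hg0 : g j0 ≠ 0 := by
    intro h0
    have h1 := hj0 j1 (Finset.mem_univ _)
    rw [h0, map_zero] at h1
    exact hj1 ((map_eq_zero _).mp (le_antisymm h1 zero_le))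
  have hd : ∀ j, g j / g j0 ∈ A := by
    intro j
    rw [← A.valuation_le_one_iff, map_div₀]
    exact div_le_one_of_le₀ (hj0 j (Finset.mem_univ _)) zero_le
  have key : ∀ i, ∑ j, (⟨g j / g j0, hd j⟩ : A) * M i j = 0 := by
    intro i
    apply Subtype.ext
    have h1 := congrFun hg i
    simp only [Finset.sum_apply, Pi.smul_apply, smul_eq_mul, Pi.zero_apply] at h1
    have h2 : ∑ j, g j / g j0 * ((M i j : A) : K) = 0 := by
      have : ∑ j, g j / g j0 * ((M i j : A) : K) = (∑ j, g j * ((M i j : A) : K)) / g j0 := by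
        rw [Finset.sum_div]
        exact Finset.sum_congr rfl fun j _ => by ring
      rw [this]
      have h3 : ∑ j, g j * ((M i j : A) : K) = 0 := h1
      rw [h3, zero_div]
    push_cast
    exact h2
  have h4 := h (fun j => res ⟨g j / g j0, hd j⟩) (by
    funext i
    have h5 := congrArg res (key i)
    rw [map_sum, map_zero] at h5
    simp only [Finset.sum_apply, Pi.smul_apply, smul_eq_mul, Pi.zero_apply]
    rw [← h5]
    exact Finset.sum_congr rfl fun j _ => by rw [map_mul]; rfl) j0
  have h6 : (⟨g j0 / g j0, hd j0⟩ : A) = 1 := Subtype.ext (div_self hg0)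
  rw [h6, map_one] at h4
  exact one_ne_zero h4

/-! ### REGFAM with arbitrary finite index types -/

section Wrappers

variable {K : Type*} [Field K] (A : ValuationSubring K) {k : Type*} [Field k] [Infinite k]
  (res : A →+* k) (hres : Function.Surjective res) {T : Type*} [Finite T]
  (B : Subalgebra A (T → A))

include hres

/-- KERNEL for matrices with arbitrary finite index types. -/
theorem h76_kernel {m n : Type*} [Fintype m] [Fintype n] (N : Matrix m n B) (r d : ℕ)
    (hd : d + r = Fintype.card n)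
    (hK : ∀ t, (N.map (h76_evK A B t)).rank = r)
    (hk : ∀ t, (N.map (h76_evk A res B t)).rank = r) :
    ∃ W : Matrix n (Fin d) B, N * W = 0 ∧ h76_Reg A res B W := by
  classical
  obtain rfl : d = Fintype.card n - r := by omega
  let em := Fintype.equivFin m
  let en := Fintype.equivFin n
  obtain ⟨W', hNW, hW'⟩ := h26_regfam_kernel_res A res hres B r (N.submatrix em.symm en.symm)
    (fun t => (Matrix.rank_submatrix (N.map (h76_evK A B t)) em.symm en.symm).trans (hK t))
    (fun t => (Matrix.rank_submatrix (N.map (h76_evk A res B t)) em.symm en.symm).trans (hk t))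
  refine ⟨W'.submatrix en id, ?_, fun t => ?_⟩
  · refine Matrix.ext fun i j => ?_
    have h1 := congrFun (congrFun hNW (em i)) j
    rw [Matrix.mul_apply] at h1 ⊢
    rw [Matrix.zero_apply] at h1 ⊢
    rw [← h1]
    exact Fintype.sum_equiv en _ _ (fun l => by simp)
  · exact (hW' t).map' (LinearEquiv.funCongrLeft k k en).toLinearMap (LinearEquiv.ker _)

/-- IMAGE for matrices with arbitrary finite index types. -/
theorem h76_image {m n : Type*} [Fintype m] [Fintype n] (N : Matrix m n B) (r : ℕ)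
    (hK : ∀ t, (N.map (h76_evK A B t)).rank = r)
    (hk : ∀ t, (N.map (h76_evk A res B t)).rank = r) :
    ∃ Γ : Matrix n (Fin r) A, h76_Reg A res B (N * Γ.map (algebraMap A B)) := by
  classical
  let em := Fintype.equivFin m
  let en := Fintype.equivFin n
  obtain ⟨Γ', hΓ'⟩ := h26_regfam_image_res A res hres B r (N.submatrix em.symm en.symm)
    (fun t => (Matrix.rank_submatrix (N.map (h76_evK A B t)) em.symm en.symm).trans (hK t))
    (fun t => (Matrix.rank_submatrix (N.map (h76_evk A res B t)) em.symm en.symm).trans (hk t))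
  refine ⟨Γ'.submatrix en id, fun t => ?_⟩
  have h1 := (hΓ' t).map' (LinearEquiv.funCongrLeft k k em).toLinearMap (LinearEquiv.ker _)
  have hmat : N * (Γ'.submatrix en id).map (algebraMap A B) =
      ((N.submatrix em.symm en.symm) * Γ'.map (algebraMap A B)).submatrix em id := by
    refine Matrix.ext fun i j => ?_
    rw [Matrix.submatrix_apply, Matrix.mul_apply, Matrix.mul_apply]
    exact Fintype.sum_equiv en _ _ (fun l => by simp)
  rw [hmat]
  exact h1

end Wrappers

/-! ### The colon system over a field -/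

section ColonSystem

/-- the colon `{x ∈ span β₃ | x * v₁ⱼ ∈ span v₂ for all j}` -/
def h76_colonIn (κ : Type*) {Φ : Type*} [Field κ] [CommRing Φ] [Algebra κ Φ] {n3 ρ1 ρ2 : Type*}
    (β3 : n3 → Φ) (v1 : ρ1 → Φ) (v2 : ρ2 → Φ) : Submodule κ Φ where
  carrier := {x | x ∈ Submodule.span κ (Set.range β3) ∧
    ∀ j, x * v1 j ∈ Submodule.span κ (Set.range v2)}
  zero_mem' := ⟨Submodule.zero_mem _, fun j => by rw [zero_mul]; exact Submodule.zero_mem _⟩
  add_mem' := fun ha hb => ⟨Submodule.add_mem _ ha.1 hb.1, fun j => by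
    rw [add_mul]; exact Submodule.add_mem _ (ha.2 j) (hb.2 j)⟩
  smul_mem' := fun c _ ha => ⟨Submodule.smul_mem _ c ha.1, fun j => by
    rw [smul_mul_assoc]; exact Submodule.smul_mem _ c (ha.2 j)⟩

theorem h76_mem_colonIn {κ Φ : Type*} [Field κ] [CommRing Φ] [Algebra κ Φ] {n3 ρ1 ρ2 : Type*}
    {β3 : n3 → Φ} {v1 : ρ1 → Φ} {v2 : ρ2 → Φ} {x : Φ} :
    x ∈ h76_colonIn κ β3 v1 v2 ↔ x ∈ Submodule.span κ (Set.range β3) ∧
      ∀ j, x * v1 j ∈ Submodule.span κ (Set.range v2) := Iff.rfl

/-- the colon in terms of submodules -/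
theorem h76_mem_colonIn_iff {κ Φ : Type*} [Field κ] [CommRing Φ] [Algebra κ Φ]
    {n3 ρ1 ρ2 : Type*} {β3 : n3 → Φ} {v1 : ρ1 → Φ} {v2 : ρ2 → Φ} {x : Φ} :
    x ∈ h76_colonIn κ β3 v1 v2 ↔ x ∈ Submodule.span κ (Set.range β3) ∧
      ∀ v ∈ Submodule.span κ (Set.range v1), x * v ∈ Submodule.span κ (Set.range v2) := by
  rw [h76_mem_colonIn]
  refine and_congr_right fun _ => ⟨fun h v hv => ?_, fun h j => h _ (Submodule.subset_span ⟨j, rfl⟩)⟩
  induction hv using Submodule.span_induction with
  | mem v hv =>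
    obtain ⟨j, rfl⟩ := hv
    exact h j
  | zero => rw [mul_zero]; exact Submodule.zero_mem _
  | add a b _ _ ha hb => rw [mul_add]; exact Submodule.add_mem _ ha hb
  | smul c a _ ha => rw [mul_smul_comm]; exact Submodule.smul_mem _ c ha

variable {κ : Type*} [Field κ] {Φ : Type*} [CommRing Φ] [Algebra κ Φ]
  {n2 n3 ρ1 ρ2 : Type*} [Fintype n2] [Fintype n3] [Fintype ρ1] [Fintype ρ2]
  [DecidableEq ρ1]

/-- the matrix of the linear system `s * v₁ⱼ = ∑ₗ wⱼₗ v₂ₗ` in the unknowns `(s, w)`; `P i j` are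
the coordinates of `β₃ i * v₁ j` in the frame `β₂` -/
def h76_colonMat {Bc : Type*} [CommRing Bc] (P : n3 → ρ1 → n2 → Bc)
    (V2 : Matrix n2 ρ2 Bc) : Matrix (n2 × ρ1) (n3 ⊕ ρ1 × ρ2) Bc :=
  Matrix.of fun p c => Sum.elim (fun i => P i p.2 p.1)
    (fun q => if q.1 = p.2 then - V2 p.1 q.2 else 0) c

omit [Fintype n2] [Fintype n3] [Fintype ρ1] [Fintype ρ2] in
theorem h76_colonMat_map {Bc Bc' : Type*} [CommRing Bc] [CommRing Bc'] (φ : Bc →+* Bc')
    (P : n3 → ρ1 → n2 → Bc) (V2 : Matrix n2 ρ2 Bc) :
    (h76_colonMat P V2).map φ =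
      h76_colonMat (fun i j l => φ (P i j l)) (V2.map φ) := by
  ext p c
  rcases c with i | q
  · simp [h76_colonMat]
  · simp [h76_colonMat, apply_ite φ, map_neg]

variable (β2 : n2 → Φ) (β3 : n3 → Φ) (v1 : ρ1 → Φ) (P : n3 → ρ1 → n2 → κ)
  (hP : ∀ i j, β3 i * v1 j = ∑ l, P i j l • β2 l) (U2 : Matrix n2 ρ2 κ)

include hP in
/-- the colon system, in the frame `β₂` -/
theorem h76_colonMat_mulVec (c : n3 ⊕ ρ1 × ρ2 → κ) (j1 : ρ1) :
    ∑ l, (h76_colonMat P U2 *ᵥ c) (l, j1) • β2 l =
      (∑ i, c (Sum.inl i) • β3 i) * v1 j1 -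
        ∑ j2, c (Sum.inr (j1, j2)) • h76_vec β2 U2 j2 := by
  have h1 : ∀ l, (h76_colonMat P U2 *ᵥ c) (l, j1) =
      (∑ i, c (Sum.inl i) * P i j1 l) - ∑ j2, c (Sum.inr (j1, j2)) * U2 l j2 := by
    intro l
    simp only [Matrix.mulVec, dotProduct, h76_colonMat, Matrix.of_apply, Fintype.sum_sum_type,
      Sum.elim_inl, Sum.elim_inr, Fintype.sum_prod_type, ite_mul, neg_mul, zero_mul]
    rw [sub_eq_add_neg]
    congr 1
    · exact Finset.sum_congr rfl fun i _ => mul_comm _ _
    · rw [Finset.sum_comm]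
      simp only [Finset.sum_ite_eq', Finset.mem_univ, if_true, Finset.sum_neg_distrib]
      congr 1
      exact Finset.sum_congr rfl fun j2 _ => mul_comm _ _
  simp only [h1, sub_smul, Finset.sum_sub_distrib]
  congr 1
  · rw [Finset.sum_mul]
    simp only [smul_mul_assoc, hP, Finset.smul_sum, smul_smul, Finset.sum_smul]
    exact Finset.sum_comm
  · unfold h76_vec
    simp only [Finset.sum_smul, Finset.smul_sum, smul_smul]
    rw [Finset.sum_comm]

include hP in
/-- the solutions of the colon system -/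
theorem h76_colonMat_mulVec_eq_zero (hβ2 : LinearIndependent κ β2) (c : n3 ⊕ ρ1 × ρ2 → κ) :
    h76_colonMat P U2 *ᵥ c = 0 ↔ ∀ j1, (∑ i, c (Sum.inl i) • β3 i) * v1 j1 =
      ∑ j2, c (Sum.inr (j1, j2)) • h76_vec β2 U2 j2 := by
  constructor
  · intro h j1
    have h1 := h76_colonMat_mulVec β2 β3 v1 P hP U2 c j1
    rw [h] at h1
    simp only [Pi.zero_apply, zero_smul, Finset.sum_const_zero] at h1
    exact (sub_eq_zero.mp h1.symm)
  · intro h
    funext p
    obtain ⟨l, j1⟩ := p
    have h1 := h76_colonMat_mulVec β2 β3 v1 P hP U2 c j1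
    rw [h j1, sub_self] at h1
    exact Fintype.linearIndependent_iff.mp hβ2 _ h1 l

/-- the projection of the solutions of the colon system to the colon -/
def h76_colonProj (β3 : n3 → Φ) : (n3 ⊕ ρ1 × ρ2 → κ) →ₗ[κ] Φ :=
  (Fintype.linearCombination κ β3).comp (LinearMap.funLeft κ κ Sum.inl)

omit [Fintype n2] [Fintype ρ1] [Fintype ρ2] [DecidableEq ρ1] in
theorem h76_colonProj_apply (c : n3 ⊕ ρ1 × ρ2 → κ) :
    h76_colonProj (ρ1 := ρ1) (ρ2 := ρ2) β3 c = ∑ i, c (Sum.inl i) • β3 i := by
  unfold h76_colonProj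
  rw [LinearMap.comp_apply, Fintype.linearCombination_apply]
  rfl

include hP in
/-- the projection is injective on the solutions -/
theorem h76_colonProj_inj (hβ2 : LinearIndependent κ β2) (hβ3 : LinearIndependent κ β3)
    (hv2 : LinearIndependent κ (h76_vec β2 U2)) (c : n3 ⊕ ρ1 × ρ2 → κ)
    (hc : h76_colonMat P U2 *ᵥ c = 0)
    (h0 : h76_colonProj (ρ1 := ρ1) (ρ2 := ρ2) β3 c = 0) : c = 0 := by
  rw [h76_colonProj_apply] at h0
  have h1 : ∀ i, c (Sum.inl i) = 0 := Fintype.linearIndependent_iff.mp hβ3 _ h0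
  have h2 := (h76_colonMat_mulVec_eq_zero β2 β3 v1 P hP U2 hβ2 c).mp hc
  funext x
  rcases x with i | ⟨j1, j2⟩
  · exact h1 i
  · have h3 := h2 j1
    rw [h0, zero_mul] at h3
    exact Fintype.linearIndependent_iff.mp hv2 _ h3.symm j2

include hP in
/-- the solutions of the colon system project onto the colon -/
theorem h76_colonProj_range (hβ2 : LinearIndependent κ β2) :
    Submodule.map (h76_colonProj (ρ1 := ρ1) (ρ2 := ρ2) β3)
      (LinearMap.ker (h76_colonMat P U2).mulVecLin) =
      h76_colonIn κ β3 v1 (h76_vec β2 U2) := by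
  ext x
  rw [Submodule.mem_map, h76_mem_colonIn (κ := κ)]
  constructor
  · rintro ⟨c, hc, rfl⟩
    rw [LinearMap.mem_ker, Matrix.mulVecLin_apply] at hc
    have h2 := (h76_colonMat_mulVec_eq_zero β2 β3 v1 P hP U2 hβ2 c).mp hc
    rw [h76_colonProj_apply]
    refine ⟨Submodule.sum_mem _ fun i _ =>
      Submodule.smul_mem _ _ (Submodule.subset_span ⟨i, rfl⟩), fun j => ?_⟩
    rw [h2 j]
    exact Submodule.sum_mem _ fun j2 _ =>
      Submodule.smul_mem _ _ (Submodule.subset_span ⟨j2, rfl⟩)
  · rintro ⟨hx, hx2⟩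
    obtain ⟨s, hs⟩ := (Submodule.mem_span_range_iff_exists_fun κ).mp hx
    have hex : ∀ j, ∃ w : ρ2 → κ, ∑ j2, w j2 • h76_vec β2 U2 j2 = x * v1 j :=
      fun j => (Submodule.mem_span_range_iff_exists_fun κ).mp (hx2 j)
    choose w hw using hex
    refine ⟨Sum.elim s (fun q => w q.1 q.2), ?_, ?_⟩
    · rw [LinearMap.mem_ker, Matrix.mulVecLin_apply,
        h76_colonMat_mulVec_eq_zero β2 β3 v1 P hP U2 hβ2]
      intro j1
      simp only [Sum.elim_inl, Sum.elim_inr]
      rw [hs, hw j1]
    · rw [h76_colonProj_apply]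
      simp only [Sum.elim_inl]
      exact hs

include hP in
/-- the rank of the colon system -/
theorem h76_colonMat_rank (hβ2 : LinearIndependent κ β2) (hβ3 : LinearIndependent κ β3)
    (hv2 : LinearIndependent κ (h76_vec β2 U2)) :
    (h76_colonMat P U2).rank +
      Module.finrank κ ↥(h76_colonIn κ β3 v1 (h76_vec β2 U2)) =
      Fintype.card (n3 ⊕ ρ1 × ρ2) := by
  have h1 := LinearMap.finrank_range_add_finrank_ker (h76_colonMat P U2).mulVecLin
  rw [Module.finrank_fintype_fun_eq_card] at h1
  rw [← h1, ← h76_colonProj_range β2 β3 v1 P hP U2 hβ2]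
  congr 1
  have hinj : Function.Injective ((h76_colonProj (ρ1 := ρ1) (ρ2 := ρ2) β3).domRestrict
      (LinearMap.ker (h76_colonMat P U2).mulVecLin)) := by
    rw [← LinearMap.ker_eq_bot, LinearMap.ker_eq_bot']
    rintro ⟨c, hc⟩ h0
    rw [LinearMap.mem_ker, Matrix.mulVecLin_apply] at hc
    exact Subtype.ext (h76_colonProj_inj β2 β3 v1 P hP U2 hβ2 hβ3 hv2 c hc h0)
  have h2 := (LinearEquiv.ofInjective _ hinj).finrank_eq
  rw [LinearMap.range_domRestrict] at h2
  exact h2.symm

include hP in
/-- one level of the COLON lemma: independent solutions of the colon system give a basis of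
the colon -/
theorem h76_colon_level (hβ2 : LinearIndependent κ β2) (hβ3 : LinearIndependent κ β3)
    (hv2 : LinearIndependent κ (h76_vec β2 U2)) (r : ℕ)
    (hr : Module.finrank κ ↥(h76_colonIn κ β3 v1 (h76_vec β2 U2)) = r)
    (Wc : Matrix (n3 ⊕ ρ1 × ρ2) (Fin r) κ) (hNW : h76_colonMat P U2 * Wc = 0)
    (hWc : LinearIndependent κ Wc.col) :
    LinearIndependent κ (h76_vec β3 (Wc.submatrix Sum.inl id)) ∧
      Submodule.span κ (Set.range (h76_vec β3 (Wc.submatrix Sum.inl id))) =
        h76_colonIn κ β3 v1 (h76_vec β2 U2) := by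
  have hker : ∀ j, h76_colonMat P U2 *ᵥ Wc.col j = 0 := by
    intro j
    funext p
    have h1 := congrFun (congrFun hNW p) j
    rw [Matrix.mul_apply] at h1
    exact h1
  have hvec : h76_vec β3 (Wc.submatrix Sum.inl id) =
      (h76_colonProj (ρ1 := ρ1) (ρ2 := ρ2) β3) ∘ Wc.col := by
    funext j
    rw [Function.comp_apply, h76_colonProj_apply]
    rfl
  have hspan_le : Submodule.span κ (Set.range Wc.col) ≤
      LinearMap.ker (h76_colonMat P U2).mulVecLin := by
    rw [Submodule.span_le]
    rintro _ ⟨j, rfl⟩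
    rw [SetLike.mem_coe, LinearMap.mem_ker, Matrix.mulVecLin_apply]
    exact hker j
  have hLI : LinearIndependent κ (h76_vec β3 (Wc.submatrix Sum.inl id)) := by
    rw [hvec]
    refine hWc.map ?_
    rw [Submodule.disjoint_def]
    intro x hx hx0
    have hx1 := hspan_le hx
    rw [LinearMap.mem_ker, Matrix.mulVecLin_apply] at hx1
    exact h76_colonProj_inj β2 β3 v1 P hP U2 hβ2 hβ3 hv2 x hx1 (LinearMap.mem_ker.mp hx0)
  refine ⟨hLI, ?_⟩
  have hle : Submodule.span κ (Set.range (h76_vec β3 (Wc.submatrix Sum.inl id))) ≤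
      h76_colonIn κ β3 v1 (h76_vec β2 U2) := by
    rw [Submodule.span_le, ← h76_colonProj_range β2 β3 v1 P hP U2 hβ2]
    rintro _ ⟨j, rfl⟩
    rw [hvec]
    exact Submodule.mem_map_of_mem (hspan_le (Submodule.subset_span ⟨j, rfl⟩))
  have hfd : FiniteDimensional κ ↥(h76_colonIn κ β3 v1 (h76_vec β2 U2)) := by
    have : FiniteDimensional κ ↥(Submodule.span κ (Set.range β3)) :=
      FiniteDimensional.span_of_finite κ (Set.finite_range β3)
    exact Submodule.finiteDimensional_of_le (fun x hx => hx.1)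
  apply Submodule.eq_of_le_of_finrank_eq hle
  rw [finrank_span_eq_card hLI, Fintype.card_fin, hr]

end ColonSystem

/-! ### Regular families are pointwise independent over `K` -/

theorem h76_reg_indepK {K : Type*} [Field K] (A : ValuationSubring K) {k : Type*} [Field k]
    (res : A →+* k) {T : Type*} (B : Subalgebra A (T → A)) {n ρ : Type*} [Finite ρ]
    (V : Matrix n ρ B) (hV : h76_Reg A res B V) (t : T) :
    LinearIndependent K (V.map (h76_evK A B t)).col :=
  h76_indepK_of_indepk A res (V.map (h47_evA A B t)) (hV t)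

/-! ### COLON for regular families -/

section Colon

variable {K : Type*} [Field K] (A : ValuationSubring K) {k : Type*} [Field k] [Infinite k]
  (res : A →+* k) (hres : Function.Surjective res) {T : Type*} [Finite T]
  (B : Subalgebra A (T → A))
  {F : Type*} [CommRing F] [Algebra K F] {Fb : Type*} [CommRing Fb] [Algebra k Fb]
  {n2 n3 ρ1 ρ2 : Type*} [Fintype n2] [Fintype n3] [Fintype ρ1] [Fintype ρ2]

include hres in
/-- **(RC1) COLON.**  `V₂` a REGULAR family in the frame `β₂`; `vK t`, `vk t` vectors such that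
the products `β₃ i * v j` have coordinates `P i j` (functions of `B`) in the frame `β₂`, upstairs
and downstairs.  If the colon `{x ∈ span β₃ | x * vⱼ(t) ∈ span v₂(t)}` has dimension `r` for
every `t`, upstairs and downstairs, then it is the span of a regular family `V₃` with `r`
columns, upstairs and downstairs. -/
theorem h76_reg_colon (β2 : n2 → F) (β3 : n3 → F) (βb2 : n2 → Fb) (βb3 : n3 → Fb)
    (hβ2 : LinearIndependent K β2) (hβ3 : LinearIndependent K β3)
    (hβb2 : LinearIndependent k βb2) (hβb3 : LinearIndependent k βb3)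
    (P : n3 → ρ1 → n2 → B)
    (vK : T → ρ1 → F) (hPK : ∀ t i j, β3 i * vK t j = ∑ l, h76_evK A B t (P i j l) • β2 l)
    (vk : T → ρ1 → Fb)
    (hPk : ∀ t i j, βb3 i * vk t j = ∑ l, h76_evk A res B t (P i j l) • βb2 l)
    (V2 : Matrix n2 ρ2 B) (hV2 : h76_Reg A res B V2) (r : ℕ)
    (hK : ∀ t, Module.finrank K ↥(h76_colonIn K β3 (vK t)
      (h76_vec β2 (V2.map (h76_evK A B t)))) = r)
    (hk : ∀ t, Module.finrank k ↥(h76_colonIn k βb3 (vk t)
      (h76_vec βb2 (V2.map (h76_evk A res B t)))) = r) :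
    ∃ V3 : Matrix n3 (Fin r) B, h76_Reg A res B V3 ∧
      (∀ t, Submodule.span K (Set.range (h76_vec β3 (V3.map (h76_evK A B t)))) =
        h76_colonIn K β3 (vK t) (h76_vec β2 (V2.map (h76_evK A B t)))) ∧
      (∀ t, Submodule.span k (Set.range (h76_vec βb3 (V3.map (h76_evk A res B t)))) =
        h76_colonIn k βb3 (vk t) (h76_vec βb2 (V2.map (h76_evk A res B t)))) := by
  classical
  rcases isEmpty_or_nonempty T with hT | ⟨⟨t0⟩⟩
  · exact ⟨0, fun t => isEmptyElim t, fun t => isEmptyElim t, fun t => isEmptyElim t⟩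
  set N : Matrix (n2 × ρ1) (n3 ⊕ ρ1 × ρ2) B := h76_colonMat P V2 with hN
  have hNK : ∀ t, N.map (h76_evK A B t) = h76_colonMat (fun i j l => h76_evK A B t (P i j l))
      (V2.map (h76_evK A B t)) := fun t => by
    rw [hN, h76_colonMat_map]
  have hNk : ∀ t, N.map (h76_evk A res B t) =
      h76_colonMat (fun i j l => h76_evk A res B t (P i j l))
      (V2.map (h76_evk A res B t)) := fun t => by
    rw [hN, h76_colonMat_map]
  have hv2k : ∀ t, LinearIndependent k (h76_vec βb2 (V2.map (h76_evk A res B t))) :=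
    fun t => h76_vec_indep βb2 hβb2 _ (hV2 t)
  have hv2K : ∀ t, LinearIndependent K (h76_vec β2 (V2.map (h76_evK A B t))) :=
    fun t => h76_vec_indep β2 hβ2 _ (h76_reg_indepK A res B V2 hV2 t)
  have hrK : ∀ t, (N.map (h76_evK A B t)).rank + r = Fintype.card (n3 ⊕ ρ1 × ρ2) := fun t => by
    rw [hNK t, ← hK t]
    exact h76_colonMat_rank β2 β3 (vK t) _ (hPK t) _ hβ2 hβ3 (hv2K t)
  have hrk : ∀ t, (N.map (h76_evk A res B t)).rank + r = Fintype.card (n3 ⊕ ρ1 × ρ2) :=
    fun t => by
    rw [hNk t, ← hk t]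
    exact h76_colonMat_rank βb2 βb3 (vk t) _ (hPk t) _ hβb2 hβb3 (hv2k t)
  have hr0 := hrK t0
  obtain ⟨W, hNW, hW⟩ := h76_kernel A res hres B N (Fintype.card (n3 ⊕ ρ1 × ρ2) - r) r
    (by omega) (fun t => by have := hrK t; omega) (fun t => by have := hrk t; omega)
  have hWK : ∀ t, LinearIndependent K (W.map (h76_evK A B t)).col :=
    fun t => h76_reg_indepK A res B W hW t
  have hNWK : ∀ t, h76_colonMat (fun i j l => h76_evK A B t (P i j l))
      (V2.map (h76_evK A B t)) * W.map (h76_evK A B t) = 0 := fun t => by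
    rw [← hNK t, ← Matrix.map_mul, hNW, Matrix.map_zero _ (map_zero _)]
  have hNWk : ∀ t, h76_colonMat (fun i j l => h76_evk A res B t (P i j l))
      (V2.map (h76_evk A res B t)) * W.map (h76_evk A res B t) = 0 :=
    fun t => by
    rw [← hNk t, ← Matrix.map_mul, hNW, Matrix.map_zero _ (map_zero _)]
  have hLK := fun t => h76_colon_level β2 β3 (vK t) _ (hPK t) _ hβ2 hβ3 (hv2K t) r (hK t) _
    (hNWK t) (hWK t)
  have hLk := fun t => h76_colon_level βb2 βb3 (vk t) _ (hPk t) _ hβb2 hβb3 (hv2k t) r (hk t) _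
    (hNWk t) (hW t)
  refine ⟨W.submatrix Sum.inl id, fun t => ?_, fun t => (hLK t).2, fun t => (hLk t).2⟩
  exact h76_col_indep βb3 _ (hLk t).1

end Colon

/-! ### The product system over a field -/

section ProdSystem

variable {κ : Type*} [Field κ] {Φ : Type*} [CommRing Φ] [Algebra κ Φ]
  {n1 n2 n3 ρ1 ρ2 : Type*} [Fintype n1] [Fintype n2] [Fintype n3]

/-- the coefficient matrix of the products `v₁ᵢ * v₂ⱼ` in the frame `β₃` -/
def h76_prodMat {Bc : Type*} [CommRing Bc] (μ : n1 → n2 → n3 → Bc) (V1 : Matrix n1 ρ1 Bc)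
    (V2 : Matrix n2 ρ2 Bc) : Matrix n3 (ρ1 × ρ2) Bc :=
  Matrix.of fun l p => ∑ i, ∑ a, V1 i p.1 * V2 a p.2 * μ i a l

omit [Fintype n3] in
theorem h76_prodMat_map {Bc Bc' : Type*} [CommRing Bc] [CommRing Bc'] (φ : Bc →+* Bc')
    (μ : n1 → n2 → n3 → Bc) (V1 : Matrix n1 ρ1 Bc) (V2 : Matrix n2 ρ2 Bc) :
    (h76_prodMat μ V1 V2).map φ =
      h76_prodMat (fun i a l => φ (μ i a l)) (V1.map φ) (V2.map φ) := by
  ext l p
  simp [h76_prodMat, map_sum, map_mul]

variable (β1 : n1 → Φ) (β2 : n2 → Φ) (β3 : n3 → Φ) (μ : n1 → n2 → n3 → κ)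
  (hμ : ∀ i a, β1 i * β2 a = ∑ l, μ i a l • β3 l)
  (U1 : Matrix n1 ρ1 κ) (U2 : Matrix n2 ρ2 κ)

include hμ in
/-- the product of two combinations in the frame `β₃` -/
theorem h76_lc_mul (s : n1 → κ) (u : n2 → κ) :
    (∑ i, s i • β1 i) * (∑ a, u a • β2 a) = ∑ l, (∑ i, ∑ a, s i * u a * μ i a l) • β3 l := by
  rw [Finset.sum_mul_sum]
  simp only [smul_mul_smul_comm, hμ, Finset.smul_sum, smul_smul, Finset.sum_smul]
  calc ∑ i, ∑ a, ∑ l, (s i * u a * μ i a l) • β3 l
      = ∑ i, ∑ l, ∑ a, (s i * u a * μ i a l) • β3 l :=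
        Finset.sum_congr rfl fun i _ => Finset.sum_comm
    _ = ∑ l, ∑ i, ∑ a, (s i * u a * μ i a l) • β3 l := Finset.sum_comm

include hμ in
/-- the vectors of the product matrix are the products of the vectors -/
theorem h76_prodMat_vec (p : ρ1 × ρ2) :
    h76_vec β3 (h76_prodMat μ U1 U2) p = h76_vec β1 U1 p.1 * h76_vec β2 U2 p.2 := by
  unfold h76_vec
  rw [h76_lc_mul β1 β2 β3 μ hμ]
  rfl

include hμ in
/-- the rank of the product matrix is the dimension of the span of the products -/
theorem h76_prodMat_rank [Fintype ρ1] [Fintype ρ2] (hβ3 : LinearIndependent κ β3) :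
    (h76_prodMat μ U1 U2).rank = Module.finrank κ ↥(Submodule.span κ
      (Set.range fun p : ρ1 × ρ2 => h76_vec β1 U1 p.1 * h76_vec β2 U2 p.2)) := by
  classical
  have hinj : Function.Injective (Fintype.linearCombination κ β3) :=
    linearIndependent_iff_injective_fintypeLinearCombination.mp hβ3
  have h1 : Submodule.span κ (Set.range fun p : ρ1 × ρ2 =>
      h76_vec β1 U1 p.1 * h76_vec β2 U2 p.2) =
      Submodule.map (Fintype.linearCombination κ β3)
        (Submodule.span κ (Set.range (h76_prodMat μ U1 U2).col)) := by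
    rw [Submodule.map_span, ← Set.range_comp]
    congr 2
    funext p
    rw [← h76_prodMat_vec β1 β2 β3 μ hμ, h76_vec_eq]
    rfl
  rw [Matrix.rank_eq_finrank_span_cols, h1]
  exact (LinearEquiv.finrank_eq (Submodule.equivMapOfInjective _ hinj _))

include hμ in
/-- one level of the PRODUCT lemma -/
theorem h76_prod_level [Fintype ρ1] [Fintype ρ2] (hβ3 : LinearIndependent κ β3) (r : ℕ)
    (hr : Module.finrank κ ↥(Submodule.span κ
      (Set.range fun p : ρ1 × ρ2 => h76_vec β1 U1 p.1 * h76_vec β2 U2 p.2)) = r)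
    (G : Matrix (ρ1 × ρ2) (Fin r) κ)
    (hG : LinearIndependent κ (h76_prodMat μ U1 U2 * G).col) :
    Submodule.span κ (Set.range (h76_vec β3 (h76_prodMat μ U1 U2 * G))) =
      Submodule.span κ (Set.range fun p : ρ1 × ρ2 => h76_vec β1 U1 p.1 * h76_vec β2 U2 p.2) := by
  have hLI := h76_vec_indep β3 hβ3 _ hG
  have hle : Submodule.span κ (Set.range (h76_vec β3 (h76_prodMat μ U1 U2 * G))) ≤
      Submodule.span κ (Set.range fun p : ρ1 × ρ2 =>
        h76_vec β1 U1 p.1 * h76_vec β2 U2 p.2) := by
    rw [Submodule.span_le]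
    rintro _ ⟨j, rfl⟩
    rw [h76_vec_mul]
    refine Submodule.sum_mem _ fun p _ => Submodule.smul_mem _ _ ?_
    rw [h76_prodMat_vec β1 β2 β3 μ hμ]
    exact Submodule.subset_span ⟨p, rfl⟩
  have hfd : FiniteDimensional κ ↥(Submodule.span κ (Set.range fun p : ρ1 × ρ2 =>
      h76_vec β1 U1 p.1 * h76_vec β2 U2 p.2)) :=
    FiniteDimensional.span_of_finite κ (Set.finite_range _)
  apply Submodule.eq_of_le_of_finrank_eq hle
  rw [finrank_span_eq_card hLI, Fintype.card_fin, hr]

end ProdSystem

/-! ### PRODUCT for regular families -/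

section Prod

variable {K : Type*} [Field K] (A : ValuationSubring K) {k : Type*} [Field k] [Infinite k]
  (res : A →+* k) (hres : Function.Surjective res) {T : Type*} [Finite T]
  (B : Subalgebra A (T → A))
  {F : Type*} [CommRing F] [Algebra K F] {Fb : Type*} [CommRing Fb] [Algebra k Fb]
  {n1 n2 n3 ρ1 ρ2 : Type*} [Fintype n1] [Fintype n2] [Fintype n3] [Fintype ρ1] [Fintype ρ2]

include hres in
/-- **(RC2) PRODUCT.**  `V₁`, `V₂` families in the frames `β₁`, `β₂`, `β₁ * β₂ ⊆ span β₃` with
structure constants in `A`.  If the span of the products `v₁ᵢ(t) * v₂ⱼ(t)` has dimension `r`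
for every `t`, upstairs and downstairs, then it is the span of a regular family `V₃` with `r`
columns, upstairs and downstairs. -/
theorem h76_reg_prod (β1 : n1 → F) (β2 : n2 → F) (β3 : n3 → F)
    (βb1 : n1 → Fb) (βb2 : n2 → Fb) (βb3 : n3 → Fb)
    (hβ3 : LinearIndependent K β3) (hβb3 : LinearIndependent k βb3)
    (μ : n1 → n2 → n3 → A)
    (hμ : ∀ i a, β1 i * β2 a = ∑ l, ((μ i a l : A) : K) • β3 l)
    (hμb : ∀ i a, βb1 i * βb2 a = ∑ l, res (μ i a l) • βb3 l)
    (V1 : Matrix n1 ρ1 B) (V2 : Matrix n2 ρ2 B) (r : ℕ)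
    (hK : ∀ t, Module.finrank K ↥(Submodule.span K (Set.range fun p : ρ1 × ρ2 =>
      h76_vec β1 (V1.map (h76_evK A B t)) p.1 * h76_vec β2 (V2.map (h76_evK A B t)) p.2)) = r)
    (hk : ∀ t, Module.finrank k ↥(Submodule.span k (Set.range fun p : ρ1 × ρ2 =>
      h76_vec βb1 (V1.map (h76_evk A res B t)) p.1 *
        h76_vec βb2 (V2.map (h76_evk A res B t)) p.2)) = r) :
    ∃ V3 : Matrix n3 (Fin r) B, h76_Reg A res B V3 ∧
      (∀ t, Submodule.span K (Set.range (h76_vec β3 (V3.map (h76_evK A B t)))) =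
        Submodule.span K (Set.range fun p : ρ1 × ρ2 =>
          h76_vec β1 (V1.map (h76_evK A B t)) p.1 * h76_vec β2 (V2.map (h76_evK A B t)) p.2)) ∧
      (∀ t, Submodule.span k (Set.range (h76_vec βb3 (V3.map (h76_evk A res B t)))) =
        Submodule.span k (Set.range fun p : ρ1 × ρ2 =>
          h76_vec βb1 (V1.map (h76_evk A res B t)) p.1 *
            h76_vec βb2 (V2.map (h76_evk A res B t)) p.2)) := by
  classical
  set N : Matrix n3 (ρ1 × ρ2) B :=
    h76_prodMat (fun i a l => algebraMap A B (μ i a l)) V1 V2 with hN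
  have hNK : ∀ t, N.map (h76_evK A B t) = h76_prodMat (fun i a l => ((μ i a l : A) : K))
      (V1.map (h76_evK A B t)) (V2.map (h76_evK A B t)) := fun t => by
    rw [hN, h76_prodMat_map]
    rfl
  have hNk : ∀ t, N.map (h76_evk A res B t) = h76_prodMat (fun i a l => res (μ i a l))
      (V1.map (h76_evk A res B t)) (V2.map (h76_evk A res B t)) := fun t => by
    rw [hN, h76_prodMat_map]
    rfl
  obtain ⟨Γ, hΓ⟩ := h76_image A res hres B N r
    (fun t => by rw [hNK t, h76_prodMat_rank β1 β2 β3 _ hμ _ _ hβ3, hK t])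
    (fun t => by rw [hNk t, h76_prodMat_rank βb1 βb2 βb3 _ hμb _ _ hβb3, hk t])
  refine ⟨N * Γ.map (algebraMap A B), hΓ, fun t => ?_, fun t => ?_⟩
  · have h1 := h76_reg_indepK A res B _ hΓ t
    rw [Matrix.map_mul, hNK t] at h1 ⊢
    exact h76_prod_level β1 β2 β3 _ hμ _ _ hβ3 r (hK t) _ h1
  · have h1 := hΓ t
    rw [Matrix.map_mul, hNk t] at h1 ⊢
    exact h76_prod_level βb1 βb2 βb3 _ hμb _ _ hβb3 r (hk t) _ h1

end Prod

/-! ### GRAPH form of a regular family -/

section Graph

variable {K : Type*} [Field K] (A : ValuationSubring K) {k : Type*} [Field k]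
  (res : A →+* k) (hres : Function.Surjective res) {T : Type*} [Finite T]
  (B : Subalgebra A (T → A))
  {F : Type*} [AddCommGroup F] [Module K F]
  {ι ι' : Type*} [Fintype ι] [Fintype ι'] [DecidableEq ι]

include hres in
/-- **(RC3) GRAPH.**  If a regular family `V` in the frame `β : ι ⊕ ι' → F` spans, at every `t`,
the graph `⟨β (inl j) + ∑ i, a t i j • β (inr i)⟩` of a matrix `a t` over `A`, then the entries
of `a` are functions of `B`. -/
theorem h76_reg_graph (β : ι ⊕ ι' → F) (hβ : LinearIndependent K β)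
    (V : Matrix (ι ⊕ ι') ι B) (hV : h76_Reg A res B V) (a : T → Matrix ι' ι A)
    (h : ∀ t, Submodule.span K (Set.range (h76_vec β (V.map (h76_evK A B t)))) =
      Submodule.span K (Set.range fun j : ι =>
        β (Sum.inl j) + ∑ i, ((a t i j : A) : K) • β (Sum.inr i)))
    (i : ι') (j : ι) : (fun t => a t i j) ∈ B := by
  classical
  set Vt : Matrix ι ι B := V.submatrix Sum.inl id with hVt
  set Vb : Matrix ι' ι B := V.submatrix Sum.inr id with hVb
  -- pointwise: `Vb(t) = a(t) * Vt(t)`
  have hpt : ∀ t (i : ι') (j : ι), ((Vb i j : T → A) t) = ∑ l, a t i l * ((Vt l j : T → A) t) := by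
    intro t i j
    have hmem : h76_vec β (V.map (h76_evK A B t)) j ∈ Submodule.span K (Set.range fun j : ι =>
        β (Sum.inl j) + ∑ i, ((a t i j : A) : K) • β (Sum.inr i)) := by
      rw [← h t]
      exact Submodule.subset_span ⟨j, rfl⟩
    obtain ⟨c, hc⟩ := (Submodule.mem_span_range_iff_exists_fun K).mp hmem
    -- compare coordinates in the frame `β`
    have h1 : ∑ x : ι ⊕ ι', (Sum.elim c (fun i' => ∑ l, c l * ((a t i' l : A) : K)) x -
        (V.map (h76_evK A B t)) x j) • β x = 0 := by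
      simp only [sub_smul, Finset.sum_sub_distrib, Fintype.sum_sum_type, Sum.elim_inl,
        Sum.elim_inr]
      have h2 : h76_vec β (V.map (h76_evK A B t)) j =
          ∑ x : ι, (V.map (h76_evK A B t)) (Sum.inl x) j • β (Sum.inl x) +
            ∑ x : ι', (V.map (h76_evK A B t)) (Sum.inr x) j • β (Sum.inr x) := by
        unfold h76_vec
        rw [Fintype.sum_sum_type]
      rw [← h2, ← hc]
      simp only [smul_add, Finset.sum_add_distrib, Finset.smul_sum, Finset.sum_smul, smul_smul]
      rw [Finset.sum_comm]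
      abel
    have h3 := Fintype.linearIndependent_iff.mp hβ _ h1
    have h4 : ∀ l, c l = (((Vt l j : T → A) t : A) : K) := fun l => by
      have := h3 (Sum.inl l)
      simp only [Sum.elim_inl] at this
      exact sub_eq_zero.mp this
    have h5 := h3 (Sum.inr i)
    simp only [Sum.elim_inr] at h5
    apply Subtype.ext
    push_cast
    have h6 : (((Vb i j : T → A) t : A) : K) = ∑ l, c l * ((a t i l : A) : K) :=
      (sub_eq_zero.mp h5).symm
    rw [h6]
    exact Finset.sum_congr rfl fun l _ => by rw [h4 l, mul_comm]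
  -- the determinant of the top block is pointwise a unit
  have hker := IsLocalRing.ker_eq_maximalIdeal res hres
  have hdet : ∀ t, IsUnit (((Vt.det : B) : T → A) t) := by
    intro t
    by_contra hnu
    have h0 : res (((Vt.det : B) : T → A) t) = 0 := by
      rw [← RingHom.mem_ker, hker]
      exact (IsLocalRing.mem_maximalIdeal _).mpr hnu
    have h1 : (Vt.map (h76_evk A res B t)).det = 0 := by
      rw [← RingHom.mapMatrix_apply, ← RingHom.map_det]
      exact h0
    obtain ⟨v, hv0, hv⟩ := Matrix.exists_mulVec_eq_zero_iff.mpr h1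
    apply hv0
    have h2 : ∑ j, v j • (V.map (h76_evk A res B t)).col j = 0 := by
      funext x
      simp only [Finset.sum_apply, Pi.smul_apply, smul_eq_mul, Pi.zero_apply, Matrix.col_apply,
        Matrix.map_apply]
      rcases x with l | i'
      · have := congrFun hv l
        simp only [Matrix.mulVec, dotProduct, Matrix.map_apply, Pi.zero_apply] at this
        rw [← this]
        exact Finset.sum_congr rfl fun j _ => mul_comm _ _
      · have hb : ∀ j, h76_evk A res B t (V (Sum.inr i') j) =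
            ∑ l, res (a t i' l) * h76_evk A res B t (V (Sum.inl l) j) := by
          intro j
          have := congrArg res (hpt t i' j)
          rw [map_sum] at this
          simp only [map_mul] at this
          exact this
        simp only [hb, Finset.mul_sum]
        rw [Finset.sum_comm]
        refine Finset.sum_eq_zero fun l _ => ?_
        have := congrFun hv l
        simp only [Matrix.mulVec, dotProduct, Matrix.map_apply, Pi.zero_apply] at this
        have h3 : ∑ x, v x * (res (a t i' l) * h76_evk A res B t (V (Sum.inl l) x)) =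
            res (a t i' l) * ∑ x, h76_evk A res B t (Vt l x) * v x := by
          rw [Finset.mul_sum]
          exact Finset.sum_congr rfl fun x _ => by rw [hVt]; simp only [Matrix.submatrix_apply, id]; ring
        rw [h3, this, mul_zero]
    exact funext (Fintype.linearIndependent_iff.mp (hV t) v h2)
  have hunit : IsUnit Vt.det := h47_isUnit_of_pointwise B Vt.det hdet
  have hinv : Vt * Vt⁻¹ = 1 := Matrix.mul_nonsing_inv Vt hunit
  -- `a = Vb * Vt⁻¹`
  have hfin : (fun t => a t i j) = ((Vb * Vt⁻¹) i j : T → A) := by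
    funext t
    have hev : ∀ X : B, (X : T → A) t = h47_evA A B t X := fun X => rfl
    have hpt' : ∀ x, h47_evA A B t (Vb i x) = ∑ l, a t i l * h47_evA A B t (Vt l x) :=
      fun x => hpt t i x
    have h1 : ∀ l, ∑ x, h47_evA A B t (Vt l x) * h47_evA A B t (Vt⁻¹ x j) =
        if l = j then 1 else 0 := by
      intro l
      have h2 := congrArg (h47_evA A B t) (congrFun (congrFun hinv l) j)
      rw [Matrix.mul_apply, map_sum, Matrix.one_apply] at h2
      simp only [map_mul] at h2
      rw [h2]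
      split_ifs <;> simp
    rw [hev, Matrix.mul_apply, map_sum]
    simp only [map_mul, hpt', Finset.sum_mul]
    rw [Finset.sum_comm]
    simp only [mul_assoc, ← Finset.mul_sum, h1]
    simp
  rw [hfin]
  exact ((Vb * Vt⁻¹) i j).2

end Graph

end Fermat.Agent.S19

end
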