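import Fermat.Agent.S27.RRFull
import Fermat.Agent.S27.h68_RRCons

/-!
# Curve layer for S19 (ADD) / S17 : colon ("division") lemmas for Riemann–Roch spaces (helper92)

`K` algebraically closed, `F / K` a function field with a chart `x`, `g = h75_genus K x`.

* `h92_rr_mul_iff` : `q * f ∈ L(D) ↔ f ∈ L(D + div q)`;
* `h92_rr_exists_ord_eq` : for `deg D ≥ 2g` the space `L(D)` has no base point: at every place
  `P` some `f ∈ L(D)` has `ord_P f = -D(P)` exactly;
* `h92_rr_div` (**DIV**) : for `deg Z ≥ 2g`, `s * L(Z) ⊆ L(Y) ↔ s ∈ L(Y - Z)`;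
* `h92_rr_colon` : for `deg Z ≥ 2g` and `t ≠ 0`, `s * L(Z) ⊆ t * L(Y) ↔ s ∈ L(Y - Z - div t)`;
* `h92_colon U V` : the colon submodule `{s | s * U ⊆ V}`, with `h92_colon_rr`
  (`(L(Y) : L(Z)) = L(Y - Z)`) and `h92_rr_inf` (`L(A) ⊓ L(B) = L(A ⊓ B)`).
-/

set_option autoImplicit false

open AlgebraicCurve

namespace Fermat.Agent.S19

open Fermat.Agent.S18 Fermat.Agent.S27

variable {K F : Type*} [Field K] [Field F] [Algebra K F]

/-- `q * f ∈ L(D) ↔ f ∈ L(D + div q)`. -/
theorem h92_rr_mul_iff {q : F} (hq : q ≠ 0) (Dq : Divisor K F)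
    (hDq : ∀ P : Place K F, Dq P = P.ord q) (D : Divisor K F) (f : F) :
    q * f ∈ riemannRochSpace D ↔ f ∈ riemannRochSpace (D + Dq) := by
  rw [mem_riemannRochSpace_iff, mem_riemannRochSpace_iff]
  by_cases hf : f = 0
  · subst hf
    simp
  · refine forall_congr' fun v => ?_
    rw [Finsupp.add_apply, hDq v]
    constructor
    · rintro (h | h)
      · exact absurd h (mul_ne_zero hq hf)
      · right
        rw [v.ord_mul hq hf] at h
        omega
    · rintro (h | h)
      · exact absurd h hf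
      · right
        rw [v.ord_mul hq hf]
        omega

/-- the colon submodule `{s | s * U ⊆ V}`. -/
def h92_colon (U V : Submodule K F) : Submodule K F where
  carrier := {s | ∀ w ∈ U, s * w ∈ V}
  zero_mem' := by
    intro w _
    rw [zero_mul]
    exact V.zero_mem
  add_mem' := by
    intro a b ha hb w hw
    rw [add_mul]
    exact V.add_mem (ha w hw) (hb w hw)
  smul_mem' := by
    intro c a ha w hw
    rw [smul_mul_assoc]
    exact V.smul_mem c (ha w hw)

theorem h92_mem_colon {U V : Submodule K F} {s : F} :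
    s ∈ h92_colon U V ↔ ∀ w ∈ U, s * w ∈ V := Iff.rfl

/-- `L(A) ⊓ L(B) = L(A ⊓ B)`. -/
theorem h92_rr_inf (A B : Divisor K F) :
    riemannRochSpace A ⊓ riemannRochSpace B = riemannRochSpace (A ⊓ B) := by
  ext f
  rw [Submodule.mem_inf, mem_riemannRochSpace_iff, mem_riemannRochSpace_iff,
    mem_riemannRochSpace_iff]
  constructor
  · rintro ⟨hA, hB⟩ v
    rcases hA v with h | h
    · exact Or.inl h
    rcases hB v with h' | h'
    · exact Or.inl h'
    right
    rw [Finsupp.inf_apply]
    rcases le_total (A v) (B v) with h1 | h1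
    · rw [inf_eq_left.mpr h1]
      exact h
    · rw [inf_eq_right.mpr h1]
      exact h'
  · intro h
    refine ⟨fun v => ?_, fun v => ?_⟩
    · rcases h v with h0 | h1
      · exact Or.inl h0
      · right
        rw [Finsupp.inf_apply] at h1
        have := inf_le_left (a := A v) (b := B v)
        omega
    · rcases h v with h0 | h1
      · exact Or.inl h0
      · right
        rw [Finsupp.inf_apply] at h1
        have := inf_le_right (a := A v) (b := B v)
        omega

section AlgClosed

variable [IsAlgClosed K]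

/-- **No base points** in degree `≥ 2g`: at every place some section of `D` has the exact
order `-D(P)`. -/
theorem h92_rr_exists_ord_eq {x : F} (hx : h75_IsChart K x) (D : Divisor K F)
    (hD : 2 * (h75_genus K x : ℤ) ≤ Divisor.degree D) (P : Place K F) :
    ∃ f ∈ riemannRochSpace D, f ≠ 0 ∧ P.ord f = -D P := by
  classical
  have hdegP : Divisor.degree (Finsupp.single P (1 : ℤ)) = 1 := by
    rw [Divisor.degree_single, h75_deg_eq_one hx P]
    simp
  have hdeg' : Divisor.degree (D - Finsupp.single P 1) = Divisor.degree D - 1 := by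
    rw [map_sub, hdegP]
  have h1 := h15_finrank_rr_of_deg hx D (by omega)
  have h2 := h15_finrank_rr_of_deg hx (D - Finsupp.single P 1) (by rw [hdeg']; omega)
  rw [hdeg'] at h2
  have := (h75_riemann hx D).1
  have := (h75_riemann hx (D - Finsupp.single P 1)).1
  have hle : riemannRochSpace (D - Finsupp.single P 1) ≤ riemannRochSpace D := by
    apply h68_rr_mono
    rw [Finsupp.le_def]
    intro v
    rw [Finsupp.sub_apply]
    by_cases hv : v = P
    · subst hv
      rw [Finsupp.single_eq_same]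
      omega
    · rw [Finsupp.single_eq_of_ne hv]
      omega
  have hex : ∃ f ∈ riemannRochSpace D, f ∉ riemannRochSpace (D - Finsupp.single P 1) := by
    by_contra hcon
    push Not at hcon
    have heq : riemannRochSpace D = riemannRochSpace (D - Finsupp.single P 1) :=
      le_antisymm hcon hle
    rw [heq] at h1
    omega
  obtain ⟨f, hfD, hfn⟩ := hex
  have hf0 : f ≠ 0 := by
    rintro rfl
    exact hfn (Submodule.zero_mem _)
  refine ⟨f, hfD, hf0, ?_⟩
  rw [mem_riemannRochSpace_iff] at hfD hfn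
  push Not at hfn
  obtain ⟨v, -, hv⟩ := hfn
  rw [Finsupp.sub_apply] at hv
  by_cases hvP : v = P
  · subst hvP
    rw [Finsupp.single_eq_same] at hv
    rcases hfD v with h | h
    · exact absurd h hf0
    · omega
  · rw [Finsupp.single_eq_of_ne hvP] at hv
    rcases hfD v with h | h
    · exact absurd h hf0
    · omega

/-- **DIV**: for `deg Z ≥ 2g`, `s * L(Z) ⊆ L(Y)` iff `s ∈ L(Y - Z)`. -/
theorem h92_rr_div {x : F} (hx : h75_IsChart K x) (Y Z : Divisor K F)
    (hZ : 2 * (h75_genus K x : ℤ) ≤ Divisor.degree Z) (s : F) :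
    (∀ w ∈ riemannRochSpace Z, s * w ∈ riemannRochSpace Y) ↔ s ∈ riemannRochSpace (Y - Z) := by
  constructor
  · intro h
    rw [mem_riemannRochSpace_iff]
    intro v
    by_cases hs : s = 0
    · exact Or.inl hs
    right
    obtain ⟨w, hwZ, hw0, hwv⟩ := h92_rr_exists_ord_eq hx Z hZ v
    have h1 := h w hwZ
    rw [mem_riemannRochSpace_iff] at h1
    rcases h1 v with h2 | h2
    · exact absurd h2 (mul_ne_zero hs hw0)
    · rw [v.ord_mul hs hw0, hwv] at h2
      rw [Finsupp.sub_apply]
      omega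
  · intro hs w hw
    rw [mem_riemannRochSpace_iff] at hs hw ⊢
    intro v
    by_cases hs0 : s = 0
    · left
      rw [hs0, zero_mul]
    by_cases hw0 : w = 0
    · left
      rw [hw0, mul_zero]
    right
    rcases hs v with h | h
    · exact absurd h hs0
    rcases hw v with h' | h'
    · exact absurd h' hw0
    rw [v.ord_mul hs0 hw0]
    rw [Finsupp.sub_apply] at h
    omega

/-- the colon of two Riemann–Roch spaces: `(L(Y) : L(Z)) = L(Y - Z)` for `deg Z ≥ 2g`. -/
theorem h92_colon_rr {x : F} (hx : h75_IsChart K x) (Y Z : Divisor K F)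
    (hZ : 2 * (h75_genus K x : ℤ) ≤ Divisor.degree Z) :
    h92_colon (riemannRochSpace Z) (riemannRochSpace Y) = riemannRochSpace (Y - Z) := by
  ext s
  exact h92_rr_div hx Y Z hZ s

/-- **COLON** with a multiplier: for `deg Z ≥ 2g` and `t ≠ 0`,
`s * L(Z) ⊆ t * L(Y)` iff `s ∈ L(Y - Z - div t)`. -/
theorem h92_rr_colon {x : F} (hx : h75_IsChart K x) (Y Z : Divisor K F)
    (hZ : 2 * (h75_genus K x : ℤ) ≤ Divisor.degree Z) {t : F} (ht : t ≠ 0)
    (Dt : Divisor K F) (hDt : ∀ P : Place K F, Dt P = P.ord t) (s : F) :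
    (∀ w ∈ riemannRochSpace Z, ∃ u ∈ riemannRochSpace Y, s * w = t * u) ↔
      s ∈ riemannRochSpace (Y - Z - Dt) := by
  have hinv : ∀ P : Place K F, (-Dt) P = P.ord t⁻¹ := by
    intro P
    rw [Finsupp.neg_apply, hDt, P.ord_inv]
  have h1 : (∀ w ∈ riemannRochSpace Z, ∃ u ∈ riemannRochSpace Y, s * w = t * u) ↔
      ∀ w ∈ riemannRochSpace Z, (t⁻¹ * s) * w ∈ riemannRochSpace Y := by
    refine forall₂_congr fun w _ => ?_
    constructor
    · rintro ⟨u, hu, he⟩
      have : t⁻¹ * s * w = u := by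
        rw [mul_assoc, he, ← mul_assoc, inv_mul_cancel₀ ht, one_mul]
      rw [this]
      exact hu
    · intro h
      refine ⟨t⁻¹ * s * w, h, ?_⟩
      rw [mul_assoc, ← mul_assoc t, mul_inv_cancel₀ ht, one_mul]
  rw [h1, h92_rr_div hx Y Z hZ, h92_rr_mul_iff (inv_ne_zero ht) (-Dt) hinv, sub_eq_add_neg (Y - Z)]

end AlgClosed

end Fermat.Agent.S19
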