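import Fermat.Agent.S19.h26_FamDefs
import Fermat.Agent.S19.h92_RRDiv
import Fermat.Agent.S19.h24_RedL
import Fermat.Agent.S19.h76_RegCalc

/-!
# S19 GEOM, row B4-0b FAM (helper76): regular families over a reduction datum

The five statements of `skel/stub_Fam.lean` (helper26), verbatim:
`h26_bvec_const`, `h26_bvec_mul`, `h26_fam_div`, `h26_fam_mul`, `h26_fam_extract`.
They are the abstract calculus of `h76_RegCalc.lean` (`h76_reg_colon`, `h76_reg_prod`,
`h76_reg_graph`) read in the frames of a reduction datum `R : h39_RedDatum K F k Fb`.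
-/

set_option autoImplicit false

noncomputable section

open AlgebraicCurve

namespace Fermat.Agent.S19

open Fermat.Agent.S18 Fermat.Agent.S27

variable {K F k Fb : Type*} [Field K] [Field F] [Algebra K F] [Field k] [Field Fb] [Algebra k Fb]

/-! ### Helpers -/

/-- reduction of a `B`-rational combination of an integral family -/
theorem h76_redF_lc (R : h39_RedDatum K F k Fb) {T : Type*} (B : Subalgebra R.A (T → R.A))
    {ι : Type*} [Fintype ι] (e : ι → F) (he : ∀ i, e i ∈ R.O) (c : ι → B) (t : T) :
    R.redF (∑ i, ((((c i : B) : T → R.A) t : R.A) : K) • e i) =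
      ∑ i, R.res (((c i : B) : T → R.A) t) • R.redF (e i) := by
  rw [h24_on_redF R e he _ (fun i => (((c i : B) : T → R.A) t).2)]
  refine Finset.sum_congr rfl fun i _ => ?_
  rw [R.resK_of_mem (((c i : B) : T → R.A) t).2]

/-- a `B`-rational combination of an integral family is integral -/
theorem h76_lc_mem (R : h39_RedDatum K F k Fb) {T : Type*} (B : Subalgebra R.A (T → R.A))
    {ι : Type*} [Fintype ι] (e : ι → F) (he : ∀ i, e i ∈ R.O) (c : ι → B) (t : T) :
    (∑ i, ((((c i : B) : T → R.A) t : R.A) : K) • e i) ∈ R.O :=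
  (h52_redF_comb R e he _ (fun i => (((c i : B) : T → R.A) t).2)).1

/-- integral structure constants of a product of orthonormal families -/
theorem h76_mul_coords (R : h39_RedDatum K F k Fb) {ι ι' ι'' : Type*} [Fintype ι''] (e : ι → F)
    (he : ∀ i, e i ∈ R.O) (e' : ι' → F) (he' : ∀ i, e' i ∈ R.O) (e'' : ι'' → F)
    (he'' : h26_ON R e'') (hmul : ∀ i j, e i * e' j ∈ Submodule.span K (Set.range e'')) :
    ∃ m : ι → ι' → ι'' → R.A,
      (∀ i j, e i * e' j = ∑ l, ((m i j l : R.A) : K) • e'' l) ∧
      ∀ i j, R.redF (e i) * R.redF (e' j) = ∑ l, R.res (m i j l) • R.redF (e'' l) := by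
  have hex : ∀ i j, ∃ a : ι'' → K, ∑ l, a l • e'' l = e i * e' j := fun i j =>
    (Submodule.mem_span_range_iff_exists_fun K).mp (hmul i j)
  choose a ha using hex
  have haA : ∀ i j l, a i j l ∈ R.A := fun i j =>
    h52_coord_mem R e'' he''.1 he''.2 (a i j)
      (by rw [ha i j]; exact R.O.mul_mem _ _ (he i) (he' j))
  refine ⟨fun i j l => ⟨a i j l, haA i j l⟩, fun i j => (ha i j).symm, fun i j => ?_⟩
  rw [← h39_redF_mul R (he i) (he' j), ← ha i j, h24_on_redF R e'' he''.1 (a i j) (haA i j)]
  refine Finset.sum_congr rfl fun l _ => ?_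
  rw [R.resK_of_mem (haA i j l)]

/-! ### The statements of the row -/

/-- constant families are `B`-rational -/
theorem h26_bvec_const (R : h39_RedDatum K F k Fb) {T : Type*} (B : Subalgebra R.A (T → R.A))
    {ι : Type*} [Fintype ι] (e : ι → F) (he : h26_ON R e) (f : F) (hfO : f ∈ R.O)
    (hf : f ∈ Submodule.span K (Set.range e)) : (fun _ : T => f) ∈ h26_BVec R B e := by
  obtain ⟨a, ha⟩ := (Submodule.mem_span_range_iff_exists_fun K).mp hf
  have haA : ∀ i, a i ∈ R.A := h52_coord_mem R e he.1 he.2 a (by rw [ha]; exact hfO)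
  refine ⟨fun i => algebraMap R.A B ⟨a i, haA i⟩, fun t => ?_⟩
  rw [← ha]
  rfl

/-- products of `B`-rational families are `B`-rational -/
theorem h26_bvec_mul (R : h39_RedDatum K F k Fb) {T : Type*} (B : Subalgebra R.A (T → R.A))
    {ι ι' ι'' : Type*} [Fintype ι] [Fintype ι'] [Fintype ι'']
    (e : ι → F) (he : h26_ON R e) (e' : ι' → F) (he' : h26_ON R e') (e'' : ι'' → F)
    (he'' : h26_ON R e'')
    (hmul : ∀ i j, e i * e' j ∈ Submodule.span K (Set.range e''))
    (w : T → F) (hw : w ∈ h26_BVec R B e) (u : T → F) (hu : u ∈ h26_BVec R B e') :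
    (fun t => w t * u t) ∈ h26_BVec R B e'' := by
  obtain ⟨m, hm, -⟩ := h76_mul_coords R e he.1 e' he'.1 e'' he'' hmul
  obtain ⟨cw, hcw⟩ := hw
  obtain ⟨cu, hcu⟩ := hu
  refine ⟨fun l => ∑ i, ∑ j, cw i * cu j * algebraMap R.A B (m i j l), fun t => ?_⟩
  show w t * u t = _
  rw [hcw t, hcu t, h76_lc_mul e e' e'' (fun i j l => ((m i j l : R.A) : K)) hm]
  refine Finset.sum_congr rfl fun l _ => ?_
  congr 1
  have h1 : ∀ X : B, ((((X : B) : T → R.A) t : R.A) : K) = h76_evK R.A B t X := fun X => rfl
  rw [h1, map_sum]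
  refine Finset.sum_congr rfl fun i _ => ?_
  rw [map_sum]
  refine Finset.sum_congr rfl fun j _ => ?_
  rw [map_mul, map_mul]
  rfl

/-- (FAM-DIV) division of regular families: if the division spaces `{f ∈ ⟨e⟩ | f * v ⊆ ⟨w⟩}` have
the same dimension `r` at every `t`, upstairs and downstairs, then they are spanned by a regular
family, upstairs and downstairs. -/
theorem h26_fam_div (R : h39_RedDatum K F k Fb) [Infinite k] {T : Type*} [Finite T]
    (B : Subalgebra R.A (T → R.A))
    {ι ι' κ κ' : Type*} [Fintype ι] [Fintype ι'] [Fintype κ] [Fintype κ']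
    (e : ι → F) (he : h26_ON R e) (e' : ι' → F) (he' : h26_ON R e')
    (v : κ' → T → F) (hvO : ∀ j t, v j t ∈ R.O)
    (hv : ∀ i j, (fun t => e i * v j t) ∈ h26_BVec R B e')
    (w : κ → T → F) (hw : h26_RegFam R B e' w) (r : ℕ)
    (hK : ∀ t, Module.finrank K (h26_divSp K (Submodule.span K (Set.range e))
      (Set.range fun j => v j t) (Submodule.span K (Set.range fun j => w j t))) = r)
    (hk : ∀ t, Module.finrank k (h26_divSp k (Submodule.span k (Set.range fun i => R.redF (e i)))
      (Set.range fun j => R.redF (v j t))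
      (Submodule.span k (Set.range fun j => R.redF (w j t)))) = r) :
    ∃ u : Fin r → T → F, h26_RegFam R B e u ∧
      (∀ t, Submodule.span K (Set.range fun a => u a t) =
        h26_divSp K (Submodule.span K (Set.range e))
          (Set.range fun j => v j t) (Submodule.span K (Set.range fun j => w j t))) ∧
      (∀ t, Submodule.span k (Set.range fun a => R.redF (u a t)) =
        h26_divSp k (Submodule.span k (Set.range fun i => R.redF (e i)))
          (Set.range fun j => R.redF (v j t))
          (Submodule.span k (Set.range fun j => R.redF (w j t)))) := by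
  classical
  -- coordinates
  choose cP hcP0 using hv
  have hcP : ∀ i j t, e i * v j t = ∑ l, ((((cP i j l : B) : T → R.A) t : R.A) : K) • e' l :=
    fun i j t => hcP0 i j t
  choose cw hcw using hw.1
  set V2 : Matrix ι' κ B := Matrix.of fun i j => cw j i with hV2def
  have hβ2 : LinearIndependent K e' := h24_on_linearIndependent R e' he'.1 he'.2
  have hβ3 : LinearIndependent K e := h24_on_linearIndependent R e he.1 he.2
  -- the vectors of `V2`
  have hvecK : ∀ t, h76_vec e' (V2.map (h76_evK R.A B t)) = fun j => w j t := fun t => by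
    funext j
    rw [hcw j t]
    rfl
  have hveck : ∀ t, h76_vec (fun i => R.redF (e' i)) (V2.map (h76_evk R.A R.res B t)) =
      fun j => R.redF (w j t) := fun t => by
    funext j
    rw [hcw j t, h76_redF_lc R B e' he'.1]
    rfl
  have hV2 : h76_Reg R.A R.res B V2 := fun t => by
    apply h76_col_indep (fun i => R.redF (e' i))
    rw [hveck t]
    exact hw.2 t
  -- the colons
  have hcolK : ∀ t, h76_colonIn K e (fun j => v j t) (fun j => w j t) =
      h26_divSp K (Submodule.span K (Set.range e))
        (Set.range fun j => v j t) (Submodule.span K (Set.range fun j => w j t)) := fun t => by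
    ext x
    rw [h76_mem_colonIn, h26_mem_divSp, Set.forall_mem_range]
  have hcolk : ∀ t, h76_colonIn k (fun i => R.redF (e i)) (fun j => R.redF (v j t))
      (fun j => R.redF (w j t)) =
      h26_divSp k (Submodule.span k (Set.range fun i => R.redF (e i)))
        (Set.range fun j => R.redF (v j t))
        (Submodule.span k (Set.range fun j => R.redF (w j t))) := fun t => by
    ext x
    rw [h76_mem_colonIn, h26_mem_divSp, Set.forall_mem_range]
  obtain ⟨V3, hV3, hsK, hsk⟩ := h76_reg_colon R.A R.res R.res_surjective B e' e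
    (fun i => R.redF (e' i)) (fun i => R.redF (e i)) hβ2 hβ3 he'.2 he.2
    (fun i j l => cP i j l) (fun t j => v j t) (fun t i j => hcP i j t)
    (fun t j => R.redF (v j t))
    (fun t i j => by
      rw [← h39_redF_mul R (he.1 i) (hvO j t), hcP i j t, h76_redF_lc R B e' he'.1]
      rfl)
    V2 hV2 r
    (fun t => by rw [hvecK t, hcolK t]; exact hK t)
    (fun t => by rw [hveck t, hcolk t]; exact hk t)
  have hredu : ∀ t a, R.redF (h76_vec e (V3.map (h76_evK R.A B t)) a) =
      h76_vec (fun i => R.redF (e i)) (V3.map (h76_evk R.A R.res B t)) a := fun t a =>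
    h76_redF_lc R B e he.1 (fun i => V3 i a) t
  refine ⟨fun a t => h76_vec e (V3.map (h76_evK R.A B t)) a, ⟨fun a => ⟨fun i => V3 i a,
    fun t => rfl⟩, fun t => ?_⟩, fun t => ?_, fun t => ?_⟩
  · have h1 := h76_vec_indep (fun i => R.redF (e i)) he.2 _ (hV3 t)
    have h2 : (fun a => R.redF (h76_vec e (V3.map (h76_evK R.A B t)) a)) =
        h76_vec (fun i => R.redF (e i)) (V3.map (h76_evk R.A R.res B t)) :=
      funext fun a => hredu t a
    rw [h2]
    exact h1
  · have h1 := hsK t
    rw [hvecK t, hcolK t] at h1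
    exact h1
  · have h1 := hsk t
    rw [hveck t, hcolk t] at h1
    have h2 : (fun a => R.redF (h76_vec e (V3.map (h76_evK R.A B t)) a)) =
        h76_vec (fun i => R.redF (e i)) (V3.map (h76_evk R.A R.res B t)) :=
      funext fun a => hredu t a
    rw [h2]
    exact h1

/-- (FAM-MUL) product of regular families: if the product spaces have the same dimension `r` at
every `t`, upstairs and downstairs, then they are spanned by a regular family (constant
`A`-combinations of the products). -/
theorem h26_fam_mul (R : h39_RedDatum K F k Fb) [Infinite k] {T : Type*} [Finite T]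
    (B : Subalgebra R.A (T → R.A))
    {ι ι' ι'' κ κ' : Type*} [Fintype ι] [Fintype ι'] [Fintype ι''] [Fintype κ] [Fintype κ']
    (e : ι → F) (he : h26_ON R e) (e' : ι' → F) (he' : h26_ON R e') (e'' : ι'' → F)
    (he'' : h26_ON R e'')
    (hmul : ∀ i j, e i * e' j ∈ Submodule.span K (Set.range e''))
    (w : κ → T → F) (hw : h26_RegFam R B e w) (u : κ' → T → F) (hu : h26_RegFam R B e' u)
    (r : ℕ)
    (hK : ∀ t, Module.finrank K
      (Submodule.span K (Set.range fun q : κ × κ' => w q.1 t * u q.2 t)) = r)
    (hk : ∀ t, Module.finrank k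
      (Submodule.span k (Set.range fun q : κ × κ' => R.redF (w q.1 t) * R.redF (u q.2 t))) = r) :
    ∃ p : Fin r → T → F, h26_RegFam R B e'' p ∧
      (∀ t, Submodule.span K (Set.range fun c => p c t) =
        Submodule.span K (Set.range fun q : κ × κ' => w q.1 t * u q.2 t)) ∧
      (∀ t, Submodule.span k (Set.range fun c => R.redF (p c t)) =
        Submodule.span k (Set.range fun q : κ × κ' => R.redF (w q.1 t) * R.redF (u q.2 t))) := by
  classical
  obtain ⟨m, hm, hmb⟩ := h76_mul_coords R e he.1 e' he'.1 e'' he'' hmul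
  choose cw hcw using hw.1
  choose cu hcu using hu.1
  set V1 : Matrix ι κ B := Matrix.of fun i j => cw j i with hV1def
  set V2 : Matrix ι' κ' B := Matrix.of fun i j => cu j i with hV2def
  have hβ3 : LinearIndependent K e'' := h24_on_linearIndependent R e'' he''.1 he''.2
  have hvecK1 : ∀ t, h76_vec e (V1.map (h76_evK R.A B t)) = fun j => w j t := fun t => by
    funext j
    rw [hcw j t]
    rfl
  have hvecK2 : ∀ t, h76_vec e' (V2.map (h76_evK R.A B t)) = fun j => u j t := fun t => by
    funext j
    rw [hcu j t]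
    rfl
  have hveck1 : ∀ t, h76_vec (fun i => R.redF (e i)) (V1.map (h76_evk R.A R.res B t)) =
      fun j => R.redF (w j t) := fun t => by
    funext j
    rw [hcw j t, h76_redF_lc R B e he.1]
    rfl
  have hveck2 : ∀ t, h76_vec (fun i => R.redF (e' i)) (V2.map (h76_evk R.A R.res B t)) =
      fun j => R.redF (u j t) := fun t => by
    funext j
    rw [hcu j t, h76_redF_lc R B e' he'.1]
    rfl
  obtain ⟨V3, hV3, hsK, hsk⟩ := h76_reg_prod R.A R.res R.res_surjective B e e' e''
    (fun i => R.redF (e i)) (fun i => R.redF (e' i)) (fun i => R.redF (e'' i)) hβ3 he''.2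
    m hm hmb V1 V2 r
    (fun t => by rw [hvecK1 t, hvecK2 t]; exact hK t)
    (fun t => by rw [hveck1 t, hveck2 t]; exact hk t)
  have hredu : ∀ t a, R.redF (h76_vec e'' (V3.map (h76_evK R.A B t)) a) =
      h76_vec (fun i => R.redF (e'' i)) (V3.map (h76_evk R.A R.res B t)) a := fun t a =>
    h76_redF_lc R B e'' he''.1 (fun i => V3 i a) t
  refine ⟨fun a t => h76_vec e'' (V3.map (h76_evK R.A B t)) a, ⟨fun a => ⟨fun i => V3 i a,
    fun t => rfl⟩, fun t => ?_⟩, fun t => ?_, fun t => ?_⟩
  · have h1 := h76_vec_indep (fun i => R.redF (e'' i)) he''.2 _ (hV3 t)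
    have h2 : (fun a => R.redF (h76_vec e'' (V3.map (h76_evK R.A B t)) a)) =
        h76_vec (fun i => R.redF (e'' i)) (V3.map (h76_evk R.A R.res B t)) :=
      funext fun a => hredu t a
    rw [h2]
    exact h1
  · have h1 := hsK t
    rw [hvecK1 t, hvecK2 t] at h1
    exact h1
  · have h1 := hsk t
    rw [hveck1 t, hveck2 t] at h1
    have h2 : (fun a => R.redF (h76_vec e'' (V3.map (h76_evK R.A B t)) a)) =
        h76_vec (fun i => R.redF (e'' i)) (V3.map (h76_evk R.A R.res B t)) :=
      funext fun a => hredu t a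
    rw [h2]
    exact h1

/-- (FAM-EXTRACT) the graph coordinates of a regular family lie in `B`. -/
theorem h26_fam_extract (R : h39_RedDatum K F k Fb) {T : Type*} [Finite T]
    (B : Subalgebra R.A (T → R.A)) {n' g' : ℕ} (b' : Fin n' → F) (b'' : Fin g' → F)
    (hb : h26_ON R (Sum.elim b' b'')) {κ : Type*} [Fintype κ]
    (w : κ → T → F) (hw : h26_RegFam R B (Sum.elim b' b'') w)
    (hcard : Fintype.card κ = n')
    (Ac : T → Matrix (Fin g') (Fin n') R.A)
    (hAc : ∀ t j, b' j + ∑ i, ((Ac t i j : R.A) : K) • b'' i ∈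
      Submodule.span K (Set.range fun a => w a t)) :
    ∀ i j, (fun t => Ac t i j) ∈ B := by
  classical
  intro i j
  let eq : κ ≃ Fin n' := Fintype.equivFinOfCardEq hcard
  choose cw hcw using hw.1
  have hβ : LinearIndependent K (Sum.elim b' b'') :=
    h24_on_linearIndependent R (Sum.elim b' b'') hb.1 hb.2
  set V : Matrix (Fin n' ⊕ Fin g') (Fin n') B := Matrix.of fun x j => cw (eq.symm j) x with hVdef
  have hvecK : ∀ t, h76_vec (Sum.elim b' b'') (V.map (h76_evK R.A B t)) =
      fun j => w (eq.symm j) t := fun t => by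
    funext j
    rw [hcw (eq.symm j) t]
    rfl
  have hveck : ∀ t, h76_vec (fun x => R.redF (Sum.elim b' b'' x))
      (V.map (h76_evk R.A R.res B t)) = fun j => R.redF (w (eq.symm j) t) := fun t => by
    funext j
    rw [hcw (eq.symm j) t, h76_redF_lc R B (Sum.elim b' b'') hb.1]
    rfl
  have hV : h76_Reg R.A R.res B V := fun t => by
    apply h76_col_indep (fun x => R.redF (Sum.elim b' b'' x))
    rw [hveck t]
    exact (hw.2 t).comp _ eq.symm.injective
  have hspan : ∀ t, Submodule.span K (Set.range (h76_vec (Sum.elim b' b'')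
      (V.map (h76_evK R.A B t)))) = Submodule.span K (Set.range fun j : Fin n' =>
        Sum.elim b' b'' (Sum.inl j) + ∑ i, ((Ac t i j : R.A) : K) • Sum.elim b' b'' (Sum.inr i)) := by
    intro t
    rw [hvecK t]
    have hrange : (Set.range fun j => w (eq.symm j) t) = Set.range fun a => w a t := by
      ext y
      constructor
      · rintro ⟨j, rfl⟩
        exact ⟨eq.symm j, rfl⟩
      · rintro ⟨a, rfl⟩
        exact ⟨eq a, by simp⟩
    rw [hrange]
    symm
    have hwO : ∀ a, w a t ∈ R.O := fun a => by
      rw [hcw a t]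
      exact h76_lc_mem R B (Sum.elim b' b'') hb.1 (cw a) t
    have hwK : LinearIndependent K (fun a => w a t) :=
      h24_on_linearIndependent R _ hwO (hw.2 t)
    have hgraph : LinearIndependent K (fun j : Fin n' =>
        Sum.elim b' b'' (Sum.inl j) + ∑ i, ((Ac t i j : R.A) : K) • Sum.elim b' b'' (Sum.inr i)) := by
      rw [Fintype.linearIndependent_iff]
      intro c hc l
      have h1 : ∑ x : Fin n' ⊕ Fin g', (Sum.elim c
          (fun i => ∑ j, c j * ((Ac t i j : R.A) : K)) x) • Sum.elim b' b'' x = 0 := by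
        rw [Fintype.sum_sum_type]
        simp only [Sum.elim_inl, Sum.elim_inr]
        rw [← hc]
        simp only [smul_add, Finset.sum_add_distrib, Finset.smul_sum, Finset.sum_smul, smul_smul,
          Sum.elim_inl, Sum.elim_inr]
        congr 1
        exact Finset.sum_comm
      have h2 := Fintype.linearIndependent_iff.mp hβ _ h1 (Sum.inl l)
      simpa using h2
    have hfd : FiniteDimensional K ↥(Submodule.span K (Set.range fun a => w a t)) :=
      FiniteDimensional.span_of_finite K (Set.finite_range _)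
    apply Submodule.eq_of_le_of_finrank_eq
    · rw [Submodule.span_le]
      rintro _ ⟨j, rfl⟩
      exact hAc t j
    · rw [finrank_span_eq_card hgraph, finrank_span_eq_card hwK, Fintype.card_fin, hcard]
  exact h76_reg_graph R.A R.res R.res_surjective B (Sum.elim b' b'') hβ V hV Ac hspan i j

end Fermat.Agent.S19

end
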