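import Fermat.Agent.S19.h26_FamDefs
import Fermat.Agent.S19.h92_RRDiv
import Fermat.Agent.S18.h52_ONCore
import Fermat.Agent.S18.h64_Star
import Fermat.Agent.S18.RR_Chart

/-!
# S19 GEOM, row GFAM-DIV: the curve-side inputs of `h26_gfam_div` (helper92)

Everything `h26_gfam_div` needs besides the abstract division of regular families
(`h26_fam_div`, row FAM):

* `h92_divSp_rr` : on a curve with a chart, `{f ∈ L(D) | f * v ⊆ L(Y)} = L(Y - X)` when `v` spans
  `L(X)`, `deg X ≥ 2g` and `Y - X ≤ D` (used upstairs and downstairs);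
* `h92_bvec_mem_O`, `h92_bvec_const_mul` : `B`-rational families are integral, and a constant
  integral multiple of a `B`-rational family is `B`-rational in a product basis;
* `h92_mapDomain_sub`, `h92_mapDomain_mono` : push-forward of divisors;
* `h92_gfam_div_K`, `h92_gfam_div_k` : the two division spaces of `h26_gfam_div` are
  `L(Y t - X t)` and `L(r0_* (Y t - X t))`.
-/

set_option autoImplicit false

noncomputable section

open AlgebraicCurve

namespace Fermat.Agent.S19

open Fermat.Agent.S18 Fermat.Agent.S27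

section Curve

variable {K F : Type*} [Field K] [Field F] [Algebra K F] [IsAlgClosed K]

/-- the division space of Riemann–Roch spaces: `{f ∈ L(D) | f * v ⊆ L(Y)} = L(Y - X)` when `v`
spans `L(X)`, `deg X ≥ 2g` and `Y - X ≤ D`. -/
theorem h92_divSp_rr {x : F} (hx : h75_IsChart K x) (D X Y : Divisor K F)
    (hX : 2 * (h75_genus K x : ℤ) ≤ Divisor.degree X) (hD : Y - X ≤ D)
    {κ : Type*} (v : κ → F) (hv : Submodule.span K (Set.range v) = riemannRochSpace X) :
    h26_divSp K (riemannRochSpace D) (Set.range v) (riemannRochSpace Y) =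
      riemannRochSpace (Y - X) := by
  ext f
  rw [h26_mem_divSp, ← h92_rr_div hx Y X hX f]
  constructor
  · rintro ⟨_, h⟩ w hw
    rw [← hv] at hw
    induction hw using Submodule.span_induction with
    | mem s hs => exact h s hs
    | zero => rw [mul_zero]; exact Submodule.zero_mem _
    | add a b _ _ ha hb => rw [mul_add]; exact Submodule.add_mem _ ha hb
    | smul c a _ ha => rw [mul_smul_comm]; exact Submodule.smul_mem _ c ha
  · intro h
    refine ⟨h68_rr_mono hD ((h92_rr_div hx Y X hX f).mp h), fun s hs => h s ?_⟩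
    rw [← hv]
    exact Submodule.subset_span hs

end Curve

section MapDomain

/-- push-forward of integer-valued finitely supported functions commutes with subtraction -/
theorem h92_mapDomain_sub {α β : Type*} (f : α → β) (a b : α →₀ ℤ) :
    Finsupp.mapDomain f (a - b) = Finsupp.mapDomain f a - Finsupp.mapDomain f b :=
  map_sub (Finsupp.mapDomain.addMonoidHom f) a b

/-- push-forward of integer-valued finitely supported functions is monotone -/
theorem h92_mapDomain_mono {α β : Type*} (f : α → β) {a b : α →₀ ℤ} (h : a ≤ b) :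
    Finsupp.mapDomain f a ≤ Finsupp.mapDomain f b := by
  intro q
  have h0 : 0 ≤ Finsupp.mapDomain f (b - a) q :=
    h64_mapDomain_nonneg f (b - a) q fun p _ => by
      rw [Finsupp.sub_apply]
      exact sub_nonneg.mpr (h p)
  rw [h92_mapDomain_sub, Finsupp.sub_apply] at h0
  exact sub_nonneg.mp h0

end MapDomain

variable {K F k Fb : Type*} [Field K] [Field F] [Algebra K F] [Field k] [Field Fb] [Algebra k Fb]

/-- `B`-rational families in an integral family are integral. -/
theorem h92_bvec_mem_O (R : h39_RedDatum K F k Fb) {T : Type*} (B : Subalgebra R.A (T → R.A))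
    {ι : Type*} [Fintype ι] (e : ι → F) (he : ∀ i, e i ∈ R.O) (w : T → F)
    (hw : w ∈ h26_BVec R B e) (t : T) : w t ∈ R.O := by
  obtain ⟨c, hc⟩ := hw
  rw [hc t]
  refine sum_mem fun i _ => ?_
  rw [Algebra.smul_def]
  exact R.O.mul_mem _ _ ((R.mem_iff _).mp (SetLike.coe_mem _)) (he i)

/-- A constant integral multiple of a `B`-rational family is `B`-rational in any orthonormal
family whose span contains the products. -/
theorem h92_bvec_const_mul (R : h39_RedDatum K F k Fb) {T : Type*}
    (B : Subalgebra R.A (T → R.A)) {ιv ι' : Type*} [Fintype ιv] [Fintype ι'] (ev : ιv → F)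
    (hev : ∀ i, ev i ∈ R.O) (e' : ι' → F) (he' : h26_ON R e') (f : F) (hf : f ∈ R.O)
    (hmul : ∀ j, f * ev j ∈ Submodule.span K (Set.range e'))
    (v : T → F) (hv : v ∈ h26_BVec R B ev) : (fun t => f * v t) ∈ h26_BVec R B e' := by
  classical
  obtain ⟨c, hc⟩ := hv
  have h1 : ∀ j, ∃ a : ι' → K, f * ev j = ∑ m, a m • e' m := fun j => by
    obtain ⟨a, ha⟩ := (Submodule.mem_span_range_iff_exists_fun K).mp (hmul j)
    exact ⟨a, ha.symm⟩
  choose a ha using h1
  have haA : ∀ j m, a j m ∈ R.A := fun j => by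
    have hO : f * ev j ∈ R.O := R.O.mul_mem _ _ hf (hev j)
    rw [ha j] at hO
    exact h52_coord_mem R e' he'.1 he'.2 (a j) hO
  refine ⟨fun m => ∑ j, (⟨a j m, haA j m⟩ : R.A) • c j, fun t => ?_⟩
  show f * v t = _
  rw [hc t, Finset.mul_sum]
  simp_rw [mul_smul_comm, ha, Finset.smul_sum, smul_smul]
  rw [Finset.sum_comm]
  refine Finset.sum_congr rfl fun m _ => ?_
  rw [← Finset.sum_smul]
  congr 1
  simp [mul_comm]

/-- the division space of `h26_gfam_div` upstairs is `L(Y t - X t)` -/
theorem h92_gfam_div_K [IsAlgClosed K] (R : h39_RedDatum K F k Fb) (S : h39_PlaceRed R) {x : F}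
    (hx : h75_IsChart K x) {T : Type*} {ι κ κ' : Type*}
    (e : ι → F) (D : Divisor K F) (he : h26_ONBasis R S e D)
    (v : κ' → T → F) (X : T → Divisor K F) (hv : h26_Spans R S v X)
    (w : κ → T → F) (Y : T → Divisor K F) (hw : h26_Spans R S w Y)
    (hX : ∀ t, 2 * (h75_genus K x : ℤ) ≤ Divisor.degree (X t))
    (hD : ∀ t, Y t - X t ≤ D) (t : T) :
    h26_divSp K (Submodule.span K (Set.range e)) (Set.range fun j => v j t)
      (Submodule.span K (Set.range fun j => w j t)) = riemannRochSpace (Y t - X t) := by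
  rw [he.2.1, hw.1 t]
  exact h92_divSp_rr hx D (X t) (Y t) (hX t) (hD t) (fun j => v j t) (hv.1 t)

/-- the division space of `h26_gfam_div` downstairs is `L(r0_* (Y t - X t))` -/
theorem h92_gfam_div_k [IsAlgClosed K] [IsAlgClosed k] (R : h39_RedDatum K F k Fb)
    (S : h39_PlaceRed R) {x : F} {xb : Fb}
    (hx : h75_IsChart K x) (hxb : h75_IsChart k xb) (hg : h75_genus k xb = h75_genus K x)
    {T : Type*} {ι κ κ' : Type*}
    (e : ι → F) (D : Divisor K F) (he : h26_ONBasis R S e D)
    (v : κ' → T → F) (X : T → Divisor K F) (hv : h26_Spans R S v X)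
    (w : κ → T → F) (Y : T → Divisor K F) (hw : h26_Spans R S w Y)
    (hX : ∀ t, 2 * (h75_genus K x : ℤ) ≤ Divisor.degree (X t))
    (hD : ∀ t, Y t - X t ≤ D) (t : T) :
    h26_divSp k (Submodule.span k (Set.range fun i => R.redF (e i)))
      (Set.range fun j => R.redF (v j t))
      (Submodule.span k (Set.range fun j => R.redF (w j t))) =
      riemannRochSpace (Finsupp.mapDomain S.r0 (Y t - X t)) := by
  rw [he.2.2, hw.2 t, h92_mapDomain_sub]
  refine h92_divSp_rr hxb _ _ _ ?_ ?_ (fun j => R.redF (v j t)) (hv.2 t)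
  · rw [hg, h64_degree_mapDomain (h75_deg_eq_one hx) (h75_deg_eq_one hxb)]
    exact hX t
  · rw [← h92_mapDomain_sub]
    exact h92_mapDomain_mono S.r0 (hD t)

end Fermat.Agent.S19

end
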