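import Fermat.Agent.S19.h26_FamDefs
import Fermat.Agent.S19.h92_RRDiv
import Fermat.Agent.S19.h92_GFamDivCore
import Fermat.Agent.S19.h24_AddRed
import Fermat.Agent.S19.h24_RedL

/-!
# S19, block GEOM, row B4-1a GFAM-BASIC (helper4)

The three basic geometric families over one reduction datum, verbatim from the skeleton
`skel/stub_GFamBasic.lean` (architect helper26):

* `h26_gfam_const` : the constant family of an orthonormal basis of `L(D)`;
* `h26_gfam_graph` : the graph families `W_x = L(M - E_x)` in graph coordinates;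
* `h26_gfam_scale` : the family `q(t) * e_i` for a `B`-rational `q` with nonzero reductions,
  spanning `L(D0 - div q(t))`.
-/

set_option autoImplicit false

noncomputable section

open AlgebraicCurve

namespace Fermat.Agent.S19

open Fermat.Agent.S18 Fermat.Agent.S27

section Generic

variable {K F : Type*} [Field K] [Field F] [Algebra K F]

/-- multiplication by `q ≠ 0` carries a spanning family of `L(D0)` to a spanning family of
`L(D0 - div q)` -/
theorem h4_span_mul_rr {ι : Type*} (e : ι → F) (D0 : Divisor K F)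
    (hspan : Submodule.span K (Set.range e) = riemannRochSpace D0) {q : F} (hq : q ≠ 0)
    (Dq : Divisor K F) (hDq : ∀ P : Place K F, Dq P = P.ord q) :
    Submodule.span K (Set.range fun i => q * e i) = riemannRochSpace (D0 - Dq) := by
  have h1 : (fun i => q * e i) = (LinearMap.mulLeft K q) ∘ e := by
    funext i
    rfl
  rw [h1, Set.range_comp, ← Submodule.map_span, hspan]
  ext g
  constructor
  · rintro ⟨f, hf, rfl⟩
    show q * f ∈ riemannRochSpace (D0 - Dq)
    rw [h92_rr_mul_iff hq Dq hDq, sub_add_cancel]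
    exact hf
  · intro hg
    refine ⟨q⁻¹ * g, ?_, ?_⟩
    · have h2 : q * (q⁻¹ * g) ∈ riemannRochSpace (D0 - Dq) := by
        rw [mul_inv_cancel_left₀ hq]
        exact hg
      rw [h92_rr_mul_iff hq Dq hDq, sub_add_cancel] at h2
      exact h2
    · show q * (q⁻¹ * g) = g
      rw [mul_inv_cancel_left₀ hq]

end Generic

variable {K F k Fb : Type*} [Field K] [Field F] [Algebra K F] [Field k] [Field Fb] [Algebra k Fb]

/-- a member of the family `e` is a constant `B`-rational vector -/
theorem h4_bvec_basis (R : h39_RedDatum K F k Fb) {T : Type*} (B : Subalgebra R.A (T → R.A))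
    {ι : Type*} [Fintype ι] (e : ι → F) (j : ι) : (fun _ : T => e j) ∈ h26_BVec R B e := by
  classical
  refine ⟨fun i => if i = j then 1 else 0, fun t => ?_⟩
  rw [Finset.sum_eq_single j]
  · simp
  · intro i _ hij
    simp [hij]
  · intro h
    exact absurd (Finset.mem_univ j) h

variable [IsAlgClosed K] [IsAlgClosed k]

/-- the constant family of an orthonormal basis -/
theorem h26_gfam_const (R : h39_RedDatum K F k Fb) (S : h39_PlaceRed R) {T : Type*}
    (B : Subalgebra R.A (T → R.A)) {ι : Type*} [Fintype ι] (e : ι → F) (D : Divisor K F)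
    (he : h26_ONBasis R S e D) :
    h26_GFam R S B e (fun i (_ : T) => e i) (fun _ => D) :=
  ⟨⟨fun j => h4_bvec_basis R B e j, fun _ => he.1.2⟩, fun _ => he.2.1, fun _ => he.2.2⟩

/-- the graph families `W_x = L(M - E_x)` in graph coordinates -/
theorem h26_gfam_graph (R : h39_RedDatum K F k Fb) (S : h39_PlaceRed R) {x : F} {xb : Fb}
    (hx : h75_IsChart K x) (hxb : h75_IsChart k xb) (hg : h75_genus k xb = h75_genus K x)
    {T : Type*} (B : Subalgebra R.A (T → R.A)) {n' g' : ℕ} (b' : Fin n' → F) (b'' : Fin g' → F)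
    (M : Divisor K F) (hb : h26_ONBasis R S (Sum.elim b' b'') M)
    (E : T → Divisor K F) (hE : ∀ t, 0 ≤ E t) (hEdeg : ∀ t, Divisor.degree (E t) = g')
    (hMg : 2 * (h75_genus K x : ℤ) - 2 < Divisor.degree M - g')
    (Ac : T → Matrix (Fin g') (Fin n') R.A) (hAcB : ∀ i j, (fun t => Ac t i j) ∈ B)
    (hAc : ∀ t j, b' j + ∑ i, ((Ac t i j : R.A) : K) • b'' i ∈ riemannRochSpace (M - E t)) :
    h26_GFam R S B (Sum.elim b' b'')
      (fun j t => b' j + ∑ i, ((Ac t i j : R.A) : K) • b'' i) (fun t => M - E t) := by
  classical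
  have hbO := hb.1.1
  have hbli := hb.1.2
  have hspan := hb.2.1
  have hbK : LinearIndependent K (Sum.elim b' b'') := h24_on_linearIndependent R _ hbO hbli
  have hPD := h75_hasPrincipalDivisors hx
  have hres1 : R.resK 1 = 1 := by
    rw [R.resK_of_mem R.A.one_mem]
    exact map_one R.res
  have hres0 : R.resK 0 = 0 := by
    rw [R.resK_of_mem R.A.zero_mem]
    exact map_zero R.res
  -- the coordinate vector of `w j t`
  let coef : T → Fin n' → (Fin n' ⊕ Fin g') → K := fun t j =>
    Sum.elim (Pi.single j 1) (fun i => ((Ac t i j : R.A) : K))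
  have hw : ∀ t j, b' j + ∑ i, ((Ac t i j : R.A) : K) • b'' i =
      ∑ l, coef t j l • Sum.elim b' b'' l := by
    intro t j
    rw [Fintype.sum_sum_type]
    simp [coef, Pi.single_apply]
  have hcoefA : ∀ t j l, coef t j l ∈ R.A := by
    intro t j l
    rcases l with l | l
    · simp only [coef, Sum.elim_inl, Pi.single_apply]
      split_ifs
      · exact R.A.one_mem
      · exact R.A.zero_mem
    · exact (Ac t l j).2
  have hwO : ∀ t j, b' j + ∑ i, ((Ac t i j : R.A) : K) • b'' i ∈ R.O := fun t j => by
    rw [hw]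
    exact (h52_redF_comb R _ hbO (coef t j) (hcoefA t j)).1
  have hwred : ∀ t j, R.redF (b' j + ∑ i, ((Ac t i j : R.A) : K) • b'' i) =
      R.redF (b' j) + ∑ i, R.resK ((Ac t i j : R.A) : K) • R.redF (b'' i) := fun t j => by
    rw [hw, (h52_redF_comb R _ hbO (coef t j) (hcoefA t j)).2, Fintype.sum_sum_type]
    congr 1
    simp only [coef, Sum.elim_inl, Pi.single_apply]
    rw [Finset.sum_eq_single j]
    · simp [hres1]
    · intro i _ hij
      simp [hij, hres0]
    · intro h
      exact absurd (Finset.mem_univ j) h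
  -- independence of the reductions
  have hlik : ∀ t, LinearIndependent k
      (fun j => R.redF (b' j + ∑ i, ((Ac t i j : R.A) : K) • b'' i)) := by
    intro t
    rw [Fintype.linearIndependent_iff]
    intro c hc j
    have h0 : ∑ l, (Sum.elim c (fun i => ∑ j, c j * R.resK ((Ac t i j : R.A) : K)) :
        Fin n' ⊕ Fin g' → k) l • R.redF (Sum.elim b' b'' l) = 0 := by
      rw [Fintype.sum_sum_type]
      simp only [Sum.elim_inl, Sum.elim_inr]
      rw [← hc]
      simp_rw [hwred, smul_add, Finset.sum_add_distrib, Finset.smul_sum, Finset.sum_smul,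
        smul_smul]
      congr 1
      rw [Finset.sum_comm]
    exact Fintype.linearIndependent_iff.mp hbli _ h0 (Sum.inl j)
  have hliK : ∀ t, LinearIndependent K
      (fun j => b' j + ∑ i, ((Ac t i j : R.A) : K) • b'' i) := fun t =>
    h24_on_linearIndependent R _ (hwO t) (hlik t)
  -- dimensions
  have hdM : Module.finrank K (riemannRochSpace M) = n' + g' := by
    rw [← hspan, finrank_span_eq_card hbK]
    simp
  have hrr : (Divisor.degree M : ℤ) + 1 - h75_genus K x = n' + g' := by
    have h2 := h15_finrank_rr_of_deg hx M (by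
      have : (0 : ℤ) ≤ g' := Int.natCast_nonneg _
      omega)
    rw [hdM] at h2
    push_cast at h2
    omega
  have hdim : ∀ t, Module.finrank K (riemannRochSpace (M - E t)) = n' ∧
      Module.finrank k (riemannRochSpace (Finsupp.mapDomain S.r0 (M - E t))) = n' := by
    intro t
    refine h24_finrank_up_down_nat R S hx hxb hg (M - E t) ?_ n' ?_
    · rw [map_sub, hEdeg]
      exact hMg
    · rw [map_sub, hEdeg]
      omega
  refine ⟨⟨fun j => ?_, hlik⟩, fun t => ?_, fun t => ?_⟩
  · -- `B`-rationality
    refine ⟨Sum.elim (fun l => if l = j then 1 else 0)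
      (fun i => ⟨fun t => Ac t i j, hAcB i j⟩), fun t => ?_⟩
    show b' j + ∑ i, ((Ac t i j : R.A) : K) • b'' i = _
    rw [Fintype.sum_sum_type]
    congr 1
    simp only [Sum.elim_inl]
    rw [Finset.sum_eq_single j]
    · simp
    · intro i _ hij
      simp [hij]
    · intro h
      exact absurd (Finset.mem_univ j) h
  · -- span upstairs
    have hfin : FiniteDimensional K (riemannRochSpace (M - E t)) := (h75_riemann hx _).1
    apply Submodule.eq_of_le_of_finrank_eq
    · refine Submodule.span_le.mpr ?_
      rintro _ ⟨j, rfl⟩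
      exact hAc t j
    · rw [finrank_span_eq_card (hliK t), Fintype.card_fin, (hdim t).1]
  · -- span downstairs
    have hfin : FiniteDimensional k (riemannRochSpace (Finsupp.mapDomain S.r0 (M - E t))) :=
      (h75_riemann hxb _).1
    apply Submodule.eq_of_le_of_finrank_eq
    · refine Submodule.span_le.mpr ?_
      rintro _ ⟨j, rfl⟩
      exact h64_red_mem_rr R S.r0 S.compat (M - E t) (hAc t j) (hwO t j)
    · rw [finrank_span_eq_card (hlik t), Fintype.card_fin, (hdim t).2]

/-- the family `q(t) * e_i` for a `B`-rational `q` with nonzero reductions -/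
theorem h26_gfam_scale (R : h39_RedDatum K F k Fb) (S : h39_PlaceRed R) {x : F} {xb : Fb}
    (hx : h75_IsChart K x) (hxb : h75_IsChart k xb)
    {T : Type*} (B : Subalgebra R.A (T → R.A))
    {ι ιq ι' : Type*} [Fintype ι] [Fintype ιq] [Fintype ι']
    (e : ι → F) (D0 : Divisor K F) (he : h26_ONBasis R S e D0)
    (eq : ιq → F) (heq : h26_ON R eq) (e' : ι' → F) (he' : h26_ON R e')
    (hmul : ∀ i j, eq i * e j ∈ Submodule.span K (Set.range e'))
    (q : T → F) (hq : q ∈ h26_BVec R B eq) (hq0 : ∀ t, R.redF (q t) ≠ 0)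
    (Dq : T → Divisor K F) (hDq : ∀ t (P : Place K F), Dq t P = P.ord (q t)) :
    h26_GFam R S B e' (fun i t => q t * e i) (fun t => D0 - Dq t) := by
  classical
  have heO := he.1.1
  have hqO : ∀ t, q t ∈ R.O := fun t => h39_mem_of_redF_ne_zero R (hq0 t)
  have hqne : ∀ t, q t ≠ 0 := by
    intro t h0
    apply hq0 t
    rw [h0]
    exact h39_redF_zero R
  have hred : ∀ t, (fun i => R.redF (q t * e i)) = fun i => R.redF (q t) * R.redF (e i) := by
    intro t
    funext i
    exact h39_redF_mul R (hqO t) (heO i)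
  refine ⟨⟨fun i => ?_, fun t => ?_⟩, fun t => ?_, fun t => ?_⟩
  · -- `B`-rationality
    have h1 := h92_bvec_const_mul R B eq heq.1 e' he' (e i) (heO i)
      (fun j => by rw [mul_comm]; exact hmul j i) q hq
    have h2 : (fun t => q t * e i) = fun t => e i * q t := by
      funext t
      exact mul_comm _ _
    show (fun t => q t * e i) ∈ h26_BVec R B e'
    rw [h2]
    exact h1
  · -- independence of the reductions
    show LinearIndependent k (fun i => R.redF (q t * e i))
    rw [hred t]
    have hinj : LinearMap.ker (LinearMap.mulLeft k (R.redF (q t))) = ⊥ := by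
      rw [LinearMap.ker_eq_bot]
      exact mul_right_injective₀ (hq0 t)
    exact he.1.2.map' (LinearMap.mulLeft k (R.redF (q t))) hinj
  · -- span upstairs
    exact h4_span_mul_rr e D0 he.2.1 (hqne t) (Dq t) (hDq t)
  · -- span downstairs
    show Submodule.span k (Set.range fun i => R.redF (q t * e i)) =
      riemannRochSpace (Finsupp.mapDomain S.r0 (D0 - Dq t))
    rw [hred t, h92_mapDomain_sub]
    refine h4_span_mul_rr (fun i => R.redF (e i)) _ he.2.2 (hq0 t) _ ?_
    intro Q
    rw [R.redF_of_mem (hqO t)]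
    exact S.compat (q t) (hqO t) (by rw [← R.redF_of_mem (hqO t)]; exact hq0 t) (Dq t) (hDq t) Q

end Fermat.Agent.S19

end
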