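import Fermat.Agent.S19.Fam
import Fermat.Agent.S19.h92_GFamDivCore

/-!
# S19 GEOM, row B4-1a GFAM-DIV (helper92)

`h26_gfam_div` : division of geometric regular families.  If `v` is a `B`-rational family
spanning `L(X t)` (up and down), `w` a regular family spanning `L(Y t)` (up and down),
`deg X t ≥ 2g`, and `l(Y t - X t) = r = l(r0_* (Y t - X t))` for all `t`, then `L(Y t - X t)` is
spanned, up and down, by a regular family in the orthonormal basis `e` of `L(D)`
(`Y t - X t ≤ D`).

Proof: `h26_fam_div` (row FAM) + `{f ∈ L(D) | f * L(X) ⊆ L(Y)} = L(Y - X)` (`h92_rr_div`) on `F`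
and on `Fb`; the curve-side inputs are in `h92_GFamDivCore`.
-/

set_option autoImplicit false

noncomputable section

open AlgebraicCurve

namespace Fermat.Agent.S19

open Fermat.Agent.S18 Fermat.Agent.S27

variable {K F k Fb : Type*} [Field K] [Field F] [Algebra K F] [Field k] [Field Fb] [Algebra k Fb]

variable [IsAlgClosed K] [IsAlgClosed k]

/-- (GFAM-DIV) `{f ∈ L(D) | f * L(X t) ⊆ L(Y t)} = L(Y t - X t)` in regular families. -/
theorem h26_gfam_div (R : h39_RedDatum K F k Fb) (S : h39_PlaceRed R) {x : F} {xb : Fb}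
    (hx : h75_IsChart K x) (hxb : h75_IsChart k xb) (hg : h75_genus k xb = h75_genus K x)
    {T : Type*} [Finite T] (B : Subalgebra R.A (T → R.A))
    {ι ιv ι' κ κ' : Type*} [Fintype ι] [Fintype ιv] [Fintype ι'] [Fintype κ] [Fintype κ']
    (e : ι → F) (D : Divisor K F) (he : h26_ONBasis R S e D)
    (ev : ιv → F) (hev : h26_ON R ev) (e' : ι' → F) (he' : h26_ON R e')
    (hmul : ∀ i j, e i * ev j ∈ Submodule.span K (Set.range e'))
    (v : κ' → T → F) (X : T → Divisor K F) (hvB : ∀ j, v j ∈ h26_BVec R B ev)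
    (hv : h26_Spans R S v X)
    (w : κ → T → F) (Y : T → Divisor K F) (hw : h26_GFam R S B e' w Y)
    (hX : ∀ t, 2 * (h75_genus K x : ℤ) ≤ Divisor.degree (X t))
    (hD : ∀ t, Y t - X t ≤ D) (r : ℕ)
    (hrK : ∀ t, Module.finrank K (riemannRochSpace (Y t - X t)) = r)
    (hrk : ∀ t, Module.finrank k
      (riemannRochSpace (Finsupp.mapDomain S.r0 (Y t - X t))) = r) :
    ∃ u : Fin r → T → F, h26_GFam R S B e u (fun t => Y t - X t) := by
  have hK := h92_gfam_div_K R S hx e D he v X hv w Y hw.2 hX hD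
  have hk := h92_gfam_div_k R S hx hxb hg e D he v X hv w Y hw.2 hX hD
  obtain ⟨u, hu, huK, huk⟩ := h26_fam_div R B e he.1 e' he' v
    (fun j t => h92_bvec_mem_O R B ev hev.1 (v j) (hvB j) t)
    (fun i j => h92_bvec_const_mul R B ev hev.1 e' he' (e i) (he.1.1 i) (hmul i) (v j) (hvB j))
    w hw.1 r (fun t => by rw [hK t]; exact hrK t) (fun t => by rw [hk t]; exact hrk t)
  exact ⟨u, hu, fun t => (huK t).trans (hK t), fun t => (huk t).trans (hk t)⟩

end Fermat.Agent.S19

end
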