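import Fermat.Agent.S19.h26_FamDefs
import Fermat.Agent.S17.h80_Pencil
import Fermat.Agent.S27.h64_LiftDiv

/-!
# S19 GEOM, row B4-1a GFAM-MUL (helper97): the curve part, in hypothesis form

`h97_gfam_mul_of` : `L(Y t) * L(X t) = L(Y t + X t)` in regular families (pencil trick).  The
hypothesis `hfam` is the conclusion of `h26_fam_mul` (row FAM) at the data in question; the rest
is `h80_rr_mul_eq` upstairs (on `F`) and downstairs (on `Fb`) and Riemann–Roch for the ranks.
The final statement `h26_gfam_mul` (file `GFamMul.lean`) is `h97_gfam_mul_of` applied to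
`h26_fam_mul`.
-/

set_option autoImplicit false

noncomputable section

open AlgebraicCurve

namespace Fermat.Agent.S19

open Fermat.Agent.S18 Fermat.Agent.S27 Fermat.Agent.S17

/-- the span of the pairwise products is the product of the spans -/
theorem h97_span_range_mul {𝕜 E : Type*} [Field 𝕜] [Field E] [Algebra 𝕜 E] {κ κ' : Type*}
    (a : κ → E) (b : κ' → E) :
    Submodule.span 𝕜 (Set.range fun q : κ × κ' => a q.1 * b q.2) =
      Submodule.span 𝕜 (Set.range a) * Submodule.span 𝕜 (Set.range b) := by
  rw [Submodule.span_mul_span]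
  congr 1
  ext z
  constructor
  · rintro ⟨q, rfl⟩
    exact Set.mul_mem_mul ⟨q.1, rfl⟩ ⟨q.2, rfl⟩
  · rintro ⟨_, ⟨i, rfl⟩, _, ⟨j, rfl⟩, rfl⟩
    exact ⟨(i, j), rfl⟩

variable {K F k Fb : Type*} [Field K] [Field F] [Algebra K F] [Field k] [Field Fb] [Algebra k Fb]

variable [IsAlgClosed K] [IsAlgClosed k]

/-- upstairs: the products of two families spanning `L(Y)` and `L(X)` span `L(Y + X)` -/
theorem h97_span_mul_rr {x : F} (hx : h75_IsChart K x) {κ κ' : Type*} (w : κ → F) (u : κ' → F)
    (Y X : Divisor K F)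
    (hw : Submodule.span K (Set.range w) = riemannRochSpace Y)
    (hu : Submodule.span K (Set.range u) = riemannRochSpace X)
    (hX : 2 * (h75_genus K x : ℤ) ≤ Divisor.degree X)
    (hYX : 2 * (h75_genus K x : ℤ) - 1 ≤ Divisor.degree Y - Divisor.degree X) :
    Submodule.span K (Set.range fun q : κ × κ' => w q.1 * u q.2) = riemannRochSpace (Y + X) := by
  rw [h97_span_range_mul w u, hw, hu, mul_comm, add_comm]
  exact h80_rr_mul_eq hx X Y hX (by linarith)

/-- (GFAM-MUL), hypothesis form: `hfam` is the conclusion of `h26_fam_mul`. -/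
theorem h97_gfam_mul_of (R : h39_RedDatum K F k Fb) (S : h39_PlaceRed R) {x : F} {xb : Fb}
    (hx : h75_IsChart K x) (hxb : h75_IsChart k xb) (hg : h75_genus k xb = h75_genus K x)
    {T : Type*} (B : Subalgebra R.A (T → R.A))
    {ι'' κ κ' : Type*} [Fintype ι''] (e'' : ι'' → F)
    (w : κ → T → F) (Y : T → Divisor K F) (hw : h26_Spans R S w Y)
    (u : κ' → T → F) (X : T → Divisor K F) (hu : h26_Spans R S u X)
    (hX : ∀ t, 2 * (h75_genus K x : ℤ) ≤ Divisor.degree (X t))
    (hYX : ∀ t, 2 * (h75_genus K x : ℤ) - 1 ≤ Divisor.degree (Y t) - Divisor.degree (X t))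
    (r : ℕ)
    (hr : ∀ t, (r : ℤ) = Divisor.degree (Y t) + Divisor.degree (X t) + 1 - h75_genus K x)
    (hfam : (∀ t, Module.finrank K
        (Submodule.span K (Set.range fun q : κ × κ' => w q.1 t * u q.2 t)) = r) →
      (∀ t, Module.finrank k
        (Submodule.span k (Set.range fun q : κ × κ' => R.redF (w q.1 t) * R.redF (u q.2 t)))
          = r) →
      ∃ p : Fin r → T → F, h26_RegFam R B e'' p ∧
        (∀ t, Submodule.span K (Set.range fun c => p c t) =
          Submodule.span K (Set.range fun q : κ × κ' => w q.1 t * u q.2 t)) ∧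
        (∀ t, Submodule.span k (Set.range fun c => R.redF (p c t)) =
          Submodule.span k (Set.range fun q : κ × κ' => R.redF (w q.1 t) * R.redF (u q.2 t)))) :
    ∃ p : Fin r → T → F, h26_GFam R S B e'' p (fun t => Y t + X t) := by
  have hKspan : ∀ t, Submodule.span K (Set.range fun q : κ × κ' => w q.1 t * u q.2 t) =
      riemannRochSpace (Y t + X t) := fun t =>
    h97_span_mul_rr hx (fun j => w j t) (fun j => u j t) (Y t) (X t) (hw.1 t) (hu.1 t) (hX t)
      (hYX t)
  have hkspan : ∀ t, Submodule.span k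
      (Set.range fun q : κ × κ' => R.redF (w q.1 t) * R.redF (u q.2 t)) =
      riemannRochSpace (Finsupp.mapDomain S.r0 (Y t + X t)) := by
    intro t
    rw [Finsupp.mapDomain_add]
    refine h97_span_mul_rr hxb (fun j => R.redF (w j t)) (fun j => R.redF (u j t)) _ _ (hw.2 t)
      (hu.2 t) ?_ ?_
    · rw [hg, h64_degree_mapDomain_r0 R S hx hxb]
      exact hX t
    · rw [hg, h64_degree_mapDomain_r0 R S hx hxb, h64_degree_mapDomain_r0 R S hx hxb]
      exact hYX t
  have hK : ∀ t, Module.finrank K
      (Submodule.span K (Set.range fun q : κ × κ' => w q.1 t * u q.2 t)) = r := by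
    intro t
    rw [hKspan t]
    have h1 := h68_finrank_rr_of_deg hx (Y t + X t) (by
      rw [map_add]
      have := hX t
      have := hYX t
      omega)
    rw [map_add] at h1
    have := hr t
    omega
  have hk : ∀ t, Module.finrank k
      (Submodule.span k (Set.range fun q : κ × κ' => R.redF (w q.1 t) * R.redF (u q.2 t)))
        = r := by
    intro t
    rw [hkspan t]
    have hd := h64_degree_mapDomain_r0 R S hx hxb (Y t + X t)
    have h1 := h68_finrank_rr_of_deg hxb (Finsupp.mapDomain S.r0 (Y t + X t)) (by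
      rw [hd, hg, map_add]
      have := hX t
      have := hYX t
      omega)
    rw [hd, hg, map_add] at h1
    have := hr t
    omega
  obtain ⟨p, hp, hpK, hpk⟩ := hfam hK hk
  exact ⟨p, ⟨hp, fun t => (hpK t).trans (hKspan t), fun t => (hpk t).trans (hkspan t)⟩⟩

end Fermat.Agent.S19

end
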