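import Fermat.Agent.S19.Fam
import Fermat.Agent.S19.h97_GFamMulOf

/-!
# S19 GEOM, row B4-1a GFAM-MUL (helper97)

`h26_gfam_mul` : `L(Y t) * L(X t) = L(Y t + X t)` in regular families (pencil trick), i.e.
`h26_fam_mul` (row FAM) + `h80_rr_mul_eq` upstairs (on `F`) and downstairs (on `Fb`); the curve
part is `h97_gfam_mul_of` (file `h97_GFamMulOf.lean`).
-/

set_option autoImplicit false

noncomputable section

open AlgebraicCurve

namespace Fermat.Agent.S19

open Fermat.Agent.S18 Fermat.Agent.S27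

variable {K F k Fb : Type*} [Field K] [Field F] [Algebra K F] [Field k] [Field Fb] [Algebra k Fb]

variable [IsAlgClosed K] [IsAlgClosed k]

/-- (GFAM-MUL) `L(Y t) * L(X t) = L(Y t + X t)` in regular families (pencil trick). -/
theorem h26_gfam_mul (R : h39_RedDatum K F k Fb) (S : h39_PlaceRed R) {x : F} {xb : Fb}
    (hx : h75_IsChart K x) (hxb : h75_IsChart k xb) (hg : h75_genus k xb = h75_genus K x)
    {T : Type*} [Finite T] (B : Subalgebra R.A (T → R.A))
    {ι ι' ι'' κ κ' : Type*} [Fintype ι] [Fintype ι'] [Fintype ι''] [Fintype κ] [Fintype κ']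
    (e : ι → F) (he : h26_ON R e) (e' : ι' → F) (he' : h26_ON R e') (e'' : ι'' → F)
    (he'' : h26_ON R e'')
    (hmul : ∀ i j, e i * e' j ∈ Submodule.span K (Set.range e''))
    (w : κ → T → F) (Y : T → Divisor K F) (hw : h26_GFam R S B e w Y)
    (u : κ' → T → F) (X : T → Divisor K F) (hu : h26_GFam R S B e' u X)
    (hX : ∀ t, 2 * (h75_genus K x : ℤ) ≤ Divisor.degree (X t))
    (hYX : ∀ t, 2 * (h75_genus K x : ℤ) - 1 ≤ Divisor.degree (Y t) - Divisor.degree (X t))
    (r : ℕ)
    (hr : ∀ t, (r : ℤ) = Divisor.degree (Y t) + Divisor.degree (X t) + 1 - h75_genus K x) :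
    ∃ p : Fin r → T → F, h26_GFam R S B e'' p (fun t => Y t + X t) :=
  h97_gfam_mul_of R S hx hxb hg B e'' w Y hw.2 u X hu.2 hX hYX r hr
    (h26_fam_mul R B e he e' he' e'' he'' hmul w hw.1 u hu.1 r)

end Fermat.Agent.S19

end
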