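import Fermat.Agent.S19.h24_RedLGraph

/-!
# S19 GEOM, row B3 RED-L: final file name of the row (helper24)

The two statements of the row, `h26_exists_onbasis` and `h26_graph_coords`, are declared in
`Fermat/Agent/S19/h24_RedLGraph.lean` (verbatim the stub statements); this module re-exports
them under the file name fixed by the row table.  The supporting library is
`Fermat/Agent/S19/h24_RedL.lean`.
-/
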