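import Fermat.Agent.S19.h26_FamDefs
import Fermat.Agent.S19.h92_RRDiv
import Fermat.Agent.S17.h80_Pencil
import Fermat.Agent.S27.h64_LiftEff
import Fermat.Agent.S27.h64_SpecRed
import Fermat.Agent.S18.h64_Star
import Fermat.Agent.S19.RedL
import Fermat.Agent.S19.GFamBasic
import Fermat.Agent.S19.GFamDiv
import Fermat.Agent.S19.GFamMul
import Fermat.Agent.S19.Fam

/-!
# S19 GEOM, row B4-1b: the addition theorem (ADD) in graph coordinates

This file is helper26's assembly `Add.lean` (origin/helper26 f0b6e0a: `h26_add` proved from the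
row statements), copied by helper24 with the imports switched from the row stubs to the landed
row files and with every declaration renamed `h26_add* / h26_gfam_congr / h26_onbasis_*` to
`h24af_*`, so that it cannot clash with helper26's own `Add.lean`.

`h24af_add`: the graph coordinates of `E_(s+t)` lie in the `R.A`-algebra generated by the graph
coordinates of `E_s` and `E_t`.  Assembly of the six linear-algebra steps from the regular
family calculus (`h26_gfam_div`, `h26_gfam_mul`, `h26_gfam_scale`, `h26_gfam_graph`,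
`h26_gfam_const`, `h26_fam_extract`).
-/

set_option autoImplicit false

noncomputable section

open AlgebraicCurve

namespace Fermat.Agent.S19

open Fermat.Agent.S18 Fermat.Agent.S27 Fermat.Agent.S17

variable {K F k Fb : Type*} [Field K] [Field F] [Algebra K F] [Field k] [Field Fb] [Algebra k Fb]

/-- Riemann–Roch upstairs, in the form used by the assembly. -/
theorem h24af_finrank_up [IsAlgClosed K] {x : F} (hx : h75_IsChart K x) (D : Divisor K F)
    (r : ℕ) (h1 : 2 * (h75_genus K x : ℤ) - 2 < Divisor.degree D)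
    (h2 : (r : ℤ) = Divisor.degree D + 1 - h75_genus K x) :
    Module.finrank K (riemannRochSpace D) = r := by
  have h := h15_finrank_rr_of_deg hx D h1
  exact_mod_cast h.trans h2.symm

/-- Riemann–Roch downstairs for a push-forward divisor. -/
theorem h24af_finrank_down [IsAlgClosed K] [IsAlgClosed k] (R : h39_RedDatum K F k Fb)
    (S : h39_PlaceRed R) {x : F} {xb : Fb} (hx : h75_IsChart K x) (hxb : h75_IsChart k xb)
    (hg : h75_genus k xb = h75_genus K x) (D : Divisor K F)
    (r : ℕ) (h1 : 2 * (h75_genus K x : ℤ) - 2 < Divisor.degree D)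
    (h2 : (r : ℤ) = Divisor.degree D + 1 - h75_genus K x) :
    Module.finrank k (riemannRochSpace (Finsupp.mapDomain S.r0 D)) = r := by
  have hdeg := h64_degree_mapDomain (h75_deg_eq_one hx) (h75_deg_eq_one hxb) S.r0 D
  have h := h15_finrank_rr_of_deg hxb (Finsupp.mapDomain S.r0 D) (by rw [hdeg, hg]; exact h1)
  rw [hdeg, hg] at h
  exact_mod_cast h.trans h2.symm

/-- Linearly equivalent divisors have Riemann–Roch spaces of the same dimension. -/
theorem h24af_finrank_lineq {K F : Type*} [Field K] [Field F] [Algebra K F]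
    (D D' : Divisor K F) (u : F) (hu : u ≠ 0)
    (h : ∀ v : Place K F, D' v = D v + v.ord u) :
    Module.finrank K (riemannRochSpace D') = Module.finrank K (riemannRochSpace D) := by
  have hDq : ∀ P : Place K F, (D' - D) P = P.ord u := by
    intro P
    rw [Finsupp.sub_apply, h P]
    ring
  have key : ∀ f : F, u * f ∈ riemannRochSpace D ↔ f ∈ riemannRochSpace D' := by
    intro f
    have := h92_rr_mul_iff hu (D' - D) hDq D f
    rwa [add_sub_cancel] at this
  let e : riemannRochSpace D' →ₗ[K] riemannRochSpace D :=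
    { toFun := fun f => ⟨u * f.1, (key f.1).mpr f.2⟩
      map_add' := fun f f' => Subtype.ext (by simp [mul_add])
      map_smul' := fun c f => Subtype.ext (by simp [mul_smul_comm]) }
  have hinj : Function.Injective e := by
    intro f f' hff
    have h1 : u * f.1 = u * f'.1 := congrArg Subtype.val hff
    exact Subtype.ext (mul_left_cancel₀ hu h1)
  have hsurj : Function.Surjective e := by
    intro f
    have hmem : u⁻¹ * f.1 ∈ riemannRochSpace D' := by
      rw [← key, ← mul_assoc, mul_inv_cancel₀ hu, one_mul]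
      exact f.2
    exact ⟨⟨u⁻¹ * f.1, hmem⟩, Subtype.ext (by
      show u * (u⁻¹ * f.1) = f.1
      rw [← mul_assoc, mul_inv_cancel₀ hu, one_mul])⟩
  exact (LinearEquiv.ofBijective e ⟨hinj, hsurj⟩).finrank_eq

/-- transport of a geometric regular family along an equality of divisor families -/
theorem h24af_gfam_congr (R : h39_RedDatum K F k Fb) (S : h39_PlaceRed R) {T : Type*}
    (B : Subalgebra R.A (T → R.A)) {ι : Type*} [Fintype ι] (e : ι → F) {κ : Type*}
    (w : κ → T → F) (D D' : T → Divisor K F) (h : ∀ t, D t = D' t)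
    (hw : h26_GFam R S B e w D) : h26_GFam R S B e w D' := by
  have : D = D' := funext h
  rw [← this]
  exact hw

/-- the members of an orthonormal basis of `L(D)` lie in `L(D)` -/
theorem h24af_onbasis_mem (R : h39_RedDatum K F k Fb) (S : h39_PlaceRed R) {ι : Type*}
    (e : ι → F) (D : Divisor K F) (he : h26_ONBasis R S e D) (i : ι) :
    e i ∈ riemannRochSpace D := by
  rw [← he.2.1]
  exact Submodule.subset_span ⟨i, rfl⟩

/-- products of members of orthonormal bases -/
theorem h24af_onbasis_mul (R : h39_RedDatum K F k Fb) (S : h39_PlaceRed R) {ι ι' ι'' : Type*}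
    (e : ι → F) (D : Divisor K F) (he : h26_ONBasis R S e D)
    (e' : ι' → F) (D' : Divisor K F) (he' : h26_ONBasis R S e' D')
    (e'' : ι'' → F) (D'' : Divisor K F) (he'' : h26_ONBasis R S e'' D'')
    (hD : D + D' = D'') (i : ι) (j : ι') :
    e i * e' j ∈ Submodule.span K (Set.range e'') := by
  rw [he''.2.1, ← hD]
  exact h80_mul_mem (h24af_onbasis_mem R S e D he i) (h24af_onbasis_mem R S e' D' he' j)

/-- **(ADD)** the graph coordinates of `E_(s+t)` are polynomials over `R.A` in the graph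
coordinates of `E_s` and `E_t`. -/
theorem h24af_add [IsAlgClosed K] [IsAlgClosed k] (R : h39_RedDatum K F k Fb) (S : h39_PlaceRed R)
    {x : F} {xb : Fb} (hx : h75_IsChart K x) (hxb : h75_IsChart k xb)
    (hg : h75_genus k xb = h75_genus K x)
    (M M0 Dinf : Divisor K F)
    (hDinf : Divisor.degree Dinf = h75_genus K x)
    (hM0c : S.c ≤ Divisor.degree M0)
    (hM0g : 4 * (h75_genus K x : ℤ) + 4 ≤ Divisor.degree M0)
    (hMc : S.c ≤ Divisor.degree M - Divisor.degree M0)
    (hMg : 4 * (h75_genus K x : ℤ) + 4 ≤ Divisor.degree M - Divisor.degree M0)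
    {T : Type*} [Add T] [Finite T]
    (E : T → Divisor K F) (hEeff : ∀ t, 0 ≤ E t)
    (hEdeg : ∀ t, Divisor.degree (E t) = h75_genus K x)
    (hEadd : ∀ s t, Divisor.IsPrincipal (E (s + t) + Dinf - E s - E t))
    (hG1K : ∀ t, Module.finrank K (riemannRochSpace (E t)) = 1)
    (hG1 : ∀ t, Module.finrank k (riemannRochSpace (Finsupp.mapDomain S.r0 (E t))) = 1)
    {n' : ℕ} (b' : Fin n' → F) (b'' : Fin (h75_genus K x) → F)
    (hb : h26_ONBasis R S (Sum.elim b' b'') M)
    (Ac : T → Matrix (Fin (h75_genus K x)) (Fin n') R.A)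
    (hAc : ∀ t j, b' j + ∑ i, ((Ac t i j : R.A) : K) • b'' i ∈ riemannRochSpace (M - E t)) :
    ∀ i j, (fun p : T × T => Ac (p.1 + p.2) i j) ∈
      Algebra.adjoin R.A
        (Set.range (fun (q : Fin (h75_genus K x) × Fin n') (p : T × T) => Ac p.1 q.1 q.2) ∪
          Set.range (fun (q : Fin (h75_genus K x) × Fin n') (p : T × T) => Ac p.2 q.1 q.2)) := by
  classical
  set B : Subalgebra R.A (T × T → R.A) := Algebra.adjoin R.A
    (Set.range (fun (q : Fin (h75_genus K x) × Fin n') (p : T × T) => Ac p.1 q.1 q.2) ∪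
      Set.range (fun (q : Fin (h75_genus K x) × Fin n') (p : T × T) => Ac p.2 q.1 q.2)) with hB
  have hg0 : (0 : ℤ) ≤ (h75_genus K x : ℤ) := Int.natCast_nonneg _
  -- the number of graph coordinates
  have hn' : (n' : ℤ) = Divisor.degree M + 1 - 2 * (h75_genus K x : ℤ) := by
    have h1 : Module.finrank k (riemannRochSpace (Finsupp.mapDomain S.r0 M)) =
        Fintype.card (Fin n' ⊕ Fin (h75_genus K x)) := by
      rw [← hb.2.2]
      exact finrank_span_eq_card hb.1.2
    have h2 := h15_finrank_rr_of_deg hxb (Finsupp.mapDomain S.r0 M) (by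
      rw [h64_degree_mapDomain (h75_deg_eq_one hx) (h75_deg_eq_one hxb) S.r0 M, hg]
      linarith)
    rw [h64_degree_mapDomain (h75_deg_eq_one hx) (h75_deg_eq_one hxb) S.r0 M, hg, h1] at h2
    simp only [Fintype.card_sum, Fintype.card_fin] at h2
    push_cast at h2
    linarith
  -- orthonormal bases of the fixed spaces
  obtain ⟨n0, e0, he0⟩ := h26_exists_onbasis R S hx hxb M0 hM0c
  obtain ⟨nA, eA, heA⟩ := h26_exists_onbasis R S hx hxb (M - M0) (by rw [map_sub]; exact hMc)
  obtain ⟨nP, eP, heP⟩ := h26_exists_onbasis R S hx hxb (M + M0) (by rw [map_add]; linarith)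
  obtain ⟨nZ, eZ, heZ⟩ := h26_exists_onbasis R S hx hxb (M0 + Dinf) (by
    rw [map_add, hDinf]; linarith)
  obtain ⟨nC, eC, heC⟩ := h26_exists_onbasis R S hx hxb (M - Dinf) (by
    rw [map_sub, hDinf]; linarith)
  obtain ⟨n2Z, e2Z, he2Z⟩ := h26_exists_onbasis R S hx hxb ((M0 + Dinf) + (M0 + Dinf)) (by
    simp only [map_add, hDinf]; linarith)
  obtain ⟨n0Z, e0Z, he0Z⟩ := h26_exists_onbasis R S hx hxb ((M0 + Dinf) + M0) (by
    simp only [map_add, hDinf]; linarith)
  obtain ⟨nMD, eMD, heMD⟩ := h26_exists_onbasis R S hx hxb (M + Dinf) (by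
    rw [map_add, hDinf]; linarith)
  obtain ⟨n6, e6, he6⟩ := h26_exists_onbasis R S hx hxb (M0 + (M + Dinf)) (by
    simp only [map_add, hDinf]; linarith)
  -- the two input families
  have hWx : h26_GFam R S B (Sum.elim b' b'')
      (fun j (p : T × T) => b' j + ∑ i, ((Ac p.1 i j : R.A) : K) • b'' i)
      (fun p => M - E p.1) :=
    h26_gfam_graph R S hx hxb hg B b' b'' M hb (fun p : T × T => E p.1) (fun p => hEeff p.1)
      (fun p => hEdeg p.1) (by linarith) (fun p => Ac p.1)
      (fun i j => Algebra.subset_adjoin (Or.inl ⟨(i, j), rfl⟩)) (fun p j => hAc p.1 j)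
  have hWy : h26_GFam R S B (Sum.elim b' b'')
      (fun j (p : T × T) => b' j + ∑ i, ((Ac p.2 i j : R.A) : K) • b'' i)
      (fun p => M - E p.2) :=
    h26_gfam_graph R S hx hxb hg B b' b'' M hb (fun p : T × T => E p.2) (fun p => hEeff p.2)
      (fun p => hEdeg p.2) (by linarith) (fun p => Ac p.2)
      (fun i j => Algebra.subset_adjoin (Or.inr ⟨(i, j), rfl⟩)) (fun p j => hAc p.2 j)
  -- STEP 1: U = L(M0 - E_y)
  have hconstA := h26_gfam_const (T := T × T) R S B eA (M - M0) heA
  have hdiv1 : ∀ p : T × T, M - E p.2 - (M - M0) = M0 - E p.2 := fun p => by abel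
  have hr1 : ((Divisor.degree M0 - 2 * (h75_genus K x : ℤ) + 1).toNat : ℤ) =
      Divisor.degree M0 - 2 * (h75_genus K x : ℤ) + 1 := Int.toNat_of_nonneg (by linarith)
  obtain ⟨u1, hu1⟩ := h26_gfam_div R S hx hxb hg B e0 M0 he0 eA heA.1 (Sum.elim b' b'') hb.1
    (fun i j => h24af_onbasis_mul R S e0 M0 he0 eA (M - M0) heA _ M hb (by abel) i j)
    (fun i (_ : T × T) => eA i) (fun _ => M - M0) hconstA.1.1 hconstA.2
    (fun j (p : T × T) => b' j + ∑ i, ((Ac p.2 i j : R.A) : K) • b'' i) (fun p => M - E p.2) hWy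
    (fun _ => by rw [map_sub]; linarith)
    (fun p => by rw [hdiv1]; exact sub_le_self _ (hEeff p.2))
    (Divisor.degree M0 - 2 * (h75_genus K x : ℤ) + 1).toNat
    (fun p => h24af_finrank_up hx _ _ (by rw [hdiv1, map_sub, hEdeg]; linarith)
      (by rw [hr1, hdiv1, map_sub, hEdeg]; ring))
    (fun p => h24af_finrank_down R S hx hxb hg _ _ (by rw [hdiv1, map_sub, hEdeg]; linarith)
      (by rw [hr1, hdiv1, map_sub, hEdeg]; ring))
  have hU := h24af_gfam_congr R S B e0 u1 _ (fun p => M0 - E p.2) hdiv1 hu1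
  -- STEP 2: P = L(M + M0 - E_x - E_y)
  have hr2 : ((Divisor.degree M + Divisor.degree M0 - 3 * (h75_genus K x : ℤ) + 1).toNat : ℤ) =
      Divisor.degree M + Divisor.degree M0 - 3 * (h75_genus K x : ℤ) + 1 :=
    Int.toNat_of_nonneg (by linarith)
  obtain ⟨P2, hP2⟩ := h26_gfam_mul R S hx hxb hg B (Sum.elim b' b'') hb.1 e0 he0.1 eP heP.1
    (fun i j => h24af_onbasis_mul R S _ M hb e0 M0 he0 eP (M + M0) heP rfl i j)
    (fun j (p : T × T) => b' j + ∑ i, ((Ac p.1 i j : R.A) : K) • b'' i) (fun p => M - E p.1) hWx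
    u1 (fun p => M0 - E p.2) hU
    (fun p => by rw [map_sub, hEdeg]; linarith)
    (fun p => by rw [map_sub, map_sub, hEdeg, hEdeg]; linarith)
    (Divisor.degree M + Divisor.degree M0 - 3 * (h75_genus K x : ℤ) + 1).toNat
    (fun p => by rw [hr2, map_sub, map_sub, hEdeg, hEdeg]; ring)
  -- STEP 3: Q = L(Z - E_x - E_y)
  have hconstC := h26_gfam_const (T := T × T) R S B eC (M - Dinf) heC
  have hdiv3 : ∀ p : T × T, M - E p.1 + (M0 - E p.2) - (M - Dinf) = M0 + Dinf - E p.1 - E p.2 :=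
    fun p => by abel
  have hdeg3 : ∀ p : T × T, Divisor.degree (M0 + Dinf - E p.1 - E p.2) =
      Divisor.degree M0 - (h75_genus K x : ℤ) := fun p => by
    simp only [map_sub, map_add, hEdeg, hDinf]; ring
  obtain ⟨Q, hQ'⟩ := h26_gfam_div R S hx hxb hg B eZ (M0 + Dinf) heZ eC heC.1 eP heP.1
    (fun i j => h24af_onbasis_mul R S eZ (M0 + Dinf) heZ eC (M - Dinf) heC eP (M + M0) heP
      (by abel) i j)
    (fun i (_ : T × T) => eC i) (fun _ => M - Dinf) hconstC.1.1 hconstC.2
    P2 (fun p => M - E p.1 + (M0 - E p.2)) hP2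
    (fun _ => by rw [map_sub, hDinf]; linarith)
    (fun p => by
      rw [hdiv3, sub_sub]
      exact sub_le_self _ (add_nonneg (hEeff p.1) (hEeff p.2)))
    (Divisor.degree M0 - 2 * (h75_genus K x : ℤ) + 1).toNat
    (fun p => h24af_finrank_up hx _ _ (by rw [hdiv3, hdeg3]; linarith)
      (by rw [hr1, hdiv3, hdeg3]; ring))
    (fun p => h24af_finrank_down R S hx hxb hg _ _ (by rw [hdiv3, hdeg3]; linarith)
      (by rw [hr1, hdiv3, hdeg3]; ring))
  have hQ := h24af_gfam_congr R S B eZ Q _ (fun p => M0 + Dinf - E p.1 - E p.2) hdiv3 hQ'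
  -- STEP 4: q, and Q2 = L(E_x + E_y - div q)
  have hr1pos : 0 < (Divisor.degree M0 - 2 * (h75_genus K x : ℤ) + 1).toNat := by
    have : (0 : ℤ) < ((Divisor.degree M0 - 2 * (h75_genus K x : ℤ) + 1).toNat : ℤ) := by
      rw [hr1]; linarith
    exact_mod_cast this
  set q : T × T → F := Q ⟨0, hr1pos⟩ with hqdef
  have hqB : q ∈ h26_BVec R B eZ := hQ.1.1 _
  have hq0 : ∀ p, R.redF (q p) ≠ 0 := fun p => (hQ.1.2 p).ne_zero ⟨0, hr1pos⟩
  have hqne : ∀ p, q p ≠ 0 := by
    intro p h0
    apply hq0 p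
    rw [h0, R.redF_of_mem R.O.zero_mem]
    exact map_zero R.red
  have hqmem : ∀ p, q p ∈ riemannRochSpace (M0 + Dinf - E p.1 - E p.2) := by
    intro p
    rw [← hQ.2.1 p]
    exact Submodule.subset_span ⟨⟨0, hr1pos⟩, rfl⟩
  choose Dq hDq using fun p => h7_exists_div hx (q p) (hqne p)
  have hDqdeg : ∀ p, Divisor.degree (Dq p) = 0 := fun p => h7_degree_div hx (hqne p) (Dq p) (hDq p)
  have hDqge : ∀ p (v : Place K F), -(M0 + Dinf - E p.1 - E p.2) v ≤ Dq p v := by
    intro p v
    rw [hDq p v]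
    rcases (mem_riemannRochSpace_iff.mp (hqmem p)) v with h | h
    · exact absurd h (hqne p)
    · exact h
  have hw4 := h26_gfam_scale R S hx hxb B eZ (M0 + Dinf) heZ eZ heZ.1 e2Z he2Z.1
    (fun i j => h24af_onbasis_mul R S eZ (M0 + Dinf) heZ eZ (M0 + Dinf) heZ e2Z _ he2Z rfl i j)
    q hqB hq0 Dq hDq
  have hdiv4 : ∀ p : T × T, M0 + Dinf - Dq p - (M0 + Dinf - E p.1 - E p.2) =
      E p.1 + E p.2 - Dq p := fun p => by abel
  have hdeg4 : ∀ p : T × T, Divisor.degree (E p.1 + E p.2 - Dq p) =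
      2 * (h75_genus K x : ℤ) := fun p => by
    simp only [map_sub, map_add, hEdeg, hDqdeg]; ring
  have hle4 : ∀ p : T × T, E p.1 + E p.2 - Dq p ≤ M0 + Dinf := by
    intro p
    rw [Finsupp.le_def]
    intro v
    have := hDqge p v
    simp only [Finsupp.sub_apply, Finsupp.add_apply, Finsupp.neg_apply] at this ⊢
    linarith
  obtain ⟨Q2, hQ2'⟩ := h26_gfam_div R S hx hxb hg B eZ (M0 + Dinf) heZ eZ heZ.1 e2Z he2Z.1
    (fun i j => h24af_onbasis_mul R S eZ (M0 + Dinf) heZ eZ (M0 + Dinf) heZ e2Z _ he2Z rfl i j)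
    Q (fun p => M0 + Dinf - E p.1 - E p.2) hQ.1.1 hQ.2
    (fun i p => q p * eZ i) (fun p => M0 + Dinf - Dq p) hw4
    (fun p => by rw [hdeg3]; linarith)
    (fun p => by rw [hdiv4]; exact hle4 p)
    (h75_genus K x + 1)
    (fun p => h24af_finrank_up hx _ _ (by rw [hdiv4, hdeg4]; linarith)
      (by rw [hdiv4, hdeg4]; push_cast; ring))
    (fun p => h24af_finrank_down R S hx hxb hg _ _ (by rw [hdiv4, hdeg4]; linarith)
      (by rw [hdiv4, hdeg4]; push_cast; ring))
  have hQ2 := h24af_gfam_congr R S B eZ Q2 _ (fun p => E p.1 + E p.2 - Dq p) hdiv4 hQ2'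
  -- STEP 5: the line t
  have hw5 := h26_gfam_scale R S hx hxb B e0 M0 he0 eZ heZ.1 e0Z he0Z.1
    (fun i j => h24af_onbasis_mul R S eZ (M0 + Dinf) heZ e0 M0 he0 e0Z _ he0Z rfl i j)
    q hqB hq0 Dq hDq
  have hdiv5 : ∀ p : T × T, M0 - Dq p - (M0 + Dinf - E p.1 - E p.2) =
      E p.1 + E p.2 - Dinf - Dq p := fun p => by abel
  have hle5 : ∀ p : T × T, E p.1 + E p.2 - Dinf - Dq p ≤ M0 := by
    intro p
    rw [Finsupp.le_def]
    intro v
    have := hDqge p v
    simp only [Finsupp.sub_apply, Finsupp.add_apply, Finsupp.neg_apply] at this ⊢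
    linarith
  choose hf hf0 hfdiv using fun p : T × T => hEadd p.1 p.2
  have hfq : ∀ p, (hf p * q p)⁻¹ ≠ 0 := fun p => inv_ne_zero (mul_ne_zero (hf0 p) (hqne p))
  have hlin5 : ∀ (p : T × T) (v : Place K F), (E p.1 + E p.2 - Dinf - Dq p) v =
      E (p.1 + p.2) v + v.ord ((hf p * q p)⁻¹) := by
    intro p v
    rw [v.ord_inv, v.ord_mul (hf0 p) (hqne p), ← hfdiv p v, ← hDq p v]
    simp only [Finsupp.sub_apply, Finsupp.add_apply]
    ring
  have hK5 : ∀ p : T × T,
      Module.finrank K (riemannRochSpace (E p.1 + E p.2 - Dinf - Dq p)) = 1 := fun p => by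
    rw [h24af_finrank_lineq (E (p.1 + p.2)) _ ((hf p * q p)⁻¹) (hfq p) (hlin5 p)]
    exact hG1K _
  have hk5 : ∀ p : T × T, Module.finrank k
      (riemannRochSpace (Finsupp.mapDomain S.r0 (E p.1 + E p.2 - Dinf - Dq p))) = 1 := fun p => by
    have hprin : (E p.1 + E p.2 - Dinf - Dq p) - E (p.1 + p.2) ∈
        Divisor.principal (K := K) (F := F) :=
      ⟨(hf p * q p)⁻¹, hfq p, fun v => by rw [Finsupp.sub_apply, hlin5 p v]; ring⟩
    obtain ⟨ub, hub0, hub⟩ := h64_mapDomain_principal R S _ hprin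
    rw [h24af_finrank_lineq (Finsupp.mapDomain S.r0 (E (p.1 + p.2))) _ ub hub0 (fun v => by
      have := hub v
      rw [Finsupp.mapDomain_sub, Finsupp.sub_apply] at this
      linarith)]
    exact hG1 _
  obtain ⟨tf, htf'⟩ := h26_gfam_div R S hx hxb hg B e0 M0 he0 eZ heZ.1 e0Z he0Z.1
    (fun i j => h24af_onbasis_mul R S e0 M0 he0 eZ (M0 + Dinf) heZ e0Z _ he0Z (by abel) i j)
    Q (fun p => M0 + Dinf - E p.1 - E p.2) hQ.1.1 hQ.2
    (fun i p => q p * e0 i) (fun p => M0 - Dq p) hw5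
    (fun p => by rw [hdeg3]; linarith)
    (fun p => by rw [hdiv5]; exact hle5 p)
    1
    (fun p => by rw [hdiv5]; exact hK5 p)
    (fun p => by rw [hdiv5]; exact hk5 p)
  have htf := h24af_gfam_congr R S B e0 tf _ (fun p => E p.1 + E p.2 - Dinf - Dq p) hdiv5 htf'
  set tt : T × T → F := tf 0 with httdef
  have httB : tt ∈ h26_BVec R B e0 := htf.1.1 _
  have htt0 : ∀ p, R.redF (tt p) ≠ 0 := fun p => (htf.1.2 p).ne_zero 0
  have httne : ∀ p, tt p ≠ 0 := by
    intro p h0
    apply htt0 p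
    rw [h0, R.redF_of_mem R.O.zero_mem]
    exact map_zero R.red
  have httmem : ∀ p : T × T, tt p ∈ riemannRochSpace (E p.1 + E p.2 - Dinf - Dq p) := by
    intro p
    rw [← htf.2.1 p]
    exact Submodule.subset_span ⟨0, rfl⟩
  choose Dt hDt using fun p => h7_exists_div hx (tt p) (httne p)
  have hDteq : ∀ p : T × T, Dt p = E (p.1 + p.2) - (E p.1 + E p.2 - Dinf - Dq p) := by
    intro p
    have heff : ∀ v : Place K F, 0 ≤ ((E p.1 + E p.2 - Dinf - Dq p) + Dt p) v := by
      intro v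
      rw [Finsupp.add_apply, hDt p v]
      rcases mem_riemannRochSpace_iff.mp (httmem p) v with h | h
      · exact absurd h (httne p)
      · linarith
    have hprin : (E p.1 + E p.2 - Dinf - Dq p) + Dt p - E (p.1 + p.2) ∈
        Divisor.principal (K := K) (F := F) := by
      refine ⟨tt p * (hf p * q p)⁻¹, mul_ne_zero (httne p) (hfq p), fun v => ?_⟩
      rw [v.ord_mul (httne p) (hfq p), Finsupp.sub_apply, Finsupp.add_apply, hlin5 p v, hDt p v]
      ring
    have hE2 : (E p.1 + E p.2 - Dinf - Dq p) + Dt p = E (p.1 + p.2) :=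
      h64_eq_of_effective_of_finrank_one (E (p.1 + p.2)) _
        (fun v => by simpa using (Finsupp.le_def.mp (hEeff (p.1 + p.2))) v) (hG1K _) heff hprin
    rw [← hE2]
    abel
  -- STEP 6: W' = L(M - E_(x+y))
  have hw6 := h26_gfam_scale R S hx hxb B eMD (M + Dinf) heMD e0 he0.1 e6 he6.1
    (fun i j => h24af_onbasis_mul R S e0 M0 he0 eMD (M + Dinf) heMD e6 _ he6 rfl i j)
    tt httB htt0 Dt hDt
  have hdiv6 : ∀ p : T × T, M + Dinf - Dt p - (E p.1 + E p.2 - Dq p) = M - E (p.1 + p.2) :=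
    fun p => by rw [hDteq p]; abel
  obtain ⟨W', hW''⟩ := h26_gfam_div R S hx hxb hg B (Sum.elim b' b'') M hb eZ heZ.1 e6 he6.1
    (fun i j => h24af_onbasis_mul R S _ M hb eZ (M0 + Dinf) heZ e6 _ he6 (by abel) i j)
    Q2 (fun p => E p.1 + E p.2 - Dq p) hQ2.1.1 hQ2.2
    (fun i p => tt p * eMD i) (fun p => M + Dinf - Dt p) hw6
    (fun p => (hdeg4 p).ge)
    (fun p => by rw [hdiv6]; exact sub_le_self _ (hEeff _))
    n'
    (fun p => h24af_finrank_up hx _ _ (by rw [hdiv6, map_sub, hEdeg]; linarith)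
      (by rw [hdiv6, map_sub, hEdeg, hn']; ring))
    (fun p => h24af_finrank_down R S hx hxb hg _ _ (by rw [hdiv6, map_sub, hEdeg]; linarith)
      (by rw [hdiv6, map_sub, hEdeg, hn']; ring))
  have hW' := h24af_gfam_congr R S B _ W' _ (fun p => M - E (p.1 + p.2)) hdiv6 hW''
  -- extraction of the graph coordinates
  exact h26_fam_extract R B b' b'' hb.1 W' hW'.1 (Fintype.card_fin n') (fun p => Ac (p.1 + p.2))
    (fun p j => by rw [hW'.2.1 p]; exact hAc (p.1 + p.2) j)

end Fermat.Agent.S19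

end
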