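import Fermat.Agent.S17.h32_GalDescent
import Fermat.Agent.S19.h24_RedL
import Fermat.Agent.S28.ZlBasics
import Fermat.Agent.S18.h52_ONCore
import Fermat.Agent.S18.GR_RedAPI
import Fermat.Prelude.Def_AlgebraicCurve_BaseChangeGalois

/-!
# S19, row X5 BASIS (helper24): Galois-fixed orthonormal bases

`h24_exists_fixed_basis` : (DESCENT) a Galois-stable finite-dimensional space of functions has a
basis of Galois-fixed vectors (adapter of `h32_descent_basis`).

`h24_sat_core` : (SATURATION) from a family of `n` Galois-fixed elements of `V ∩ O` whose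
coordinate matrix `C` in an orthonormal basis `e` of `V` is invertible, a family with
`k`-independent reductions, by induction on the least `N` with `ℓ ^ N / det C ∈ A`.

`h24_exists_rat_basis` : the statement of X5 (`h23_exists_rat_basis`).
-/

set_option autoImplicit false

noncomputable section

open AlgebraicCurve IntermediateField

namespace Fermat.Agent.S19

open Fermat.Agent.S18 Fermat.Agent.S17

local notation "Qb" => AlgebraicClosure ℚ
local notation "Γℚ" => (AlgebraicClosure ℚ ≃ₐ[ℚ] AlgebraicClosure ℚ)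

/-- the determinant of a matrix with entries in a valuation ring lies in it. -/
theorem h24_det_mem {K : Type*} [Field K] (A : ValuationSubring K) {n : ℕ}
    (C : Matrix (Fin n) (Fin n) K) (h : ∀ i j, C i j ∈ A) : C.det ∈ A := by
  have h1 : C = A.subtype.mapMatrix
      (Matrix.of fun i j => (⟨C i j, h i j⟩ : A)) := by
    ext i j
    rfl
  rw [h1, ← RingHom.map_det]
  exact Subtype.property _

/-- the inverse of an integer prime to `ℓ` is integral. -/
theorem h24_int_inv_mem (ℓ : ℕ) [Fact ℓ.Prime] (A : ValuationSubring Qb)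
    (hrat : ∀ q : ℚ, algebraMap ℚ Qb q ∈ A ↔ q ∈ GaloisRep.ratLocalizedAt ℓ)
    (c : ℤ) (hc : ¬ (ℓ : ℤ) ∣ c) : ((c : Qb))⁻¹ ∈ A := by
  have h1 : ((1 : ℤ) : ℚ) / (c : ℚ) ∈ GaloisRep.ratLocalizedAt ℓ :=
    Fermat.Agent.S28.h34_div_mem_ratLocalizedAt ℓ 1 c hc
  have h2 := (hrat _).mpr h1
  rw [map_div₀, map_intCast, map_intCast, Int.cast_one, one_div] at h2
  exact h2

section Qbar

variable {F : Type*} [Field F] [Algebra Qb F] {k Fb : Type*} [Field k] [Field Fb] [Algebra k Fb]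
variable (gal : Γℚ →* SemilinearAut Qb F)

/-- **(DESCENT)** a Galois-stable finite-dimensional space of functions has a basis of
Galois-fixed vectors. -/
theorem h24_exists_fixed_basis
    (hgal : ∀ (σ : Γℚ) (a : Qb), gal σ • algebraMap Qb F a = algebraMap Qb F (σ a))
    (hstab : ∀ f : F, ∃ E : IntermediateField ℚ Qb, FiniteDimensional ℚ E ∧
      ∀ σ : Γℚ, (∀ a ∈ E, σ a = a) → gal σ • f = f)
    (V : Submodule Qb F) (hVfix : ∀ σ, ∀ f ∈ V, gal σ • f ∈ V) [FiniteDimensional Qb ↥V] :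
    ∃ b : Module.Basis (Fin (Module.finrank Qb ↥V)) Qb ↥V,
      ∀ i σ, gal σ • (b i : F) = (b i : F) := by
  have := h32_isGaloisQbar
  let act : Γℚ → ↥V → ↥V := fun σ v => ⟨gal σ • (v : F), hVfix σ v v.2⟩
  have hact : h32_IsSemiAct act :=
    { map_add := fun σ v w => Subtype.ext (by
        show gal σ • ((v : F) + (w : F)) = gal σ • (v : F) + gal σ • (w : F)
        rw [smul_add])
      map_smul := fun σ a v => Subtype.ext (by
        show gal σ • (a • (v : F)) = σ a • (gal σ • (v : F))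
        rw [Algebra.smul_def, Algebra.smul_def, smul_mul', hgal])
      mul := fun σ τ v => Subtype.ext (by
        show gal (σ * τ) • (v : F) = gal σ • (gal τ • (v : F))
        rw [map_mul, mul_smul]) }
  have hsm : h32_Smooth act := by
    intro v
    obtain ⟨E, hE, h⟩ := hstab (v : F)
    exact ⟨E, hE, fun σ hσ => Subtype.ext (h σ hσ)⟩
  obtain ⟨b, hb⟩ := h32_descent_basis hact hsm
  exact ⟨b, fun i σ => congrArg Subtype.val (hb i σ)⟩

/-- **(SATURATION)**, core. -/
theorem h24_sat_core (ℓ : ℕ) [Fact ℓ.Prime]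
    (hgal : ∀ (σ : Γℚ) (a : Qb), gal σ • algebraMap Qb F a = algebraMap Qb F (σ a))
    (R : h39_RedDatum Qb F k Fb)
    (hrat : ∀ q : ℚ, algebraMap ℚ Qb q ∈ R.A ↔ q ∈ GaloisRep.ratLocalizedAt ℓ)
    (hℓ : R.resK (ℓ : Qb) = 0)
    (hnorm : ∀ f : F, f ≠ 0 → (∀ σ, gal σ • f = f) →
      ∃ m : ℤ, R.redF (algebraMap Qb F ((ℓ : Qb) ^ m) * f) ≠ 0)
    (hprime : ∀ (n : ℕ) (f : Fin n → F), (∀ i σ, gal σ • f i = f i) → (∀ i, f i ∈ R.O) →
      ¬ LinearIndependent k (fun i => R.redF (f i)) →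
      ∃ c : Fin n → ℤ, (∃ i, ¬ (ℓ : ℤ) ∣ c i) ∧
        R.redF (∑ i, algebraMap Qb F (c i : Qb) * f i) = 0)
    (V : Submodule Qb F) {n : ℕ} (e : Fin n → F) (heO : ∀ j, e j ∈ R.O)
    (heli : LinearIndependent k (fun j => R.redF (e j))) :
    ∀ (N : ℕ) (w : Fin n → F) (C : Matrix (Fin n) (Fin n) Qb),
      (∀ i, w i = ∑ j, C i j • e j) → C.det ≠ 0 → (∀ i, w i ∈ V) →
      (∀ σ i, gal σ • w i = w i) → (∀ i, w i ∈ R.O) → (ℓ : Qb) ^ N * (C.det)⁻¹ ∈ R.A →
      ∃ b : Fin n → F, (∀ i, b i ∈ V) ∧ (∀ σ i, gal σ • b i = b i) ∧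
        (∀ i, b i ∈ R.O) ∧ LinearIndependent k (fun i => R.redF (b i)) := by
  classical
  have hℓp : ℓ.Prime := Fact.out
  have hℓ0 : (ℓ : Qb) ≠ 0 := Nat.cast_ne_zero.mpr hℓp.ne_zero
  have hℓA : (ℓ : Qb) ∈ R.A := natCast_mem R.A ℓ
  have hℓinv : (ℓ : Qb)⁻¹ ∉ R.A := ((h39_resK_eq_zero_iff R hℓA).mp hℓ).resolve_left hℓ0
  have heK : LinearIndependent Qb e := h24_on_linearIndependent R e heO heli
  have hfixc : ∀ (σ : Γℚ) (a : Qb) (f : F),
      gal σ • (algebraMap Qb F a * f) = algebraMap Qb F (σ a) * gal σ • f := by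
    intro σ a f
    rw [smul_mul', hgal]
  -- the step
  have step : ∀ (w : Fin n → F) (C : Matrix (Fin n) (Fin n) Qb),
      (∀ i, w i = ∑ j, C i j • e j) → C.det ≠ 0 → (∀ i, w i ∈ V) →
      (∀ σ i, gal σ • w i = w i) → (∀ i, w i ∈ R.O) →
      ¬ LinearIndependent k (fun i => R.redF (w i)) →
      ∃ (w' : Fin n → F) (C' : Matrix (Fin n) (Fin n) Qb) (t : ℕ) (c : ℤ),
        ¬ (ℓ : ℤ) ∣ c ∧ (∀ i, w' i = ∑ j, C' i j • e j) ∧ (∀ i, w' i ∈ V) ∧
        (∀ σ i, gal σ • w' i = w' i) ∧ (∀ i, w' i ∈ R.O) ∧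
        C'.det = ((ℓ : Qb) ^ (t + 1))⁻¹ * ((c : Qb) * C.det) := by
    intro w C hw hdet hV hfix hO hdep
    obtain ⟨c, ⟨i0, hi0⟩, hred⟩ := hprime n w (fun i σ => hfix σ i) hO hdep
    have hcA : ∀ i, algebraMap Qb F (c i : Qb) ∈ R.O := fun i =>
      (R.mem_iff _).mp (intCast_mem R.A (c i))
    have huO : (∑ i, algebraMap Qb F (c i : Qb) * w i) ∈ R.O :=
      R.O.sum_mem (fun i _ => R.O.mul_mem _ _ (hcA i) (hO i))
    have huV : (∑ i, algebraMap Qb F (c i : Qb) * w i) ∈ V :=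
      V.sum_mem (fun i _ => by rw [← Algebra.smul_def]; exact V.smul_mem _ (hV i))
    have hufix : ∀ σ, gal σ • (∑ i, algebraMap Qb F (c i : Qb) * w i)
        = ∑ i, algebraMap Qb F (c i : Qb) * w i := by
      intro σ
      rw [Finset.smul_sum]
      refine Finset.sum_congr rfl (fun i _ => ?_)
      rw [hfixc, hfix σ i, map_intCast]
    have hu_eq : (∑ i, algebraMap Qb F (c i : Qb) * w i)
        = ∑ j, (∑ i, (c i : Qb) * C i j) • e j := by
      calc ∑ i, algebraMap Qb F (c i : Qb) * w i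
          = ∑ i, ∑ j, ((c i : Qb) * C i j) • e j := by
            refine Finset.sum_congr rfl (fun i _ => ?_)
            rw [hw i, ← Algebra.smul_def, Finset.smul_sum]
            refine Finset.sum_congr rfl (fun j _ => ?_)
            rw [smul_smul]
        _ = ∑ j, ∑ i, ((c i : Qb) * C i j) • e j := Finset.sum_comm
        _ = _ := by
            refine Finset.sum_congr rfl (fun j _ => ?_)
            rw [Finset.sum_smul]
    have hu0 : (∑ i, algebraMap Qb F (c i : Qb) * w i) ≠ 0 := by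
      intro h0
      rw [hu_eq] at h0
      have h1 := Fintype.linearIndependent_iff.mp heK _ h0
      have h2 : Matrix.vecMul (fun i => (c i : Qb)) C = 0 := by
        funext j
        simpa [Matrix.vecMul, dotProduct] using h1 j
      have h3 := Matrix.eq_zero_of_vecMul_eq_zero hdet h2
      have h4 : (c i0 : Qb) = 0 := congrFun h3 i0
      have h5 : c i0 = 0 := by exact_mod_cast h4
      exact hi0 (h5 ▸ dvd_zero _)
    obtain ⟨m, hm⟩ := hnorm _ hu0 hufix
    have hmneg : m < 0 := by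
      by_contra hcon
      push Not at hcon
      obtain ⟨t, rfl⟩ := Int.eq_ofNat_of_zero_le hcon
      have h1 : algebraMap Qb F ((ℓ : Qb) ^ (t : ℤ)) ∈ R.O := by
        rw [zpow_natCast]
        exact (R.mem_iff _).mp (R.A.pow_mem hℓA t)
      rw [h39_redF_mul R h1 huO, hred, mul_zero] at hm
      exact hm rfl
    obtain ⟨t, rfl⟩ : ∃ t : ℕ, m = -((t : ℤ) + 1) := ⟨(-m - 1).toNat, by omega⟩
    have ha_eq : (ℓ : Qb) ^ (-((t : ℤ) + 1)) = ((ℓ : Qb) ^ (t + 1))⁻¹ := by
      rw [zpow_neg]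
      congr 1
      exact_mod_cast zpow_natCast (ℓ : Qb) (t + 1)
    rw [ha_eq] at hm
    have hu'O := h39_mem_of_redF_ne_zero R hm
    have hafix : ∀ σ : Γℚ, σ (((ℓ : Qb) ^ (t + 1))⁻¹) = ((ℓ : Qb) ^ (t + 1))⁻¹ := by
      intro σ
      rw [map_inv₀, map_pow, map_natCast]
    refine ⟨Function.update w i0
        (algebraMap Qb F (((ℓ : Qb) ^ (t + 1))⁻¹) * ∑ i, algebraMap Qb F (c i : Qb) * w i),
      C.updateRow i0 ((((ℓ : Qb) ^ (t + 1))⁻¹) • ∑ i, (c i : Qb) • C i), t, c i0, hi0,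
      ?_, ?_, ?_, ?_, ?_⟩
    · intro i
      by_cases hi : i = i0
      · rw [hi, Function.update_self, Matrix.updateRow_self, hu_eq, ← Algebra.smul_def,
          Finset.smul_sum]
        refine Finset.sum_congr rfl (fun j _ => ?_)
        rw [smul_smul]
        congr 1
        simp [Finset.sum_apply, Pi.smul_apply, smul_eq_mul]
      · rw [Function.update_of_ne hi, Matrix.updateRow_ne hi]
        exact hw i
    · intro i
      by_cases hi : i = i0
      · rw [hi, Function.update_self, ← Algebra.smul_def]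
        exact V.smul_mem _ huV
      · rw [Function.update_of_ne hi]
        exact hV i
    · intro σ i
      by_cases hi : i = i0
      · rw [hi, Function.update_self, hfixc, hafix, hufix]
      · rw [Function.update_of_ne hi]
        exact hfix σ i
    · intro i
      by_cases hi : i = i0
      · rw [hi, Function.update_self]
        exact hu'O
      · rw [Function.update_of_ne hi]
        exact hO i
    · rw [Matrix.det_updateRow_smul, Matrix.det_updateRow_sum, smul_eq_mul]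
  -- the induction
  intro N
  induction N with
  | zero =>
    intro w C hw hdet hV hfix hO hN
    by_cases hli : LinearIndependent k (fun i => R.redF (w i))
    · exact ⟨w, hV, hfix, hO, hli⟩
    · exfalso
      obtain ⟨w', C', t, c, hc, hw', hV', hfix', hO', hdet'⟩ := step w C hw hdet hV hfix hO hli
      have hc0 : (c : Qb) ≠ 0 := by
        intro h0
        have : c = 0 := by exact_mod_cast h0
        exact hc (this ▸ dvd_zero _)
      have hC'A : C'.det ∈ R.A := h24_det_mem R.A C' (fun i j =>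
        h52_coord_mem R e heO heli (C' i) (by rw [← hw' i]; exact hO' i) j)
      have hcinv := h24_int_inv_mem ℓ R.A hrat c hc
      rw [pow_zero, one_mul] at hN
      have h1 : ((ℓ : Qb) ^ (t + 1))⁻¹ ∈ R.A := by
        have h2 := R.A.mul_mem _ _ (R.A.mul_mem _ _ hC'A hcinv) hN
        have h3 : C'.det * (c : Qb)⁻¹ * (C.det)⁻¹ = ((ℓ : Qb) ^ (t + 1))⁻¹ := by
          rw [hdet']
          field_simp
        rwa [h3] at h2
      apply hℓinv
      have h4 := R.A.mul_mem _ _ h1 (R.A.pow_mem hℓA t)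
      have h5 : ((ℓ : Qb) ^ (t + 1))⁻¹ * (ℓ : Qb) ^ t = (ℓ : Qb)⁻¹ := by
        rw [pow_succ]
        field_simp
      rwa [h5] at h4
  | succ N ih =>
    intro w C hw hdet hV hfix hO hN
    by_cases hli : LinearIndependent k (fun i => R.redF (w i))
    · exact ⟨w, hV, hfix, hO, hli⟩
    · obtain ⟨w', C', t, c, hc, hw', hV', hfix', hO', hdet'⟩ := step w C hw hdet hV hfix hO hli
      have hc0 : (c : Qb) ≠ 0 := by
        intro h0
        have : c = 0 := by exact_mod_cast h0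
        exact hc (this ▸ dvd_zero _)
      have hcinv := h24_int_inv_mem ℓ R.A hrat c hc
      have hdet'0 : C'.det ≠ 0 := by
        rw [hdet']
        exact mul_ne_zero (inv_ne_zero (pow_ne_zero _ hℓ0)) (mul_ne_zero hc0 hdet)
      refine ih w' C' hw' hdet'0 hV' hfix' hO' ?_
      have h2 := R.A.mul_mem _ _ (R.A.mul_mem _ _ (R.A.pow_mem hℓA t) hcinv) hN
      have h3 : (ℓ : Qb) ^ t * (c : Qb)⁻¹ * ((ℓ : Qb) ^ (N + 1) * (C.det)⁻¹)
          = (ℓ : Qb) ^ N * (C'.det)⁻¹ := by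
        rw [hdet', pow_succ, pow_succ]
        field_simp
      rwa [h3] at h2

/-- **X5 (BASIS)** a Galois-stable finite-dimensional space of functions has a Galois-fixed
basis in `O` with `k`-independent reductions. -/
theorem h24_exists_rat_basis [IsAlgClosed k] (ℓ : ℕ) [Fact ℓ.Prime]
    (hgal : ∀ (σ : Γℚ) (a : Qb), gal σ • algebraMap Qb F a = algebraMap Qb F (σ a))
    (hstab : ∀ f : F, ∃ E : IntermediateField ℚ Qb, FiniteDimensional ℚ E ∧
      ∀ σ : Γℚ, (∀ a ∈ E, σ a = a) → gal σ • f = f)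
    (R : h39_RedDatum Qb F k Fb)
    (hrat : ∀ q : ℚ, algebraMap ℚ Qb q ∈ R.A ↔ q ∈ GaloisRep.ratLocalizedAt ℓ)
    (hℓ : R.resK (ℓ : Qb) = 0) (hrk : h39_RankOne R.A)
    {x : F} (hx : h39_WeakChart R x)
    (hnorm : ∀ f : F, f ≠ 0 → (∀ σ, gal σ • f = f) →
      ∃ m : ℤ, R.redF (algebraMap Qb F ((ℓ : Qb) ^ m) * f) ≠ 0)
    (hprime : ∀ (n : ℕ) (f : Fin n → F), (∀ i σ, gal σ • f i = f i) → (∀ i, f i ∈ R.O) →
      ¬ LinearIndependent k (fun i => R.redF (f i)) →
      ∃ c : Fin n → ℤ, (∃ i, ¬ (ℓ : ℤ) ∣ c i) ∧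
        R.redF (∑ i, algebraMap Qb F (c i : Qb) * f i) = 0)
    (V : Submodule Qb F) (hVfix : ∀ σ, ∀ f ∈ V, gal σ • f ∈ V) (n : ℕ)
    (hn : Module.finrank Qb ↥V = n) [FiniteDimensional Qb ↥V] :
    ∃ b : Fin n → F, (∀ i, b i ∈ V) ∧ (∀ σ i, gal σ • b i = b i) ∧
      (∀ i, b i ∈ R.O) ∧ LinearIndependent k (fun i => R.redF (b i)) := by
  classical
  subst hn
  obtain ⟨e, heV, heO, heK, hespan, heli, -, hcoord⟩ := h24_exists_on_basis R hx V
  obtain ⟨b, hb⟩ := h24_exists_fixed_basis gal hgal hstab V hVfix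
  have hℓp : ℓ.Prime := Fact.out
  have hℓ0 : (ℓ : Qb) ≠ 0 := Nat.cast_ne_zero.mpr hℓp.ne_zero
  have hb0 : ∀ i, (b i : F) ≠ 0 := fun i h => b.ne_zero i (Subtype.ext h)
  choose m hm using fun i => hnorm (b i : F) (hb0 i) (fun σ => hb i σ)
  have hwO : ∀ i, algebraMap Qb F ((ℓ : Qb) ^ m i) * (b i : F) ∈ R.O := fun i =>
    h39_mem_of_redF_ne_zero R (hm i)
  have hwV : ∀ i, algebraMap Qb F ((ℓ : Qb) ^ m i) * (b i : F) ∈ V := fun i => by
    rw [← Algebra.smul_def]
    exact V.smul_mem _ (b i).2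
  have hwfix : ∀ σ i, gal σ • (algebraMap Qb F ((ℓ : Qb) ^ m i) * (b i : F))
      = algebraMap Qb F ((ℓ : Qb) ^ m i) * (b i : F) := by
    intro σ i
    rw [smul_mul', hgal, hb i σ, map_zpow₀, map_natCast]
  choose C hCA hC using fun i => hcoord _ (hwV i) (hwO i)
  have hdet : (Matrix.of C).det ≠ 0 := by
    intro h0
    obtain ⟨v, hv0, hv⟩ := Matrix.exists_vecMul_eq_zero_iff.mpr h0
    apply hv0
    have h1 : ∑ i, (v i * (ℓ : Qb) ^ m i) • b i = 0 := by
      apply Subtype.ext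
      rw [Submodule.coe_sum, Submodule.coe_zero]
      calc ∑ i, ((((v i * (ℓ : Qb) ^ m i) • b i : ↥V)) : F)
          = ∑ i, v i • (algebraMap Qb F ((ℓ : Qb) ^ m i) * (b i : F)) := by
            refine Finset.sum_congr rfl (fun i _ => ?_)
            rw [Submodule.coe_smul, mul_smul, Algebra.smul_def ((ℓ : Qb) ^ m i)]
        _ = ∑ i, ∑ j, (v i * C i j) • e j := by
            refine Finset.sum_congr rfl (fun i _ => ?_)
            rw [hC i, Finset.smul_sum]
            refine Finset.sum_congr rfl (fun j _ => ?_)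
            rw [smul_smul]
        _ = ∑ j, ∑ i, (v i * C i j) • e j := Finset.sum_comm
        _ = ∑ j, (Matrix.vecMul v (Matrix.of C) j) • e j := by
            refine Finset.sum_congr rfl (fun j _ => ?_)
            rw [← Finset.sum_smul]
            rfl
        _ = 0 := by
            rw [hv]
            simp
    have h2 := Fintype.linearIndependent_iff.mp b.linearIndependent _ h1
    funext i
    exact (mul_eq_zero.mp (h2 i)).resolve_right (zpow_ne_zero _ hℓ0)
  have hℓA : (ℓ : Qb) ∈ R.A := natCast_mem R.A ℓ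
  have hℓinv : (ℓ : Qb)⁻¹ ∉ R.A := ((h39_resK_eq_zero_iff R hℓA).mp hℓ).resolve_left hℓ0
  obtain ⟨N, hN⟩ := hrk (ℓ : Qb) hℓA hℓinv (Matrix.of C).det hdet
  exact h24_sat_core gal ℓ hgal R hrat hℓ hnorm hprime V e heO heli N _ (Matrix.of C)
    hC hdet hwV hwfix hwO hN

end Qbar

end Fermat.Agent.S19

end
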