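import Fermat.Agent.S19.h24_CoordsOf
import Fermat.Agent.S19.RatNorm
import Fermat.Agent.S19.h24_RatBasis
import Fermat.Agent.S19.Exist
import Fermat.Agent.S19.h24_AddFinal

/-!
# S19, row X8 COORDS (helper24): `h23_coords`, statement verbatim from the EXIST skeleton

Wiring of `h24_coords_of` (X8 in hypothesis form) with X4 `h23_ratnorm` (RatNorm.lean),
X5 `h24_exists_rat_basis` (h24_RatBasis.lean), X7 `h23_exist` (Exist.lean) and the addition
theorem `h24af_add` (h24_AddFinal.lean).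
-/

set_option autoImplicit false

noncomputable section

open AlgebraicCurve Fermat.Agent.S18 Fermat.Agent.S27 Polynomial IntermediateField

namespace Fermat.Agent.S19

local notation "Qb" => AlgebraicClosure ℚ
local notation "Γℚ" => (AlgebraicClosure ℚ ≃ₐ[ℚ] AlgebraicClosure ℚ)

section Qbar

variable {F : Type*} [Field F] [Algebra Qb F] {k Fb : Type*} [Field k] [Field Fb] [Algebra k Fb]
variable (gal : Γℚ →* SemilinearAut Qb F)

/-- **(COORDS)** the hypotheses of T1 (`h26_order_of_coords`) for a finite Galois-stable group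
`G` of classes: the graph coordinates of all conjugates of the datum of `h23_exist`. -/
theorem h23_coords [IsAlgClosed k] (ℓ : ℕ) [Fact ℓ.Prime] [CharP k ℓ]
    (hgal : ∀ (σ : Γℚ) (a : Qb), gal σ • algebraMap Qb F a = algebraMap Qb F (σ a))
    (hstab : ∀ f : F, ∃ E : IntermediateField ℚ Qb, FiniteDimensional ℚ E ∧
      ∀ σ : Γℚ, (∀ a ∈ E, σ a = a) → gal σ • f = f)
    (R : h39_RedDatum Qb F k Fb) (hrk : h39_RankOne R.A)
    (hrat : ∀ q : ℚ, algebraMap ℚ Qb q ∈ R.A ↔ q ∈ GaloisRep.ratLocalizedAt ℓ)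
    (hℓ : R.resK (ℓ : Qb) = 0)
    (𝒜 : Set (ValuationSubring Qb))
    (h𝒜stab : ∀ (σ : Γℚ), ∀ A ∈ 𝒜, A.comap (σ : Qb →+* Qb) ∈ 𝒜)
    (hAr : h23_Arith ℓ R 𝒜)
    {x : F} (hx : h39_Chart R x) (hxfix : ∀ σ, gal σ • x = x)
    (S : h39_PlaceRed R)
    (hS : ∃ r : Place Qb F → Place k Fb, h39_IsChartRed R x r ∧
      ∀ P : Place Qb F, h39_InDisc R x P → S.r0 P = r P)
    {y : F} (hyfix : ∀ σ, gal σ • y = y) (hyO : y ∈ R.O) (hyreg : h39_Reg Qb x y)
    (hyprim : LinearIndependent k⟮R.redF x⟯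
      (fun i : Fin (Module.finrank Qb⟮x⟯ F) => R.redF y ^ (i : ℕ)))
    {G : Type} [AddCommGroup G] [Finite G] [DistribMulAction Γℚ G]
    (ι : G →+ Pic0 Qb F) (hι : Function.Injective ι)
    (hιeq : ∀ (σ : Γℚ) (z : G), ι (σ • z) = gal σ • ι z) :
    ∃ C : Set (G → Qb), C.Finite ∧
      (∀ (σ : Γℚ), ∀ c ∈ C, (fun z => σ (c (σ⁻¹ • z))) ∈ C) ∧
      (∀ c ∈ C, ∃ K' : IntermediateField ℚ Qb, h26_LGood 𝒜 K' ∧
        ∀ σ : Γℚ, (∀ a ∈ K', σ a = a) → ∀ z, c (σ • z) = σ (c z)) ∧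
      (∀ c ∈ C, ∀ z, c z ∈ R.A) ∧
      (∀ z w : G, (∀ c ∈ C, c z = c w) → z = w) ∧
      (∀ c ∈ C, (fun p : G × G => c (p.1 + p.2)) ∈
        Algebra.adjoin R.A (((fun (c' : G → Qb) (p : G × G) => c' p.1) '' C) ∪
          ((fun (c' : G → Qb) (p : G × G) => c' p.2) '' C))) := by
  have hxw := hx.toh39_WeakChart
  have hxK : h75_IsChart Qb x := h39_weakChart_isChart R hxw
  have hxk := h39_weakChart_isChart_red R hxw
  have hgen := h39_genus_eq R hx
  obtain ⟨hnorm, hprime⟩ := h23_ratnorm gal ℓ hgal R hrat hℓ hx hxfix hyfix hyO hyreg hyprim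
  exact h24_coords_of gal hgal R 𝒜 h𝒜stab hx hxfix S ι hι hιeq
    (fun V hV n hn hfin => by
      haveI := hfin
      exact h24_exists_rat_basis gal ℓ hgal hstab R hrat hℓ hrk hxw hnorm hprime V hV n hn)
    (fun M hMfix hMc hMg _ b hbmem hbfix hbO hbli hcard G' hG' =>
      h23_exist gal ℓ hgal R 𝒜 hAr hx hxfix S hS hyfix hyO hyreg hyprim M hMfix hMc hMg b hbmem
        hbfix hbO hbli hcard G' hG')
    (fun M M0 Dinf hD h1 h2 h3 h4 E hE hEd hEa hK hk _ b' b'' hb Ac hAc =>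
      h24af_add R S hxK hxk hgen M M0 Dinf hD h1 h2 h3 h4 E hE hEd hEa hK hk b' b'' hb Ac hAc)

end Qbar

end Fermat.Agent.S19

end
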