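import Fermat.Agent.S19.h14_Arith
import Fermat.Agent.S18.h39_Mod
import Fermat.Agent.S18.h64_RankOneW

/-!
# S19, row M2 MODARITH (helper14; statement verbatim from helper23's skeleton)

`h23_mod_arith` : the arithmetic package `h23_Arith` for the modular reduction datum, and the
facts about `ℚ ∩ A`, `ℓ` and rank one.
-/

set_option autoImplicit false

noncomputable section

open AlgebraicCurve Fermat.Agent.S18 Polynomial IntermediateField

namespace Fermat.Agent.S19

local notation "Qb" => AlgebraicClosure ℚ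
local notation "Γℚ" => (AlgebraicClosure ℚ ≃ₐ[ℚ] AlgebraicClosure ℚ)

section Modular

open ModularCurve

variable (N : ℕ) [NeZero N] {ℓ : ℕ} [Fact ℓ.Prime] (hℓN : ¬ ℓ ∣ N)
  (A : ValuationSubring Qb) (hA : A.LiesOverPrime ℓ)

set_option synthInstance.maxHeartbeats 400000 in
/-- **(MODARITH)** the arithmetic package for the modular reduction datum (bridge to C2), and
the facts about `ℚ ∩ A`, `ℓ` and rank one. -/
theorem h23_mod_arith (𝒜 : Set (ValuationSubring Qb)) (h𝒜 : ∀ B ∈ 𝒜, B.LiesOverPrime ℓ) :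
    h23_Arith ℓ (h39_modRed N hℓN A hA) 𝒜 ∧
    (∀ q : ℚ, algebraMap ℚ Qb q ∈ (h39_modRed N hℓN A hA).A ↔
      q ∈ GaloisRep.ratLocalizedAt ℓ) ∧
    (h39_modRed N hℓN A hA).resK (ℓ : Qb) = 0 ∧
    h39_RankOne (h39_modRed N hℓN A hA).A ∧
    CharP (IsLocalRing.ResidueField A) ℓ := by
  have hspec := h39_modRed_spec N hℓN A hA
  have hAeq : (h39_modRed N hℓN A hA).A = A := hspec.A_eq
  have hR : (h39_modRed N hℓN A hA).A.LiesOverPrime ℓ := by rw [hAeq]; exact hA
  refine ⟨h14_arith ℓ _ hR 𝒜 h𝒜, ?_, ?_, ?_, h19_residueField_charP A ℓ hA⟩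
  · intro q
    rw [hAeq]
    exact h14_rat_mem_iff A hA q
  · have hmem : (ℓ : Qb) ∈ (h39_modRed N hℓN A hA).A := natCast_mem _ ℓ
    rw [h39_RedDatum.resK_of_mem _ hmem, h14_res_eq_zero_iff, IsLocalRing.residue_eq_zero_iff]
    have h1 : (ℓ : Qb) ∈ (h39_modRed N hℓN A hA).A.nonunits := hR
    exact (ValuationSubring.coe_mem_nonunits_iff (a := ⟨(ℓ : Qb), hmem⟩)).1 h1
  · rw [hAeq]
    exact h64_rankOne_h39 (Fact.out : ℓ.Prime) A hA

end Modular

end Fermat.Agent.S19

end
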