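import Fermat.Agent.S19.h59_ModChartCore
import Fermat.Agent.S18.h39_Mod
import Fermat.Agent.S18.GR_RedAPI
import Fermat.Agent.S18.h39_GRDefs
import Fermat.Agent.S28.h98_XNInt
import Fermat.Prelude.Def_ModularCurve_ArithmeticGalois

/-!
# S19 / row M1 MODCHART (helper59): a Galois-fixed chart and a Galois-fixed `y ∈ O`, regular on
the chart, with primitive reduction

`x` is the chart `j` (`ℓ ≥ 5`), `h₂` (`2 ∣ N`) or `h₃` (`3 ∣ N`); `y = x ^ e * j(q^N)`, with
`e = 0` on the `j`-chart.  Regularity: `j(q^N)` is integral over `ℤ[j]` (S28 `h98_xN_rel_int`) and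
`j * x ^ c` is an integer polynomial in `x` (`h59_mc_integral`).  Primitivity: Igusa
(`h84_igusa_field`, through `h9_repr_k`): `Fb = k(j̄, j̄_N)`.
-/

set_option autoImplicit false
set_option synthInstance.maxHeartbeats 400000

noncomputable section

open AlgebraicCurve Fermat.Agent.S18 Polynomial IntermediateField ModularCurve
open Fermat.Agent.S24 Fermat.Agent.S28 HahnSeries CongruenceSubgroup
open scoped MatrixGroups

namespace Fermat.Agent.S19

local notation "Qb" => AlgebraicClosure ℚ
local notation "Γℚ" => (AlgebraicClosure ℚ ≃ₐ[ℚ] AlgebraicClosure ℚ)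

/-- a function with integral `q`-expansion is fixed by the arithmetic Galois action. -/
theorem h59_mc_fixed (N : ℕ) (f : ↥(modularFunctionFieldBar N)) (g : LaurentSeries ℤ)
    (hf : (f : LaurentSeries Qb) = coeffMap (Int.castRingHom Qb) g) (σ : Γℚ) :
    arithmeticGalois (modularFunctionFieldFull N) σ • f = f := by
  apply Subtype.ext
  rw [coe_arithmeticGalois_smul, hf, coeffMap_coeffMap]
  exact coeffMap_congr (RingHom.ext_int _ _) g

/-- a function with integral `q`-expansion lies in `O`, with the obvious reduction. -/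
theorem h59_mc_red {N : ℕ} [NeZero N] {A : ValuationSubring Qb}
    {R : h39_RedDatum Qb ↥(modularFunctionFieldBar N) (IsLocalRing.ResidueField A)
      ↥(modularFunctionFieldFullC (IsLocalRing.ResidueField A) N)} (h : h54_IsModRed N A R)
    (f : ↥(modularFunctionFieldBar N)) (g : LaurentSeries ℤ)
    (hf : (f : LaurentSeries Qb) = coeffMap (Int.castRingHom Qb) g) :
    f ∈ R.O ∧ ((R.redF f : ↥(modularFunctionFieldFullC (IsLocalRing.ResidueField A) N)) :
        LaurentSeries (IsLocalRing.ResidueField A))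
      = coeffMap (Int.castRingHom (IsLocalRing.ResidueField A)) g := by
  have hy : (f : LaurentSeries Qb) = coeffMap A.subtype (coeffMap (Int.castRingHom A) g) := by
    rw [hf, coeffMap_coeffMap]
    exact coeffMap_congr (RingHom.ext_int _ _) g
  refine ⟨h.mem_of_integral f _ hy, ?_⟩
  rw [h.redF_of_integral f _ hy, coeffMap_coeffMap]
  exact coeffMap_congr (RingHom.ext_int _ _) g

set_option maxHeartbeats 4000000 in
/-- primitivity on the reduced curve: `Fb = k(x̄)(x̄ ^ e * j̄_N)` as soon as `j̄ ∈ k(x̄)`. -/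
theorem h59_mc_prim (N : ℕ) [NeZero N] (A : ValuationSubring Qb)
    (H : h9_GaussHyp A (modularFunctionFieldBar N)
      (modularFunctionFieldFullC (IsLocalRing.ResidueField A) N)
      (Nat.card (SL(2, ℤ) ⧸ Gamma0 N)) (jqModC A) (qExpand A N (jqModC A)))
    (xb yb : ↥(modularFunctionFieldFullC (IsLocalRing.ResidueField A) N))
    (gx : LaurentSeries ℤ) (hxb0 : xb ≠ 0)
    (hxb : (xb : LaurentSeries (IsLocalRing.ResidueField A))
      = coeffMap (Int.castRingHom (IsLocalRing.ResidueField A)) gx)
    (c : ℕ) (pu : Polynomial ℤ)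
    (hrel : jqModC ℤ * gx ^ c = Polynomial.eval₂ (Int.castRingHom (LaurentSeries ℤ)) gx pu)
    (e : ℕ)
    (hyb : (yb : LaurentSeries (IsLocalRing.ResidueField A))
      = coeffMap (Int.castRingHom (IsLocalRing.ResidueField A)) gx ^ e
        * coeffMap (Int.castRingHom (IsLocalRing.ResidueField A)) (qExpand ℤ N (jqModC ℤ)))
    [FiniteDimensional (IsLocalRing.ResidueField A)⟮xb⟯
      ↥(modularFunctionFieldFullC (IsLocalRing.ResidueField A) N)]
    (m : ℕ) (hm : Module.finrank (IsLocalRing.ResidueField A)⟮xb⟯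
      ↥(modularFunctionFieldFullC (IsLocalRing.ResidueField A) N) = m) :
    LinearIndependent (IsLocalRing.ResidueField A)⟮xb⟯ (fun i : Fin m => yb ^ (i : ℕ)) := by
  classical
  have hval : Function.Injective
      ((modularFunctionFieldFullC (IsLocalRing.ResidueField A) N).val.toRingHom) :=
    fun a b hab => Subtype.ext hab
  -- `j̄` and `j̄_N`
  have hjb' : (modularFunctionFieldFullC (IsLocalRing.ResidueField A) N).val.toRingHom
        (h54_jk (IsLocalRing.ResidueField A) N)
      = coeffMap (Int.castRingHom (IsLocalRing.ResidueField A)) (jqModC ℤ) :=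
    (coeffMap_jqModC _).symm
  have hxb' : (modularFunctionFieldFullC (IsLocalRing.ResidueField A) N).val.toRingHom xb
      = coeffMap (Int.castRingHom (IsLocalRing.ResidueField A)) gx := hxb
  have h1 := h59_mc_rel_transport (coeffMap (Int.castRingHom (IsLocalRing.ResidueField A)))
    _ _ c pu hrel
  have hrelb : h54_jk (IsLocalRing.ResidueField A) N * xb ^ c
      = Polynomial.eval₂ (Int.castRingHom
          ↥(modularFunctionFieldFullC (IsLocalRing.ResidueField A) N)) xb pu :=
    h59_mc_rel_descend _ hval (h54_jk (IsLocalRing.ResidueField A) N) xb _ _ hjb' hxb' c pu h1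
  have hYb : yb = xb ^ e * (⟨qExpand (IsLocalRing.ResidueField A) N
        (jqModC (IsLocalRing.ResidueField A)),
        jqModCd_mem_full (IsLocalRing.ResidueField A) N dvd_rfl⟩ :
          ↥(modularFunctionFieldFullC (IsLocalRing.ResidueField A) N)) := by
    apply Subtype.ext
    rw [hyb, MulMemClass.coe_mul, SubmonoidClass.coe_pow, hxb, coeffMap_qExpand, coeffMap_jqModC]
  have hcoe : ∀ p : Polynomial (IsLocalRing.ResidueField A),
      ((Polynomial.aeval (h54_jk (IsLocalRing.ResidueField A) N) p :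
          ↥(modularFunctionFieldFullC (IsLocalRing.ResidueField A) N)) :
        LaurentSeries (IsLocalRing.ResidueField A))
        = Polynomial.aeval (jqModC (IsLocalRing.ResidueField A)) p := fun p =>
    (Polynomial.aeval_algHom_apply
      (modularFunctionFieldFullC (IsLocalRing.ResidueField A) N).val
      (h54_jk (IsLocalRing.ResidueField A) N) p).symm
  have htop : ((IsLocalRing.ResidueField A)⟮xb⟯)⟮yb⟯ = ⊤ := by
    rw [eq_top_iff]
    intro z _
    have hxT : xb ∈ (((IsLocalRing.ResidueField A)⟮xb⟯)⟮yb⟯).restrictScalars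
        (IsLocalRing.ResidueField A) := by
      have h2 := (((IsLocalRing.ResidueField A)⟮xb⟯)⟮yb⟯).algebraMap_mem
        (IntermediateField.AdjoinSimple.gen (IsLocalRing.ResidueField A) xb)
      rw [IntermediateField.AdjoinSimple.algebraMap_gen] at h2
      exact h2
    have hyT : yb ∈ (((IsLocalRing.ResidueField A)⟮xb⟯)⟮yb⟯).restrictScalars
        (IsLocalRing.ResidueField A) :=
      IntermediateField.mem_adjoin_simple_self _ yb
    have hjT : h54_jk (IsLocalRing.ResidueField A) N ∈
        (((IsLocalRing.ResidueField A)⟮xb⟯)⟮yb⟯).restrictScalars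
          (IsLocalRing.ResidueField A) := by
      rw [eq_div_of_mul_eq (pow_ne_zero c hxb0) hrelb]
      exact div_mem (h59_mc_eval₂_mem_subring
        ((((IsLocalRing.ResidueField A)⟮xb⟯)⟮yb⟯).restrictScalars
          (IsLocalRing.ResidueField A)).toSubfield.toSubring xb hxT pu) (pow_mem hxT c)
    have hYT : (⟨qExpand (IsLocalRing.ResidueField A) N (jqModC (IsLocalRing.ResidueField A)),
        jqModCd_mem_full (IsLocalRing.ResidueField A) N dvd_rfl⟩ :
          ↥(modularFunctionFieldFullC (IsLocalRing.ResidueField A) N)) ∈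
        (((IsLocalRing.ResidueField A)⟮xb⟯)⟮yb⟯).restrictScalars
          (IsLocalRing.ResidueField A) := by
      have hYq : (⟨qExpand (IsLocalRing.ResidueField A) N
          (jqModC (IsLocalRing.ResidueField A)),
          jqModCd_mem_full (IsLocalRing.ResidueField A) N dvd_rfl⟩ :
            ↥(modularFunctionFieldFullC (IsLocalRing.ResidueField A) N)) = yb / xb ^ e :=
        eq_div_of_mul_eq (pow_ne_zero e hxb0) (by rw [hYb, mul_comm])
      rw [hYq]
      exact div_mem hyT (pow_mem hxT e)
    obtain ⟨p, q, hq, hpq⟩ := h9_repr_k H (z : LaurentSeries (IsLocalRing.ResidueField A)) z.2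
    rw [coeffMap_jqModC] at hq hpq
    rw [coeffMap_qExpand, coeffMap_jqModC] at hpq
    have hq' : Polynomial.aeval (h54_jk (IsLocalRing.ResidueField A) N) q ≠ 0 := by
      intro h0
      apply hq
      rw [← hcoe, h0]
      rfl
    have hz : z * Polynomial.aeval (h54_jk (IsLocalRing.ResidueField A) N) q
        = ∑ i, Polynomial.aeval (h54_jk (IsLocalRing.ResidueField A) N) (p i) *
          (⟨qExpand (IsLocalRing.ResidueField A) N (jqModC (IsLocalRing.ResidueField A)),
            jqModCd_mem_full (IsLocalRing.ResidueField A) N dvd_rfl⟩ :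
              ↥(modularFunctionFieldFullC (IsLocalRing.ResidueField A) N)) ^ (i : ℕ) := by
      apply Subtype.ext
      rw [MulMemClass.coe_mul, hcoe, mul_comm, hpq, AddSubmonoidClass.coe_finsetSum]
      refine Finset.sum_congr rfl fun i _ => ?_
      rw [MulMemClass.coe_mul, SubmonoidClass.coe_pow, hcoe]
    have hzT : z ∈ (((IsLocalRing.ResidueField A)⟮xb⟯)⟮yb⟯).restrictScalars
        (IsLocalRing.ResidueField A) := by
      rw [eq_div_of_mul_eq hq' hz]
      exact div_mem (sum_mem fun i _ => mul_mem (h9_aeval_mem _ hjT (p i)) (pow_mem hYT _))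
        (h9_aeval_mem _ hjT q)
    exact hzT
  have hdeg : (minpoly (IsLocalRing.ResidueField A)⟮xb⟯ yb).natDegree = m := by
    rw [(Field.primitive_element_iff_minpoly_natDegree_eq (IsLocalRing.ResidueField A)⟮xb⟯ yb).mp
      htop, hm]
  exact (linearIndependent_pow (K := (IsLocalRing.ResidueField A)⟮xb⟯) yb).comp
    (Fin.cast hdeg.symm) (Fin.cast_injective _)

set_option maxHeartbeats 2000000 in
/-- the core: a chart `x` with integral `q`-expansion such that `j * x ^ c` is an integer
polynomial in `x` has `y = x ^ e * j(q^N)` as a Galois-fixed, integral, regular function with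
primitive reduction. -/
theorem h59_mc_core (N : ℕ) [NeZero N] {ℓ : ℕ} [Fact ℓ.Prime] (hℓN : ¬ ℓ ∣ N)
    (A : ValuationSubring Qb) (hA : A.LiesOverPrime ℓ)
    (x : ↥(modularFunctionFieldBar N)) (hxc : h39_Chart (h39_modRed N hℓN A hA) x)
    (gx : LaurentSeries ℤ) (hx : (x : LaurentSeries Qb) = coeffMap (Int.castRingHom Qb) gx)
    (c : ℕ) (pu : Polynomial ℤ)
    (hrel : jqModC ℤ * gx ^ c = Polynomial.eval₂ (Int.castRingHom (LaurentSeries ℤ)) gx pu) :
    ∃ y : ↥(modularFunctionFieldBar N),
      (∀ σ : Γℚ, arithmeticGalois (modularFunctionFieldFull N) σ • y = y) ∧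
      y ∈ (h39_modRed N hℓN A hA).O ∧ h39_Reg Qb x y ∧
      LinearIndependent (IsLocalRing.ResidueField A)⟮(h39_modRed N hℓN A hA).redF x⟯
        (fun i : Fin (Module.finrank Qb⟮x⟯ ↥(modularFunctionFieldBar N)) =>
          (h39_modRed N hℓN A hA).redF y ^ (i : ℕ)) := by
  classical
  have h := h39_modRed_spec N hℓN A hA
  -- the monic relation of `j(q^N)` over `ℤ[j]`
  obtain ⟨F₀, -⟩ := h84_exists_conjFamily_card N
  obtain ⟨Pm, hPm, hroot⟩ := h98_xN_rel_int N F₀
  obtain ⟨D, hD⟩ : ∃ D, ∀ i, (Pm.coeff i).natDegree ≤ D := by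
    refine ⟨(Finset.range (Pm.natDegree + 1)).sup (fun b => (Pm.coeff b).natDegree),
      fun b => ?_⟩
    by_cases hb : b < Pm.natDegree + 1
    · exact Finset.le_sup (f := fun b => (Pm.coeff b).natDegree) (Finset.mem_range.mpr hb)
    · rw [Polynomial.coeff_eq_zero_of_natDegree_lt (by omega)]
      simp
  -- the elements
  have hjF : ((h59_jbar N : ↥(modularFunctionFieldBar N)) : LaurentSeries Qb)
      = coeffMap (Int.castRingHom Qb) (jqModC ℤ) := by
    rw [h69_coe_jbar, coeffMap_jqModC]
  have hjNF : ((h69_jN N : ↥(modularFunctionFieldBar N)) : LaurentSeries Qb)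
      = coeffMap (Int.castRingHom Qb) (qExpand ℤ N (jqModC ℤ)) := by
    rw [h69_coe_jN, coeffMap_qExpand, coeffMap_jqModC]
  have hy : ((x ^ (c * D) * h69_jN N : ↥(modularFunctionFieldBar N)) : LaurentSeries Qb)
      = coeffMap (Int.castRingHom Qb) (gx ^ (c * D) * qExpand ℤ N (jqModC ℤ)) := by
    rw [map_mul, map_pow, ← hx, ← hjNF]
    rfl
  refine ⟨x ^ (c * D) * h69_jN N, h59_mc_fixed N _ _ hy, (h59_mc_red h _ _ hy).1, ?_, ?_⟩
  · -- regularity
    intro P hP
    have hval : Function.Injective ((modularFunctionFieldBar N).val.toRingHom) :=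
      fun a b hab => Subtype.ext hab
    have hjF' : (modularFunctionFieldBar N).val.toRingHom (h59_jbar N)
        = coeffMap (Int.castRingHom Qb) (jqModC ℤ) := hjF
    have hx' : (modularFunctionFieldBar N).val.toRingHom x
        = coeffMap (Int.castRingHom Qb) gx := hx
    have hjNF' : (modularFunctionFieldBar N).val.toRingHom (h69_jN N)
        = coeffMap (Int.castRingHom Qb) (qExpand ℤ N (jqModC ℤ)) := hjNF
    have h1 := h59_mc_rel_transport (coeffMap (Int.castRingHom Qb)) _ _ c pu hrel
    have hrelF : h59_jbar N * x ^ c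
        = Polynomial.eval₂ (Int.castRingHom ↥(modularFunctionFieldBar N)) x pu :=
      h59_mc_rel_descend (modularFunctionFieldBar N).val.toRingHom hval (h59_jbar N) x _ _
        hjF' hx' c pu h1
    have hu : h59_jbar N * x ^ c ∈ P.toValuationSubring := by
      rw [hrelF]
      exact h59_mc_eval₂_mem P.toValuationSubring x hP pu
    have h2 := h59_mc_root_transport (coeffMap (Int.castRingHom Qb)) _ _ Pm hroot
    have hrootF : Polynomial.eval₂ (Polynomial.eval₂RingHom
        (Int.castRingHom ↥(modularFunctionFieldBar N)) (h59_jbar N)) (h69_jN N) Pm = 0 :=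
      h59_mc_root_descend (modularFunctionFieldBar N).val.toRingHom hval (h59_jbar N) (h69_jN N)
        _ _ hjF' hjNF' Pm h2
    exact h59_mc_integral P.toValuationSubring x (h59_jbar N) (h69_jN N) c hP hu Pm hPm hrootF D hD
  · -- primitivity of the reduction
    have hc : CharP (IsLocalRing.ResidueField A) ℓ := h19_residueField_charP A ℓ hA
    have hxk : h75_IsChart (IsLocalRing.ResidueField A) ((h39_modRed N hℓN A hA).redF x) :=
      h39_weakChart_isChart_red (h39_modRed N hℓN A hA) hxc.toh39_WeakChart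
    have hfin := hxk.fin
    have hxb0 : (h39_modRed N hℓN A hA).redF x ≠ 0 := hxk.ne_zero
    have hxb := (h59_mc_red h x gx hx).2
    have hyb := (h59_mc_red h _ _ hy).2
    exact h59_mc_prim N A (h9_gaussHyp N A
        (fun H hH hdeg => h84_igusa_field N ℓ hℓN (IsLocalRing.ResidueField A) H hH hdeg)
        (h69_exists_repr N)) ((h39_modRed N hℓN A hA).redF x)
      ((h39_modRed N hℓN A hA).redF (x ^ (c * D) * h69_jN N)) gx hxb0 hxb c pu hrel (c * D)
      (by rw [hyb, map_mul, map_pow]) _ hxc.finrank_eq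

section Modular

variable (N : ℕ) [NeZero N] {ℓ : ℕ} [Fact ℓ.Prime] (hℓN : ¬ ℓ ∣ N)
  (A : ValuationSubring Qb) (hA : A.LiesOverPrime ℓ)

set_option synthInstance.maxHeartbeats 400000 in
/-- **(MODCHART)** a Galois-fixed chart and a Galois-fixed `y ∈ O` (`y = j(q^N)`), regular on
the chart, with primitive reduction; and the place reduction with its chart description. -/
theorem h23_mod_chart_prim (hlev : 5 ≤ ℓ ∨ 2 ∣ N ∨ 3 ∣ N) :
    ∃ x y : ↥(modularFunctionFieldBar N),
      h39_Chart (h39_modRed N hℓN A hA) x ∧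
      (∀ σ : Γℚ, arithmeticGalois (modularFunctionFieldFull N) σ • x = x) ∧
      (∀ σ : Γℚ, arithmeticGalois (modularFunctionFieldFull N) σ • y = y) ∧
      y ∈ (h39_modRed N hℓN A hA).O ∧ h39_Reg Qb x y ∧
      LinearIndependent (IsLocalRing.ResidueField A)⟮(h39_modRed N hℓN A hA).redF x⟯
        (fun i : Fin (Module.finrank Qb⟮x⟯ ↥(modularFunctionFieldBar N)) =>
          (h39_modRed N hℓN A hA).redF y ^ (i : ℕ)) := by
  have key : ∀ (x : ↥(modularFunctionFieldBar N)) (_ : h39_Chart (h39_modRed N hℓN A hA) x)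
      (gx : LaurentSeries ℤ) (_ : (x : LaurentSeries Qb) = coeffMap (Int.castRingHom Qb) gx)
      (c : ℕ) (pu : Polynomial ℤ)
      (_ : jqModC ℤ * gx ^ c = Polynomial.eval₂ (Int.castRingHom (LaurentSeries ℤ)) gx pu),
      ∃ x y : ↥(modularFunctionFieldBar N),
        h39_Chart (h39_modRed N hℓN A hA) x ∧
        (∀ σ : Γℚ, arithmeticGalois (modularFunctionFieldFull N) σ • x = x) ∧
        (∀ σ : Γℚ, arithmeticGalois (modularFunctionFieldFull N) σ • y = y) ∧
        y ∈ (h39_modRed N hℓN A hA).O ∧ h39_Reg Qb x y ∧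
        LinearIndependent (IsLocalRing.ResidueField A)⟮(h39_modRed N hℓN A hA).redF x⟯
          (fun i : Fin (Module.finrank Qb⟮x⟯ ↥(modularFunctionFieldBar N)) =>
            (h39_modRed N hℓN A hA).redF y ^ (i : ℕ)) := by
    intro x hxc gx hx c pu hrel
    obtain ⟨y, h1, h2, h3, h4⟩ := h59_mc_core N hℓN A hA x hxc gx hx c pu hrel
    exact ⟨x, y, hxc, h59_mc_fixed N x gx hx, h1, h2, h3, h4⟩
  rcases hlev with h5 | h2 | h3
  · -- the chart `j`
    refine key (h59_jbar N) (h39_modRed_chart_j N hℓN A hA h5) (jqModC ℤ) ?_ 0 Polynomial.X ?_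
    · rw [h69_coe_jbar, coeffMap_jqModC]
    · rw [pow_zero, mul_one, Polynomial.eval₂_X]
  · -- the chart `h₂`
    have hℓ2 : ℓ ≠ 2 := by
      rintro rfl
      exact hℓN h2
    have hc : CharP (IsLocalRing.ResidueField A) ℓ := h19_residueField_charP A ℓ hA
    refine key ⟨h54_hm2 Qb, h59_hm2_mem_bar_final N h2⟩
      (h3_chart_h2_of N hℓ2 A hA (h39_modRed_spec N hℓN A hA) _ rfl
        (h59_h2k_mem_final (IsLocalRing.ResidueField A) N h2 hℓ2)
        (h59_h2_finrank_final N h2).1 (h59_h2_finrank_final N h2).2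
        (h59_h2k_finrank_final (IsLocalRing.ResidueField A) N h2 hℓ2)
        (h39_mod_finrank_fb N hℓN A hA) (h39_mod_separable_fb N hℓN A hA))
      (h59_hm2 ℤ) ?_ 2 ((Polynomial.X + Polynomial.C 256) ^ 3) ?_
    · exact (h59_coeffMap_hm2 (Int.castRingHom Qb)).symm
    · rw [Polynomial.eval₂_pow, Polynomial.eval₂_add, Polynomial.eval₂_X, Polynomial.eval₂_C]
      exact h59_hm2Rel.1
  · -- the chart `h₃`
    have hℓ3 : ℓ ≠ 3 := by
      rintro rfl
      exact hℓN h3
    have hc : CharP (IsLocalRing.ResidueField A) ℓ := h19_residueField_charP A ℓ hA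
    refine key ⟨h54_hm3 Qb, h59_hm3_mem_bar_final N h3⟩
      (h3_chart_h3_of N hℓ3 A hA (h39_modRed_spec N hℓN A hA) _ rfl
        (h59_h3k_mem_final (IsLocalRing.ResidueField A) N h3 hℓ3)
        (h59_h3_finrank_final N h3).1 (h59_h3_finrank_final N h3).2
        (h59_h3k_finrank_final (IsLocalRing.ResidueField A) N h3 hℓ3)
        (h39_mod_finrank_fb N hℓN A hA) (h39_mod_separable_fb N hℓN A hA))
      (h59_hm3 ℤ) ?_ 3 ((Polynomial.X + Polynomial.C 27) * (Polynomial.X + Polynomial.C 243) ^ 3) ?_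
    · exact (h59_coeffMap_hm3 (Int.castRingHom Qb)).symm
    · rw [Polynomial.eval₂_mul, Polynomial.eval₂_pow, Polynomial.eval₂_add, Polynomial.eval₂_add,
        Polynomial.eval₂_X, Polynomial.eval₂_C, Polynomial.eval₂_C]
      exact h59_hm3Rel.1

end Modular

end Fermat.Agent.S19

end
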