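import Fermat.Agent.GAL.h67_GalHecke
import Fermat.Prelude.Def_ModularCurve_ArithmeticGalois

/-!
# S19, row M3 MODSTAB (helper47)

`h23_mod_stab` (verbatim from the EXIST/EQUIV skeleton of helper23): the arithmetic Galois action
on the modular function field is semilinear over the action on `ℚ̄`, and every function is fixed
by the Galois group of a number field.
-/

set_option autoImplicit false

noncomputable section

open AlgebraicCurve

namespace Fermat.Agent.S19

open ModularCurve

local notation "Qb" => AlgebraicClosure ℚ
local notation "Γℚ" => (AlgebraicClosure ℚ ≃ₐ[ℚ] AlgebraicClosure ℚ)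

/-- **(MODSTAB)** the Galois action on the modular function field is semilinear over the action
on `ℚ̄`, and every function is fixed by an open subgroup. -/
theorem h23_mod_stab (N : ℕ) [NeZero N] :
    (∀ (σ : Γℚ) (a : Qb), arithmeticGalois (modularFunctionFieldFull N) σ •
        algebraMap Qb ↥(modularFunctionFieldBar N) a =
      algebraMap Qb ↥(modularFunctionFieldBar N) (σ a)) ∧
    ∀ f : ↥(modularFunctionFieldBar N), ∃ E : IntermediateField ℚ Qb, FiniteDimensional ℚ E ∧
      ∀ σ : Γℚ, (∀ a ∈ E, σ a = a) →
        arithmeticGalois (modularFunctionFieldFull N) σ • f = f := by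
  haveI : Algebra.IsAlgebraic ℚ Qb := AlgebraicClosure.isAlgebraic ℚ
  refine ⟨fun σ a => arithmeticRingAut_algebraMap (modularFunctionFieldFull N) σ a, fun f => ?_⟩
  obtain ⟨E, hE, hE'⟩ :=
    Fermat.Agent.GAL.h67_exists_level_coeffMap (F₀ := modularFunctionFieldFull N) f.2
  refine ⟨E, hE, fun σ hσ => Subtype.ext ?_⟩
  rw [coe_arithmeticGalois_smul]
  exact hE' σ hσ

end Fermat.Agent.S19

end
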