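import Mathlib
import Fermat.Prelude.Def_GaloisRep_Flat

/-!
# S19 project: shared definitions of the abstract part (owner helper26)

* `h26_Int 𝒜 a` : `a` lies in every valuation ring of the family `𝒜`;
* `h26_LGood 𝒜 K'` : `K'` is a tower of simple extensions by roots of monic `𝒜`-integral
  polynomials whose derivative at the root is a NONZERO `𝒜`-unit ("unramified at `𝒜`, with
  explicit generators"; the clause `g.derivative.eval θ ≠ 0` is needed because `0⁻¹ = 0`);
* `h26_conj σ f` : the semilinear Galois action on functions on a Galois set;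
* `h26_IsHopfOrder ℓ H` : `H` is a Hopf order over `ℤ_(ℓ)` inside the functions on a finite
  Galois module.
-/

set_option autoImplicit false

noncomputable section

namespace Fermat.Agent.S19

local notation "Qb" => AlgebraicClosure ℚ
local notation "Γℚ" => (AlgebraicClosure ℚ ≃ₐ[ℚ] AlgebraicClosure ℚ)

/-- integral at all valuation rings of the family -/
def h26_Int (𝒜 : Set (ValuationSubring Qb)) (a : Qb) : Prop := ∀ A ∈ 𝒜, a ∈ A

/-- `ℓ`-good fields: towers of simple extensions by roots of monic integral polynomials whose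
derivative at the root is a unit at all valuation rings of the family. -/
inductive h26_LGood (𝒜 : Set (ValuationSubring Qb)) : IntermediateField ℚ Qb → Prop
  | bot : h26_LGood 𝒜 ⊥
  | step (K' : IntermediateField ℚ Qb) (θ : Qb) (g : Polynomial Qb) :
      h26_LGood 𝒜 K' → g.Monic → (∀ i, g.coeff i ∈ K') → (∀ i, h26_Int 𝒜 (g.coeff i)) →
      g.eval θ = 0 → g.derivative.eval θ ≠ 0 → h26_Int 𝒜 (g.derivative.eval θ)⁻¹ →
      h26_LGood 𝒜 (K' ⊔ IntermediateField.adjoin ℚ {θ})

/-- The semilinear action of the Galois group on functions on a Galois set. -/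
def h26_conj {G : Type*} [MulAction Γℚ G] (σ : Γℚ) (f : G → Qb) : G → Qb :=
  fun x => σ (f (σ⁻¹ • x))

/-- A Hopf order inside the algebra of functions on a finite Galois module. -/
structure h26_IsHopfOrder (ℓ : ℕ) {G : Type} [AddCommGroup G] [DistribMulAction Γℚ G]
    (H : Subalgebra (GaloisRep.ratLocalizedAt ℓ) (G → Qb)) : Prop where
  equiv : ∀ h ∈ H, ∀ (σ : Γℚ) (x : G), h (σ • x) = σ (h x)
  fg : (Subalgebra.toSubmodule H).FG
  span : Submodule.span Qb (H : Set (G → Qb)) = ⊤
  counit : ∀ h ∈ H, ∃ r : GaloisRep.ratLocalizedAt ℓ, h 0 = algebraMap ℚ Qb (r : ℚ)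
  comul : ∀ h ∈ H, (fun p : G × G => h (p.1 + p.2)) ∈
    Submodule.span (GaloisRep.ratLocalizedAt ℓ)
      {f : G × G → Qb | ∃ h₁ ∈ H, ∃ h₂ ∈ H, f = fun p => h₁ p.1 * h₂ p.2}

end Fermat.Agent.S19

end
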