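import Mathlib
import Fermat.Prelude.Def_ModularCurve_ArithmeticGalois
import Fermat.Prelude.Def_GaloisRep_Flat
import Fermat.Agent.S19.h26_Defs

/-!
# S19, top level: shared definitions (owner helper38)

* `h38_torsAction N n` : the Galois action on `Submodule.torsionBy ℤ (JZero N) n` (the group of the
  frozen S19), with `h38_coe_smul : ((σ • x : torsion) : JZero N) = σ • (x : JZero N)` by `rfl`;
* `h38_HasCoords ℓ G` : the finite Galois module `G` carries "integral coordinates", i.e. all the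
  hypotheses of `h26_order_of_coords` (T1) bundled in one existential statement.
-/

set_option autoImplicit false

noncomputable section

namespace Fermat.Agent.S19

open ModularCurve

local notation "Qb" => AlgebraicClosure ℚ
local notation "Γℚ" => (AlgebraicClosure ℚ ≃ₐ[ℚ] AlgebraicClosure ℚ)

/-- The Galois action on the `n`-torsion of `J₀(N)`. -/
instance h38_torsAction (N : ℕ) (n : ℤ) :
    DistribMulAction Γℚ ↥(Submodule.torsionBy ℤ (JZero N) n) where
  smul σ x := ⟨σ • (x : JZero N), by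
    have hx : n • (x : JZero N) = 0 := (Submodule.mem_torsionBy_iff _ _).mp x.2
    rw [Submodule.mem_torsionBy_iff]
    have h := map_zsmul (DistribSMul.toAddMonoidHom (JZero N) σ) n (x : JZero N)
    simp only [DistribSMul.toAddMonoidHom_apply] at h
    rw [← h, hx, smul_zero]⟩
  one_smul x := Subtype.ext (one_smul _ (x : JZero N))
  mul_smul σ τ x := Subtype.ext (mul_smul σ τ (x : JZero N))
  smul_zero σ := Subtype.ext (smul_zero σ)
  smul_add σ x y := Subtype.ext (smul_add σ (x : JZero N) (y : JZero N))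

theorem h38_coe_smul (N : ℕ) (n : ℤ) (σ : Γℚ) (x : ↥(Submodule.torsionBy ℤ (JZero N) n)) :
    ((σ • x : ↥(Submodule.torsionBy ℤ (JZero N) n)) : JZero N) = σ • (x : JZero N) := rfl

/-- "Integral coordinates" on a Galois module: the hypotheses of T1 (`h26_order_of_coords`),
bundled. `𝒜` is a Galois-stable family of valuation rings of `Qb`, `A₀ ∈ 𝒜` lies over `ℓ`, and
`C` is a finite Galois-stable set of `A₀`-valued functions on `G`, each fixed by the Galois group
of an `ℓ`-good field, separating the points, such that `(x, y) ↦ c (x + y)` is a polynomial with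
`A₀`-coefficients in the `c' x`, `c' y`. -/
def h38_HasCoords (ℓ : ℕ) (G : Type) [AddCommGroup G] [DistribMulAction Γℚ G] : Prop :=
  ∃ (𝒜 : Set (ValuationSubring Qb)) (A₀ : ValuationSubring Qb), A₀ ∈ 𝒜 ∧
    (∀ (σ : Γℚ), ∀ A ∈ 𝒜, A.comap (σ : Qb →+* Qb) ∈ 𝒜) ∧
    (∀ q : ℚ, algebraMap ℚ Qb q ∈ A₀ ↔ q ∈ GaloisRep.ratLocalizedAt ℓ) ∧
    ∃ C : Set (G → Qb), C.Finite ∧
      (∀ (σ : Γℚ), ∀ c ∈ C, (fun x => σ (c (σ⁻¹ • x))) ∈ C) ∧
      (∀ c ∈ C, ∃ K' : IntermediateField ℚ Qb, h26_LGood 𝒜 K' ∧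
        ∀ σ : Γℚ, (∀ a ∈ K', σ a = a) → ∀ x, c (σ • x) = σ (c x)) ∧
      (∀ c ∈ C, ∀ x, c x ∈ A₀) ∧
      (∀ x y : G, (∀ c ∈ C, c x = c y) → x = y) ∧
      (∀ c ∈ C, (fun p : G × G => c (p.1 + p.2)) ∈
        Algebra.adjoin A₀ (((fun (c' : G → Qb) (p : G × G) => c' p.1) '' C) ∪
          ((fun (c' : G → Qb) (p : G × G) => c' p.2) '' C)))

/-- Integral coordinates restrict along injective equivariant homomorphisms. -/
theorem h38_hasCoords_of_injective (ℓ : ℕ) {G G' : Type} [AddCommGroup G] [DistribMulAction Γℚ G]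
    [AddCommGroup G'] [DistribMulAction Γℚ G'] (ι : G' →+ G) (hι : Function.Injective ι)
    (hσ : ∀ (σ : Γℚ) (x : G'), ι (σ • x) = σ • ι x) (h : h38_HasCoords ℓ G) :
    h38_HasCoords ℓ G' := by
  obtain ⟨𝒜, A₀, hA₀, hstab, hR, C, hCfin, hCstab, hCgood, hCint, hCsep, hCadd⟩ := h
  refine ⟨𝒜, A₀, hA₀, hstab, hR, (fun c : G → Qb => c ∘ ι) '' C, hCfin.image _, ?_, ?_, ?_, ?_, ?_⟩
  · rintro σ _ ⟨c, hc, rfl⟩
    refine ⟨_, hCstab σ c hc, ?_⟩
    funext x
    simp only [Function.comp_apply, hσ]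
  · rintro _ ⟨c, hc, rfl⟩
    obtain ⟨K', hK', hfix⟩ := hCgood c hc
    refine ⟨K', hK', fun σ hσK x => ?_⟩
    simp only [Function.comp_apply, hσ]
    exact hfix σ hσK _
  · rintro _ ⟨c, hc, rfl⟩ x
    exact hCint c hc _
  · intro x y hxy
    apply hι
    apply hCsep
    intro c hc
    exact hxy _ ⟨c, hc, rfl⟩
  · rintro _ ⟨c, hc, rfl⟩
    -- pull back along `ι × ι`
    let Φ : (G × G → Qb) →ₐ[A₀] (G' × G' → Qb) :=
      AlgHom.pi (fun p : G' × G' => Pi.evalAlgHom A₀ (fun _ : G × G => Qb) (ι p.1, ι p.2))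
    have h1 := hCadd c hc
    have h2 : Φ (fun p : G × G => c (p.1 + p.2)) ∈ (Algebra.adjoin A₀
        (((fun (c' : G → Qb) (p : G × G) => c' p.1) '' C) ∪
          ((fun (c' : G → Qb) (p : G × G) => c' p.2) '' C))).map Φ :=
      ⟨_, h1, rfl⟩
    rw [AlgHom.map_adjoin] at h2
    have h3 : Φ (fun p : G × G => c (p.1 + p.2)) = fun p : G' × G' => (c ∘ ι) (p.1 + p.2) := by
      funext p
      change c (ι p.1 + ι p.2) = c (ι (p.1 + p.2))
      rw [map_add]
    rw [h3] at h2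
    refine Algebra.adjoin_mono ?_ h2
    rintro _ ⟨f, hf, rfl⟩
    rcases hf with ⟨c', hc', rfl⟩ | ⟨c', hc', rfl⟩
    · exact Or.inl ⟨c' ∘ ι, ⟨c', hc', rfl⟩, rfl⟩
    · exact Or.inr ⟨c' ∘ ι, ⟨c', hc', rfl⟩, rfl⟩

end Fermat.Agent.S19

end
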