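import Mathlib
import Fermat.Agent.GAL.Theta
import Fermat.Agent.GAL.RootChar
import Fermat.Agent.GAL.h42_Coh

/-!
# S19, block FIN (helper54): finiteness of the torsion of `J₀(N)(ℚ̄)` without any count

`h54_finite_torsion N n : Finite {x : JZero N // n • x = 0}` for `0 < n`.

Route (converse of the analytic interface THETA): a class `x` with `n x = 0` is the class of a
divisor `D` with `n D = div f₀`.  All orders of `Φ(f₀)` on the upper half plane are divisible by
`n` (`h54_ord_dvd`: an integer valued valuation of the function field which is trivial on the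
constants is a multiple of the order function of ONE place, `h54_val_eq_place`), so `Φ(f₀)` has an
`n`-th root `u` (`gal_exists_root`) with a character `χ` of `Γ₀(N)` (`gal_root_char`), i.e.
`gal_R N n ι χ x`.  By `gal_R_unique` the class is determined by the character, and there are
finitely many characters with `χⁿ = 1` because `Γ₀(N)` is finitely generated.
-/

set_option autoImplicit false

open AlgebraicCurve ModularCurve CongruenceSubgroup UpperHalfPlane
open scoped MatrixGroups

namespace Fermat.Agent.S19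

open Fermat.Agent.GAL Fermat.Agent.S24

section valplace

variable {K F : Type*} [Field K] [Field F] [Algebra K F]

/-- An integer valued (additive) valuation of `F` that is trivial on `K` is identically zero or
a multiple of the order function of a place of `F / K`. -/
theorem h54_val_eq_place (w : F → ℤ)
    (hmul : ∀ f g : F, f ≠ 0 → g ≠ 0 → w (f * g) = w f + w g)
    (hadd : ∀ f g : F, f ≠ 0 → g ≠ 0 → f + g ≠ 0 → min (w f) (w g) ≤ w (f + g))
    (hK : ∀ a : K, a ≠ 0 → w (algebraMap K F a) = 0) :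
    (∀ f : F, f ≠ 0 → w f = 0) ∨
      ∃ (v : Place K F) (e : ℤ), ∀ f : F, f ≠ 0 → w f = e * v.ord f := by
  classical
  have h1 : w 1 = 0 := by
    have := hmul 1 1 one_ne_zero one_ne_zero
    rw [mul_one] at this
    linarith
  have hinv : ∀ f : F, f ≠ 0 → w f⁻¹ = - w f := by
    intro f hf
    have := hmul f f⁻¹ hf (inv_ne_zero hf)
    rw [mul_inv_cancel₀ hf, h1] at this
    linarith
  have hneg1 : w (-1) = 0 := by
    have := hmul (-1) (-1) (neg_ne_zero.mpr one_ne_zero) (neg_ne_zero.mpr one_ne_zero)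
    rw [neg_mul_neg, mul_one, h1] at this
    linarith
  have hneg : ∀ f : F, f ≠ 0 → w (-f) = w f := by
    intro f hf
    have := hmul (-1) f (neg_ne_zero.mpr one_ne_zero) hf
    rw [neg_one_mul, hneg1, zero_add] at this
    exact this
  have hpow : ∀ (f : F), f ≠ 0 → ∀ n : ℕ, w (f ^ n) = n * w f := by
    intro f hf n
    induction n with
    | zero => simp [h1]
    | succ n ih =>
      rw [pow_succ, hmul _ _ (pow_ne_zero n hf) hf, ih]
      push_cast
      ring
  have hzpow : ∀ (f : F), f ≠ 0 → ∀ n : ℤ, w (f ^ n) = n * w f := by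
    intro f hf n
    cases n with
    | ofNat n =>
      rw [Int.ofNat_eq_natCast, zpow_natCast, hpow f hf]
    | negSucc n =>
      rw [zpow_negSucc, hinv _ (pow_ne_zero _ hf), hpow f hf, Int.negSucc_eq]
      push_cast
      ring
  -- the value group
  let S : AddSubgroup ℤ :=
    { carrier := {m | ∃ f : F, f ≠ 0 ∧ w f = m}
      zero_mem' := ⟨1, one_ne_zero, h1⟩
      add_mem' := by
        rintro a b ⟨f, hf, rfl⟩ ⟨g, hg, rfl⟩
        exact ⟨f * g, mul_ne_zero hf hg, hmul f g hf hg⟩
      neg_mem' := by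
        rintro a ⟨f, hf, rfl⟩
        exact ⟨f⁻¹, inv_ne_zero hf, hinv f hf⟩ }
  have hSmem : ∀ f : F, f ≠ 0 → w f ∈ S := fun f hf => ⟨f, hf, rfl⟩
  obtain ⟨e0, he0⟩ := Int.subgroup_cyclic S
  have hdvd0 : ∀ f : F, f ≠ 0 → e0 ∣ w f := by
    intro f hf
    have := hSmem f hf
    rw [he0, AddSubgroup.mem_closure_singleton] at this
    obtain ⟨k, hk⟩ := this
    exact ⟨k, by rw [← hk]; simp [mul_comm]⟩
  by_cases he00 : e0 = 0
  · left
    intro f hf
    have := hdvd0 f hf
    rw [he00] at this
    exact zero_dvd_iff.mp this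
  right
  -- a uniformiser with positive value `e`
  obtain ⟨π, e, hπ0, hwπ, he, hdvd⟩ : ∃ (π : F) (e : ℤ), π ≠ 0 ∧ w π = e ∧ 0 < e ∧
      ∀ f : F, f ≠ 0 → e ∣ w f := by
    have hmem : e0 ∈ S := by
      rw [he0]
      exact AddSubgroup.subset_closure (Set.mem_singleton e0)
    obtain ⟨π0, hπ0, hwπ0⟩ := hmem
    rcases lt_or_gt_of_ne he00 with hlt | hgt
    · refine ⟨π0⁻¹, -e0, inv_ne_zero hπ0, by rw [hinv π0 hπ0, hwπ0], by omega, fun f hf => ?_⟩
      exact (neg_dvd).mpr (hdvd0 f hf)
    · exact ⟨π0, e0, hπ0, hwπ0, hgt, hdvd0⟩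
  -- the valuation ring
  let O : ValuationSubring F :=
    { carrier := {f | f = 0 ∨ 0 ≤ w f}
      mul_mem' := by
        intro a b ha hb
        by_cases ha0 : a = 0
        · left; simp [ha0]
        by_cases hb0 : b = 0
        · left; simp [hb0]
        right
        have h2 := ha.resolve_left ha0
        have h3 := hb.resolve_left hb0
        rw [hmul a b ha0 hb0]
        omega
      one_mem' := Or.inr (by rw [h1])
      add_mem' := by
        intro a b ha hb
        by_cases ha0 : a = 0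
        · simpa [ha0] using hb
        by_cases hb0 : b = 0
        · simpa [hb0] using ha
        by_cases hab : a + b = 0
        · exact Or.inl hab
        right
        have h2 := ha.resolve_left ha0
        have h3 := hb.resolve_left hb0
        exact le_trans (le_min h2 h3) (hadd a b ha0 hb0 hab)
      zero_mem' := Or.inl rfl
      neg_mem' := by
        intro a ha
        by_cases ha0 : a = 0
        · left; simp [ha0]
        right
        rw [hneg a ha0]
        exact ha.resolve_left ha0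
      mem_or_inv_mem' := by
        intro a
        by_cases ha0 : a = 0
        · left; left; exact ha0
        by_cases h : 0 ≤ w a
        · left; right; exact h
        · right; right
          rw [hinv a ha0]
          omega }
  have hmemO : ∀ f : F, f ∈ O ↔ (f = 0 ∨ 0 ≤ w f) := fun f => Iff.rfl
  have hmemO' : ∀ f : F, f ≠ 0 → (f ∈ O ↔ 0 ≤ w f) := fun f hf =>
    ⟨fun h => ((hmemO f).mp h).resolve_left hf, fun h => (hmemO f).mpr (Or.inr h)⟩
  -- units of `O`
  have hunit : ∀ x : O, (x : F) ≠ 0 → w (x : F) = 0 → IsUnit x := by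
    intro x hx hwx
    have hxi : (x : F)⁻¹ ∈ O := (hmemO' _ (inv_ne_zero hx)).mpr (by rw [hinv _ hx, hwx]; simp)
    refine IsUnit.of_mul_eq_one (⟨(x : F)⁻¹, hxi⟩ : O) ?_
    apply Subtype.ext
    show (x : F) * (x : F)⁻¹ = 1
    exact mul_inv_cancel₀ hx
  have hunit' : ∀ x : O, IsUnit x → w (x : F) = 0 := by
    intro x hx
    obtain ⟨y, hy⟩ := hx.exists_right_inv
    have hxy : (x : F) * (y : F) = 1 := congrArg Subtype.val hy
    have hx0 : (x : F) ≠ 0 := left_ne_zero_of_mul_eq_one hxy
    have hy0 : (y : F) ≠ 0 := right_ne_zero_of_mul_eq_one hxy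
    have h2 := (hmemO' _ hx0).mp x.2
    have h3 := (hmemO' _ hy0).mp y.2
    have h4 := hmul _ _ hx0 hy0
    rw [hxy, h1] at h4
    omega
  have hπO : π ∈ O := (hmemO' π hπ0).mpr (by rw [hwπ]; exact he.le)
  let p : O := ⟨π, hπO⟩
  have hirr : Irreducible p := by
    refine ⟨fun hu => ?_, fun a b hab => ?_⟩
    · have := hunit' p hu
      change w π = 0 at this
      omega
    · have hab' : π = (a : F) * (b : F) := congrArg Subtype.val hab
      have ha0 : (a : F) ≠ 0 := by
        rintro h
        rw [h, zero_mul] at hab'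
        exact hπ0 hab'
      have hb0 : (b : F) ≠ 0 := by
        rintro h
        rw [h, mul_zero] at hab'
        exact hπ0 hab'
      have h2 := (hmemO' _ ha0).mp a.2
      have h3 := (hmemO' _ hb0).mp b.2
      have h4 := hmul _ _ ha0 hb0
      rw [← hab', hwπ] at h4
      obtain ⟨ka, hka⟩ := hdvd _ ha0
      obtain ⟨kb, hkb⟩ := hdvd _ hb0
      by_cases hka0 : w (a : F) = 0
      · exact Or.inl (hunit a ha0 hka0)
      · right
        refine hunit b hb0 ?_
        have hka1 : 1 ≤ ka := by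
          by_contra hc
          have : ka ≤ 0 := by omega
          have : e * ka ≤ 0 := mul_nonpos_of_nonneg_of_nonpos he.le this
          omega
        have : e ≤ e * ka := by nlinarith
        omega
  have hfact : IsDiscreteValuationRing.HasUnitMulPowIrreducibleFactorization O := by
    refine ⟨p, hirr, fun {x} hx => ?_⟩
    have hx0 : (x : F) ≠ 0 := fun h => hx (Subtype.ext h)
    have h2 := (hmemO' _ hx0).mp x.2
    obtain ⟨k, hk⟩ := hdvd _ hx0
    have hk0 : 0 ≤ k := by
      by_contra hc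
      have : k ≤ -1 := by omega
      have : e * k ≤ e * (-1) := mul_le_mul_of_nonneg_left this he.le
      omega
    obtain ⟨n, rfl⟩ := Int.eq_ofNat_of_zero_le hk0
    refine ⟨n, ?_⟩
    have hπn : π ^ n ≠ 0 := pow_ne_zero n hπ0
    have hu0 : (x : F) * (π ^ n)⁻¹ ≠ 0 := mul_ne_zero hx0 (inv_ne_zero hπn)
    have hwu : w ((x : F) * (π ^ n)⁻¹) = 0 := by
      rw [hmul _ _ hx0 (inv_ne_zero hπn), hinv _ hπn, hpow π hπ0, hwπ, hk]
      ring
    have huO : (x : F) * (π ^ n)⁻¹ ∈ O := (hmemO' _ hu0).mpr (by rw [hwu])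
    obtain ⟨u, hu⟩ := hunit ⟨_, huO⟩ hu0 hwu
    refine ⟨u, ?_⟩
    rw [hu]
    apply Subtype.ext
    show π ^ n * ((x : F) * (π ^ n)⁻¹) = (x : F)
    field_simp
  have hDVR : IsDiscreteValuationRing O :=
    IsDiscreteValuationRing.ofHasUnitMulPowIrreducibleFactorization hfact
  let v : Place K F :=
    { toValuationSubring := O
      algebraMap_mem' := fun a => by
        by_cases ha : a = 0
        · left; simp [ha]
        · right; rw [hK a ha]
      ne_top' := by
        intro h
        have h2 : π⁻¹ ∈ O := by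
          rw [h]
          exact ValuationSubring.mem_top _
        have h3 := (hmemO' _ (inv_ne_zero hπ0)).mp h2
        rw [hinv π hπ0, hwπ] at h3
        omega
      isPrincipalIdealRing' := inferInstance }
  refine ⟨v, e, fun f hf => ?_⟩
  have hπord : v.ord π = 1 := by
    have h2 := v.adicValuation_coe_irreducible (π := p) hirr
    change v.adicValuation π = _ at h2
    rw [Place.ord, h2]
    simp
  set m := v.ord f with hm
  have hz0 : π ^ (-m) ≠ 0 := zpow_ne_zero _ hπ0
  have hg0 : f * π ^ (-m) ≠ 0 := mul_ne_zero hf hz0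
  have hgord : v.ord (f * π ^ (-m)) = 0 := by
    rw [v.ord_mul hf hz0, v.ord_zpow, hπord, ← hm]
    ring
  have hg1 : f * π ^ (-m) ∈ O :=
    (h35_mem_iff_ord_nonneg v hg0).mpr (by rw [hgord])
  have hg2 : (f * π ^ (-m))⁻¹ ∈ O :=
    (h35_mem_iff_ord_nonneg v (inv_ne_zero hg0)).mpr (by rw [v.ord_inv, hgord]; simp)
  have a1 := (hmemO' _ hg0).mp hg1
  have a2 := (hmemO' _ (inv_ne_zero hg0)).mp hg2
  rw [hinv _ hg0] at a2
  have hw : w (f * π ^ (-m)) = 0 := by omega
  rw [hmul f _ hf hz0, hzpow π hπ0, hwπ] at hw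
  linarith

end valplace

section fin

local notation "Qb" => AlgebraicClosure ℚ

variable (N : ℕ) [NeZero N]

/-- (DVD) if all orders of `f₀` at the places of `F_ℚ̄(N)` are divisible by `n`, then so are all
orders of `Φ(f₀)` on the upper half plane. -/
theorem h54_ord_dvd (ι : Qb →+* ℂ) (n : ℕ) (f₀ : gal_F Qb N) (hf₀ : f₀ ≠ 0)
    (h : ∀ v : Place Qb (gal_F Qb N), (n : ℤ) ∣ v.ord f₀) (τ : ℍ) :
    (n : ℤ) ∣ h25_ord τ (gal_Phi ι N f₀) := by
  have hΦ : ∀ f : gal_F Qb N, f ≠ 0 → gal_Phi ι N f ≠ 0 := fun f hf => (map_ne_zero _).mpr hf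
  rcases h54_val_eq_place (K := Qb) (fun f : gal_F Qb N => h25_ord τ (gal_Phi ι N f))
      (fun f g hf hg => by
        show h25_ord τ (gal_Phi ι N (f * g)) = _
        rw [map_mul]
        exact h25_ord_mul τ (hΦ f hf) (hΦ g hg))
      (fun f g hf hg hfg => by
        show min _ _ ≤ h25_ord τ (gal_Phi ι N (f + g))
        rw [map_add]
        exact h25_ord_add τ (hΦ f hf) (hΦ g hg) (by rw [← map_add]; exact hΦ _ hfg))
      (fun a ha => by
        show h25_ord τ (gal_Phi ι N (algebraMap Qb (gal_F Qb N) a)) = 0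
        rw [gal_Phi_const, h74_constHom_apply]
        exact h25_ord_const τ ((map_ne_zero ι).mpr ha)) with h0 | ⟨v, e, hv⟩
  · rw [h0 f₀ hf₀]
    exact dvd_zero _
  · rw [hv f₀ hf₀]
    exact Dvd.dvd.mul_left (h v) e

/-- (E) every class killed by `n` is related, by `gal_R`, to a character of `Γ₀(N)` with values
in the `n`-th roots of unity. -/
theorem h54_exists_char (ι : Qb →+* ℂ) (n : ℕ) (hn : 0 < n) (x : JZero N) (hx : n • x = 0) :
    ∃ χ : ↥(Gamma0 N) →* ℂˣ, (∀ γ, χ γ ^ n = 1) ∧ gal_R N n ι χ x := by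
  obtain ⟨D, rfl⟩ := Pic0.mk_surjective x
  have hprin : Divisor.IsPrincipal
      ((n • D : Divisor.degZero (K := Qb) (F := gal_F Qb N)) : Divisor Qb (gal_F Qb N)) := by
    have h1 : Pic0.mk (n • D) = 0 := by
      have : Pic0.mk (n • D) = n • Pic0.mk D := QuotientAddGroup.mk_nsmul _ D n
      rw [this]
      exact hx
    rw [Pic0.mk, QuotientAddGroup.eq_zero_iff, AddSubgroup.mem_addSubgroupOf] at h1
    exact h1
  obtain ⟨f₀, hf₀, hD⟩ := hprin
  have hD' : ∀ v : Place Qb (gal_F Qb N),
      (n : ℤ) * (D : Divisor Qb (gal_F Qb N)) v = v.ord f₀ := by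
    intro v
    rw [← hD v, AddSubgroup.coe_nsmul, Finsupp.smul_apply, nsmul_eq_mul]
  have hdvd : ∀ v : Place Qb (gal_F Qb N), (n : ℤ) ∣ v.ord f₀ :=
    fun v => ⟨(D : Divisor Qb (gal_F Qb N)) v, (hD' v).symm⟩
  have hF0 : gal_Phi ι N f₀ ≠ 0 := (map_ne_zero _).mpr hf₀
  obtain ⟨u, hu⟩ := gal_exists_root n hn (gal_Phi ι N f₀) hF0 (h54_ord_dvd N ι n f₀ hf₀ hdvd)
  have hu0 : u ≠ 0 := by
    rintro rfl
    rw [zero_pow hn.ne'] at hu
    exact hF0 hu.symm
  obtain ⟨χ, hχn, hχ⟩ := gal_root_char n hn (Gamma0 N) (gal_Phi ι N f₀) u hu0 hu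
    (fun γ hγ => gal_Phi_smul ι N hγ f₀)
  refine ⟨χ⁻¹, fun γ => by rw [MonoidHom.inv_apply, inv_pow, hχn, inv_one],
    D, f₀, u, hf₀, rfl, hD', ?_, hu⟩
  intro γ
  have h2 := hχ γ⁻¹
  rw [Subgroup.coe_inv] at h2
  rw [h2, MonoidHom.inv_apply, map_inv]

/-- There are finitely many characters of `Γ₀(N)` with values in the `n`-th roots of unity. -/
theorem h54_finite_char (n : ℕ) (hn : 0 < n) :
    Finite {χ : ↥(Gamma0 N) →* ℂˣ // ∀ γ, χ γ ^ n = 1} := by
  classical
  obtain ⟨S, hS, hSfin⟩ := Group.fg_iff.mp (h42_gamma0_fg N)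
  haveI : Fintype ↥S := hSfin.fintype
  haveI : NeZero n := ⟨hn.ne'⟩
  let ev : {χ : ↥(Gamma0 N) →* ℂˣ // ∀ γ, χ γ ^ n = 1} → (↥S → rootsOfUnity n ℂ) :=
    fun χ s => ⟨χ.1 s, by rw [mem_rootsOfUnity]; exact χ.2 s⟩
  have hinj : Function.Injective ev := by
    intro χ ψ h
    apply Subtype.ext
    apply MonoidHom.eq_of_eqOn_dense hS
    intro s hs
    have := congrFun h ⟨s, hs⟩
    exact congrArg Subtype.val this
  exact Finite.of_injective ev hinj

/-- **FIN**: the `n`-torsion of `J₀(N)(ℚ̄)` is finite (no count needed). -/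
theorem h54_finite_torsion (n : ℕ) (hn : 0 < n) : Finite {x : JZero N // n • x = 0} := by
  classical
  have hex := fun x : {x : JZero N // n • x = 0} => h54_exists_char N h78_iota n hn x.1 x.2
  choose χ hχn hχR using hex
  haveI := h54_finite_char N n hn
  let φ : {x : JZero N // n • x = 0} → {χ : ↥(Gamma0 N) →* ℂˣ // ∀ γ, χ γ ^ n = 1} :=
    fun x => ⟨χ x, hχn x⟩
  refine Finite.of_injective φ ?_
  intro x y h
  have h' : χ x = χ y := congrArg Subtype.val h
  apply Subtype.ext
  have hy := hχR y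
  rw [← h'] at hy
  exact gal_R_unique hn (gal_rootAlgHyp N n hn) (gal_descInjHyp N n hn h78_iota)
    (gal_picEqHyp N n hn) (χ x) x.1 y.1 (hχR x) hy

/-- FIN in the shape of the frozen statement S19. -/
theorem h54_finite_torsionBy (m : ℤ) (hm : m ≠ 0) :
    Finite ↥(Submodule.torsionBy ℤ (JZero N) m) := by
  haveI := h54_finite_torsion N m.natAbs (Int.natAbs_pos.mpr hm)
  let φ : ↥(Submodule.torsionBy ℤ (JZero N) m) → {x : JZero N // m.natAbs • x = 0} :=
    fun x => ⟨x.1, by
      have h1 : m • (x : JZero N) = 0 := (Submodule.mem_torsionBy_iff _ _).mp x.2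
      have h3 : ((m.natAbs : ℕ) : ℤ) • (x : JZero N) = 0 := by
        rcases Int.natAbs_eq m with h | h
        · rw [← h]
          exact h1
        · have h2 : ((m.natAbs : ℕ) : ℤ) = -m := by omega
          have h4 : (-m) • (x : JZero N) = 0 :=
            (neg_zsmul (x : JZero N) m).trans (neg_eq_zero.mpr h1)
          rw [h2]
          exact h4
      rw [← natCast_zsmul]
      exact h3⟩
  refine Finite.of_injective φ (fun x y h => ?_)
  have h' : (φ x).1 = (φ y).1 := congrArg Subtype.val h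
  exact Subtype.ext h'

/-- FIN in the shape of the instance hypothesis of `h67_torsionGaloisRep_factors`. -/
theorem h54_finite_pic0_torsion (n : ℕ) (hn : 0 < n) :
    Finite ↥(Pic0.torsion Qb (modularFunctionFieldBar N) n) := by
  haveI := h54_finite_torsion N n hn
  let φ : ↥(Pic0.torsion Qb (modularFunctionFieldBar N) n) → {x : JZero N // n • x = 0} :=
    fun x => ⟨x.1, by
      have h1 : (n : ℤ) • (x : JZero N) = 0 := Pic0.mem_torsion.mp x.2
      rw [← natCast_zsmul]
      exact h1⟩
  refine Finite.of_injective φ (fun x y h => ?_)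
  have h' : (φ x).1 = (φ y).1 := congrArg Subtype.val h
  exact Subtype.ext h'

end fin

end Fermat.Agent.S19
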