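import Fermat.Agent.S19.Coords
import Fermat.Agent.S19.ModChart
import Fermat.Agent.S19.ModArith
import Fermat.Agent.S19.ModStab
import Fermat.Agent.S19.h38_TopDefs
import Fermat.Agent.S19.h54_Fin
import Fermat.Agent.S18.h39_PlaceRedOfChart
import Fermat.Agent.S54.Frob

/-!
# S19: the modular glue (helper26)

`h26_coords_of_chart`: integral coordinates (the hypotheses of T1, bundled as `h38_HasCoords`) on
`J₀(N)[ℓ^k]` for every level `N` prime to `ℓ` which carries a chart.  Assembly of the generic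
coordinates theorem `h23_coords` (X8) with the modular inputs `h23_mod_chart_prim` (M1),
`h23_mod_arith` (M2), `h23_mod_stab` (M3), the place reduction `h39_placeRed_of_chart` and the
finiteness of torsion `h54_finite_torsionBy`.
-/

set_option autoImplicit false
set_option synthInstance.maxHeartbeats 400000

noncomputable section

open ModularCurve AlgebraicCurve Fermat.Agent.S18

namespace Fermat.Agent.S19

local notation "Qb" => AlgebraicClosure ℚ
local notation "Γℚ" => (AlgebraicClosure ℚ ≃ₐ[ℚ] AlgebraicClosure ℚ)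

/-- Integral coordinates on `J₀(N)[ℓ^k]` at a level with a chart. -/
theorem h26_coords_of_chart (N : ℕ) [NeZero N] (ℓ : ℕ) [Fact ℓ.Prime] (hℓN : ¬ ℓ ∣ N)
    (hch : 5 ≤ ℓ ∨ 2 ∣ N ∨ 3 ∣ N) (k : ℕ) :
    h38_HasCoords ℓ ↥(Submodule.torsionBy ℤ (JZero N) ((ℓ : ℤ) ^ k)) := by
  obtain ⟨A, hA⟩ := Fermat.Agent.S54.exists_liesOverPrime ℓ (Fact.out : ℓ.Prime)
  haveI hk : IsAlgClosed (IsLocalRing.ResidueField A) := h19_residueField_isAlgClosed A
  let 𝒜 : Set (ValuationSubring Qb) := {B | B.LiesOverPrime ℓ}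
  have h𝒜 : ∀ B ∈ 𝒜, B.LiesOverPrime ℓ := fun B hB => hB
  obtain ⟨hAr, hrat, hℓ0, hrk, hchar⟩ := h23_mod_arith N hℓN A hA 𝒜 h𝒜
  haveI := hchar
  obtain ⟨x, y, hx, hxfix, hyfix, hyO, hyreg, hyprim⟩ := h23_mod_chart_prim N hℓN A hA hch
  obtain ⟨hgal, hstab⟩ := h23_mod_stab N
  obtain ⟨S, hS, -⟩ := h39_placeRed_of_chart (h39_modRed N hℓN A hA) hx
  have h𝒜stab : ∀ (σ : Γℚ), ∀ B ∈ 𝒜, B.comap (σ : Qb →+* Qb) ∈ 𝒜 :=
    fun σ B hB => h14_comap_liesOver B hB σ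
  have hAmem : (h39_modRed N hℓN A hA).A ∈ 𝒜 := by
    show (h39_modRed N hℓN A hA).A.LiesOverPrime ℓ
    rw [(h39_modRed_spec N hℓN A hA).A_eq]
    exact hA
  have hpow : ((ℓ : ℤ) ^ k) ≠ 0 :=
    pow_ne_zero _ (Int.natCast_ne_zero.mpr (Fact.out : ℓ.Prime).ne_zero)
  haveI : Finite ↥(Submodule.torsionBy ℤ (JZero N) ((ℓ : ℤ) ^ k)) :=
    h54_finite_torsionBy N _ hpow
  obtain ⟨C, hCfin, hCstab, hCgood, hCint, hCsep, hCadd⟩ :=
    h23_coords (arithmeticGalois (modularFunctionFieldFull N)) ℓ hgal hstab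
      (h39_modRed N hℓN A hA) hrk hrat hℓ0 𝒜 h𝒜stab hAr hx hxfix S hS hyfix hyO hyreg hyprim
      (G := ↥(Submodule.torsionBy ℤ (JZero N) ((ℓ : ℤ) ^ k)))
      (Submodule.torsionBy ℤ (JZero N) ((ℓ : ℤ) ^ k)).subtype.toAddMonoidHom
      Subtype.val_injective (fun σ z => rfl)
  exact ⟨𝒜, (h39_modRed N hℓN A hA).A, hAmem, h𝒜stab, hrat, C, hCfin, hCstab, hCgood, hCint,
    hCsep, hCadd⟩

end Fermat.Agent.S19

end
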