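import Mathlib
import Fermat.Agent.S19.h26_Defs

/-!
# S19 row X6 LGOOD (helper93)

* `h23_lgood_conj` : conjugates of `ℓ`-good fields are `ℓ`-good (for a Galois-stable family);
* `h23_lgood_finite` : `ℓ`-good fields are number fields.

Both by induction on `h26_LGood`.
-/

set_option autoImplicit false

noncomputable section

open Polynomial IntermediateField

namespace Fermat.Agent.S19

local notation "Qb" => AlgebraicClosure ℚ
local notation "Γℚ" => (AlgebraicClosure ℚ ≃ₐ[ℚ] AlgebraicClosure ℚ)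

/-- integrality at a Galois-stable family is Galois-stable. -/
theorem h93_int_conj (𝒜 : Set (ValuationSubring Qb))
    (h𝒜stab : ∀ (σ : Γℚ), ∀ A ∈ 𝒜, A.comap (σ : Qb →+* Qb) ∈ 𝒜) (τ : Γℚ) {a : Qb}
    (ha : h26_Int 𝒜 a) : h26_Int 𝒜 (τ a) := by
  intro A hA
  have h := ha _ (h𝒜stab τ A hA)
  rw [ValuationSubring.mem_comap] at h
  exact h

/-- conjugates of `ℓ`-good fields are `ℓ`-good (for a Galois-stable family). -/
theorem h23_lgood_conj (𝒜 : Set (ValuationSubring Qb))
    (h𝒜stab : ∀ (σ : Γℚ), ∀ A ∈ 𝒜, A.comap (σ : Qb →+* Qb) ∈ 𝒜)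
    (K' : IntermediateField ℚ Qb) (hK' : h26_LGood 𝒜 K') (τ : Γℚ) :
    h26_LGood 𝒜 (K'.map (τ : Qb →ₐ[ℚ] Qb)) := by
  induction hK' with
  | bot =>
    rw [IntermediateField.map_bot]
    exact h26_LGood.bot
  | step K' θ g _ hg hcoef hint hroot hder hderint ih =>
    have hmap : (K' ⊔ IntermediateField.adjoin ℚ {θ}).map (τ : Qb →ₐ[ℚ] Qb) =
        K'.map (τ : Qb →ₐ[ℚ] Qb) ⊔ IntermediateField.adjoin ℚ {τ θ} := by
      rw [IntermediateField.map_sup, IntermediateField.adjoin_map]
      simp
    rw [hmap]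
    have hev : ∀ p : Polynomial Qb, (p.map (τ : Qb →+* Qb)).eval (τ θ) = τ (p.eval θ) := by
      intro p
      have := Polynomial.eval_map_apply (τ : Qb →+* Qb) (p := p) θ
      simpa using this
    refine h26_LGood.step (K'.map (τ : Qb →ₐ[ℚ] Qb)) (τ θ) (g.map (τ : Qb →+* Qb)) ih
      (hg.map _) ?_ ?_ ?_ ?_ ?_
    · intro i
      rw [Polynomial.coeff_map]
      exact ⟨g.coeff i, hcoef i, rfl⟩
    · intro i
      rw [Polynomial.coeff_map]
      exact h93_int_conj 𝒜 h𝒜stab τ (hint i)
    · rw [hev, hroot, map_zero]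
    · rw [Polynomial.derivative_map, hev]
      intro h
      exact hder ((map_eq_zero_iff τ τ.injective).mp h)
    · rw [Polynomial.derivative_map, hev, ← map_inv₀]
      exact h93_int_conj 𝒜 h𝒜stab τ hderint

/-- `ℓ`-good fields are number fields. -/
theorem h23_lgood_finite (𝒜 : Set (ValuationSubring Qb)) (K' : IntermediateField ℚ Qb)
    (hK' : h26_LGood 𝒜 K') : FiniteDimensional ℚ K' := by
  induction hK' with
  | bot => infer_instance
  | step K' θ g _ hg hcoef hint hroot hder hderint ih =>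
    have := ih
    have : FiniteDimensional ℚ (IntermediateField.adjoin ℚ {θ}) :=
      IntermediateField.adjoin.finiteDimensional
        ((AlgebraicClosure.isAlgebraic ℚ).isAlgebraic θ).isIntegral
    exact IntermediateField.finiteDimensional_sup K' (IntermediateField.adjoin ℚ {θ})

end Fermat.Agent.S19
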