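import Mathlib
import Fermat.Agent.S18.GR_ON
import Fermat.Agent.S18.h52_ONCore
import Fermat.Agent.S18.h64_CoreAdapter
import Fermat.Prelude.Def_AlgebraicCurve_BaseChangeGalois
import Fermat.Prelude.Def_GaloisRep_Flat

/-!
# S19 / EXIST row X5 BASIS: Galois-fixed orthonormal bases (`h23_exists_rat_basis`)

Statement VERBATIM from the skeleton `skel/h23_SkelExist.lean` (origin/helper23 ac9fe12).

A Galois-stable finite-dimensional `ℚ̄`-space `V` of functions has a Galois-fixed basis in `O`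
whose reductions are `k`-linearly independent.

* `h82_mem_span_fixed`, `h82_exists_fixed_basis` : **Galois descent**.  A vector `v` whose
  stabiliser contains the stabiliser of an algebraic number `θ` has finitely many conjugates
  `w r`, indexed by the conjugates `r` of `θ`; the sums `∑ r, r ^ m • w r` are Galois-fixed and
  `v` is a combination of them (Lagrange interpolation at the node `θ`).
* `h82_saturate` : **saturation**.  Coordinates with respect to an orthonormal basis of `V`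
  (`h39_exists_on`) are integral on `V ∩ O` (`h52_coord_mem`), so the determinant of an integral
  family is in `A`.  While the reductions of a fixed integral basis are dependent, `hprime`
  gives an integer combination `f'` with a unit coefficient and zero reduction, `hnorm` shows
  `ℓ⁻¹ f'` is integral, and replacing one vector divides the determinant by `ℓ` (up to a unit);
  rank one bounds the number of steps.
-/

set_option autoImplicit false

noncomputable section

open AlgebraicCurve Fermat.Agent.S18 Polynomial IntermediateField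

namespace Fermat.Agent.S19

local notation "Qb" => AlgebraicClosure ℚ
local notation "Γℚ" => (AlgebraicClosure ℚ ≃ₐ[ℚ] AlgebraicClosure ℚ)

/-- extraction of `dim V` independent vectors from a spanning set. -/
theorem h82_exists_indep_of_le_span {K M : Type*} [Field K] [AddCommGroup M] [Module K M]
    (V : Submodule K M) [FiniteDimensional K V] (T : Set M) (hT : V ≤ Submodule.span K T) :
    ∃ b : Fin (Module.finrank K V) → M, (∀ i, b i ∈ T) ∧ LinearIndependent K b := by
  have key : ∀ m : ℕ, m ≤ Module.finrank K V →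
      ∃ b : Fin m → M, (∀ i, b i ∈ T) ∧ LinearIndependent K b := by
    intro m
    induction m with
    | zero =>
      intro _
      exact ⟨fun i => i.elim0, fun i => i.elim0, linearIndependent_empty_type⟩
    | succ m ih =>
      intro hm
      obtain ⟨b, hbT, hb⟩ := ih (Nat.le_of_succ_le hm)
      have hex : ∃ t ∈ T, t ∉ Submodule.span K (Set.range b) := by
        by_contra hcon
        push Not at hcon
        have h1 : V ≤ Submodule.span K (Set.range b) :=
          hT.trans (Submodule.span_le.mpr hcon)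
        have : Module.Finite K (Submodule.span K (Set.range b)) :=
          FiniteDimensional.span_of_finite K (Set.finite_range b)
        have h2 : Module.finrank K V ≤ Module.finrank K (Submodule.span K (Set.range b)) :=
          Submodule.finrank_mono h1
        have h3 : Module.finrank K (Submodule.span K (Set.range b)) ≤ m := by
          have := finrank_range_le_card (R := K) b
          simpa [Set.finrank] using this
        omega
      obtain ⟨t, htT, ht⟩ := hex
      refine ⟨Fin.cons t b, ?_, ?_⟩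
      · intro i
        refine Fin.cases ?_ (fun j => ?_) i
        · simpa using htT
        · simpa using hbT j
      · exact linearIndependent_finCons.mpr ⟨hb, ht⟩
  exact key _ le_rfl

/-- the key of Galois descent: a vector of a Galois-stable space whose stabiliser contains
the stabiliser of an algebraic number lies in the span of the fixed vectors. -/
theorem h82_mem_span_fixed {F : Type*} [Field F] [Algebra Qb F]
    (gal : Γℚ →* SemilinearAut Qb F)
    (hgal : ∀ (σ : Γℚ) (a : Qb), gal σ • algebraMap Qb F a = algebraMap Qb F (σ a))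
    (V : Submodule Qb F) (hVfix : ∀ σ, ∀ f ∈ V, gal σ • f ∈ V)
    (v : F) (hv : v ∈ V) (θ : Qb) (hθ : ∀ σ : Γℚ, σ θ = θ → gal σ • v = v) :
    v ∈ Submodule.span Qb {f : F | f ∈ V ∧ ∀ σ, gal σ • f = f} := by
  classical
  have halg : Algebra.IsAlgebraic ℚ (AlgebraicClosure ℚ) := AlgebraicClosure.isAlgebraic ℚ
  have hSfin : (Set.range fun σ : Γℚ => σ θ).Finite := by
    refine (Polynomial.rootSet_finite (minpoly ℚ θ) Qb).subset ?_
    rintro _ ⟨σ, rfl⟩
    rw [Polynomial.mem_rootSet]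
    refine ⟨minpoly.ne_zero (Algebra.IsAlgebraic.isAlgebraic (R := ℚ) θ).isIntegral, ?_⟩
    have h1 := Polynomial.aeval_algHom_apply (σ : Qb →ₐ[ℚ] Qb) θ (minpoly ℚ θ)
    rw [minpoly.aeval, map_zero] at h1
    exact h1
  set S : Finset Qb := hSfin.toFinset with hSdef
  have hS : ∀ r, r ∈ S ↔ ∃ σ : Γℚ, σ θ = r := by
    intro r
    rw [hSdef, Set.Finite.mem_toFinset]
    rfl
  have hkey : ∀ (σ σ' : Γℚ), σ θ = σ' θ → gal σ • v = gal σ' • v := by
    intro σ σ' h
    have h1 : (σ'⁻¹ * σ) θ = θ := by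
      rw [AlgEquiv.mul_apply, h]
      exact σ'.symm_apply_apply θ
    have h2 := hθ _ h1
    rw [map_mul, mul_smul, map_inv, inv_smul_eq_iff] at h2
    exact h2
  -- the conjugates of `v`, indexed by the conjugates of `θ`
  have hex : ∀ r : Qb, ∃ w : F, ∀ σ : Γℚ, σ θ = r → w = gal σ • v := by
    intro r
    by_cases hr : ∃ σ : Γℚ, σ θ = r
    · obtain ⟨σ₀, hσ₀⟩ := hr
      exact ⟨gal σ₀ • v, fun σ hσ => hkey σ₀ σ (hσ₀.trans hσ.symm)⟩
    · exact ⟨0, fun σ hσ => absurd ⟨σ, hσ⟩ hr⟩
  choose w hw' using hex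
  have hw : ∀ σ : Γℚ, w (σ θ) = gal σ • v := fun σ => hw' _ σ rfl
  have hwτ : ∀ (τ : Γℚ) (r : Qb), r ∈ S → gal τ • w r = w (τ r) := by
    intro τ r hr
    obtain ⟨σ, rfl⟩ := (hS r).mp hr
    rw [hw, ← mul_smul, ← map_mul, ← hw (τ * σ)]
    rfl
  have hwV : ∀ r ∈ S, w r ∈ V := by
    intro r hr
    obtain ⟨σ, rfl⟩ := (hS r).mp hr
    rw [hw]
    exact hVfix σ v hv
  have hθS : θ ∈ S := (hS θ).mpr ⟨1, rfl⟩
  have hwθ : w θ = v := by
    have := hw 1
    rwa [map_one, one_smul] at this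
  -- the fixed vectors
  set u : ℕ → F := fun m => ∑ r ∈ S, algebraMap Qb F (r ^ m) * w r with hu
  have huV : ∀ m, u m ∈ V := by
    intro m
    refine sum_mem fun r hr => ?_
    rw [← Algebra.smul_def]
    exact V.smul_mem _ (hwV r hr)
  have hufix : ∀ (τ : Γℚ) (m : ℕ), gal τ • u m = u m := by
    intro τ m
    rw [hu]
    simp only
    rw [Finset.smul_sum]
    refine Finset.sum_equiv τ.toEquiv ?_ ?_
    · intro r
      rw [hS, hS]
      constructor
      · rintro ⟨σ, rfl⟩
        exact ⟨τ * σ, rfl⟩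
      · rintro ⟨σ, hσ⟩
        refine ⟨τ⁻¹ * σ, ?_⟩
        rw [AlgEquiv.mul_apply, hσ]
        exact τ.symm_apply_apply r
    · intro r hr
      rw [smul_mul', hgal, hwτ τ r hr, map_pow]
      rfl
  -- Lagrange interpolation
  set P : Qb[X] := ∏ r ∈ S.erase θ, (X - C r) with hP
  have hPθ : P.eval θ ≠ 0 := by
    rw [hP, Polynomial.eval_prod, Finset.prod_ne_zero_iff]
    intro r hr
    rw [Polynomial.eval_sub, Polynomial.eval_X, Polynomial.eval_C, sub_ne_zero]
    exact (Finset.ne_of_mem_erase hr).symm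
  have hPr : ∀ r ∈ S, r ≠ θ → P.eval r = 0 := by
    intro r hr hne
    rw [hP, Polynomial.eval_prod]
    refine Finset.prod_eq_zero (Finset.mem_erase.mpr ⟨hne, hr⟩) ?_
    rw [Polynomial.eval_sub, Polynomial.eval_X, Polynomial.eval_C, sub_self]
  have hsum : ∑ m ∈ Finset.range (P.natDegree + 1), P.coeff m • u m = P.eval θ • v := by
    have h1 : ∀ m, P.coeff m • u m = ∑ r ∈ S, (P.coeff m * r ^ m) • w r := by
      intro m
      rw [hu]
      simp only
      rw [Finset.smul_sum]
      refine Finset.sum_congr rfl fun r _ => ?_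
      rw [← Algebra.smul_def, smul_smul]
    rw [Finset.sum_congr rfl fun m _ => h1 m, Finset.sum_comm]
    have h2 : ∀ r, ∑ m ∈ Finset.range (P.natDegree + 1), (P.coeff m * r ^ m) • w r =
        P.eval r • w r := by
      intro r
      rw [← Finset.sum_smul, ← Polynomial.eval_eq_sum_range]
    rw [Finset.sum_congr rfl fun r _ => h2 r, Finset.sum_eq_single θ, hwθ]
    · intro r hr hne
      rw [hPr r hr hne, zero_smul]
    · intro h
      exact absurd hθS h
  have hv' : v = (P.eval θ)⁻¹ • ∑ m ∈ Finset.range (P.natDegree + 1), P.coeff m • u m := by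
    rw [hsum, smul_smul, inv_mul_cancel₀ hPθ, one_smul]
  rw [hv']
  refine Submodule.smul_mem _ _ (Submodule.sum_mem _ fun m _ => Submodule.smul_mem _ _ ?_)
  exact Submodule.subset_span ⟨huV m, fun σ => hufix σ m⟩

/-- **Galois descent**: a Galois-stable finite-dimensional space of functions has a basis of
Galois-fixed vectors. -/
theorem h82_exists_fixed_basis {F : Type*} [Field F] [Algebra Qb F]
    (gal : Γℚ →* SemilinearAut Qb F)
    (hgal : ∀ (σ : Γℚ) (a : Qb), gal σ • algebraMap Qb F a = algebraMap Qb F (σ a))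
    (hstab : ∀ f : F, ∃ E : IntermediateField ℚ Qb, FiniteDimensional ℚ E ∧
      ∀ σ : Γℚ, (∀ a ∈ E, σ a = a) → gal σ • f = f)
    (V : Submodule Qb F) (hVfix : ∀ σ, ∀ f ∈ V, gal σ • f ∈ V) [FiniteDimensional Qb ↥V] :
    ∃ b : Fin (Module.finrank Qb ↥V) → F, (∀ i, b i ∈ V) ∧ (∀ σ i, gal σ • b i = b i) ∧
      LinearIndependent Qb b := by
  have hspan : V ≤ Submodule.span Qb {f : F | f ∈ V ∧ ∀ σ, gal σ • f = f} := by
    intro v hv
    obtain ⟨E, hE, hEv⟩ := hstab v
    have := hE
    let pb := Field.powerBasisOfFiniteOfSeparable ℚ E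
    refine h82_mem_span_fixed gal hgal V hVfix v hv (pb.gen : Qb) fun σ hσ => hEv σ ?_
    have h1 : ((σ : Qb →ₐ[ℚ] Qb).comp E.val) = E.val := pb.algHom_ext hσ
    intro a ha
    exact DFunLike.congr_fun h1 ⟨a, ha⟩
  obtain ⟨b, hbT, hb⟩ := h82_exists_indep_of_le_span V _ hspan
  exact ⟨b, fun i => (hbT i).1, fun σ i => (hbT i).2 σ, hb⟩

/-- determinants of integral matrices are integral. -/
theorem h82_det_mem {K : Type*} [Field K] (A : ValuationSubring K) {n : ℕ}
    (M : Matrix (Fin n) (Fin n) K) (hM : ∀ i j, M i j ∈ A) : M.det ∈ A := by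
  rw [Matrix.det_apply]
  refine sum_mem fun σ _ => ?_
  rw [Units.smul_def]
  exact zsmul_mem (prod_mem fun i _ => hM _ _) _

/-- **saturation**: a Galois-fixed basis of a finite-dimensional space of functions can be
modified into a Galois-fixed integral basis with independent reductions. -/
theorem h82_saturate {F : Type*} [Field F] [Algebra Qb F] {k Fb : Type*} [Field k] [Field Fb]
    [Algebra k Fb] (gal : Γℚ →* SemilinearAut Qb F) (ℓ : ℕ) [Fact ℓ.Prime]
    (hgal : ∀ (σ : Γℚ) (a : Qb), gal σ • algebraMap Qb F a = algebraMap Qb F (σ a))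
    (R : h39_RedDatum Qb F k Fb)
    (hrat : ∀ q : ℚ, algebraMap ℚ Qb q ∈ R.A ↔ q ∈ GaloisRep.ratLocalizedAt ℓ)
    (hℓ : R.resK (ℓ : Qb) = 0) (hrk : h39_RankOne R.A)
    {x : F} (hx : h39_WeakChart R x)
    (hnorm : ∀ f : F, f ≠ 0 → (∀ σ, gal σ • f = f) →
      ∃ m : ℤ, R.redF (algebraMap Qb F ((ℓ : Qb) ^ m) * f) ≠ 0)
    (hprime : ∀ (n : ℕ) (f : Fin n → F), (∀ i σ, gal σ • f i = f i) → (∀ i, f i ∈ R.O) →
      ¬ LinearIndependent k (fun i => R.redF (f i)) →
      ∃ c : Fin n → ℤ, (∃ i, ¬ (ℓ : ℤ) ∣ c i) ∧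
        R.redF (∑ i, algebraMap Qb F (c i : Qb) * f i) = 0)
    (V : Submodule Qb F) [FiniteDimensional Qb ↥V]
    (b₀ : Fin (Module.finrank Qb ↥V) → F) (hb₀V : ∀ i, b₀ i ∈ V)
    (hb₀fix : ∀ σ i, gal σ • b₀ i = b₀ i) (hb₀ : LinearIndependent Qb b₀) :
    ∃ b : Fin (Module.finrank Qb ↥V) → F, (∀ i, b i ∈ V) ∧ (∀ σ i, gal σ • b i = b i) ∧
      (∀ i, b i ∈ R.O) ∧ LinearIndependent k (fun i => R.redF (b i)) := by
  classical
  have hp : ℓ.Prime := Fact.out
  have hℓ0 : (ℓ : Qb) ≠ 0 := Nat.cast_ne_zero.mpr hp.ne_zero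
  have hℓA : (ℓ : Qb) ∈ R.A := natCast_mem R.A ℓ
  have hℓinv : (ℓ : Qb)⁻¹ ∉ R.A := ((h39_resK_eq_zero_iff R hℓA).mp hℓ).resolve_left hℓ0
  have hσℓ : ∀ σ : Γℚ, σ (ℓ : Qb) = ℓ := fun σ => map_natCast σ ℓ
  -- integers prime to `ℓ` are units of `A`
  have hunit : ∀ c : ℤ, ¬ (ℓ : ℤ) ∣ c → ((c : Qb))⁻¹ ∈ R.A := by
    intro c hc
    have hc0 : c ≠ 0 := by
      rintro rfl
      exact hc (dvd_zero _)
    have h1 : ((c : ℚ))⁻¹ ∈ GaloisRep.ratLocalizedAt ℓ := by
      show ((c : ℚ)⁻¹).den.Coprime ℓ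
      rw [Rat.inv_intCast_den, if_neg hc0]
      refine Nat.Coprime.symm ((Nat.Prime.coprime_iff_not_dvd hp).mpr ?_)
      rwa [← Int.natCast_dvd]
    have h2 := (hrat _).mpr h1
    rwa [map_inv₀, map_intCast] at h2
  -- an orthonormal basis of `V`
  obtain ⟨e, heV, heO, hered⟩ := h39_exists_on R hx V
  have heK : LinearIndependent Qb e :=
    h64_linearIndependent_of_on R.O e (h20_on_of_linearIndependent_red R e heO hered)
  have heV' : LinearIndependent Qb (fun i => (⟨e i, heV i⟩ : V)) :=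
    LinearIndependent.of_comp V.subtype heK
  let B : Module.Basis (Fin (Module.finrank Qb ↥V)) Qb V :=
    Module.Basis.mk heV' (heV'.span_eq_top_of_card_eq_finrank' (Fintype.card_fin _)).ge
  have hB : ∀ i, ((B i : V) : F) = e i := fun i => by
    rw [Module.Basis.coe_mk]
  -- determinants of integral families are integral
  have hdetA : ∀ f : Fin (Module.finrank Qb ↥V) → V, (∀ i, (f i : F) ∈ R.O) →
      B.det f ∈ R.A := by
    intro f hf
    rw [Module.Basis.det_apply]
    refine h82_det_mem R.A _ fun i j => ?_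
    rw [Module.Basis.toMatrix_apply]
    have h1 : ∑ i, (B.repr (f j) i) • e i = (f j : F) := by
      conv_rhs => rw [← B.sum_repr (f j)]
      rw [Submodule.coe_sum]
      refine Finset.sum_congr rfl fun i _ => ?_
      rw [Submodule.coe_smul, hB]
    exact h52_coord_mem R e heO hered (fun i => B.repr (f j) i) (by rw [h1]; exact hf j) i
  -- the saturation step
  have hstep : ∀ f : Fin (Module.finrank Qb ↥V) → V, (∀ σ i, gal σ • (f i : F) = f i) →
      (∀ i, (f i : F) ∈ R.O) → B.det f ≠ 0 →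
      ¬ LinearIndependent k (fun i => R.redF (f i : F)) →
      ∃ (f₁ : Fin (Module.finrank Qb ↥V) → V) (c : Qb),
        (∀ σ i, gal σ • (f₁ i : F) = f₁ i) ∧ (∀ i, (f₁ i : F) ∈ R.O) ∧
        c⁻¹ ∈ R.A ∧ c ≠ 0 ∧ B.det f₁ = (ℓ : Qb)⁻¹ * (c * B.det f) := by
    intro f hfix hint hdet hdep
    obtain ⟨c, ⟨i₀, hi₀⟩, hred⟩ := hprime _ (fun i => (f i : F)) (fun i σ => hfix σ i) hint hdep
    set f' : V := ∑ i, (c i : Qb) • f i with hf'
    have hf'coe : (f' : F) = ∑ i, algebraMap Qb F (c i : Qb) * (f i : F) := by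
      rw [hf', Submodule.coe_sum]
      refine Finset.sum_congr rfl fun i _ => ?_
      rw [Submodule.coe_smul, Algebra.smul_def]
    have hc0 : (c i₀ : Qb) ≠ 0 := by
      rw [Int.cast_ne_zero]
      rintro h
      exact hi₀ (h ▸ dvd_zero _)
    have hdet' : B.det (Function.update f i₀ f') = (c i₀ : Qb) * B.det f := by
      rw [hf', AlternatingMap.map_update_sum, Finset.sum_eq_single i₀]
      · rw [AlternatingMap.map_update_smul, Function.update_eq_self, smul_eq_mul]
      · intro i _ hi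
        rw [AlternatingMap.map_update_smul, AlternatingMap.map_update_self _ _ hi.symm, smul_zero]
      · intro h
        exact absurd (Finset.mem_univ _) h
    have hf'0 : (f' : F) ≠ 0 := by
      intro h0
      have h1 : f' = 0 := Subtype.ext h0
      rw [h1, AlternatingMap.map_update_zero] at hdet'
      exact mul_ne_zero hc0 hdet hdet'.symm
    have hf'O : (f' : F) ∈ R.O := by
      rw [hf'coe]
      exact sum_mem fun i _ =>
        R.O.mul_mem _ _ ((R.mem_iff _).mp (intCast_mem R.A (c i))) (hint i)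
    have hf'fix : ∀ σ, gal σ • (f' : F) = f' := by
      intro σ
      rw [hf'coe, Finset.smul_sum]
      refine Finset.sum_congr rfl fun i _ => ?_
      rw [smul_mul', hgal, hfix σ i, map_intCast]
    obtain ⟨m, hm⟩ := hnorm (f' : F) hf'0 hf'fix
    have hmneg : m ≤ -1 := by
      by_contra hcon
      push Not at hcon
      obtain ⟨n, rfl⟩ := Int.eq_ofNat_of_zero_le (by omega : 0 ≤ m)
      apply hm
      rw [zpow_natCast, h39_redF_mul R ((R.mem_iff _).mp (R.A.pow_mem hℓA n)) hf'O, hf'coe, hred,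
        mul_zero]
    have hgO : algebraMap Qb F (ℓ : Qb)⁻¹ * (f' : F) ∈ R.O := by
      have h1 : algebraMap Qb F ((ℓ : Qb) ^ m) * (f' : F) ∈ R.O := h39_mem_of_redF_ne_zero R hm
      obtain ⟨n, hn⟩ := Int.eq_ofNat_of_zero_le (by omega : 0 ≤ -1 - m)
      have h2 : algebraMap Qb F (ℓ : Qb)⁻¹ * (f' : F) =
          algebraMap Qb F ((ℓ : Qb) ^ n) * (algebraMap Qb F ((ℓ : Qb) ^ m) * (f' : F)) := by
        rw [← mul_assoc, ← map_mul, ← zpow_natCast, ← hn, ← zpow_add₀ hℓ0, sub_add_cancel,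
          zpow_neg_one]
      rw [h2]
      exact R.O.mul_mem _ _ ((R.mem_iff _).mp (R.A.pow_mem hℓA n)) h1
    refine ⟨Function.update f i₀ ((ℓ : Qb)⁻¹ • f'), (c i₀ : Qb), ?_, ?_, hunit _ hi₀, hc0, ?_⟩
    · intro σ i
      by_cases hi : i = i₀
      · subst hi
        rw [Function.update_self, Submodule.coe_smul, Algebra.smul_def, smul_mul', hgal,
          hf'fix σ, map_inv₀, hσℓ]
      · rw [Function.update_of_ne hi]
        exact hfix σ i
    · intro i
      by_cases hi : i = i₀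
      · subst hi
        rw [Function.update_self, Submodule.coe_smul, Algebra.smul_def]
        exact hgO
      · rw [Function.update_of_ne hi]
        exact hint i
    · rw [AlternatingMap.map_update_smul, hdet', smul_eq_mul]
  -- the induction on the index
  have hind : ∀ (M : ℕ) (f : Fin (Module.finrank Qb ↥V) → V),
      (∀ σ i, gal σ • (f i : F) = f i) → (∀ i, (f i : F) ∈ R.O) → B.det f ≠ 0 →
      (ℓ : Qb) ^ M * (B.det f)⁻¹ ∈ R.A →
      ∃ g : Fin (Module.finrank Qb ↥V) → V, (∀ σ i, gal σ • (g i : F) = g i) ∧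
        (∀ i, (g i : F) ∈ R.O) ∧ LinearIndependent k (fun i => R.redF (g i : F)) := by
    intro M
    induction M with
    | zero =>
      intro f hfix hint hdet hM
      by_cases hli : LinearIndependent k (fun i => R.redF (f i : F))
      · exact ⟨f, hfix, hint, hli⟩
      · exfalso
        obtain ⟨f₁, c, hfix₁, hint₁, hcinv, hc0, hdet₁⟩ := hstep f hfix hint hdet hli
        apply hℓinv
        have h1 : (ℓ : Qb)⁻¹ = B.det f₁ * c⁻¹ * ((ℓ : Qb) ^ 0 * (B.det f)⁻¹) := by
          rw [hdet₁]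
          field_simp
        rw [h1]
        exact R.A.mul_mem _ _ (R.A.mul_mem _ _ (hdetA f₁ hint₁) hcinv) hM
    | succ M ih =>
      intro f hfix hint hdet hM
      by_cases hli : LinearIndependent k (fun i => R.redF (f i : F))
      · exact ⟨f, hfix, hint, hli⟩
      · obtain ⟨f₁, c, hfix₁, hint₁, hcinv, hc0, hdet₁⟩ := hstep f hfix hint hdet hli
        refine ih f₁ hfix₁ hint₁ ?_ ?_
        · rw [hdet₁]
          exact mul_ne_zero (inv_ne_zero hℓ0) (mul_ne_zero hc0 hdet)
        · have h1 : (ℓ : Qb) ^ M * (B.det f₁)⁻¹ =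
              c⁻¹ * ((ℓ : Qb) ^ (M + 1) * (B.det f)⁻¹) := by
            rw [hdet₁, pow_succ]
            field_simp
          rw [h1]
          exact R.A.mul_mem _ _ hcinv hM
  -- the initial family
  have hb₀ne : ∀ i, b₀ i ≠ 0 := fun i => hb₀.ne_zero i
  choose m hm using fun i => hnorm (b₀ i) (hb₀ne i) (fun σ => hb₀fix σ i)
  let f₀ : Fin (Module.finrank Qb ↥V) → V := fun i => (ℓ : Qb) ^ (m i) • ⟨b₀ i, hb₀V i⟩
  have hf₀coe : ∀ i, (f₀ i : F) = algebraMap Qb F ((ℓ : Qb) ^ (m i)) * b₀ i := fun i => by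
    show (((ℓ : Qb) ^ (m i) • (⟨b₀ i, hb₀V i⟩ : V) : V) : F) = _
    rw [Submodule.coe_smul, Algebra.smul_def]
  have hf₀fix : ∀ σ i, gal σ • (f₀ i : F) = f₀ i := by
    intro σ i
    rw [hf₀coe, smul_mul', hgal, hb₀fix, map_zpow₀, hσℓ]
  have hf₀O : ∀ i, (f₀ i : F) ∈ R.O := fun i => by
    rw [hf₀coe]
    exact h39_mem_of_redF_ne_zero R (hm i)
  have hf₀det : B.det f₀ ≠ 0 := by
    have h1 : LinearIndependent Qb (fun i => (⟨b₀ i, hb₀V i⟩ : V)) :=
      LinearIndependent.of_comp V.subtype hb₀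
    have h2 : LinearIndependent Qb f₀ :=
      h1.units_smul (fun i => Units.mk0 ((ℓ : Qb) ^ (m i)) (zpow_ne_zero _ hℓ0))
    have h3 : Submodule.span Qb (Set.range f₀) = ⊤ :=
      h2.span_eq_top_of_card_eq_finrank' (Fintype.card_fin _)
    exact (B.is_basis_iff_det.mp ⟨h2, h3⟩).ne_zero
  obtain ⟨M, hM⟩ := hrk (ℓ : Qb) hℓA hℓinv (B.det f₀) hf₀det
  obtain ⟨g, hgfix, hgO, hgli⟩ := hind M f₀ hf₀fix hf₀O hf₀det hM
  exact ⟨fun i => (g i : F), fun i => (g i).2, hgfix, hgO, hgli⟩

section Qbar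

variable {F : Type*} [Field F] [Algebra Qb F] {k Fb : Type*} [Field k] [Field Fb] [Algebra k Fb]
variable (gal : Γℚ →* SemilinearAut Qb F)

/-- **(BASIS)** a Galois-stable finite-dimensional space of functions has a Galois-fixed basis
in `O` with `k`-independent reductions (Galois descent + saturation of the `ℤ_(ℓ)`-lattice of
fixed integral elements; `hnorm`, `hprime` are the two conclusions of `h23_ratnorm`). -/
theorem h23_exists_rat_basis [IsAlgClosed k] (ℓ : ℕ) [Fact ℓ.Prime]
    (hgal : ∀ (σ : Γℚ) (a : Qb), gal σ • algebraMap Qb F a = algebraMap Qb F (σ a))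
    (hstab : ∀ f : F, ∃ E : IntermediateField ℚ Qb, FiniteDimensional ℚ E ∧
      ∀ σ : Γℚ, (∀ a ∈ E, σ a = a) → gal σ • f = f)
    (R : h39_RedDatum Qb F k Fb)
    (hrat : ∀ q : ℚ, algebraMap ℚ Qb q ∈ R.A ↔ q ∈ GaloisRep.ratLocalizedAt ℓ)
    (hℓ : R.resK (ℓ : Qb) = 0) (hrk : h39_RankOne R.A)
    {x : F} (hx : h39_WeakChart R x)
    (hnorm : ∀ f : F, f ≠ 0 → (∀ σ, gal σ • f = f) →
      ∃ m : ℤ, R.redF (algebraMap Qb F ((ℓ : Qb) ^ m) * f) ≠ 0)
    (hprime : ∀ (n : ℕ) (f : Fin n → F), (∀ i σ, gal σ • f i = f i) → (∀ i, f i ∈ R.O) →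
      ¬ LinearIndependent k (fun i => R.redF (f i)) →
      ∃ c : Fin n → ℤ, (∃ i, ¬ (ℓ : ℤ) ∣ c i) ∧
        R.redF (∑ i, algebraMap Qb F (c i : Qb) * f i) = 0)
    (V : Submodule Qb F) (hVfix : ∀ σ, ∀ f ∈ V, gal σ • f ∈ V) (n : ℕ)
    (hn : Module.finrank Qb ↥V = n) [FiniteDimensional Qb ↥V] :
    ∃ b : Fin n → F, (∀ i, b i ∈ V) ∧ (∀ σ i, gal σ • b i = b i) ∧
      (∀ i, b i ∈ R.O) ∧ LinearIndependent k (fun i => R.redF (b i)) := by
  subst hn
  obtain ⟨b₀, hb₀V, hb₀fix, hb₀⟩ := h82_exists_fixed_basis gal hgal hstab V hVfix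
  exact h82_saturate gal ℓ hgal R hrat hℓ hrk hx hnorm hprime V b₀ hb₀V hb₀fix hb₀

end Qbar

end Fermat.Agent.S19
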