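import Fermat.Agent.S19.h92_RRDiv
import Fermat.Agent.S18.h64_CompatOfLe

/-!
# S19 / GEOM, rows SEP: `L(M - E)` and the graph coordinates determine the effective divisor `E`

Exports (skeleton names, `origin/helper26 : skel/h26_SkelGeom.lean`):
* `h26_rr_sep` : `L(M - E) = L(M - E')`, `E, E' ≥ 0` of the same degree, `deg M > 2g - 2 + 2 deg E`
  imply `E = E'`;
* `h26_graph_sep` : the same with `L(M - E)`, `L(M - E')` given by common graph coordinates.
-/

set_option autoImplicit false

noncomputable section

open AlgebraicCurve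

namespace Fermat.Agent.S19

open Fermat.Agent.S18 Fermat.Agent.S27

variable {K F : Type*} [Field K] [Field F] [Algebra K F]

/-- a divisor above `E` of the same degree is `E`. -/
theorem h82_eq_of_le_of_degree [IsAlgClosed K] {x : F} (hx : h75_IsChart K x) {E D : Divisor K F}
    (hle : E ≤ D) (hdeg : Divisor.degree D = Divisor.degree E) : D = E := by
  have h0 := h64_eq_zero_of_nonneg_of_degree (fun P => h75_deg_eq_one hx P) (D - E)
    (fun P => by
      have := Finsupp.le_def.mp hle P
      rw [Finsupp.sub_apply]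
      omega)
    (by rw [map_sub, hdeg, sub_self])
  exact sub_eq_zero.mp h0

/-- (SEP) `L(M - E)` determines the effective divisor `E`. -/
theorem h26_rr_sep [IsAlgClosed K] {x : F} (hx : h75_IsChart K x) (M E E' : Divisor K F)
    (hE : 0 ≤ E) (hE' : 0 ≤ E') (hdeg : Divisor.degree E = Divisor.degree E')
    (hM : 2 * (h75_genus K x : ℤ) - 2 + 2 * Divisor.degree E < Divisor.degree M)
    (h : riemannRochSpace (M - E) = riemannRochSpace (M - E')) : E = E' := by
  have hEv : ∀ v, 0 ≤ E v := fun v => Finsupp.le_def.mp hE v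
  have hE'v : ∀ v, 0 ≤ E' v := fun v => Finsupp.le_def.mp hE' v
  have hE0 : 0 ≤ Divisor.degree E := h7_degree_nonneg E hEv
  -- the supremum
  have hDE : (M - E) ⊓ (M - E') = M - (E ⊔ E') := by
    ext v
    rw [Finsupp.inf_apply, Finsupp.sub_apply, Finsupp.sub_apply, Finsupp.sub_apply,
      Finsupp.sup_apply]
    rcases le_total (E v) (E' v) with hle | hle
    · rw [max_eq_right hle, min_eq_right (by omega)]
    · rw [max_eq_left hle, min_eq_left (by omega)]
  have hinf : riemannRochSpace (M - (E ⊔ E')) = riemannRochSpace (M - E) := by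
    rw [← hDE, ← h92_rr_inf, ← h, inf_idem]
  have hle1 : E ≤ E ⊔ E' := le_sup_left
  have hle2 : E' ≤ E ⊔ E' := le_sup_right
  have hsup : Divisor.degree (E ⊔ E') ≤ Divisor.degree E + Divisor.degree E' := by
    have h0 := h7_degree_nonneg (E + E' - (E ⊔ E')) (fun v => by
      rw [Finsupp.sub_apply, Finsupp.add_apply, Finsupp.sup_apply]
      have h1 := hEv v
      have h2 := hE'v v
      rcases le_total (E v) (E' v) with hle | hle
      · rw [max_eq_right hle]
        omega
      · rw [max_eq_left hle]
        omega)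
    rw [map_sub, map_add] at h0
    omega
  have hr1 := h68_finrank_rr_of_deg hx (M - E) (by rw [map_sub]; omega)
  have hr2 := h68_finrank_rr_of_deg hx (M - (E ⊔ E')) (by rw [map_sub]; omega)
  rw [hinf, hr1, map_sub, map_sub] at hr2
  have hdegD : Divisor.degree (E ⊔ E') = Divisor.degree E := by omega
  have h1 := h82_eq_of_le_of_degree hx hle1 hdegD
  have h2 := h82_eq_of_le_of_degree hx hle2 (hdegD.trans hdeg)
  rw [← h1, h2]

/-- (SEP) graph coordinates determine the effective divisor. -/
theorem h26_graph_sep [IsAlgClosed K] {x : F} (hx : h75_IsChart K x) (M E E' : Divisor K F)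
    (hE : 0 ≤ E) (hE' : 0 ≤ E') {n' g' : ℕ} (hEdeg : Divisor.degree E = g')
    (hEdeg' : Divisor.degree E' = g')
    (hM : 2 * (h75_genus K x : ℤ) - 2 + 2 * g' < Divisor.degree M)
    (b' : Fin n' → F) (b'' : Fin g' → F)
    (hbind : LinearIndependent K (Sum.elim b' b''))
    (hbspan : Submodule.span K (Set.range (Sum.elim b' b'')) = riemannRochSpace M)
    (Ac : Matrix (Fin g') (Fin n') K)
    (h1 : ∀ j, b' j + ∑ i, Ac i j • b'' i ∈ riemannRochSpace (M - E))
    (h2 : ∀ j, b' j + ∑ i, Ac i j • b'' i ∈ riemannRochSpace (M - E')) : E = E' := by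
  classical
  -- the graph vectors are independent
  have hu : LinearIndependent K (fun j : Fin n' => b' j + ∑ i, Ac i j • b'' i) := by
    rw [Fintype.linearIndependent_iff]
    intro c hc
    have hc' : ∑ s : Fin n' ⊕ Fin g',
        (Sum.elim c (fun i => ∑ j, c j * Ac i j) : Fin n' ⊕ Fin g' → K) s •
          (Sum.elim b' b'' : Fin n' ⊕ Fin g' → F) s = 0 := by
      rw [Fintype.sum_sum_type]
      simp only [Sum.elim_inl, Sum.elim_inr]
      rw [← hc]
      simp only [smul_add, Finset.sum_add_distrib, Finset.smul_sum, Finset.sum_smul, smul_smul]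
      congr 1
      exact Finset.sum_comm
    have := (Fintype.linearIndependent_iff.mp hbind) _ hc'
    intro j
    exact this (Sum.inl j)
  -- dimensions
  have hfinM := (h75_riemann hx M).1
  have hdimM : Module.finrank K ↥(riemannRochSpace M) = n' + g' := by
    rw [← hbspan, finrank_span_eq_card hbind, Fintype.card_sum, Fintype.card_fin, Fintype.card_fin]
  have hrM := h68_finrank_rr_of_deg hx M (by omega)
  rw [hdimM] at hrM
  push_cast at hrM
  have key : ∀ E₁ : Divisor K F, Divisor.degree E₁ = g' →
      (∀ j, b' j + ∑ i, Ac i j • b'' i ∈ riemannRochSpace (M - E₁)) →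
      Submodule.span K (Set.range fun j : Fin n' => b' j + ∑ i, Ac i j • b'' i) =
        riemannRochSpace (M - E₁) := by
    intro E₁ hdeg₁ hmem
    have hfin := (h75_riemann hx (M - E₁)).1
    have hr := h68_finrank_rr_of_deg hx (M - E₁) (by rw [map_sub, hdeg₁]; omega)
    rw [map_sub, hdeg₁] at hr
    apply Submodule.eq_of_le_of_finrank_eq
    · rw [Submodule.span_le]
      rintro _ ⟨j, rfl⟩
      exact hmem j
    · rw [finrank_span_eq_card hu, Fintype.card_fin]
      have : (n' : ℤ) = Module.finrank K ↥(riemannRochSpace (M - E₁)) := by omega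
      exact_mod_cast this
  refine h26_rr_sep hx M E E' hE hE' (hEdeg.trans hEdeg'.symm) (by rw [hEdeg]; exact hM) ?_
  rw [← key E hEdeg h1, ← key E' hEdeg' h2]

end Fermat.Agent.S19

end
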