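import Mathlib

/-!
# S19, module HOPF (helper21): a Hopf order in the functions on a finite group is a Hopf algebra

`R` a commutative ring inside a field `L`, `G` a finite abelian group, `H` an `R`-subalgebra of
`G → L` which is free over `R` on a family that is `L`-linearly independent, spans `G → L` over
`L`, takes values in `R` at `0`, and is closed under `h ↦ h (x + y)` in the sense that this
function of two variables is an `R`-combination of products `h₁ x * h₂ y`.  Then `H` is a finite
flat cocommutative Hopf algebra over `R` whose `L`-points (with convolution) are `G`.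
-/

set_option autoImplicit false

noncomputable section

open TensorProduct

namespace Fermat.Agent.S19

section Abstract

variable {R L : Type} [CommRing R] [Field L] [Algebra R L] {G : Type}

/-- evaluation at a point -/
def h21_ev (H : Subalgebra R (G → L)) (x : G) : H →ₐ[R] L :=
  (Pi.evalAlgHom R (fun _ : G => L) x).comp H.val

@[simp] theorem h21_ev_apply (H : Subalgebra R (G → L)) (x : G) (h : H) :
    h21_ev H x h = (h : G → L) x := rfl

/-- evaluation of a tensor at a pair of points -/
def h21_ev2 (H : Subalgebra R (G → L)) (x y : G) : H ⊗[R] H →ₐ[R] L :=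
  Algebra.TensorProduct.productMap (h21_ev H x) (h21_ev H y)

@[simp] theorem h21_ev2_tmul (H : Subalgebra R (G → L)) (x y : G) (a c : H) :
    h21_ev2 H x y (a ⊗ₜ[R] c) = (a : G → L) x * (c : G → L) y := rfl

/-- evaluation of a triple tensor at a triple of points -/
def h21_ev3 (H : Subalgebra R (G → L)) (x y z : G) : H ⊗[R] (H ⊗[R] H) →ₐ[R] L :=
  Algebra.TensorProduct.productMap (h21_ev H x) (h21_ev2 H y z)

@[simp] theorem h21_ev3_tmul (H : Subalgebra R (G → L)) (x y z : G) (a : H) (t : H ⊗[R] H) :
    h21_ev3 H x y z (a ⊗ₜ[R] t) = (a : G → L) x * h21_ev2 H y z t := rfl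

/-- the map `H ⊗ H → (G × G → L)` -/
def h21_mu2 (H : Subalgebra R (G → L)) : H ⊗[R] H →ₐ[R] (G × G → L) :=
  AlgHom.pi (fun p : G × G => h21_ev2 H p.1 p.2)

@[simp] theorem h21_mu2_apply (H : Subalgebra R (G → L)) (t : H ⊗[R] H) (p : G × G) :
    h21_mu2 H t p = h21_ev2 H p.1 p.2 t := rfl

/-- products of two `L`-independent families of functions are `L`-independent -/
theorem h21_prod_indep {S T ι κ : Type*} (u : ι → S → L) (w : κ → T → L)
    (hu : LinearIndependent L u) (hw : LinearIndependent L w) :
    LinearIndependent L (fun ij : ι × κ => fun p : S × T => u ij.1 p.1 * w ij.2 p.2) := by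
  classical
  rw [linearIndependent_iff'] at hu hw ⊢
  intro s c hc ij hij
  -- enlarge `s` to a product
  set s1 := s.image Prod.fst with hs1
  set s2 := s.image Prod.snd with hs2
  let c' : ι × κ → L := fun ij => if ij ∈ s then c ij else 0
  have hc' : ∑ ij ∈ s1 ×ˢ s2, c' ij • (fun p : S × T => u ij.1 p.1 * w ij.2 p.2) = 0 := by
    rw [← hc]
    have hsub : s ⊆ s1 ×ˢ s2 := by
      intro a ha
      rw [Finset.mem_product]
      exact ⟨Finset.mem_image_of_mem _ ha, Finset.mem_image_of_mem _ ha⟩
    rw [← Finset.sum_subset hsub]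
    · refine Finset.sum_congr rfl fun a ha => ?_
      simp only [c', if_pos ha]
    · intro a _ ha
      simp only [c', if_neg ha, zero_smul]
  rw [Finset.sum_product] at hc'
  -- fix `t`, use independence of `u`
  have h1 : ∀ t : T, ∀ i ∈ s1, ∑ j ∈ s2, c' (i, j) * w j t = 0 := by
    intro t
    refine hu s1 (fun i => ∑ j ∈ s2, c' (i, j) * w j t) ?_
    funext x
    have := congrFun hc' (x, t)
    simp only [Finset.sum_apply, Pi.smul_apply, smul_eq_mul, Pi.zero_apply] at this ⊢
    rw [← this]
    refine Finset.sum_congr rfl fun i _ => ?_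
    rw [Finset.sum_mul]
    refine Finset.sum_congr rfl fun j _ => ?_
    ring
  have h2 : ∀ i ∈ s1, ∀ j ∈ s2, c' (i, j) = 0 := by
    intro i hi
    refine hw s2 (fun j => c' (i, j)) ?_
    funext t
    have := h1 t i hi
    simp only [Finset.sum_apply, Pi.smul_apply, smul_eq_mul, Pi.zero_apply]
    exact this
  have := h2 ij.1 (Finset.mem_image_of_mem _ hij) ij.2 (Finset.mem_image_of_mem _ hij)
  simpa only [c', if_pos hij] using this

/-- a linear map to functions which sends a basis to an `L`-independent family is injective -/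
theorem h21_injective_of_basis {M S ι : Type*} [AddCommMonoid M] [Module R M]
    (hinj : Function.Injective (algebraMap R L)) (b : Module.Basis ι R M)
    (Φ : M →ₗ[R] (S → L)) (hΦ : LinearIndependent L (fun i => Φ (b i))) :
    Function.Injective Φ := by
  classical
  rw [linearIndependent_iff'] at hΦ
  have key : ∀ m : M, Φ m = ∑ i ∈ (b.repr m).support, algebraMap R L (b.repr m i) • Φ (b i) := by
    intro m
    have hrep : m = ∑ i ∈ (b.repr m).support, b.repr m i • b i := by
      conv_lhs => rw [← b.linearCombination_repr m]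
      rw [Finsupp.linearCombination_apply, Finsupp.sum]
    conv_lhs => rw [hrep]
    rw [map_sum]
    refine Finset.sum_congr rfl fun i _ => ?_
    rw [map_smul, algebraMap_smul]
  intro m m' hmm
  apply b.repr.injective
  ext i
  set s := (b.repr m).support ∪ (b.repr m').support with hs
  have e1 : Φ m = ∑ i ∈ s, algebraMap R L (b.repr m i) • Φ (b i) := by
    rw [key m]
    refine Finset.sum_subset Finset.subset_union_left ?_
    intro j _ hj
    rw [Finsupp.notMem_support_iff.mp hj, map_zero, zero_smul]
  have e2 : Φ m' = ∑ i ∈ s, algebraMap R L (b.repr m' i) • Φ (b i) := by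
    rw [key m']
    refine Finset.sum_subset Finset.subset_union_right ?_
    intro j _ hj
    rw [Finsupp.notMem_support_iff.mp hj, map_zero, zero_smul]
  have e3 : ∑ i ∈ s, (algebraMap R L (b.repr m i) - algebraMap R L (b.repr m' i)) • Φ (b i) = 0 := by
    simp only [sub_smul, Finset.sum_sub_distrib]
    rw [← e1, ← e2, hmm, sub_self]
  by_cases hi : i ∈ s
  · exact hinj (sub_eq_zero.mp (hΦ s _ e3 i hi))
  · rw [hs, Finset.notMem_union] at hi
    rw [Finsupp.notMem_support_iff.mp hi.1, Finsupp.notMem_support_iff.mp hi.2]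

end Abstract

section Construction

variable {R L : Type} [CommRing R] [Field L] [Algebra R L] {G : Type}
  (H : Subalgebra R (G → L))

/-- `H ⊗ H` is separated by pairs of points -/
theorem h21_mu2_injective (hinj : Function.Injective (algebraMap R L)) {ι : Type}
    (b : Module.Basis ι R H) (hb : LinearIndependent L (fun i => (b i : G → L))) :
    Function.Injective (h21_mu2 H) := by
  refine h21_injective_of_basis (M := H ⊗[R] H) (S := G × G) hinj (b.tensorProduct b)
    (h21_mu2 H).toLinearMap ?_
  have h := h21_prod_indep (fun i => (b i : G → L)) (fun i => (b i : G → L)) hb hb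
  convert h using 1
  funext ij
  obtain ⟨i, j⟩ := ij
  funext p
  rw [Module.Basis.tensorProduct_apply]
  rfl

theorem h21_eq_of_ev2 (hinj : Function.Injective (algebraMap R L)) {ι : Type}
    (b : Module.Basis ι R H) (hb : LinearIndependent L (fun i => (b i : G → L)))
    {t t' : H ⊗[R] H} (h : ∀ x y, h21_ev2 H x y t = h21_ev2 H x y t') : t = t' := by
  apply h21_mu2_injective H hinj b hb
  funext p
  exact h p.1 p.2

/-- the map `H ⊗ (H ⊗ H) → (G × (G × G) → L)` -/
def h21_mu3 : H ⊗[R] (H ⊗[R] H) →ₐ[R] (G × (G × G) → L) :=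
  AlgHom.pi (fun p : G × (G × G) => h21_ev3 H p.1 p.2.1 p.2.2)

theorem h21_mu3_injective (hinj : Function.Injective (algebraMap R L)) {ι : Type}
    (b : Module.Basis ι R H) (hb : LinearIndependent L (fun i => (b i : G → L))) :
    Function.Injective (h21_mu3 H) := by
  refine h21_injective_of_basis (M := H ⊗[R] (H ⊗[R] H)) (S := G × (G × G)) hinj
    (b.tensorProduct (b.tensorProduct b)) (h21_mu3 H).toLinearMap ?_
  have h2 := h21_prod_indep (fun i => (b i : G → L)) (fun i => (b i : G → L)) hb hb
  have h := h21_prod_indep (fun i => (b i : G → L)) _ hb h2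
  convert h using 1
  funext ij
  obtain ⟨i, j, k⟩ := ij
  funext p
  rw [Module.Basis.tensorProduct_apply, Module.Basis.tensorProduct_apply]
  rfl

theorem h21_eq_of_ev3 (hinj : Function.Injective (algebraMap R L)) {ι : Type}
    (b : Module.Basis ι R H) (hb : LinearIndependent L (fun i => (b i : G → L)))
    {t t' : H ⊗[R] (H ⊗[R] H)} (h : ∀ x y z, h21_ev3 H x y z t = h21_ev3 H x y z t') :
    t = t' := by
  apply h21_mu3_injective H hinj b hb
  funext p
  exact h p.1 p.2.1 p.2.2

variable [AddCommGroup G]

/-- `h ↦ h (x + y)` as an algebra map -/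
def h21_add : H →ₐ[R] (G × G → L) :=
  AlgHom.pi (fun p : G × G => h21_ev H (p.1 + p.2))

theorem h21_add_mem_range
    (hcomul : ∀ h ∈ H, (fun p : G × G => h (p.1 + p.2)) ∈
      Submodule.span R {f : G × G → L | ∃ h₁ ∈ H, ∃ h₂ ∈ H, f = fun p => h₁ p.1 * h₂ p.2})
    (h : H) : h21_add H h ∈ (h21_mu2 H).range := by
  have h1 := hcomul h h.2
  have hle : Submodule.span R
      {f : G × G → L | ∃ h₁ ∈ H, ∃ h₂ ∈ H, f = fun p => h₁ p.1 * h₂ p.2} ≤
      Subalgebra.toSubmodule (h21_mu2 H).range := by
    rw [Submodule.span_le]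
    rintro f ⟨h₁, hh₁, h₂, hh₂, rfl⟩
    exact ⟨(⟨h₁, hh₁⟩ : H) ⊗ₜ[R] (⟨h₂, hh₂⟩ : H), rfl⟩
  exact hle h1

/-- the comultiplication -/
def h21_comul (hμ : Function.Injective (h21_mu2 H))
    (hcomul : ∀ h ∈ H, (fun p : G × G => h (p.1 + p.2)) ∈
      Submodule.span R {f : G × G → L | ∃ h₁ ∈ H, ∃ h₂ ∈ H, f = fun p => h₁ p.1 * h₂ p.2}) :
    H →ₐ[R] H ⊗[R] H :=
  ((AlgEquiv.ofInjective (h21_mu2 H) hμ).symm : (h21_mu2 H).range →ₐ[R] H ⊗[R] H).comp
    ((h21_add H).codRestrict (h21_mu2 H).range (h21_add_mem_range H hcomul))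

theorem h21_ev2_comul (hμ : Function.Injective (h21_mu2 H))
    (hcomul : ∀ h ∈ H, (fun p : G × G => h (p.1 + p.2)) ∈
      Submodule.span R {f : G × G → L | ∃ h₁ ∈ H, ∃ h₂ ∈ H, f = fun p => h₁ p.1 * h₂ p.2})
    (x y : G) (h : H) :
    h21_ev2 H x y (h21_comul H hμ hcomul h) = (h : G → L) (x + y) := by
  have h1 : h21_mu2 H (h21_comul H hμ hcomul h) = h21_add H h := by
    have h2 := (AlgEquiv.ofInjective (h21_mu2 H) hμ).apply_symm_apply
      ((h21_add H).codRestrict (h21_mu2 H).range (h21_add_mem_range H hcomul) h)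
    exact congrArg Subtype.val h2
  exact congrFun h1 (x, y)

theorem h21_ev0_mem_range (hcounit : ∀ h ∈ H, ∃ r : R, h 0 = algebraMap R L r) (h : H) :
    h21_ev H 0 h ∈ (Algebra.ofId R L).range := by
  obtain ⟨r, hr⟩ := hcounit h h.2
  exact ⟨r, hr.symm⟩

/-- the counit -/
def h21_counit (hinj : Function.Injective (algebraMap R L))
    (hcounit : ∀ h ∈ H, ∃ r : R, h 0 = algebraMap R L r) : H →ₐ[R] R :=
  ((AlgEquiv.ofInjective (Algebra.ofId R L) hinj).symm : (Algebra.ofId R L).range →ₐ[R] R).comp
    ((h21_ev H 0).codRestrict (Algebra.ofId R L).range (h21_ev0_mem_range H hcounit))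

theorem h21_algebraMap_counit (hinj : Function.Injective (algebraMap R L))
    (hcounit : ∀ h ∈ H, ∃ r : R, h 0 = algebraMap R L r) (h : H) :
    algebraMap R L (h21_counit H hinj hcounit h) = (h : G → L) 0 := by
  have h2 := (AlgEquiv.ofInjective (Algebra.ofId R L) hinj).apply_symm_apply
    ((h21_ev H 0).codRestrict (Algebra.ofId R L).range (h21_ev0_mem_range H hcounit) h)
  exact congrArg Subtype.val h2

/-- composing a product map with a tensor product of maps -/
theorem h21_productMap_comp_map {A B A' B' S : Type*} [Semiring A] [Semiring B] [Semiring A']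
    [Semiring B'] [CommSemiring S] [Algebra R A] [Algebra R B] [Algebra R A'] [Algebra R B']
    [Algebra R S] (φ : A' →ₐ[R] S) (ψ : B' →ₐ[R] S) (f : A →ₐ[R] A') (g : B →ₐ[R] B') :
    (Algebra.TensorProduct.productMap φ ψ).comp (Algebra.TensorProduct.map f g) =
      Algebra.TensorProduct.productMap (φ.comp f) (ψ.comp g) := by
  apply Algebra.TensorProduct.ext'
  intro a c
  simp

omit [AddCommGroup G] in
theorem h21_ev3_assoc (x y z : G) :
    (h21_ev3 H x y z).comp (Algebra.TensorProduct.assoc R R R H H H).toAlgHom =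
      Algebra.TensorProduct.productMap (h21_ev2 H x y) (h21_ev H z) := by
  apply Algebra.TensorProduct.ext'
  intro s c
  induction s using TensorProduct.induction_on with
  | zero => simp
  | tmul a a' =>
    rw [AlgHom.comp_apply]
    simp [mul_assoc]
  | add s t hs ht =>
    rw [TensorProduct.add_tmul, map_add, map_add, hs, ht]

section Axioms

variable (hinj : Function.Injective (algebraMap R L)) {ι : Type}
  (b : Module.Basis ι R H) (hb : LinearIndependent L (fun i => (b i : G → L)))
  (hcounit : ∀ h ∈ H, ∃ r : R, h 0 = algebraMap R L r)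
  (hcomul : ∀ h ∈ H, (fun p : G × G => h (p.1 + p.2)) ∈
    Submodule.span R {f : G × G → L | ∃ h₁ ∈ H, ∃ h₂ ∈ H, f = fun p => h₁ p.1 * h₂ p.2})

include hinj b hb hcomul in
theorem h21_coassoc (hμ : Function.Injective (h21_mu2 H)) :
    (Algebra.TensorProduct.assoc R R R H H H).toAlgHom.comp
        ((Algebra.TensorProduct.map (h21_comul H hμ hcomul) (AlgHom.id R H)).comp
          (h21_comul H hμ hcomul)) =
      (Algebra.TensorProduct.map (AlgHom.id R H) (h21_comul H hμ hcomul)).comp
        (h21_comul H hμ hcomul) := by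
  apply AlgHom.ext
  intro h
  apply h21_eq_of_ev3 H hinj b hb
  intro x y z
  have e0 : ∀ u v : G, (h21_ev2 H u v).comp (h21_comul H hμ hcomul) = h21_ev H (u + v) := by
    intro u v
    apply AlgHom.ext
    intro a
    exact h21_ev2_comul H hμ hcomul u v a
  have e1 : h21_ev3 H x y z ((Algebra.TensorProduct.assoc R R R H H H).toAlgHom.comp
      ((Algebra.TensorProduct.map (h21_comul H hμ hcomul) (AlgHom.id R H)).comp
        (h21_comul H hμ hcomul)) h) = (h : G → L) (x + y + z) := by
    have := DFunLike.congr_fun (h21_ev3_assoc H x y z)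
      ((Algebra.TensorProduct.map (h21_comul H hμ hcomul) (AlgHom.id R H))
        (h21_comul H hμ hcomul h))
    rw [AlgHom.comp_apply] at this
    rw [AlgHom.comp_apply, AlgHom.comp_apply, this]
    have h2 := DFunLike.congr_fun (h21_productMap_comp_map (h21_ev2 H x y) (h21_ev H z)
      (h21_comul H hμ hcomul) (AlgHom.id R H)) (h21_comul H hμ hcomul h)
    rw [AlgHom.comp_apply] at h2
    rw [h2, e0, AlgHom.comp_id]
    exact h21_ev2_comul H hμ hcomul (x + y) z h
  have e2 : h21_ev3 H x y z ((Algebra.TensorProduct.map (AlgHom.id R H)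
      (h21_comul H hμ hcomul)).comp (h21_comul H hμ hcomul) h) = (h : G → L) (x + (y + z)) := by
    have h2 := DFunLike.congr_fun (h21_productMap_comp_map (h21_ev H x) (h21_ev2 H y z)
      (AlgHom.id R H) (h21_comul H hμ hcomul)) (h21_comul H hμ hcomul h)
    rw [AlgHom.comp_apply] at h2
    rw [AlgHom.comp_apply]
    unfold h21_ev3
    rw [h2, e0, AlgHom.comp_id]
    exact h21_ev2_comul H hμ hcomul x (y + z) h
  rw [e1, e2, add_assoc]

include hinj hcounit hcomul in
theorem h21_rTensor (hμ : Function.Injective (h21_mu2 H)) :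
    (Algebra.TensorProduct.map (h21_counit H hinj hcounit) (AlgHom.id R H)).comp
        (h21_comul H hμ hcomul) =
      ((Algebra.TensorProduct.lid R H).symm : H →ₐ[R] R ⊗[R] H) := by
  apply AlgHom.ext
  intro h
  apply (Algebra.TensorProduct.lid R H).injective
  rw [AlgEquiv.coe_toAlgHom, AlgEquiv.apply_symm_apply]
  apply Subtype.ext
  funext x
  have e1 : (h21_ev H x).comp (((Algebra.TensorProduct.lid R H) : R ⊗[R] H →ₐ[R] H).comp
      (Algebra.TensorProduct.map (h21_counit H hinj hcounit) (AlgHom.id R H))) =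
      h21_ev2 H 0 x := by
    apply Algebra.TensorProduct.ext'
    intro a c
    simp only [AlgHom.comp_apply, Algebra.TensorProduct.map_tmul, AlgHom.id_apply,
      AlgEquiv.coe_toAlgHom, Algebra.TensorProduct.lid_tmul, h21_ev_apply, h21_ev2_tmul]
    rw [← h21_algebraMap_counit H hinj hcounit a]
    rw [Algebra.smul_def]
    rfl
  have e2 := DFunLike.congr_fun e1 (h21_comul H hμ hcomul h)
  rw [AlgHom.comp_apply, AlgHom.comp_apply, h21_ev2_comul, zero_add] at e2
  exact e2

include hinj hcounit hcomul in
theorem h21_lTensor (hμ : Function.Injective (h21_mu2 H)) :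
    (Algebra.TensorProduct.map (AlgHom.id R H) (h21_counit H hinj hcounit)).comp
        (h21_comul H hμ hcomul) =
      ((Algebra.TensorProduct.rid R R H).symm : H →ₐ[R] H ⊗[R] R) := by
  apply AlgHom.ext
  intro h
  apply (Algebra.TensorProduct.rid R R H).injective
  rw [AlgEquiv.coe_toAlgHom, AlgEquiv.apply_symm_apply]
  apply Subtype.ext
  funext x
  have e1 : (h21_ev H x).comp (((Algebra.TensorProduct.rid R R H) : H ⊗[R] R →ₐ[R] H).comp
      (Algebra.TensorProduct.map (AlgHom.id R H) (h21_counit H hinj hcounit))) =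
      h21_ev2 H x 0 := by
    apply Algebra.TensorProduct.ext'
    intro a c
    simp only [AlgHom.comp_apply, Algebra.TensorProduct.map_tmul, AlgHom.id_apply,
      AlgEquiv.coe_toAlgHom, Algebra.TensorProduct.rid_tmul, h21_ev_apply, h21_ev2_tmul]
    rw [← h21_algebraMap_counit H hinj hcounit c]
    rw [Algebra.smul_def, mul_comm]
    rfl
  have e2 := DFunLike.congr_fun e1 (h21_comul H hμ hcomul h)
  rw [AlgHom.comp_apply, AlgHom.comp_apply, h21_ev2_comul, add_zero] at e2
  exact e2

include hcounit hcomul in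
/-- closure of `H` under `h ↦ h (n • ·)` -/
theorem h21_nsmul_mem (n : ℕ) : ∀ h ∈ H, (fun x : G => h (n • x)) ∈ H := by
  induction n with
  | zero =>
    intro h hh
    obtain ⟨r, hr⟩ := hcounit h hh
    have h0 : (fun x : G => h (0 • x)) = algebraMap R (G → L) r := by
      funext x
      rw [zero_smul, hr]
      rfl
    rw [h0]
    exact H.algebraMap_mem r
  | succ n ih =>
    intro h hh
    have h1 := hcomul h hh
    let T : (G × G → L) →ₗ[R] (G → L) := LinearMap.funLeft R L (fun x : G => (n • x, x))
    have hle : Submodule.span R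
        {f : G × G → L | ∃ h₁ ∈ H, ∃ h₂ ∈ H, f = fun p => h₁ p.1 * h₂ p.2} ≤
        (Subalgebra.toSubmodule H).comap T := by
      rw [Submodule.span_le]
      rintro f ⟨h₁, hh₁, h₂, hh₂, rfl⟩
      exact H.mul_mem (ih h₁ hh₁) hh₂
    have h2 : T (fun p : G × G => h (p.1 + p.2)) ∈ H := hle h1
    have h3 : (fun x : G => h ((n + 1) • x)) = T (fun p : G × G => h (p.1 + p.2)) := by
      funext x
      rw [succ_nsmul]
      rfl
    rw [h3]
    exact h2

include hcounit hcomul in
/-- closure of `H` under `h ↦ h (- ·)` -/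
theorem h21_neg_mem [Finite G] : ∀ h ∈ H, (fun x : G => h (-x)) ∈ H := by
  intro h hh
  have h1 := h21_nsmul_mem H hcounit hcomul (Nat.card G - 1) h hh
  have h2 : (fun x : G => h (-x)) = fun x : G => h ((Nat.card G - 1) • x) := by
    funext x
    congr 1
    have hc : 0 < Nat.card G := Nat.card_pos
    have h3 : (Nat.card G - 1) • x + x = 0 := by
      rw [← succ_nsmul, Nat.sub_add_cancel hc]
      exact card_nsmul_eq_zero'
    exact (eq_neg_of_add_eq_zero_left h3).symm
  rw [h2]
  exact h1

/-- the antipode -/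
def h21_antipode [Finite G] : H →ₗ[R] H where
  toFun h := ⟨fun x => (h : G → L) (-x), h21_neg_mem H hcounit hcomul h h.2⟩
  map_add' _ _ := rfl
  map_smul' _ _ := rfl

omit [AddCommGroup G] in
theorem h21_mul_rTensor (S : H →ₗ[R] H) (f : G → G)
    (hS : ∀ (a : H) (x : G), (S a : G → L) x = (a : G → L) (f x)) (t : H ⊗[R] H) (x : G) :
    ((LinearMap.mul' R H (S.rTensor H t) : H) : G → L) x = h21_ev2 H (f x) x t := by
  induction t using TensorProduct.induction_on with
  | zero => simp
  | tmul a c => simp [hS]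
  | add s t hs ht =>
    rw [map_add, map_add, map_add, Subalgebra.coe_add, Pi.add_apply, hs, ht]

omit [AddCommGroup G] in
theorem h21_mul_lTensor (S : H →ₗ[R] H) (f : G → G)
    (hS : ∀ (a : H) (x : G), (S a : G → L) x = (a : G → L) (f x)) (t : H ⊗[R] H) (x : G) :
    ((LinearMap.mul' R H (S.lTensor H t) : H) : G → L) x = h21_ev2 H x (f x) t := by
  induction t using TensorProduct.induction_on with
  | zero => simp
  | tmul a c => simp [hS]
  | add s t hs ht =>
    rw [map_add, map_add, map_add, Subalgebra.coe_add, Pi.add_apply, hs, ht]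

end Axioms

section Points

omit [AddCommGroup G] in
theorem h21_ev_injective (hspan : Submodule.span L (H : Set (G → L)) = ⊤) :
    Function.Injective (h21_ev H) := by
  classical
  intro x y hxy
  let N : Submodule L (G → L) :=
    LinearMap.ker ((LinearMap.proj x : (G → L) →ₗ[L] L) - LinearMap.proj y)
  have hle : Submodule.span L (H : Set (G → L)) ≤ N := by
    rw [Submodule.span_le]
    intro f hf
    have h1 := DFunLike.congr_fun hxy ⟨f, hf⟩
    simp only [h21_ev_apply] at h1
    simp only [N, SetLike.mem_coe, LinearMap.mem_ker, LinearMap.sub_apply, LinearMap.proj_apply,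
      sub_eq_zero]
    exact h1
  rw [hspan] at hle
  have h1 : (Pi.single x (1 : L) : G → L) ∈ N := hle Submodule.mem_top
  simp only [N, LinearMap.mem_ker, LinearMap.sub_apply, LinearMap.proj_apply, Pi.single_eq_same,
    sub_eq_zero] at h1
  by_contra hne
  rw [Pi.single_eq_of_ne (Ne.symm hne)] at h1
  exact one_ne_zero h1

omit [AddCommGroup G] in
/-- every `R`-algebra map `H → L` is an evaluation -/
theorem h21_exists_ev [Finite G] {ι : Type} (b : Module.Basis ι R H)
    (hb : LinearIndependent L (fun i => (b i : G → L)))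
    (hspan : Submodule.span L (H : Set (G → L)) = ⊤) (φ : H →ₐ[R] L) :
    ∃ x : G, φ = h21_ev H x := by
  classical
  have := Fintype.ofFinite G
  -- the `L`-basis
  have hsp : ⊤ ≤ Submodule.span L (Set.range (fun i => (b i : G → L))) := by
    rw [← hspan, Submodule.span_le]
    intro f hf
    have hrep : (⟨f, hf⟩ : H) = ∑ i ∈ (b.repr ⟨f, hf⟩).support, b.repr ⟨f, hf⟩ i • b i := by
      conv_lhs => rw [← b.linearCombination_repr ⟨f, hf⟩]
      rw [Finsupp.linearCombination_apply, Finsupp.sum]
    have hf2 : f = ∑ i ∈ (b.repr ⟨f, hf⟩).support,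
        algebraMap R L (b.repr ⟨f, hf⟩ i) • (b i : G → L) := by
      have h1 : f = ((∑ i ∈ (b.repr ⟨f, hf⟩).support, b.repr ⟨f, hf⟩ i • b i : H) : G → L) :=
        congrArg (Subtype.val : H → (G → L)) hrep
      rw [AddSubmonoidClass.coe_finsetSum] at h1
      refine h1.trans ?_
      refine Finset.sum_congr rfl fun i _ => ?_
      rw [algebraMap_smul]
      rfl
    rw [hf2]
    exact Submodule.sum_mem _ fun i _ =>
      Submodule.smul_mem _ _ (Submodule.subset_span ⟨i, rfl⟩)
  let bL : Module.Basis ι L (G → L) := Module.Basis.mk hb hsp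
  have hbL : ∀ i, bL i = (b i : G → L) := fun i => Module.Basis.mk_apply hb hsp i
  let Φ : (G → L) →ₗ[L] L := bL.constr L (fun i => φ (b i))
  have hΦb : ∀ i, Φ (b i : G → L) = φ (b i) := by
    intro i
    rw [← hbL i]
    exact Module.Basis.constr_basis bL L _ i
  have hΦH : ∀ h : H, Φ (h : G → L) = φ h := by
    have h1 : (Φ.restrictScalars R).comp H.val.toLinearMap = φ.toLinearMap :=
      b.ext fun i => hΦb i
    intro h
    exact DFunLike.congr_fun h1 h
  have hΦmul : ∀ u w : G → L, Φ (u * w) = Φ u * Φ w := by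
    have h1 : (LinearMap.mul L (G → L)).compr₂ Φ = (LinearMap.mul L L).compl₁₂ Φ Φ := by
      refine bL.ext fun i => bL.ext fun j => ?_
      simp only [LinearMap.compr₂_apply, LinearMap.mul_apply', LinearMap.compl₁₂_apply]
      rw [hbL i, hbL j, hΦb i, hΦb j, ← map_mul φ, ← hΦH]
      rfl
    intro u w
    exact DFunLike.congr_fun (DFunLike.congr_fun h1 u) w
  have hΦone : Φ 1 = 1 := by
    have h1 := hΦH 1
    rw [map_one] at h1
    exact h1
  have hsum : ∑ x : G, Φ (Pi.single x (1 : L)) = 1 := by
    rw [← map_sum, Finset.univ_sum_single]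
    exact hΦone
  obtain ⟨x, hx⟩ : ∃ x, Φ (Pi.single x (1 : L)) ≠ 0 := by
    by_contra hcon
    have hcon' : ∀ x, Φ (Pi.single x (1 : L)) = 0 := fun x =>
      by_contra fun h => hcon ⟨x, h⟩
    rw [Finset.sum_eq_zero fun x _ => hcon' x] at hsum
    exact zero_ne_one hsum
  refine ⟨x, ?_⟩
  apply AlgHom.ext
  intro h
  have h1 : (h : G → L) * Pi.single x (1 : L) = (h : G → L) x • Pi.single x (1 : L) := by
    funext y
    by_cases hy : y = x
    · subst hy
      simp
    · simp [Pi.single_eq_of_ne hy]
  have h2 := hΦmul (h : G → L) (Pi.single x 1)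
  rw [h1, map_smul, smul_eq_mul] at h2
  have h3 := mul_right_cancel₀ hx h2
  rw [hΦH] at h3
  exact h3.symm

end Points

/-- **HOPF, abstract form.** -/
theorem h21_hopf_of_basis [Finite G] (hinj : Function.Injective (algebraMap R L))
    {ι : Type} [Finite ι] (b : Module.Basis ι R H)
    (hb : LinearIndependent L (fun i => (b i : G → L)))
    (hspan : Submodule.span L (H : Set (G → L)) = ⊤)
    (hcounit : ∀ h ∈ H, ∃ r : R, h 0 = algebraMap R L r)
    (hcomul : ∀ h ∈ H, (fun p : G × G => h (p.1 + p.2)) ∈
      Submodule.span R {f : G × G → L | ∃ h₁ ∈ H, ∃ h₂ ∈ H, f = fun p => h₁ p.1 * h₂ p.2}) :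
    ∃ (H' : Type) (_ : CommRing H') (_ : HopfAlgebra R H'),
      Module.Finite R H' ∧ Module.Flat R H' ∧ Coalgebra.IsCocomm R H' ∧
      ∃ e : WithConv (H' →ₐ[R] L) ≃ G,
        (∀ f g, e (f * g) = e f + e g) ∧
        ∀ (τ : L → L) (t : G → G), (∀ h ∈ H, ∀ x, h (t x) = τ (h x)) →
          ∀ f g : WithConv (H' →ₐ[R] L), (∀ h : H', g h = τ (f h)) → e g = t (e f) := by
  classical
  have hμ := h21_mu2_injective H hinj b hb
  let bi : Bialgebra R H := Bialgebra.ofAlgHom (h21_comul H hμ hcomul)
    (h21_counit H hinj hcounit) (h21_coassoc H hinj b hb hcomul hμ)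
    (h21_rTensor H hinj hcounit hcomul hμ) (h21_lTensor H hinj hcounit hcomul hμ)
  let hopf : HopfAlgebra R H :=
    { toBialgebra := bi
      antipode := h21_antipode H hcounit hcomul
      mul_antipode_rTensor_comul := by
        refine LinearMap.ext fun h => Subtype.ext (funext fun x => ?_)
        have h1 := h21_mul_rTensor H (h21_antipode H hcounit hcomul) (fun x => -x)
          (fun _ _ => rfl) (h21_comul H hμ hcomul h) x
        have h2 := h21_ev2_comul H hμ hcomul (-x) x h
        rw [neg_add_cancel] at h2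
        have h3 := h21_algebraMap_counit H hinj hcounit h
        exact h1.trans (h2.trans h3.symm)
      mul_antipode_lTensor_comul := by
        refine LinearMap.ext fun h => Subtype.ext (funext fun x => ?_)
        have h1 := h21_mul_lTensor H (h21_antipode H hcounit hcomul) (fun x => -x)
          (fun _ _ => rfl) (h21_comul H hμ hcomul h) x
        have h2 := h21_ev2_comul H hμ hcomul x (-x) h
        rw [add_neg_cancel] at h2
        have h3 := h21_algebraMap_counit H hinj hcounit h
        exact h1.trans (h2.trans h3.symm) }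
  refine ⟨H, inferInstance, hopf, ?_, ?_, ?_, ?_⟩
  · exact Module.Finite.of_basis b
  · have := Module.Free.of_basis b
    infer_instance
  · refine ⟨?_⟩
    refine LinearMap.ext fun h => ?_
    apply h21_eq_of_ev2 H hinj b hb
    intro x y
    have e : ∀ t : H ⊗[R] H,
        h21_ev2 H x y (TensorProduct.comm R H H t) = h21_ev2 H y x t := by
      intro t
      induction t using TensorProduct.induction_on with
      | zero => simp
      | tmul a c => simp [mul_comm]
      | add s t hs ht => rw [map_add, map_add, map_add, hs, ht]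
    have e2 : h21_ev2 H x y (TensorProduct.comm R H H (h21_comul H hμ hcomul h)) =
        h21_ev2 H x y (h21_comul H hμ hcomul h) := by
      rw [e, h21_ev2_comul, h21_ev2_comul, add_comm]
    exact e2
  · have hbij : Function.Bijective
        (fun x : G => (WithConv.toConv (h21_ev H x) : WithConv (H →ₐ[R] L))) := by
      constructor
      · intro x y hxy
        exact h21_ev_injective H hspan (WithConv.toConv_injective hxy)
      · intro f
        obtain ⟨x, hx⟩ := h21_exists_ev H b hb hspan f.ofConv
        exact ⟨x, WithConv.ofConv_injective hx.symm⟩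
    let e0 : G ≃ WithConv (H →ₐ[R] L) := Equiv.ofBijective _ hbij
    have he0 : ∀ x, e0 x = WithConv.toConv (h21_ev H x) := fun _ => rfl
    refine ⟨e0.symm, ?_, ?_⟩
    · intro f g
      obtain ⟨x, rfl⟩ := e0.surjective f
      obtain ⟨y, rfl⟩ := e0.surjective g
      rw [Equiv.symm_apply_apply, Equiv.symm_apply_apply, Equiv.symm_apply_eq]
      rw [he0, he0, he0, AlgHom.convMul_def]
      congr 1
      apply AlgHom.ext
      intro h
      have e1 : (Algebra.TensorProduct.lmul' R).comp
          (Algebra.TensorProduct.map (h21_ev H x) (h21_ev H y)) = h21_ev2 H x y := by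
        apply Algebra.TensorProduct.ext'
        intro a c
        simp
      have e2 := DFunLike.congr_fun e1 (h21_comul H hμ hcomul h)
      rw [h21_ev2_comul] at e2
      exact e2
    · intro τ t ht f g hfg
      obtain ⟨x, rfl⟩ := e0.surjective f
      rw [Equiv.symm_apply_apply, Equiv.symm_apply_eq, he0]
      apply WithConv.ofConv_injective
      apply AlgHom.ext
      intro h
      have h1 := hfg h
      rw [he0] at h1
      exact h1.trans (ht h h.2 x).symm

end Construction

end Fermat.Agent.S19

end
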