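import Mathlib
import Fermat.Prelude.Def_GaloisRep_Flat
import Fermat.Agent.S28.ZlBasics
import Fermat.Agent.S19.h26_Defs
import Fermat.Agent.S19.h21_HopfOrder

/-!
# S19, module HOPF, Galois adapter (helper21)

A Hopf order over `ℤ_(ℓ)` inside the functions on a finite Galois module (`h26_IsHopfOrder`)
gives the frozen shape of S19: the order is free over the principal ideal domain `ℤ_(ℓ)`, and a
`ℤ_(ℓ)`-basis consisting of Galois-equivariant functions is linearly independent over `ℚ̄`
(Artin's argument), so `h21_hopf_of_basis` applies.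
-/

set_option autoImplicit false

noncomputable section

namespace Fermat.Agent.S19

local notation "Qb" => AlgebraicClosure ℚ
local notation "Γℚ" => (AlgebraicClosure ℚ ≃ₐ[ℚ] AlgebraicClosure ℚ)

/-- Artin's lemma for equivariant functions: `ℚ`-independent implies `ℚ̄`-independent. -/
theorem h21_artin {G ι : Type*} (f : ι → G → Qb)
    (hequiv : ∀ σ : Γℚ, ∃ t : G → G, ∀ i x, f i (t x) = σ (f i x))
    (hf : LinearIndependent ℚ f) : LinearIndependent Qb f := by
  classical
  have halg : Algebra.IsAlgebraic ℚ Qb := AlgebraicClosure.isAlgebraic ℚ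
  have hclo : IsAlgClosure ℚ Qb := ⟨inferInstance, inferInstance⟩
  have hgal : IsGalois ℚ Qb := IsAlgClosure.isGalois ℚ Qb
  -- twisting a relation by an automorphism
  have htw : ∀ (s : Finset ι) (e : ι → Qb), ∑ i ∈ s, e i • f i = 0 →
      ∀ σ : Γℚ, ∑ i ∈ s, σ (e i) • f i = 0 := by
    intro s e he σ
    obtain ⟨t, ht⟩ := hequiv σ⁻¹
    funext x
    have h1 := congrFun he (t x)
    simp only [Finset.sum_apply, Pi.smul_apply, smul_eq_mul, Pi.zero_apply] at h1 ⊢
    have h2 := congrArg σ h1
    rw [map_sum, map_zero] at h2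
    rw [← h2]
    refine Finset.sum_congr rfl fun i _ => ?_
    rw [map_mul, ht i x]
    congr 1
    exact (AlgEquiv.apply_symm_apply σ (f i x)).symm
  rw [linearIndependent_iff']
  intro s
  induction s using Finset.induction_on with
  | empty =>
    intro c _ i hi
    exact absurd hi (Finset.notMem_empty i)
  | insert j s hj ih =>
    intro c hc
    by_cases hcj : c j = 0
    · have hc' : ∑ i ∈ s, c i • f i = 0 := by
        rw [Finset.sum_insert hj, hcj, zero_smul, zero_add] at hc
        exact hc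
      intro i hi
      rcases Finset.mem_insert.mp hi with rfl | hi'
      · exact hcj
      · exact ih c hc' i hi'
    · exfalso
      -- normalise the coefficient at `j`
      let d : ι → Qb := fun i => c i / c j
      have hdj : d j = 1 := div_self hcj
      have hd : ∑ i ∈ insert j s, d i • f i = 0 := by
        have h1 : ∑ i ∈ insert j s, d i • f i = (c j)⁻¹ • ∑ i ∈ insert j s, c i • f i := by
          rw [Finset.smul_sum]
          refine Finset.sum_congr rfl fun i _ => ?_
          rw [smul_smul]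
          congr 1
          simp only [d]
          rw [div_eq_mul_inv, mul_comm]
        rw [h1, hc, smul_zero]
      -- all coefficients are Galois-fixed
      have hfix : ∀ σ : Γℚ, ∀ i ∈ s, σ (d i) = d i := by
        intro σ
        have h1 := htw _ d hd σ
        have h2 : ∑ i ∈ s, (σ (d i) - d i) • f i = 0 := by
          have h3 : ∑ i ∈ insert j s, (σ (d i) - d i) • f i = 0 := by
            simp only [sub_smul, Finset.sum_sub_distrib]
            rw [h1, hd, sub_zero]
          rw [Finset.sum_insert hj, hdj, map_one, sub_self, zero_smul, zero_add] at h3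
          exact h3
        intro i hi
        exact sub_eq_zero.mp (ih _ h2 i hi)
      have hrat : ∀ i ∈ insert j s, ∃ q : ℚ, d i = algebraMap ℚ Qb q := by
        intro i hi
        rcases Finset.mem_insert.mp hi with rfl | hi'
        · exact ⟨1, by rw [hdj, map_one]⟩
        · have h1 : d i ∈ Set.range (algebraMap ℚ Qb) :=
            (InfiniteGalois.mem_range_algebraMap_iff_fixed (d i)).mpr fun σ => hfix σ i hi'
          obtain ⟨q, hq⟩ := h1
          exact ⟨q, hq.symm⟩
      choose! q hq using hrat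
      have hq0 : ∑ i ∈ insert j s, q i • f i = 0 := by
        rw [← hd]
        refine Finset.sum_congr rfl fun i hi => ?_
        rw [hq i hi, algebraMap_smul]
      have h1 := (linearIndependent_iff'.mp hf) _ q hq0 j (Finset.mem_insert_self j s)
      have h2 := hq j (Finset.mem_insert_self j s)
      rw [h1, map_zero, hdj] at h2
      exact one_ne_zero h2

/-- a `ℤ_(ℓ)`-basis of an order of equivariant functions which is independent over `ℚ̄` -/
theorem h21_exists_basis (ℓ : ℕ) [Fact ℓ.Prime] {G : Type}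
    (H : Subalgebra (GaloisRep.ratLocalizedAt ℓ) (G → Qb))
    (hequiv : ∀ σ : Γℚ, ∃ t : G → G, ∀ h ∈ H, ∀ x, h (t x) = σ (h x))
    (hfg : (Subalgebra.toSubmodule H).FG) :
    ∃ (ι : Type) (_ : Finite ι) (b : Module.Basis ι (GaloisRep.ratLocalizedAt ℓ) H),
      LinearIndependent Qb (fun i => (b i : G → Qb)) := by
  classical
  have hPID := Fermat.Agent.S28.ratLocalizedAt_isPrincipalIdealRing ℓ
  have hfin : Module.Finite (GaloisRep.ratLocalizedAt ℓ) H := Module.Finite.iff_fg.mpr hfg
  have hinjR : Function.Injective (algebraMap (GaloisRep.ratLocalizedAt ℓ) Qb) := by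
    intro r r' hrr
    apply Subtype.ext
    exact (algebraMap ℚ Qb).injective hrr
  have htf : Module.IsTorsionFree (GaloisRep.ratLocalizedAt ℓ) H := by
    refine ⟨fun r hr h h' hh => ?_⟩
    have hr0 : algebraMap (GaloisRep.ratLocalizedAt ℓ) Qb r ≠ 0 := by
      intro h0
      have h1 : r = 0 := hinjR (by rw [h0, map_zero])
      exact hr.ne_zero h1
    apply Subtype.ext
    funext x
    have h1 : algebraMap (GaloisRep.ratLocalizedAt ℓ) Qb r * (h : G → Qb) x =
        algebraMap (GaloisRep.ratLocalizedAt ℓ) Qb r * (h' : G → Qb) x := by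
      have h2 := congrFun (congrArg (Subtype.val : H → (G → Qb)) hh) x
      simpa [Algebra.smul_def] using h2
    exact mul_left_cancel₀ hr0 h1
  have hfree : Module.Free (GaloisRep.ratLocalizedAt ℓ) H := inferInstance
  let b := Module.Free.chooseBasis (GaloisRep.ratLocalizedAt ℓ) H
  refine ⟨_, inferInstance, b, ?_⟩
  -- independence over `ℤ_(ℓ)`, then `ℤ`, then `ℚ`, then `ℚ̄`
  have h1 : LinearIndependent (GaloisRep.ratLocalizedAt ℓ) (fun i => (b i : G → Qb)) := by
    have h2 := b.linearIndependent.map' H.val.toLinearMap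
      (LinearMap.ker_eq_bot.mpr Subtype.val_injective)
    exact h2
  have h2 : LinearIndependent ℤ (fun i => (b i : G → Qb)) := by
    refine LinearIndependent.restrict_scalars (R := ℤ) (K := GaloisRep.ratLocalizedAt ℓ) ?_ h1
    intro m n hmn
    simp only [zsmul_eq_mul, mul_one] at hmn
    have h3 := congrArg (Subtype.val : GaloisRep.ratLocalizedAt ℓ → ℚ) hmn
    simpa using h3
  have h3 : LinearIndependent ℚ (fun i => (b i : G → Qb)) :=
    LinearIndependent.localization ℚ (nonZeroDivisors ℤ) h2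
  refine h21_artin _ ?_ h3
  intro σ
  obtain ⟨t, ht⟩ := hequiv σ
  exact ⟨t, fun i x => ht _ (b i).2 x⟩

/-- **HOPF, Galois form** (raw hypotheses; the equivariance is asked in the weak form "for every
`σ` there is a map `t` of `G` with `h (t x) = σ (h x)` on `H`"). -/
theorem h21_hopf_of_order (ℓ : ℕ) [Fact ℓ.Prime] {G : Type} [AddCommGroup G] [Finite G]
    (H : Subalgebra (GaloisRep.ratLocalizedAt ℓ) (G → Qb))
    (hequiv : ∀ σ : Γℚ, ∃ t : G → G, ∀ h ∈ H, ∀ x, h (t x) = σ (h x))
    (hfg : (Subalgebra.toSubmodule H).FG)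
    (hspan : Submodule.span Qb (H : Set (G → Qb)) = ⊤)
    (hcounit : ∀ h ∈ H, ∃ r : GaloisRep.ratLocalizedAt ℓ, h 0 = algebraMap ℚ Qb (r : ℚ))
    (hcomul : ∀ h ∈ H, (fun p : G × G => h (p.1 + p.2)) ∈
      Submodule.span (GaloisRep.ratLocalizedAt ℓ)
        {f : G × G → Qb | ∃ h₁ ∈ H, ∃ h₂ ∈ H, f = fun p => h₁ p.1 * h₂ p.2}) :
    ∃ (H' : Type) (_ : CommRing H') (_ : HopfAlgebra (GaloisRep.ratLocalizedAt ℓ) H'),
      Module.Finite (GaloisRep.ratLocalizedAt ℓ) H' ∧ Module.Flat (GaloisRep.ratLocalizedAt ℓ) H' ∧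
      Coalgebra.IsCocomm (GaloisRep.ratLocalizedAt ℓ) H' ∧
      ∃ e : WithConv (H' →ₐ[GaloisRep.ratLocalizedAt ℓ] Qb) ≃ G,
        (∀ f g, e (f * g) = e f + e g) ∧
        ∀ (τ : Qb → Qb) (t : G → G), (∀ h ∈ H, ∀ x, h (t x) = τ (h x)) →
          ∀ f g : WithConv (H' →ₐ[GaloisRep.ratLocalizedAt ℓ] Qb),
            (∀ h : H', g h = τ (f h)) → e g = t (e f) := by
  obtain ⟨ι, hι, b, hb⟩ := h21_exists_basis ℓ H hequiv hfg
  have hinjR : Function.Injective (algebraMap (GaloisRep.ratLocalizedAt ℓ) Qb) := by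
    intro r r' hrr
    apply Subtype.ext
    exact (algebraMap ℚ Qb).injective hrr
  exact h21_hopf_of_basis H hinjR b hb hspan hcounit hcomul

/-- **HOPF** in the shape of the skeleton statement `h26_hopf_of_order`: a Hopf order gives the
conclusion of the frozen S19 for the Galois module `G`. -/
theorem h21_hopf_of_isHopfOrder (ℓ : ℕ) [Fact ℓ.Prime]
    {G : Type} [AddCommGroup G] [Finite G] [DistribMulAction Γℚ G]
    (H : Subalgebra (GaloisRep.ratLocalizedAt ℓ) (G → Qb)) (hH : h26_IsHopfOrder ℓ H) :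
    ∃ (H' : Type) (_ : CommRing H') (_ : HopfAlgebra (GaloisRep.ratLocalizedAt ℓ) H'),
      Module.Finite (GaloisRep.ratLocalizedAt ℓ) H' ∧ Module.Flat (GaloisRep.ratLocalizedAt ℓ) H' ∧
      Coalgebra.IsCocomm (GaloisRep.ratLocalizedAt ℓ) H' ∧
      ∃ e : WithConv (H' →ₐ[GaloisRep.ratLocalizedAt ℓ] Qb) ≃ G,
        (∀ f g, e (f * g) = e f + e g) ∧
        ∀ (σ : Γℚ) (f g : WithConv (H' →ₐ[GaloisRep.ratLocalizedAt ℓ] Qb)),
          (∀ h : H', g h = σ (f h)) → e g = σ • e f := by
  obtain ⟨H', i1, i2, h1, h2, h3, e, he, heq⟩ := h21_hopf_of_order ℓ H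
    (fun σ => ⟨fun x => σ • x, fun h hh x => hH.equiv h hh σ x⟩) hH.fg hH.span hH.counit hH.comul
  exact ⟨H', i1, i2, h1, h2, h3, e, he, fun σ f g hfg =>
    heq σ (fun x => σ • x) (fun h hh x => hH.equiv h hh σ x) f g hfg⟩

end Fermat.Agent.S19

end
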