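import Fermat.Agent.S19.h57_OrderOfCoords
import Fermat.Agent.S19.h21_HopfGalois

/-!
# S19, abstract part: **T1** `h26_hopf_order` (helper57; statement = helper26's skeleton, verbatim)

`T1 = h21_hopf_of_isHopfOrder ∘ h26_order_of_coords`: a finite Galois module `G` with a finite
Galois-stable set `C` of integral coordinate functions (`ℓ`-good fields of definition, separating,
closed under the group law over ONE valuation ring `A₀`) has a finite flat cocommutative Hopf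
order over `ℤ_(ℓ)` whose `Qb`-points are `G`, additively and Galois-equivariantly.
-/

set_option autoImplicit false

noncomputable section

namespace Fermat.Agent.S19

local notation "Qb" => AlgebraicClosure ℚ
local notation "Γℚ" => (AlgebraicClosure ℚ ≃ₐ[ℚ] AlgebraicClosure ℚ)

/-- **T1.** -/
theorem h26_hopf_order (ℓ : ℕ) [Fact ℓ.Prime]
    (𝒜 : Set (ValuationSubring Qb)) (A₀ : ValuationSubring Qb) (hA₀ : A₀ ∈ 𝒜)
    (h𝒜stab : ∀ (σ : Γℚ), ∀ A ∈ 𝒜, A.comap (σ : Qb →+* Qb) ∈ 𝒜)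
    (h𝒜R : ∀ q : ℚ, algebraMap ℚ Qb q ∈ A₀ ↔ q ∈ GaloisRep.ratLocalizedAt ℓ)
    {G : Type} [AddCommGroup G] [Finite G] [DistribMulAction Γℚ G]
    (C : Set (G → Qb)) (hCfin : C.Finite)
    (hCstab : ∀ (σ : Γℚ), ∀ c ∈ C, (fun x => σ (c (σ⁻¹ • x))) ∈ C)
    (hCgood : ∀ c ∈ C, ∃ K' : IntermediateField ℚ Qb, h26_LGood 𝒜 K' ∧
      ∀ σ : Γℚ, (∀ a ∈ K', σ a = a) → ∀ x, c (σ • x) = σ (c x))
    (hCint : ∀ c ∈ C, ∀ x, c x ∈ A₀)
    (hCsep : ∀ x y : G, (∀ c ∈ C, c x = c y) → x = y)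
    (hCadd : ∀ c ∈ C, (fun p : G × G => c (p.1 + p.2)) ∈
      Algebra.adjoin A₀ (((fun (c' : G → Qb) (p : G × G) => c' p.1) '' C) ∪
        ((fun (c' : G → Qb) (p : G × G) => c' p.2) '' C))) :
    ∃ (H' : Type) (_ : CommRing H') (_ : HopfAlgebra (GaloisRep.ratLocalizedAt ℓ) H'),
      Module.Finite (GaloisRep.ratLocalizedAt ℓ) H' ∧ Module.Flat (GaloisRep.ratLocalizedAt ℓ) H' ∧
      Coalgebra.IsCocomm (GaloisRep.ratLocalizedAt ℓ) H' ∧
      ∃ e : WithConv (H' →ₐ[GaloisRep.ratLocalizedAt ℓ] Qb) ≃ G,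
        (∀ f g, e (f * g) = e f + e g) ∧
        ∀ (σ : Γℚ) (f g : WithConv (H' →ₐ[GaloisRep.ratLocalizedAt ℓ] Qb)),
          (∀ h : H', g h = σ (f h)) → e g = σ • e f := by
  obtain ⟨H, hH⟩ := h26_order_of_coords ℓ 𝒜 A₀ hA₀ h𝒜stab h𝒜R C hCfin hCstab hCgood hCint hCsep
    hCadd
  exact h21_hopf_of_isHopfOrder ℓ H hH

end Fermat.Agent.S19
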