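import Mathlib
import Fermat.Agent.S18.Defs

/-!
# S19 project, block GEOM: definitions for regular families over a reduction datum (owner helper26)

`R : h39_RedDatum K F k Fb`, `T` a (finite) index type, `B` an `R.A`-subalgebra of `T → R.A`.

* `h26_ON R e` : the family `e` lies in `R.O` and its reductions are `k`-linearly independent;
* `h26_BVec R B e` : families `w : T → F` whose coordinates in `e` are functions in `B`;
* `h26_RegFam R B e w` : a regular family, i.e. `B`-rational vectors with pointwise independent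
  reductions;
* `h26_divSp 𝕜 V X W` : the division space `{f ∈ V | f * X ⊆ W}`;
* `h26_Spans R S w D` : pointwise, `w · t` spans `L(D t)` and its reductions span `L(r0_* (D t))`;
* `h26_GFam R S B e w D` : a regular family spanning `L(D t)` up and down;
* `h26_ONBasis R S e D` : an orthonormal basis of `L(D)` whose reductions are a basis of
  `L(r0_* D)`.
-/

set_option autoImplicit false

noncomputable section

open AlgebraicCurve

namespace Fermat.Agent.S19

open Fermat.Agent.S18

variable {K F k Fb : Type*} [Field K] [Field F] [Algebra K F] [Field k] [Field Fb] [Algebra k Fb]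

/-- an orthonormal family: integral, with linearly independent reductions -/
def h26_ON (R : h39_RedDatum K F k Fb) {ι : Type*} (e : ι → F) : Prop :=
  (∀ i, e i ∈ R.O) ∧ LinearIndependent k (fun i => R.redF (e i))

/-- `B`-rational points of the lattice spanned by `e`: families of vectors whose coordinates in
`e` are functions belonging to `B` -/
def h26_BVec (R : h39_RedDatum K F k Fb) {T : Type*} (B : Subalgebra R.A (T → R.A))
    {ι : Type*} [Fintype ι] (e : ι → F) : Set (T → F) :=
  {w | ∃ c : ι → B, ∀ t, w t = ∑ i, ((((c i : B) : T → R.A) t : R.A) : K) • e i}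

/-- regular family: `B`-rational with pointwise linearly independent reductions -/
def h26_RegFam (R : h39_RedDatum K F k Fb) {T : Type*} (B : Subalgebra R.A (T → R.A))
    {ι : Type*} [Fintype ι] (e : ι → F) {κ : Type*} (w : κ → T → F) : Prop :=
  (∀ j, w j ∈ h26_BVec R B e) ∧ ∀ t, LinearIndependent k (fun j => R.redF (w j t))

/-- the division space `{f ∈ V | f * X ⊆ W}` -/
def h26_divSp (𝕜 : Type*) {E : Type*} [Field 𝕜] [Field E] [Algebra 𝕜 E] (V : Submodule 𝕜 E)
    (X : Set E) (W : Submodule 𝕜 E) : Submodule 𝕜 E where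
  carrier := {f | f ∈ V ∧ ∀ s ∈ X, f * s ∈ W}
  zero_mem' := ⟨V.zero_mem, fun s _ => by rw [zero_mul]; exact W.zero_mem⟩
  add_mem' := by
    rintro a b ⟨ha, ha'⟩ ⟨hb, hb'⟩
    exact ⟨V.add_mem ha hb, fun s hs => by rw [add_mul]; exact W.add_mem (ha' s hs) (hb' s hs)⟩
  smul_mem' := by
    rintro c a ⟨ha, ha'⟩
    exact ⟨V.smul_mem c ha, fun s hs => by rw [smul_mul_assoc]; exact W.smul_mem c (ha' s hs)⟩

theorem h26_mem_divSp {𝕜 : Type*} {E : Type*} [Field 𝕜] [Field E] [Algebra 𝕜 E]
    {V : Submodule 𝕜 E} {X : Set E} {W : Submodule 𝕜 E} {f : E} :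
    f ∈ h26_divSp 𝕜 V X W ↔ f ∈ V ∧ ∀ s ∈ X, f * s ∈ W := Iff.rfl

/-- pointwise, the family spans `L(D t)` and its reductions span `L(r0_* (D t))` -/
def h26_Spans (R : h39_RedDatum K F k Fb) (S : h39_PlaceRed R) {T : Type*} {κ : Type*}
    (w : κ → T → F) (D : T → Divisor K F) : Prop :=
  (∀ t, Submodule.span K (Set.range fun j => w j t) = riemannRochSpace (D t)) ∧
    ∀ t, Submodule.span k (Set.range fun j => R.redF (w j t)) =
      riemannRochSpace (Finsupp.mapDomain S.r0 (D t))

/-- a regular family which spans `L(D t)` upstairs and `L(r0_* (D t))` downstairs -/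
def h26_GFam (R : h39_RedDatum K F k Fb) (S : h39_PlaceRed R) {T : Type*}
    (B : Subalgebra R.A (T → R.A)) {ι : Type*} [Fintype ι] (e : ι → F) {κ : Type*}
    (w : κ → T → F) (D : T → Divisor K F) : Prop :=
  h26_RegFam R B e w ∧ h26_Spans R S w D

/-- an orthonormal basis of `L(D)` whose reductions form a basis of `L(r0_* D)` -/
def h26_ONBasis (R : h39_RedDatum K F k Fb) (S : h39_PlaceRed R) {ι : Type*} (e : ι → F)
    (D : Divisor K F) : Prop :=
  h26_ON R e ∧ Submodule.span K (Set.range e) = riemannRochSpace D ∧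
    Submodule.span k (Set.range fun i => R.redF (e i)) =
      riemannRochSpace (Finsupp.mapDomain S.r0 D)

end Fermat.Agent.S19

end
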