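import Mathlib
import Fermat.Prelude.Def_AlgebraicCurve_BaseChangeGalois
import Fermat.Prelude.Def_AlgebraicCurve_Repartitions
import Fermat.Agent.S18.Defs
import Fermat.Agent.S19.h26_Defs
import Fermat.Agent.S19.h26_FamDefs

/-!
# S19 project, EXIST block: definitions (owner helper23)

The datum of the coordinates is `(Dinf, b', b'')`: a divisor `Dinf` of degree `g` and a frame
`Sum.elim b' b''` of `L(M)` (the last `g` vectors `b''` span the complement of the big cell).

* `h23_IsRep Dinf E z` : `E - Dinf` has degree `0` and class `z` (an effective such `E` is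
  "the" divisor `E_z ∼ z + Dinf`);
* `h23_Good R S M G Dinf b' b''` : the datum is good at the reduction datum `R` for the classes
  in `G`, in exactly the form consumed by the GEOM block (`h26_add`, `h26_graph_coords`,
  `h26_graph_sep`): the frame is an orthonormal basis of `L(M)`, (G1) `l(r0_* E) = 1` and
  (G2, big cell) `L(r0_* (M - E)) ∩ span (red b'') = 0` for every effective `E` in a class
  `z + Dinf`, `z ∈ G`;
* `h23_Arith ℓ R 𝒜` : the arithmetic of `ℚ̄` at `ℓ` in terms of the reduction datum (row C2).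

Definitions only.
-/

set_option autoImplicit false

noncomputable section

open AlgebraicCurve Fermat.Agent.S18

namespace Fermat.Agent.S19

local notation "Qb" => AlgebraicClosure ℚ
local notation "Γℚ" => (AlgebraicClosure ℚ ≃ₐ[ℚ] AlgebraicClosure ℚ)

section Defs

variable {K F : Type*} [Field K] [Field F] [Algebra K F]

/-- `E - Dinf` has degree zero and class `z`. -/
def h23_IsRep (Dinf E : Divisor K F) (z : Pic0 K F) : Prop :=
  ∃ h : E - Dinf ∈ Divisor.degZero (K := K) (F := F), Pic0.mk ⟨E - Dinf, h⟩ = z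

/-- The datum `(Dinf, b', b'')` is good at `R` for the classes in `G`. -/
structure h23_Good {k Fb : Type*} [Field k] [Field Fb] [Algebra k Fb]
    (R : h39_RedDatum K F k Fb) (S : h39_PlaceRed R) (M : Divisor K F)
    (G : Set (Pic0 K F)) {n' g : ℕ} (Dinf : Divisor K F) (b' : Fin n' → F) (b'' : Fin g → F) :
    Prop where
  deg : Divisor.degree Dinf = g
  on : h26_ONBasis R S (Sum.elim b' b'') M
  G1 : ∀ z ∈ G, ∀ E : Divisor K F, 0 ≤ E → h23_IsRep Dinf E z →
    Module.finrank k ↥(riemannRochSpace (Finsupp.mapDomain S.r0 E)) = 1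
  cell : ∀ z ∈ G, ∀ E : Divisor K F, 0 ≤ E → h23_IsRep Dinf E z →
    ∀ f ∈ riemannRochSpace (Finsupp.mapDomain S.r0 (M - E)),
      f ∈ Submodule.span k (Set.range fun i => R.redF (b'' i)) → f = 0

end Defs

/-- The arithmetic of `ℚ̄` at `ℓ` needed by EXIST, in terms of the reduction datum: Frobenius
orbits are finite, and every finite family of residues comes from one "inert" `θ`: `ℚ(θ)` is
`ℓ`-good, integrality at `R.A` of an element of `ℚ(θ)` is integrality at all of `𝒜` and at all
conjugates, and every `τ` acts on the residues of `ℚ(θ) ∩ R.A` by ONE power of Frobenius. -/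
structure h23_Arith {F : Type*} [Field F] [Algebra Qb F] {k Fb : Type*} [Field k] [Field Fb]
    [Algebra k Fb] (ℓ : ℕ) (R : h39_RedDatum Qb F k Fb) (𝒜 : Set (ValuationSubring Qb)) :
    Prop where
  orbit : ∀ c : k, ∃ n : ℕ, 0 < n ∧ c ^ (ℓ ^ n) = c
  theta : ∀ (n : ℕ) (c : Fin n → k), ∃ θ : Qb,
    h26_LGood 𝒜 (⊥ ⊔ IntermediateField.adjoin ℚ {θ}) ∧
    (∀ u ∈ IntermediateField.adjoin ℚ {θ}, u ∈ R.A → h26_Int 𝒜 u) ∧
    (∀ u ∈ IntermediateField.adjoin ℚ {θ}, u ∈ R.A → ∀ τ : Γℚ, τ u ∈ R.A) ∧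
    (∀ τ : Γℚ, ∃ t : ℕ, ∀ u ∈ IntermediateField.adjoin ℚ {θ}, u ∈ R.A →
      R.resK (τ u) = R.resK u ^ (ℓ ^ t)) ∧
    (∀ i, ∃ u ∈ IntermediateField.adjoin ℚ {θ}, u ∈ R.A ∧ R.resK u = c i)

end Fermat.Agent.S19

end
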