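import Fermat.Agent.S19.h14_Inert
import Fermat.Agent.S19.h23_DatumDefs

/-!
# S19, row C2 in the shape of the EXIST block: `h23_Arith` (helper14)

`h14_arith` : for a reduction datum `R` over `ℚ̄` whose valuation ring `R.A` lies over `ℓ`, and
any family `𝒜` of valuation subrings over `ℓ`, the arithmetic package `h23_Arith ℓ R 𝒜` holds
(Frobenius orbits are finite; every finite family of residues comes from one inert `θ`).
-/

set_option autoImplicit false

noncomputable section

namespace Fermat.Agent.S19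

open Polynomial Fermat.Agent.S18

local notation "Qb" => AlgebraicClosure ℚ
local notation "Γℚ" => (AlgebraicClosure ℚ ≃ₐ[ℚ] AlgebraicClosure ℚ)

/-- residues at a valuation subring of `ℚ̄` over `ℓ` are periodic for Frobenius -/
theorem h14_residue_period {ℓ : ℕ} [Fact ℓ.Prime] (A₀ : ValuationSubring Qb)
    (hA₀ : A₀.LiesOverPrime ℓ) (b : IsLocalRing.ResidueField A₀) :
    ∃ n : ℕ, 0 < n ∧ b ^ (ℓ ^ n) = b := by
  haveI := h19_residueField_charP A₀ ℓ hA₀
  letI : Algebra (ZMod ℓ) (IsLocalRing.ResidueField A₀) := ZMod.algebra _ ℓ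
  have hcomp : (algebraMap (ZMod ℓ) (IsLocalRing.ResidueField A₀)).comp
      (Int.castRingHom (ZMod ℓ)) = Int.castRingHom (IsLocalRing.ResidueField A₀) :=
    RingHom.ext_int _ _
  have key : ∀ (P : Polynomial ℤ) (x : IsLocalRing.ResidueField A₀),
      Polynomial.aeval x (P.map (Int.castRingHom (ZMod ℓ))) =
        P.eval₂ (Int.castRingHom (IsLocalRing.ResidueField A₀)) x := by
    intro P x
    rw [Polynomial.aeval_def, Polynomial.eval₂_map, hcomp]
  have hbint : IsIntegral (ZMod ℓ) b := by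
    obtain ⟨q, hq0, hq⟩ := h14_residue_algebraic (ℓ := ℓ) A₀ b
    have halg : IsAlgebraic (ZMod ℓ) b := ⟨q.map _, hq0, by rw [key]; exact hq⟩
    exact halg.isIntegral
  have hlift : minpoly (ZMod ℓ) b ∈ Polynomial.lifts (Int.castRingHom (ZMod ℓ)) := by
    rw [Polynomial.mem_lifts]
    exact Polynomial.map_surjective _ ZMod.intCast_surjective _
  obtain ⟨h, hh, -, -⟩ :=
    Polynomial.lifts_and_natDegree_eq_and_monic hlift (minpoly.monic hbint)
  have hirr : Irreducible (h.map (Int.castRingHom (ZMod ℓ))) := by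
    rw [hh]; exact minpoly.irreducible hbint
  refine h14_exists_period h hirr b ?_
  rw [← key, hh]
  exact minpoly.aeval _ _

/-- the kernel of the residue map of a reduction datum is the maximal ideal -/
theorem h14_res_eq_zero_iff {F : Type*} [Field F] [Algebra Qb F] {k Fb : Type*} [Field k]
    [Field Fb] [Algebra k Fb] (R : h39_RedDatum Qb F k Fb) (x : R.A) :
    R.res x = 0 ↔ IsLocalRing.residue R.A x = 0 := by
  have hmax : (RingHom.ker R.res).IsMaximal :=
    RingHom.ker_isMaximal_of_surjective R.res R.res_surjective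
  have hker : RingHom.ker R.res = IsLocalRing.maximalIdeal R.A :=
    IsLocalRing.eq_maximalIdeal hmax
  rw [IsLocalRing.residue_eq_zero_iff, ← hker, RingHom.mem_ker]

theorem h14_res_eq_of_residue_eq {F : Type*} [Field F] [Algebra Qb F] {k Fb : Type*} [Field k]
    [Field Fb] [Algebra k Fb] (R : h39_RedDatum Qb F k Fb) {x y : R.A}
    (h : IsLocalRing.residue R.A x = IsLocalRing.residue R.A y) : R.res x = R.res y := by
  rw [← sub_eq_zero, ← map_sub] at h ⊢
  exact (h14_res_eq_zero_iff R _).2 h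

/-- **Row C2 of S19 in the shape of the EXIST block.** -/
theorem h14_arith {F : Type*} [Field F] [Algebra Qb F] {k Fb : Type*} [Field k] [Field Fb]
    [Algebra k Fb] (ℓ : ℕ) [Fact ℓ.Prime] (R : h39_RedDatum Qb F k Fb)
    (hR : R.A.LiesOverPrime ℓ) (𝒜 : Set (ValuationSubring Qb))
    (h𝒜 : ∀ A ∈ 𝒜, A.LiesOverPrime ℓ) : h23_Arith ℓ R 𝒜 := by
  refine ⟨?_, ?_⟩
  · intro c
    obtain ⟨x, rfl⟩ := R.res_surjective c
    obtain ⟨n, hn0, hn⟩ := h14_residue_period R.A hR (IsLocalRing.residue R.A x)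
    refine ⟨n, hn0, ?_⟩
    rw [← map_pow] at hn ⊢
    exact h14_res_eq_of_residue_eq R hn
  · intro n c
    choose x hx using fun i => R.res_surjective (c i)
    obtain ⟨θ, hθ, P, hP⟩ := h14_exists_inert ℓ R.A hR (fun i => IsLocalRing.residue R.A (x i))
    refine ⟨θ, h14_inert_lgood hθ 𝒜 h𝒜 ⊥ h26_LGood.bot, ?_, ?_, ?_, ?_⟩
    · intro u hu huA A hA
      exact h14_inert_field_mem hθ R.A hR u hu huA A (h𝒜 A hA)
    · intro u hu huA τ
      obtain ⟨t, ht⟩ := h14_inert_frob hθ R.A hR τ
      exact (ht u hu huA).1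
    · intro τ
      obtain ⟨t, ht⟩ := h14_inert_frob hθ R.A hR τ
      refine ⟨t, fun u hu huA => ?_⟩
      obtain ⟨hτ, hres⟩ := ht u hu huA
      rw [R.resK_of_mem hτ, R.resK_of_mem huA, ← map_pow]
      rw [← map_pow] at hres
      exact h14_res_eq_of_residue_eq R hres
    · intro i
      obtain ⟨hm, hres⟩ := hP i
      refine ⟨Polynomial.aeval θ (P i), ?_, hm, ?_⟩
      · have h1 : θ ∈ IntermediateField.adjoin ℚ {θ} :=
          IntermediateField.mem_adjoin_simple_self ℚ θ
        rw [Polynomial.aeval_eq_sum_range]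
        refine sum_mem fun j _ => ?_
        rw [zsmul_eq_mul]
        exact mul_mem (intCast_mem _ _) (pow_mem h1 j)
      · rw [R.resK_of_mem hm, ← hx i]
        exact h14_res_eq_of_residue_eq R hres

end Fermat.Agent.S19

end
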