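import Mathlib
import Fermat.Agent.S19.h26_Defs
import Fermat.Agent.S18.h19_ResField

/-!
# S19, block C2 (FROB-CHOICE): inert generators of `ℚ̄` at `ℓ` (helper14)

`h14_Inert ℓ θ` : `θ` is a root of a monic integer polynomial which is irreducible modulo `ℓ`
(so `ℓ` is inert in `ℚ(θ)` and `ℤ_(ℓ)[θ]` is the unique valuation ring of `ℚ(θ)` over `ℓ`).

* `h14_exists_inert` : every finite family of residues at a valuation ring `A₀` over `ℓ` is
  polynomial in one inert `θ`;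
* `h14_inert_field` : `A₀ ∩ ℚ(θ) = ℤ_(ℓ)[θ]`;
* `h14_inert_frob` : a Galois conjugation acts on the residues of `A₀ ∩ ℚ(θ)` by a power of
  Frobenius;
* `h14_inert_lgood`, `h14_inert_step` : steps of `ℓ`-good towers (`h26_LGood`).
-/

set_option autoImplicit false

noncomputable section

namespace Fermat.Agent.S19

open Polynomial Fermat.Agent.S18

local notation "Qb" => AlgebraicClosure ℚ
local notation "Γℚ" => (AlgebraicClosure ℚ ≃ₐ[ℚ] AlgebraicClosure ℚ)

/-- `θ` is an inert generator at `ℓ`: a root of a monic integer polynomial which is irreducible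
modulo `ℓ`. -/
def h14_Inert (ℓ : ℕ) (θ : Qb) : Prop :=
  ∃ h : Polynomial ℤ, h.Monic ∧ Irreducible (h.map (Int.castRingHom (ZMod ℓ))) ∧
    Polynomial.aeval θ h = 0

/-- integral elements lie in every valuation subring -/
theorem h14_mem_of_isIntegral (A : ValuationSubring Qb) {x : Qb} (hx : IsIntegral ℤ x) :
    x ∈ A := by
  have h1 : IsIntegral A x := hx.tower_top
  obtain ⟨y, rfl⟩ := (IsIntegrallyClosed.isIntegral_iff (R := A) (K := Qb)).1 h1
  exact y.2

theorem h14_Inert.isIntegral {ℓ : ℕ} {θ : Qb} (hθ : h14_Inert ℓ θ) : IsIntegral ℤ θ := by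
  obtain ⟨h, hm, -, hr⟩ := hθ
  exact ⟨h, hm, by rwa [← Polynomial.aeval_def]⟩

theorem h14_isIntegral_aeval {θ : Qb} (hθ : IsIntegral ℤ θ) (P : Polynomial ℤ) :
    IsIntegral ℤ (Polynomial.aeval θ P) := by
  rw [Polynomial.aeval_eq_sum_range]
  refine IsIntegral.sum _ fun i _ => ?_
  rw [zsmul_eq_mul]
  exact IsIntegral.mul isIntegral_algebraMap (hθ.pow i)

/-- polynomials in an integral element lie in every valuation subring -/
theorem h14_aeval_mem {θ : Qb} (hθ : IsIntegral ℤ θ) (A : ValuationSubring Qb)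
    (P : Polynomial ℤ) : Polynomial.aeval θ P ∈ A :=
  h14_mem_of_isIntegral A (h14_isIntegral_aeval hθ P)

/-- a polynomial which vanishes modulo `ℓ` is divisible by `ℓ` -/
theorem h14_map_eq_zero (ℓ : ℕ) (D : Polynomial ℤ)
    (hD : D.map (Int.castRingHom (ZMod ℓ)) = 0) : ∃ W : Polynomial ℤ, D = C (ℓ : ℤ) * W := by
  have h1 : C (ℓ : ℤ) ∣ D := by
    rw [Polynomial.C_dvd_iff_dvd_coeff]
    intro i
    have h2 : (D.map (Int.castRingHom (ZMod ℓ))).coeff i = 0 := by rw [hD, coeff_zero]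
    rw [Polynomial.coeff_map] at h2
    exact (ZMod.intCast_zmod_eq_zero_iff_dvd _ _).1 h2
  exact h1

/-- first alternative: divisible by `h` modulo `ℓ` -/
theorem h14_inert_dvd {ℓ : ℕ} {θ : Qb} {h : Polynomial ℤ} (hroot : Polynomial.aeval θ h = 0)
    (P : Polynomial ℤ)
    (hdvd : h.map (Int.castRingHom (ZMod ℓ)) ∣ P.map (Int.castRingHom (ZMod ℓ))) :
    ∃ P' : Polynomial ℤ, Polynomial.aeval θ P = (ℓ : Qb) * Polynomial.aeval θ P' := by
  obtain ⟨Qb', hQ⟩ := hdvd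
  obtain ⟨Q, rfl⟩ := Polynomial.map_surjective (Int.castRingHom (ZMod ℓ))
    (ZMod.intCast_surjective) Qb'
  obtain ⟨W, hW⟩ := h14_map_eq_zero ℓ (P - h * Q) (by
    rw [Polynomial.map_sub, Polynomial.map_mul, hQ, sub_self])
  refine ⟨W, ?_⟩
  have h1 : P = h * Q + C (ℓ : ℤ) * W := by rw [← hW]; ring
  rw [h1, map_add, map_mul, map_mul, hroot, zero_mul, zero_add, Polynomial.aeval_C]
  simp

/-- second alternative: prime to `h` modulo `ℓ` -/
theorem h14_inert_coprime {ℓ : ℕ} {θ : Qb} {h : Polynomial ℤ}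
    (hirr : Irreducible (h.map (Int.castRingHom (ZMod ℓ)))) [Fact ℓ.Prime]
    (hroot : Polynomial.aeval θ h = 0) (P : Polynomial ℤ)
    (hndvd : ¬ h.map (Int.castRingHom (ZMod ℓ)) ∣ P.map (Int.castRingHom (ZMod ℓ))) :
    ∃ V W : Polynomial ℤ,
      Polynomial.aeval θ V * Polynomial.aeval θ P = 1 + (ℓ : Qb) * Polynomial.aeval θ W := by
  obtain ⟨u, v, huv⟩ := (hirr.coprime_iff_not_dvd).2 hndvd
  obtain ⟨U, rfl⟩ := Polynomial.map_surjective (Int.castRingHom (ZMod ℓ))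
    (ZMod.intCast_surjective) u
  obtain ⟨V, rfl⟩ := Polynomial.map_surjective (Int.castRingHom (ZMod ℓ))
    (ZMod.intCast_surjective) v
  obtain ⟨W, hW⟩ := h14_map_eq_zero ℓ (U * h + V * P - 1) (by
    rw [Polynomial.map_sub, Polynomial.map_add, Polynomial.map_mul, Polynomial.map_mul, huv,
      Polynomial.map_one, sub_self])
  refine ⟨V, W, ?_⟩
  have h1 : V * P = 1 + C (ℓ : ℤ) * W - U * h := by rw [← hW]; ring
  rw [← map_mul, h1, map_sub, map_add, map_mul, map_mul, hroot, mul_zero, sub_zero,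
    Polynomial.aeval_C, map_one]
  simp

/-! ### units -/

theorem h14_val_ell_lt_one {ℓ : ℕ} (A : ValuationSubring Qb) (hA : A.LiesOverPrime ℓ) :
    A.valuation (ℓ : Qb) < 1 :=
  A.mem_nonunits_iff.1 hA

/-- `1 + ℓ w` has value one at every valuation subring over `ℓ` containing `w` -/
theorem h14_val_one_add {ℓ : ℕ} (A : ValuationSubring Qb) (hA : A.LiesOverPrime ℓ) {w : Qb}
    (hw : w ∈ A) : A.valuation (1 + (ℓ : Qb) * w) = 1 := by
  apply Valuation.map_one_add_of_lt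
  rw [map_mul]
  have h1 : A.valuation (ℓ : Qb) < 1 := h14_val_ell_lt_one A hA
  have h2 : A.valuation w ≤ 1 := (A.valuation_le_one_iff w).2 hw
  calc A.valuation (ℓ : Qb) * A.valuation w ≤ A.valuation (ℓ : Qb) * 1 := by gcongr
    _ < 1 := by rwa [mul_one]

theorem h14_inv_mem_of_val_eq_one (A : ValuationSubring Qb) {x : Qb} (hx : A.valuation x = 1) :
    x ≠ 0 ∧ x ∈ A ∧ x⁻¹ ∈ A := by
  refine ⟨?_, ?_, ?_⟩
  · rintro rfl
    rw [map_zero] at hx
    exact zero_ne_one hx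
  · exact (A.valuation_le_one_iff x).1 hx.le
  · refine (A.valuation_le_one_iff _).1 ?_
    rw [map_inv₀, hx, inv_one]

/-- a polynomial in `θ` which is prime to `h` modulo `ℓ` is a unit at every valuation subring
over `ℓ` -/
theorem h14_inert_val_eq_one {ℓ : ℕ} [Fact ℓ.Prime] {θ : Qb} {h : Polynomial ℤ} (hm : h.Monic)
    (hirr : Irreducible (h.map (Int.castRingHom (ZMod ℓ))))
    (hroot : Polynomial.aeval θ h = 0) (P : Polynomial ℤ)
    (hndvd : ¬ h.map (Int.castRingHom (ZMod ℓ)) ∣ P.map (Int.castRingHom (ZMod ℓ)))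
    (A : ValuationSubring Qb) (hA : A.LiesOverPrime ℓ) :
    A.valuation (Polynomial.aeval θ P) = 1 := by
  have hθ : IsIntegral ℤ θ := ⟨h, hm, by rwa [← Polynomial.aeval_def]⟩
  obtain ⟨V, W, hVW⟩ := h14_inert_coprime hirr hroot P hndvd
  have h1 := h14_val_one_add A hA (h14_aeval_mem hθ A W)
  rw [← hVW, map_mul] at h1
  have h2 : A.valuation (Polynomial.aeval θ V) ≤ 1 :=
    (A.valuation_le_one_iff _).2 (h14_aeval_mem hθ A V)
  have h3 : A.valuation (Polynomial.aeval θ P) ≤ 1 :=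
    (A.valuation_le_one_iff _).2 (h14_aeval_mem hθ A P)
  refine le_antisymm h3 ?_
  calc (1 : A.ValueGroup) = A.valuation (Polynomial.aeval θ V) * A.valuation (Polynomial.aeval θ P) :=
        h1.symm
    _ ≤ 1 * A.valuation (Polynomial.aeval θ P) := by gcongr
    _ = A.valuation (Polynomial.aeval θ P) := one_mul _

/-- **(KER)** a polynomial in an inert `θ` which is a non-unit at ONE valuation subring over `ℓ`
is `ℓ` times a polynomial in `θ`. -/
theorem h14_inert_ker {ℓ : ℕ} [Fact ℓ.Prime] {θ : Qb} (hθ : h14_Inert ℓ θ)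
    (A : ValuationSubring Qb) (hA : A.LiesOverPrime ℓ) (P : Polynomial ℤ)
    (hP : Polynomial.aeval θ P ∈ A.nonunits) :
    ∃ P' : Polynomial ℤ, Polynomial.aeval θ P = (ℓ : Qb) * Polynomial.aeval θ P' := by
  obtain ⟨h, hm, hirr, hroot⟩ := hθ
  by_cases hd : h.map (Int.castRingHom (ZMod ℓ)) ∣ P.map (Int.castRingHom (ZMod ℓ))
  · exact h14_inert_dvd hroot P hd
  · exfalso
    have h1 := h14_inert_val_eq_one hm hirr hroot P hd A hA
    rw [A.mem_nonunits_iff, h1] at hP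
    exact lt_irrefl _ hP

/-- elements of `ℚ(θ)` are polynomials in `θ` over `ℤ` up to a nonzero natural denominator -/
theorem h14_adjoin_exists_den {θ : Qb} (hθ : IsIntegral ℤ θ) (a : Qb)
    (ha : a ∈ IntermediateField.adjoin ℚ {θ}) :
    ∃ (P : Polynomial ℤ) (m : ℕ), m ≠ 0 ∧ (m : Qb) * a = Polynomial.aeval θ P := by
  have hθ' : IsAlgebraic ℚ θ := (hθ.tower_top (A := ℚ)).isAlgebraic
  have h1 : a ∈ (IntermediateField.adjoin ℚ {θ}).toSubalgebra := ha
  rw [IntermediateField.adjoin_simple_toSubalgebra_of_isAlgebraic hθ',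
    Algebra.adjoin_singleton_eq_range_aeval] at h1
  obtain ⟨p, hp⟩ := h1
  have hp' : a = Polynomial.aeval θ p := hp.symm
  subst hp'
  clear hp
  obtain ⟨b', hb', hb⟩ := IsLocalization.integerNormalization_spec (nonZeroDivisors ℤ) p
  lift b' to nonZeroDivisors ℤ using hb' with b
  set P := IsLocalization.integerNormalization (nonZeroDivisors ℤ) p with hPdef
  have hb0 : (b : ℤ) ≠ 0 := nonZeroDivisors.coe_ne_zero b
  have h2 : ((b : ℤ) : Qb) * Polynomial.aeval θ p = Polynomial.aeval θ P := by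
    have h3 : Polynomial.aeval θ (P.map (algebraMap ℤ ℚ)) = Polynomial.aeval θ P :=
      Polynomial.aeval_map_algebraMap _ _ _
    rw [← h3, hb, map_zsmul, zsmul_eq_mul]
  rcases Int.natAbs_eq (b : ℤ) with hbe | hbe
  · refine ⟨P, (b : ℤ).natAbs, Int.natAbs_ne_zero.2 hb0, ?_⟩
    rw [← h2]
    congr 1
    rw [hbe]
    simp
  · refine ⟨-P, (b : ℤ).natAbs, Int.natAbs_ne_zero.2 hb0, ?_⟩
    rw [map_neg, ← h2]
    have : ((b : ℤ) : Qb) = -(((b : ℤ).natAbs : ℕ) : Qb) := by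
      conv_lhs => rw [hbe]
      simp
    rw [this]
    ring

theorem h14_inert_field_aux {ℓ : ℕ} [Fact ℓ.Prime] {θ : Qb} (hθ : h14_Inert ℓ θ)
    (A₀ : ValuationSubring Qb) (hA₀ : A₀.LiesOverPrime ℓ) (a : Qb) (ha₀ : a ∈ A₀) (m' : ℕ) :
    ∀ (s : ℕ) (P : Polynomial ℤ), ((ℓ ^ s * m' : ℕ) : Qb) * a = Polynomial.aeval θ P →
      ∃ P' : Polynomial ℤ, (m' : Qb) * a = Polynomial.aeval θ P' := by
  intro s
  induction s with
  | zero =>
    intro P hP
    exact ⟨P, by simpa using hP⟩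
  | succ s ih =>
    intro P hP
    have hℓ0 : (ℓ : Qb) ≠ 0 := by exact_mod_cast (Fact.out : ℓ.Prime).ne_zero
    have h1 : Polynomial.aeval θ P = (ℓ : Qb) * (((ℓ ^ s * m' : ℕ) : Qb) * a) := by
      rw [← hP]
      push_cast
      ring
    have h2 : Polynomial.aeval θ P ∈ A₀.nonunits := by
      rw [A₀.mem_nonunits_iff, h1, map_mul]
      have h3 : A₀.valuation (((ℓ ^ s * m' : ℕ) : Qb) * a) ≤ 1 :=
        (A₀.valuation_le_one_iff _).2 (A₀.mul_mem _ _ (natCast_mem A₀ _) ha₀)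
      calc A₀.valuation (ℓ : Qb) * A₀.valuation (((ℓ ^ s * m' : ℕ) : Qb) * a)
          ≤ A₀.valuation (ℓ : Qb) * 1 := by gcongr
        _ < 1 := by rw [mul_one]; exact h14_val_ell_lt_one A₀ hA₀
    obtain ⟨P₁, hP₁⟩ := h14_inert_ker hθ A₀ hA₀ P h2
    refine ih P₁ ?_
    rw [h1] at hP₁
    exact mul_left_cancel₀ hℓ0 hP₁

/-- **(C2b, UNIQUE VALUATION)** `A₀ ∩ ℚ(θ) = ℤ_(ℓ)[θ]` for an inert `θ`. -/
theorem h14_inert_field {ℓ : ℕ} [Fact ℓ.Prime] {θ : Qb} (hθ : h14_Inert ℓ θ)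
    (A₀ : ValuationSubring Qb) (hA₀ : A₀.LiesOverPrime ℓ) (a : Qb)
    (ha : a ∈ IntermediateField.adjoin ℚ {θ}) (ha₀ : a ∈ A₀) :
    ∃ (P : Polynomial ℤ) (m : ℕ), ¬ ℓ ∣ m ∧ (m : Qb) * a = Polynomial.aeval θ P := by
  obtain ⟨P, m, hm0, hP⟩ := h14_adjoin_exists_den hθ.isIntegral a ha
  obtain ⟨s, m', hm', rfl⟩ := Nat.exists_eq_pow_mul_and_not_dvd hm0 ℓ
    (Fact.out : ℓ.Prime).ne_one
  obtain ⟨P', hP'⟩ := h14_inert_field_aux hθ A₀ hA₀ a ha₀ m' s P hP
  exact ⟨P', m', hm', hP'⟩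

/-- natural numbers prime to `ℓ` are units at every valuation subring over `ℓ` -/
theorem h14_val_natCast {ℓ : ℕ} [Fact ℓ.Prime] (A : ValuationSubring Qb)
    (hA : A.LiesOverPrime ℓ) (m : ℕ) (hm : ¬ ℓ ∣ m) : A.valuation (m : Qb) = 1 := by
  have hle : A.valuation (m : Qb) ≤ 1 := (A.valuation_le_one_iff _).2 (natCast_mem A m)
  refine le_antisymm hle ?_
  by_contra hlt
  rw [not_le] at hlt
  have hcop : Nat.Coprime ℓ m := (Nat.Prime.coprime_iff_not_dvd Fact.out).2 hm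
  have e : (1 : Qb) = (ℓ : Qb) * ((Nat.gcdA ℓ m : ℤ) : Qb) + (m : Qb) * ((Nat.gcdB ℓ m : ℤ) : Qb) := by
    have h1 := Nat.gcd_eq_gcd_ab ℓ m
    rw [hcop] at h1
    have h2 : ((1 : ℕ) : Qb) = (((ℓ : ℤ) * Nat.gcdA ℓ m + (m : ℤ) * Nat.gcdB ℓ m : ℤ) : Qb) := by
      rw [← h1]; simp
    simpa using h2
  have h3 : A.valuation (1 : Qb) < 1 := by
    rw [e]
    refine lt_of_le_of_lt (Valuation.map_add _ _ _) (max_lt ?_ ?_)
    · rw [map_mul]
      calc A.valuation (ℓ : Qb) * A.valuation ((Nat.gcdA ℓ m : ℤ) : Qb)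
          ≤ A.valuation (ℓ : Qb) * 1 := by
            gcongr
            exact (A.valuation_le_one_iff _).2 (intCast_mem A _)
        _ < 1 := by rw [mul_one]; exact h14_val_ell_lt_one A hA
    · rw [map_mul]
      calc A.valuation (m : Qb) * A.valuation ((Nat.gcdB ℓ m : ℤ) : Qb)
          ≤ A.valuation (m : Qb) * 1 := by
            gcongr
            exact (A.valuation_le_one_iff _).2 (intCast_mem A _)
        _ < 1 := by rw [mul_one]; exact hlt
  rw [map_one] at h3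
  exact lt_irrefl _ h3

/-- elements of `ℚ(θ)` which are integral at ONE valuation subring over `ℓ` are integral at
EVERY valuation subring over `ℓ` -/
theorem h14_inert_field_mem {ℓ : ℕ} [Fact ℓ.Prime] {θ : Qb} (hθ : h14_Inert ℓ θ)
    (A₀ : ValuationSubring Qb) (hA₀ : A₀.LiesOverPrime ℓ) (a : Qb)
    (ha : a ∈ IntermediateField.adjoin ℚ {θ}) (ha₀ : a ∈ A₀)
    (A : ValuationSubring Qb) (hA : A.LiesOverPrime ℓ) : a ∈ A := by
  obtain ⟨P, m, hm, hP⟩ := h14_inert_field hθ A₀ hA₀ a ha ha₀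
  obtain ⟨hm0, -, hminv⟩ := h14_inv_mem_of_val_eq_one A (h14_val_natCast A hA m hm)
  have h1 : a = (m : Qb)⁻¹ * Polynomial.aeval θ P := by
    rw [← hP, ← mul_assoc, inv_mul_cancel₀ hm0, one_mul]
  rw [h1]
  exact A.mul_mem _ _ hminv (h14_aeval_mem hθ.isIntegral A P)

/-! ### residues and Frobenius -/

/-- the residue of a polynomial expression -/
theorem h14_residue_aeval (A : ValuationSubring Qb) {θ : Qb} (hθ : θ ∈ A) (P : Polynomial ℤ)
    (hP : Polynomial.aeval θ P ∈ A) :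
    IsLocalRing.residue A ⟨Polynomial.aeval θ P, hP⟩ =
      Polynomial.eval₂ (Int.castRingHom (IsLocalRing.ResidueField A))
        (IsLocalRing.residue A ⟨θ, hθ⟩) P := by
  have h1 : (⟨Polynomial.aeval θ P, hP⟩ : A) = Polynomial.aeval (⟨θ, hθ⟩ : A) P := by
    apply Subtype.ext
    exact Polynomial.aeval_algebraMap_apply Qb (⟨θ, hθ⟩ : A) P
  rw [h1, Polynomial.aeval_def, Polynomial.hom_eval₂]
  congr 1

/-- Frobenius commutes with integer polynomials -/
theorem h14_eval₂_pow {ℓ : ℕ} [Fact ℓ.Prime] {k : Type*} [Field k] [CharP k ℓ]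
    (P : Polynomial ℤ) (x : k) (t : ℕ) :
    Polynomial.eval₂ (Int.castRingHom k) (x ^ (ℓ ^ t)) P =
      (Polynomial.eval₂ (Int.castRingHom k) x P) ^ (ℓ ^ t) := by
  have h1 := Polynomial.hom_eval₂ P (Int.castRingHom k) (iterateFrobenius k ℓ t) x
  rw [iterateFrobenius_def, iterateFrobenius_def] at h1
  rw [h1]
  congr 1
  exact RingHom.ext_int _ _

/-- a root of a polynomial which is irreducible modulo `ℓ`, in a field of characteristic `ℓ`,
is periodic for Frobenius -/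
theorem h14_exists_period {ℓ : ℕ} [Fact ℓ.Prime] {k : Type*} [Field k] [CharP k ℓ]
    (h : Polynomial ℤ) (hirr : Irreducible (h.map (Int.castRingHom (ZMod ℓ)))) (γ : k)
    (hγ : Polynomial.eval₂ (Int.castRingHom k) γ h = 0) : ∃ n : ℕ, 0 < n ∧ γ ^ (ℓ ^ n) = γ := by
  haveI : Fact (Irreducible (h.map (Int.castRingHom (ZMod ℓ)))) := ⟨hirr⟩
  haveI : Module.Finite (ZMod ℓ) (AdjoinRoot (h.map (Int.castRingHom (ZMod ℓ)))) :=
    (AdjoinRoot.powerBasis hirr.ne_zero).finite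
  haveI : Finite (AdjoinRoot (h.map (Int.castRingHom (ZMod ℓ)))) :=
    Module.finite_of_finite (ZMod ℓ)
  haveI : Fintype (AdjoinRoot (h.map (Int.castRingHom (ZMod ℓ)))) := Fintype.ofFinite _
  haveI : CharP (AdjoinRoot (h.map (Int.castRingHom (ZMod ℓ)))) ℓ :=
    charP_of_injective_algebraMap
      (algebraMap (ZMod ℓ) (AdjoinRoot (h.map (Int.castRingHom (ZMod ℓ))))).injective ℓ
  obtain ⟨n, -, hn⟩ := FiniteField.card (AdjoinRoot (h.map (Int.castRingHom (ZMod ℓ)))) ℓ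
  have h1 : (AdjoinRoot.root (h.map (Int.castRingHom (ZMod ℓ)))) ^ (ℓ ^ (n : ℕ)) =
      AdjoinRoot.root (h.map (Int.castRingHom (ZMod ℓ))) := by
    rw [← hn]; exact FiniteField.pow_card _
  have hcomp : (ZMod.castHom (dvd_refl ℓ) k).comp (Int.castRingHom (ZMod ℓ)) =
      Int.castRingHom k := RingHom.ext_int _ _
  have hγ' : (h.map (Int.castRingHom (ZMod ℓ))).eval₂ (ZMod.castHom (dvd_refl ℓ) k) γ = 0 := by
    rw [Polynomial.eval₂_map, hcomp]; exact hγ
  have h2 := congrArg (AdjoinRoot.lift (ZMod.castHom (dvd_refl ℓ) k) γ hγ') h1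
  rw [map_pow, AdjoinRoot.lift_root] at h2
  exact ⟨n, n.pos, h2⟩

/-- **Frobenius orbit.** Two roots, in a field of characteristic `ℓ`, of an integer polynomial
which is irreducible modulo `ℓ` are conjugate under a power of Frobenius. -/
theorem h14_root_frob {ℓ : ℕ} [Fact ℓ.Prime] {k : Type*} [Field k] [CharP k ℓ]
    (h : Polynomial ℤ) (hirr : Irreducible (h.map (Int.castRingHom (ZMod ℓ)))) (γ γ' : k)
    (hγ : Polynomial.eval₂ (Int.castRingHom k) γ h = 0)
    (hγ' : Polynomial.eval₂ (Int.castRingHom k) γ' h = 0) : ∃ t : ℕ, γ' = γ ^ (ℓ ^ t) := by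
  obtain ⟨n, hn0, hn⟩ := h14_exists_period h hirr γ hγ
  set g : Polynomial k := ∏ t ∈ Finset.range n, (X - C (γ ^ (ℓ ^ t))) with hg
  have hfrob : g.map (frobenius k ℓ) = g := by
    rw [hg, Polynomial.map_prod]
    have h1 : ∀ t ∈ Finset.range n, (X - C (γ ^ (ℓ ^ t)) : Polynomial k).map (frobenius k ℓ) =
        X - C (γ ^ (ℓ ^ (t + 1))) := by
      intro t _
      rw [Polynomial.map_sub, Polynomial.map_X, Polynomial.map_C, frobenius_def, ← pow_mul,
        ← pow_succ]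
    rw [Finset.prod_congr rfl h1]
    have h2 := Finset.prod_range_succ' (fun t => (X - C (γ ^ (ℓ ^ t)) : Polynomial k)) n
    have h3 := Finset.prod_range_succ (fun t => (X - C (γ ^ (ℓ ^ t)) : Polynomial k)) n
    rw [h3] at h2
    have h4 : (X - C (γ ^ (ℓ ^ n)) : Polynomial k) = X - C (γ ^ (ℓ ^ 0)) := by
      rw [hn, pow_zero, pow_one]
    rw [h4] at h2
    exact (mul_right_cancel₀ (Polynomial.X_sub_C_ne_zero _) h2).symm
  have hlift : g ∈ Polynomial.lifts (Int.castRingHom k) := by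
    rw [Polynomial.lifts_iff_coeff_lifts]
    intro i
    have h1 : (g.coeff i) ^ ℓ = g.coeff i := by
      conv_rhs => rw [← hfrob]
      rw [Polynomial.coeff_map, frobenius_def]
    have h2 := (Subfield.mem_bot_iff_pow_eq_self k ℓ).2 h1
    obtain ⟨m, hm⟩ := (mem_bot_iff_intCast ℓ k).1 h2
    exact ⟨m, hm⟩
  obtain ⟨G, hG⟩ := (Polynomial.mem_lifts _).1 hlift
  have hgγ : g.eval γ = 0 := by
    rw [hg, Polynomial.eval_prod]
    refine Finset.prod_eq_zero (Finset.mem_range.2 hn0) ?_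
    simp
  have hcomp : (ZMod.castHom (dvd_refl ℓ) k).comp (Int.castRingHom (ZMod ℓ)) =
      Int.castRingHom k := RingHom.ext_int _ _
  have key : ∀ (P : Polynomial ℤ) (x : k),
      (P.map (Int.castRingHom (ZMod ℓ))).eval₂ (ZMod.castHom (dvd_refl ℓ) k) x =
        P.eval₂ (Int.castRingHom k) x := by
    intro P x; rw [Polynomial.eval₂_map, hcomp]
  have hdvd : h.map (Int.castRingHom (ZMod ℓ)) ∣ G.map (Int.castRingHom (ZMod ℓ)) := by
    by_contra hnd
    obtain ⟨u, v, huv⟩ := (hirr.coprime_iff_not_dvd).2 hnd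
    have h1 := congrArg (Polynomial.eval₂ (ZMod.castHom (dvd_refl ℓ) k) γ) huv
    have h2 : G.eval₂ (Int.castRingHom k) γ = 0 := by
      rw [Polynomial.eval₂_eq_eval_map, hG]; exact hgγ
    rw [Polynomial.eval₂_add, Polynomial.eval₂_mul, Polynomial.eval₂_mul, key, key, hγ,
      Polynomial.eval₂_one, mul_zero, zero_add, h2, mul_zero] at h1
    exact zero_ne_one h1
  obtain ⟨q, hq⟩ := hdvd
  have hgγ' : g.eval γ' = 0 := by
    rw [← hG, ← Polynomial.eval₂_eq_eval_map, ← key, hq, Polynomial.eval₂_mul, key, hγ', zero_mul]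
  rw [hg, Polynomial.eval_prod, Finset.prod_eq_zero_iff] at hgγ'
  obtain ⟨t, -, ht⟩ := hgγ'
  refine ⟨t, ?_⟩
  rw [Polynomial.eval_sub, Polynomial.eval_X, Polynomial.eval_C, sub_eq_zero] at ht
  exact ht

theorem h14_aeval_conj (τ : Γℚ) (θ : Qb) (P : Polynomial ℤ) :
    τ (Polynomial.aeval θ P) = Polynomial.aeval (τ θ) P := by
  rw [Polynomial.aeval_def, Polynomial.aeval_def]
  have h1 := Polynomial.hom_eval₂ P (algebraMap ℤ Qb) (τ : Qb →+* Qb) θ
  rw [RingHom.coe_coe] at h1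
  rw [h1]
  congr 1
  exact RingHom.ext_int _ _

/-- **(FROB, polynomial form)** a Galois conjugation acts on the residues of `ℤ[θ]`, `θ` inert,
by a power of Frobenius. -/
theorem h14_inert_frob_poly {ℓ : ℕ} [Fact ℓ.Prime] {θ : Qb} (hθ : h14_Inert ℓ θ)
    (A₀ : ValuationSubring Qb) (hA₀ : A₀.LiesOverPrime ℓ) (τ : Γℚ) :
    ∃ t : ℕ, ∀ (P : Polynomial ℤ) (h1 : Polynomial.aeval θ P ∈ A₀)
      (h2 : τ (Polynomial.aeval θ P) ∈ A₀),
      IsLocalRing.residue A₀ ⟨τ (Polynomial.aeval θ P), h2⟩ =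
        (IsLocalRing.residue A₀ ⟨Polynomial.aeval θ P, h1⟩) ^ (ℓ ^ t) := by
  haveI := h19_residueField_charP A₀ ℓ hA₀
  have hint := hθ.isIntegral
  obtain ⟨h, hm, hirr, hroot⟩ := hθ
  have hθ₀ : θ ∈ A₀ := h14_mem_of_isIntegral A₀ hint
  have hτint : IsIntegral ℤ (τ θ) := by
    refine ⟨h, hm, ?_⟩
    rw [← Polynomial.aeval_def, ← h14_aeval_conj, hroot, map_zero]
  have hτθ₀ : τ θ ∈ A₀ := h14_mem_of_isIntegral A₀ hτint
  have hγ : Polynomial.eval₂ (Int.castRingHom (IsLocalRing.ResidueField A₀))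
      (IsLocalRing.residue A₀ ⟨θ, hθ₀⟩) h = 0 := by
    rw [← h14_residue_aeval A₀ hθ₀ h (h14_aeval_mem hint A₀ h)]
    have : (⟨Polynomial.aeval θ h, h14_aeval_mem hint A₀ h⟩ : A₀) = 0 := Subtype.ext hroot
    rw [this, map_zero]
  have hγ' : Polynomial.eval₂ (Int.castRingHom (IsLocalRing.ResidueField A₀))
      (IsLocalRing.residue A₀ ⟨τ θ, hτθ₀⟩) h = 0 := by
    rw [← h14_residue_aeval A₀ hτθ₀ h (h14_aeval_mem hτint A₀ h)]
    have h0 : Polynomial.aeval (τ θ) h = 0 := by rw [← h14_aeval_conj, hroot, map_zero]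
    have : (⟨Polynomial.aeval (τ θ) h, h14_aeval_mem hτint A₀ h⟩ : A₀) = 0 := Subtype.ext h0
    rw [this, map_zero]
  obtain ⟨t, ht⟩ := h14_root_frob h hirr _ _ hγ hγ'
  refine ⟨t, fun P h1 h2 => ?_⟩
  have e : (⟨τ (Polynomial.aeval θ P), h2⟩ : A₀) =
      ⟨Polynomial.aeval (τ θ) P, h14_aeval_mem hτint A₀ P⟩ := Subtype.ext (h14_aeval_conj τ θ P)
  rw [e, h14_residue_aeval A₀ hτθ₀, h14_residue_aeval A₀ hθ₀, ht, h14_eval₂_pow]

theorem h14_residue_natCast (A : ValuationSubring Qb) (m : ℕ) (hm : (m : Qb) ∈ A) :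
    IsLocalRing.residue A ⟨(m : Qb), hm⟩ = (m : IsLocalRing.ResidueField A) := by
  have : (⟨(m : Qb), hm⟩ : A) = (m : A) := Subtype.ext (by simp)
  rw [this, map_natCast]

/-- **(C2c, FROB)** a Galois conjugation acts on the residues of `A₀ ∩ ℚ(θ)`, `θ` inert, by a
power of Frobenius: ONE exponent for the whole field. -/
theorem h14_inert_frob {ℓ : ℕ} [Fact ℓ.Prime] {θ : Qb} (hθ : h14_Inert ℓ θ)
    (A₀ : ValuationSubring Qb) (hA₀ : A₀.LiesOverPrime ℓ) (τ : Γℚ) :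
    ∃ t : ℕ, ∀ a ∈ IntermediateField.adjoin ℚ {θ}, ∀ ha : a ∈ A₀, ∃ ha' : τ a ∈ A₀,
      IsLocalRing.residue A₀ ⟨τ a, ha'⟩ = (IsLocalRing.residue A₀ ⟨a, ha⟩) ^ (ℓ ^ t) := by
  haveI := h19_residueField_charP A₀ ℓ hA₀
  obtain ⟨t, ht⟩ := h14_inert_frob_poly hθ A₀ hA₀ τ
  refine ⟨t, fun a ha ha₀ => ?_⟩
  obtain ⟨P, m, hm, hP⟩ := h14_inert_field hθ A₀ hA₀ a ha ha₀
  have hint := hθ.isIntegral
  obtain ⟨hm0, hmA, hminv⟩ := h14_inv_mem_of_val_eq_one A₀ (h14_val_natCast A₀ hA₀ m hm)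
  have hτP : (m : Qb) * τ a = τ (Polynomial.aeval θ P) := by
    rw [← hP, map_mul, map_natCast]
  have hPA : Polynomial.aeval θ P ∈ A₀ := h14_aeval_mem hint A₀ P
  have hτPA : τ (Polynomial.aeval θ P) ∈ A₀ := by
    rw [h14_aeval_conj]
    refine h14_mem_of_isIntegral A₀ (h14_isIntegral_aeval ?_ P)
    obtain ⟨h, hmon, -, hroot⟩ := hθ
    refine ⟨h, hmon, ?_⟩
    rw [← Polynomial.aeval_def, ← h14_aeval_conj, hroot, map_zero]
  have ha' : τ a ∈ A₀ := by
    have h1 : τ a = (m : Qb)⁻¹ * τ (Polynomial.aeval θ P) := by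
      rw [← hτP, ← mul_assoc, inv_mul_cancel₀ hm0, one_mul]
    rw [h1]
    exact A₀.mul_mem _ _ hminv hτPA
  refine ⟨ha', ?_⟩
  have hmk : (m : IsLocalRing.ResidueField A₀) ≠ 0 :=
    h19_natCast_residueField_ne_zero A₀ ℓ hA₀ m hm
  have e1 : (m : IsLocalRing.ResidueField A₀) * IsLocalRing.residue A₀ ⟨τ a, ha'⟩ =
      IsLocalRing.residue A₀ ⟨τ (Polynomial.aeval θ P), hτPA⟩ := by
    rw [← h14_residue_natCast A₀ m hmA, ← map_mul]
    congr 1
    exact Subtype.ext hτP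
  have e2 : (m : IsLocalRing.ResidueField A₀) * IsLocalRing.residue A₀ ⟨a, ha₀⟩ =
      IsLocalRing.residue A₀ ⟨Polynomial.aeval θ P, hPA⟩ := by
    rw [← h14_residue_natCast A₀ m hmA, ← map_mul]
    congr 1
    exact Subtype.ext hP
  have e3 : ((m : IsLocalRing.ResidueField A₀)) ^ (ℓ ^ t) = (m : IsLocalRing.ResidueField A₀) := by
    rw [← iterateFrobenius_def, map_natCast]
  apply mul_left_cancel₀ hmk
  rw [e1, ht P hPA hτPA, ← e2, mul_pow, e3]

/-! ### `ℓ`-good towers -/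

theorem h14_one_add_ne_zero {ℓ : ℕ} [Fact ℓ.Prime] {w : Qb} (hw : IsIntegral ℤ w) :
    1 + (ℓ : Qb) * w ≠ 0 := by
  intro h0
  have hℓ0 : (ℓ : Qb) ≠ 0 := by exact_mod_cast (Fact.out : ℓ.Prime).ne_zero
  have h1 : algebraMap ℚ Qb ((ℓ : ℚ)⁻¹) = -w := by
    have h2 : (ℓ : Qb) * (-w) = 1 := by linear_combination -h0
    rw [map_inv₀, map_natCast]
    exact (eq_inv_of_mul_eq_one_right h2).symm
  have h2 : IsIntegral ℤ (algebraMap ℚ Qb ((ℓ : ℚ)⁻¹)) := by rw [h1]; exact hw.neg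
  have h3 : IsIntegral ℤ ((ℓ : ℚ)⁻¹) :=
    (isIntegral_algebraMap_iff (algebraMap ℚ Qb).injective).1 h2
  obtain ⟨z, hz⟩ := (IsIntegrallyClosed.isIntegral_iff (R := ℤ) (K := ℚ)).1 h3
  have h4 : (z : ℚ) * (ℓ : ℚ) = 1 := by
    have hz' : (z : ℚ) = (ℓ : ℚ)⁻¹ := by rw [← hz]; simp
    rw [hz']
    exact inv_mul_cancel₀ (by exact_mod_cast (Fact.out : ℓ.Prime).ne_zero)
  have h5 : z * (ℓ : ℤ) = 1 := by exact_mod_cast h4
  have h6 : ((ℓ : ℤ)) ∣ 1 := ⟨z, by rw [mul_comm]; exact h5.symm⟩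
  have h7 : ℓ ∣ 1 := by exact_mod_cast h6
  exact (Fact.out : ℓ.Prime).one_lt.ne' (Nat.dvd_one.1 h7)

theorem h14_not_dvd_derivative {ℓ : ℕ} [Fact ℓ.Prime] (h : Polynomial ℤ)
    (hirr : Irreducible (h.map (Int.castRingHom (ZMod ℓ)))) :
    ¬ h.map (Int.castRingHom (ZMod ℓ)) ∣ (derivative h).map (Int.castRingHom (ZMod ℓ)) := by
  intro hd
  rw [← Polynomial.derivative_map] at hd
  haveI : NeZero ℓ := ⟨(Fact.out : ℓ.Prime).ne_zero⟩
  have hsep : (h.map (Int.castRingHom (ZMod ℓ))).Separable :=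
    PerfectField.separable_of_irreducible hirr
  exact hirr.not_isUnit (IsCoprime.isUnit_of_dvd' hsep dvd_rfl hd)

/-- **(C2d, LGOOD)** adjoining an inert `θ` to an `ℓ`-good field gives an `ℓ`-good field, for any
family of valuation subrings over `ℓ`. -/
theorem h14_inert_lgood {ℓ : ℕ} [Fact ℓ.Prime] {θ : Qb} (hθ : h14_Inert ℓ θ)
    (𝒜 : Set (ValuationSubring Qb)) (h𝒜 : ∀ A ∈ 𝒜, A.LiesOverPrime ℓ)
    (K' : IntermediateField ℚ Qb) (hK' : h26_LGood 𝒜 K') :
    h26_LGood 𝒜 (K' ⊔ IntermediateField.adjoin ℚ {θ}) := by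
  have hint := hθ.isIntegral
  obtain ⟨h, hm, hirr, hroot⟩ := hθ
  have hder : (h.map (algebraMap ℤ Qb)).derivative.eval θ =
      Polynomial.aeval θ (derivative h) := by
    rw [Polynomial.derivative_map, Polynomial.eval_map, ← Polynomial.aeval_def]
  have hnd := h14_not_dvd_derivative h hirr
  refine h26_LGood.step K' θ (h.map (algebraMap ℤ Qb)) hK' (hm.map _) ?_ ?_ ?_ ?_ ?_
  · intro i
    rw [Polynomial.coeff_map, eq_intCast]
    exact intCast_mem K' _
  · intro i A _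
    rw [Polynomial.coeff_map, eq_intCast]
    exact intCast_mem A _
  · rw [Polynomial.eval_map, ← Polynomial.aeval_def]
    exact hroot
  · rw [hder]
    obtain ⟨V, W, hVW⟩ := h14_inert_coprime hirr hroot _ hnd
    intro h0
    rw [h0, mul_zero] at hVW
    exact h14_one_add_ne_zero (h14_isIntegral_aeval hint W) hVW.symm
  · intro A hA
    rw [hder]
    exact (h14_inv_mem_of_val_eq_one A
      (h14_inert_val_eq_one hm hirr hroot _ hnd A (h𝒜 A hA))).2.2

/-- reduction of `A₀ ∩ ℚ(θ)` to the finite field `𝔽_ℓ[X]/(h̄)`, compatible with ALL valuation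
subrings over `ℓ` -/
theorem h14_inert_exists_red {ℓ : ℕ} [Fact ℓ.Prime] {θ : Qb} (h : Polynomial ℤ) (hm : h.Monic)
    (hirr : Irreducible (h.map (Int.castRingHom (ZMod ℓ)))) (hroot : Polynomial.aeval θ h = 0)
    (A₀ : ValuationSubring Qb) (hA₀ : A₀.LiesOverPrime ℓ) (a : Qb)
    (ha : a ∈ IntermediateField.adjoin ℚ {θ}) (ha₀ : a ∈ A₀) :
    ∃ abar : AdjoinRoot (h.map (Int.castRingHom (ZMod ℓ))),
      ∀ (A : ValuationSubring Qb) (_ : A.LiesOverPrime ℓ) (hθA : θ ∈ A) (haA : a ∈ A)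
        (ι : AdjoinRoot (h.map (Int.castRingHom (ZMod ℓ))) →+* IsLocalRing.ResidueField A),
        ι (AdjoinRoot.root _) = IsLocalRing.residue A ⟨θ, hθA⟩ →
          ι abar = IsLocalRing.residue A ⟨a, haA⟩ := by
  haveI : Fact (Irreducible (h.map (Int.castRingHom (ZMod ℓ)))) := ⟨hirr⟩
  have hθ : h14_Inert ℓ θ := ⟨h, hm, hirr, hroot⟩
  obtain ⟨P, m, hmℓ, hP⟩ := h14_inert_field hθ A₀ hA₀ a ha ha₀
  refine ⟨AdjoinRoot.mk _ (P.map (Int.castRingHom (ZMod ℓ))) *
    ((m : AdjoinRoot (h.map (Int.castRingHom (ZMod ℓ)))))⁻¹, ?_⟩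
  intro A hA hθA haA ι hι
  have hmk : (m : IsLocalRing.ResidueField A) ≠ 0 :=
    h19_natCast_residueField_ne_zero A ℓ hA m hmℓ
  have hmA : (m : Qb) ∈ A := natCast_mem A m
  have hPA : Polynomial.aeval θ P ∈ A := h14_aeval_mem hθ.isIntegral A P
  have h1 : ι (AdjoinRoot.mk _ (P.map (Int.castRingHom (ZMod ℓ)))) =
      Polynomial.eval₂ (Int.castRingHom _) (IsLocalRing.residue A ⟨θ, hθA⟩) P := by
    have h2 : (ι.comp (AdjoinRoot.mk (h.map (Int.castRingHom (ZMod ℓ))))).comp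
        (Polynomial.mapRingHom (Int.castRingHom (ZMod ℓ))) =
        Polynomial.eval₂RingHom (Int.castRingHom _) (IsLocalRing.residue A ⟨θ, hθA⟩) := by
      apply Polynomial.ringHom_ext
      · intro z
        simp
      · simp [hι]
    exact RingHom.congr_fun h2 P
  rw [map_mul, map_inv₀, map_natCast, h1, ← h14_residue_aeval A hθA P hPA,
    mul_inv_eq_iff_eq_mul₀ hmk, mul_comm, ← h14_residue_natCast A m hmA, ← map_mul]
  congr 1
  exact Subtype.ext hP.symm

/-- separability of the reduction of a polynomial over `ℚ(θ)`, `θ` inert, does not depend on the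
valuation subring over `ℓ` -/
theorem h14_inert_sep_transfer {ℓ : ℕ} [Fact ℓ.Prime] {θ : Qb} (hθ : h14_Inert ℓ θ)
    (A₀ : ValuationSubring Qb) (hA₀ : A₀.LiesOverPrime ℓ) (g : Polynomial Qb)
    (hgθ : ∀ i, g.coeff i ∈ IntermediateField.adjoin ℚ {θ})
    (g₀ : Polynomial A₀) (hg₀ : g₀.map (algebraMap A₀ Qb) = g)
    (hsep : (g₀.map (IsLocalRing.residue A₀)).Separable)
    (A : ValuationSubring Qb) (hA : A.LiesOverPrime ℓ) (gA : Polynomial A)
    (hgA : gA.map (algebraMap A Qb) = g) : (gA.map (IsLocalRing.residue A)).Separable := by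
  have hint := hθ.isIntegral
  obtain ⟨h, hm, hirr, hroot⟩ := hθ
  haveI : Fact (Irreducible (h.map (Int.castRingHom (ZMod ℓ)))) := ⟨hirr⟩
  have hcoe₀ : ∀ i, g.coeff i ∈ A₀ := fun i => by
    rw [← hg₀, Polynomial.coeff_map]; exact (g₀.coeff i).2
  choose abar habar using fun i =>
    h14_inert_exists_red h hm hirr hroot A₀ hA₀ (g.coeff i) (hgθ i) (hcoe₀ i)
  set gbar : Polynomial (AdjoinRoot (h.map (Int.castRingHom (ZMod ℓ)))) :=
    ∑ i ∈ Finset.range (g.natDegree + 1), C (abar i) * X ^ i with hgbar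
  have claim : ∀ (B : ValuationSubring Qb) (_ : B.LiesOverPrime ℓ) (gB : Polynomial B)
      (_ : gB.map (algebraMap B Qb) = g),
      ∃ ι : AdjoinRoot (h.map (Int.castRingHom (ZMod ℓ))) →+* IsLocalRing.ResidueField B,
        gbar.map ι = gB.map (IsLocalRing.residue B) := by
    intro B hB gB hgB
    haveI := h19_residueField_charP B ℓ hB
    have hθB : θ ∈ B := h14_mem_of_isIntegral B hint
    have hcomp : (ZMod.castHom (dvd_refl ℓ) (IsLocalRing.ResidueField B)).comp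
        (Int.castRingHom (ZMod ℓ)) = Int.castRingHom _ := RingHom.ext_int _ _
    have hγ : (h.map (Int.castRingHom (ZMod ℓ))).eval₂
        (ZMod.castHom (dvd_refl ℓ) (IsLocalRing.ResidueField B))
        (IsLocalRing.residue B ⟨θ, hθB⟩) = 0 := by
      rw [Polynomial.eval₂_map, hcomp, ← h14_residue_aeval B hθB h (h14_aeval_mem hint B h)]
      have : (⟨Polynomial.aeval θ h, h14_aeval_mem hint B h⟩ : B) = 0 := Subtype.ext hroot
      rw [this, map_zero]
    refine ⟨AdjoinRoot.lift _ _ hγ, ?_⟩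
    have hcB : ∀ i, g.coeff i ∈ B := fun i => by
      rw [← hgB, Polynomial.coeff_map]; exact (gB.coeff i).2
    ext j
    rw [Polynomial.coeff_map, Polynomial.coeff_map, hgbar, Polynomial.finsetSum_coeff]
    simp only [Polynomial.coeff_C_mul, Polynomial.coeff_X_pow]
    by_cases hj : j ∈ Finset.range (g.natDegree + 1)
    · rw [Finset.sum_eq_single j (fun i _ hij => by rw [if_neg (Ne.symm hij), mul_zero])
        (fun hj' => absurd hj hj'), if_pos rfl, mul_one,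
        habar j B hB hθB (hcB j) _ (AdjoinRoot.lift_root hγ)]
      congr 1
      apply Subtype.ext
      show g.coeff j = ((gB.coeff j : B) : Qb)
      rw [← hgB, Polynomial.coeff_map]
      rfl
    · rw [Finset.sum_eq_zero (fun i hi => by
        rw [if_neg (fun hji => hj (by rw [hji]; exact hi)), mul_zero]), map_zero]
      have h0 : g.coeff j = 0 := by
        apply Polynomial.coeff_eq_zero_of_natDegree_lt
        rw [Finset.mem_range, not_lt] at hj
        omega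
      have h1 : gB.coeff j = 0 := by
        apply Subtype.ext
        show ((gB.coeff j : B) : Qb) = 0
        rw [← h0, ← hgB, Polynomial.coeff_map]
        rfl
      rw [h1, map_zero]
  obtain ⟨ι₀, h₀⟩ := claim A₀ hA₀ g₀ hg₀
  obtain ⟨ι, hι⟩ := claim A hA gA hgA
  rw [← h₀] at hsep
  have h1 := (Polynomial.separable_map ι₀).1 hsep
  rw [← hι]
  exact (Polynomial.separable_map ι).2 h1

/-- a root of a monic polynomial with separable reduction: the derivative at the root is a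
unit -/
theorem h14_val_derivative_of_sep (A : ValuationSubring Qb) (gA : Polynomial A) (hmon : gA.Monic)
    (hsep : (gA.map (IsLocalRing.residue A)).Separable) (η : Qb)
    (hη : (gA.map (algebraMap A Qb)).eval η = 0) :
    A.valuation ((gA.map (algebraMap A Qb)).derivative.eval η) = 1 := by
  have hint : IsIntegral A η := ⟨gA, hmon, by rwa [Polynomial.eval_map] at hη⟩
  obtain ⟨y, rfl⟩ := (IsIntegrallyClosed.isIntegral_iff (R := A) (K := Qb)).1 hint
  have hinj : Function.Injective (algebraMap A Qb) := Subtype.val_injective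
  have h0 : gA.eval y = 0 := by
    apply hinj
    rw [map_zero, ← hη, Polynomial.eval_map, Polynomial.eval₂_hom]
  have h1 : (gA.map (IsLocalRing.residue A)).eval (IsLocalRing.residue A y) = 0 := by
    rw [Polynomial.eval_map, Polynomial.eval₂_hom, h0, map_zero]
  have h2 : (gA.map (IsLocalRing.residue A)).derivative.eval (IsLocalRing.residue A y) ≠ 0 := by
    intro hd
    obtain ⟨u, v, huv⟩ := hsep
    have h3 := congrArg (Polynomial.eval (IsLocalRing.residue A y)) huv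
    rw [Polynomial.eval_add, Polynomial.eval_mul, Polynomial.eval_mul, h1, hd, mul_zero,
      mul_zero, add_zero, Polynomial.eval_one] at h3
    exact zero_ne_one h3
  rw [Polynomial.derivative_map, Polynomial.eval_map, Polynomial.eval₂_hom] at h2
  have h3 : IsUnit (gA.derivative.eval y) := by
    by_contra hnu
    exact h2 ((IsLocalRing.residue_eq_zero_iff _).2 ((IsLocalRing.mem_maximalIdeal _).2 hnu))
  have h4 := (A.valuation_eq_one_iff _).1 h3
  rw [Polynomial.derivative_map, Polynomial.eval_map, Polynomial.eval₂_hom]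
  exact h4

/-- **(C2e, TOWER STEP)** let `θ` be inert and `g` a monic polynomial over `A₀ ∩ ℚ(θ)` whose
reduction at the ONE valuation subring `A₀` is separable.  Then adjoining any root `η` of `g` to
an `ℓ`-good field containing the coefficients gives an `ℓ`-good field, for any family of valuation
subrings over `ℓ`. -/
theorem h14_inert_step {ℓ : ℕ} [Fact ℓ.Prime] {θ : Qb} (hθ : h14_Inert ℓ θ)
    (A₀ : ValuationSubring Qb) (hA₀ : A₀.LiesOverPrime ℓ)
    (𝒜 : Set (ValuationSubring Qb)) (h𝒜 : ∀ A ∈ 𝒜, A.LiesOverPrime ℓ)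
    (K' : IntermediateField ℚ Qb) (hK' : h26_LGood 𝒜 K')
    (g : Polynomial Qb) (hg : g.Monic) (hgK : ∀ i, g.coeff i ∈ K')
    (hgθ : ∀ i, g.coeff i ∈ IntermediateField.adjoin ℚ {θ})
    (g₀ : Polynomial A₀) (hg₀ : g₀.map (algebraMap A₀ Qb) = g)
    (hsep : (g₀.map (IsLocalRing.residue A₀)).Separable)
    (η : Qb) (hη : g.eval η = 0) :
    h26_LGood 𝒜 (K' ⊔ IntermediateField.adjoin ℚ {η}) := by
  have hcoe₀ : ∀ i, g.coeff i ∈ A₀ := fun i => by
    rw [← hg₀, Polynomial.coeff_map]; exact (g₀.coeff i).2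
  have hcoe : ∀ (A : ValuationSubring Qb) (_ : A.LiesOverPrime ℓ) (i : ℕ), g.coeff i ∈ A :=
    fun A hA i => h14_inert_field_mem hθ A₀ hA₀ _ (hgθ i) (hcoe₀ i) A hA
  have hlift : ∀ (A : ValuationSubring Qb) (_ : A.LiesOverPrime ℓ),
      ∃ gA : Polynomial A, gA.map (algebraMap A Qb) = g := by
    intro A hA
    have h1 : g ∈ Polynomial.lifts (algebraMap A Qb) := by
      rw [Polynomial.lifts_iff_coeff_lifts]
      intro i
      exact ⟨⟨g.coeff i, hcoe A hA i⟩, rfl⟩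
    exact (Polynomial.mem_lifts _).1 h1
  have hval : ∀ (A : ValuationSubring Qb) (_ : A.LiesOverPrime ℓ),
      A.valuation (g.derivative.eval η) = 1 := by
    intro A hA
    obtain ⟨gA, hgA⟩ := hlift A hA
    have hmon : gA.Monic :=
      Polynomial.monic_of_injective (f := algebraMap A Qb) Subtype.val_injective
        (by rw [hgA]; exact hg)
    have hs := h14_inert_sep_transfer hθ A₀ hA₀ g hgθ g₀ hg₀ hsep A hA gA hgA
    have h2 := h14_val_derivative_of_sep A gA hmon hs η (by rw [hgA]; exact hη)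
    rwa [hgA] at h2
  refine h26_LGood.step K' η g hK' hg hgK (fun i A hA => hcoe A (h𝒜 A hA) i) hη ?_ ?_
  · exact (h14_inv_mem_of_val_eq_one A₀ (hval A₀ hA₀)).1
  · intro A hA
    exact (h14_inv_mem_of_val_eq_one A (hval A (h𝒜 A hA))).2.2

/-! ### existence -/

/-- residues at a valuation subring of `ℚ̄` over `ℓ` are algebraic over `𝔽_ℓ`: every residue is a
root of an integer polynomial which is nonzero modulo `ℓ`. -/
theorem h14_residue_algebraic {ℓ : ℕ} [Fact ℓ.Prime] (A₀ : ValuationSubring Qb)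
    (b : IsLocalRing.ResidueField A₀) :
    ∃ q : Polynomial ℤ, q.map (Int.castRingHom (ZMod ℓ)) ≠ 0 ∧
      Polynomial.eval₂ (Int.castRingHom _) b q = 0 := by
  obtain ⟨⟨x, hx⟩, rfl⟩ := IsLocalRing.residue_surjective b
  have halg : IsAlgebraic ℚ x := (AlgebraicClosure.isAlgebraic ℚ).isAlgebraic x
  have halgZ : IsAlgebraic ℤ x := (IsFractionRing.isAlgebraic_iff ℤ ℚ Qb).2 halg
  obtain ⟨p, hp0, hp⟩ := halgZ
  refine ⟨p.primPart, ?_, ?_⟩
  · intro h0
    obtain ⟨W, hW⟩ := h14_map_eq_zero ℓ _ h0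
    have h1 : IsUnit ((ℓ : ℤ)) := p.isPrimitive_primPart _ ⟨W, hW⟩
    have h2 : IsUnit ℓ := Int.ofNat_isUnit.1 h1
    exact (Fact.out : ℓ.Prime).one_lt.ne' (Nat.isUnit_iff.1 h2)
  · have h1 : Polynomial.aeval x p.primPart = 0 := by
      have h2 := p.eq_C_content_mul_primPart
      have h3 : Polynomial.aeval x p = (p.content : Qb) * Polynomial.aeval x p.primPart := by
        conv_lhs => rw [h2]
        rw [map_mul, Polynomial.aeval_C]
        simp
      rw [hp] at h3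
      have hc : (p.content : Qb) ≠ 0 := by
        exact_mod_cast (Polynomial.content_eq_zero_iff.not.2 hp0)
      exact (mul_eq_zero.1 h3.symm).resolve_left hc
    have hmem : Polynomial.aeval x p.primPart ∈ A₀ := by rw [h1]; exact A₀.zero_mem
    rw [← h14_residue_aeval A₀ hx p.primPart hmem]
    have h4 : (⟨Polynomial.aeval x p.primPart, hmem⟩ : A₀) = 0 := Subtype.ext h1
    rw [h4, map_zero]

/-- **(C2a, EXIST)** every finite family of residues at a valuation subring `A₀` of `ℚ̄` over `ℓ`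
consists of integer polynomials in the residue of ONE inert `θ`. -/
theorem h14_exists_inert (ℓ : ℕ) [Fact ℓ.Prime] (A₀ : ValuationSubring Qb)
    (hA₀ : A₀.LiesOverPrime ℓ) {n : ℕ} (β : Fin n → IsLocalRing.ResidueField A₀) :
    ∃ θ : Qb, h14_Inert ℓ θ ∧ ∃ P : Fin n → Polynomial ℤ, ∀ i,
      ∃ hm : Polynomial.aeval θ (P i) ∈ A₀,
        IsLocalRing.residue A₀ ⟨Polynomial.aeval θ (P i), hm⟩ = β i := by
  haveI := h19_residueField_charP A₀ ℓ hA₀
  letI : Algebra (ZMod ℓ) (IsLocalRing.ResidueField A₀) := ZMod.algebra _ ℓ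
  haveI : NeZero ℓ := ⟨(Fact.out : ℓ.Prime).ne_zero⟩
  have hcomp : (algebraMap (ZMod ℓ) (IsLocalRing.ResidueField A₀)).comp
      (Int.castRingHom (ZMod ℓ)) = Int.castRingHom (IsLocalRing.ResidueField A₀) :=
    RingHom.ext_int _ _
  have key : ∀ (P : Polynomial ℤ) (x : IsLocalRing.ResidueField A₀),
      Polynomial.aeval x (P.map (Int.castRingHom (ZMod ℓ))) =
        P.eval₂ (Int.castRingHom (IsLocalRing.ResidueField A₀)) x := by
    intro P x
    rw [Polynomial.aeval_def, Polynomial.eval₂_map, hcomp]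
  haveI halg : Algebra.IsAlgebraic (ZMod ℓ) (IsLocalRing.ResidueField A₀) := ⟨fun b => by
    obtain ⟨q, hq0, hq⟩ := h14_residue_algebraic (ℓ := ℓ) A₀ b
    exact ⟨q.map _, hq0, by rw [key]; exact hq⟩⟩
  let E : IntermediateField (ZMod ℓ) (IsLocalRing.ResidueField A₀) :=
    IntermediateField.adjoin (ZMod ℓ) (Set.range β)
  haveI : FiniteDimensional (ZMod ℓ) E :=
    IntermediateField.finiteDimensional_adjoin (fun x _ => Algebra.IsIntegral.isIntegral x)
  obtain ⟨α, hα⟩ := Field.exists_primitive_element (ZMod ℓ) E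
  have hβ : ∀ i, ∃ p : Polynomial (ZMod ℓ),
      Polynomial.aeval (α : IsLocalRing.ResidueField A₀) p = β i := by
    intro i
    have hαalg : IsAlgebraic (ZMod ℓ) α := Algebra.IsAlgebraic.isAlgebraic α
    have h1 : (⟨β i, IntermediateField.subset_adjoin _ _ ⟨i, rfl⟩⟩ : E) ∈
        (IntermediateField.adjoin (ZMod ℓ) {α}).toSubalgebra := by
      show _ ∈ IntermediateField.adjoin (ZMod ℓ) {α}
      rw [hα]
      trivial
    rw [IntermediateField.adjoin_simple_toSubalgebra_of_isAlgebraic hαalg,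
      Algebra.adjoin_singleton_eq_range_aeval] at h1
    obtain ⟨p, hp⟩ := h1
    refine ⟨p, ?_⟩
    have h2 : ((Polynomial.aeval α p : E) : IsLocalRing.ResidueField A₀) = β i :=
      congrArg (fun e : E => (e : IsLocalRing.ResidueField A₀)) hp
    rw [← h2]
    exact Polynomial.aeval_algHom_apply E.val α p
  choose p hp using hβ
  have hγint : IsIntegral (ZMod ℓ) (α : IsLocalRing.ResidueField A₀) :=
    Algebra.IsIntegral.isIntegral _
  have hlift : minpoly (ZMod ℓ) (α : IsLocalRing.ResidueField A₀) ∈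
      Polynomial.lifts (Int.castRingHom (ZMod ℓ)) := by
    rw [Polynomial.mem_lifts]
    exact Polynomial.map_surjective _ ZMod.intCast_surjective _
  obtain ⟨h, hh, hdeg, hmon⟩ :=
    Polynomial.lifts_and_natDegree_eq_and_monic hlift (minpoly.monic hγint)
  have hirr : Irreducible (h.map (Int.castRingHom (ZMod ℓ))) := by
    rw [hh]; exact minpoly.irreducible hγint
  have hnd : (h.map (algebraMap ℤ Qb)).natDegree ≠ 0 := by
    rw [hmon.natDegree_map, hdeg]
    exact (minpoly.natDegree_pos hγint).ne'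
  have hdeg' : (h.map (algebraMap ℤ Qb)).degree ≠ 0 := by
    rw [Polynomial.degree_eq_natDegree ((hmon.map _).ne_zero)]
    exact_mod_cast hnd
  obtain ⟨θ, hθroot⟩ := IsAlgClosed.exists_root _ hdeg'
  have hroot : Polynomial.aeval θ h = 0 := by
    rwa [Polynomial.IsRoot.def, Polynomial.eval_map, ← Polynomial.aeval_def] at hθroot
  have hθ : h14_Inert ℓ θ := ⟨h, hmon, hirr, hroot⟩
  have hint := hθ.isIntegral
  have hθ₀ : θ ∈ A₀ := h14_mem_of_isIntegral A₀ hint
  have hγ'root : Polynomial.eval₂ (Int.castRingHom (IsLocalRing.ResidueField A₀))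
      (IsLocalRing.residue A₀ ⟨θ, hθ₀⟩) h = 0 := by
    rw [← h14_residue_aeval A₀ hθ₀ h (h14_aeval_mem hint A₀ h)]
    have h4 : (⟨Polynomial.aeval θ h, h14_aeval_mem hint A₀ h⟩ : A₀) = 0 := Subtype.ext hroot
    rw [h4, map_zero]
  have hγroot : Polynomial.eval₂ (Int.castRingHom (IsLocalRing.ResidueField A₀))
      (α : IsLocalRing.ResidueField A₀) h = 0 := by
    rw [← key, hh]
    exact minpoly.aeval _ _
  obtain ⟨t, ht⟩ := h14_root_frob h hirr _ _ hγ'root hγroot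
  refine ⟨θ, hθ, ?_⟩
  have hP : ∀ i, ∃ P : Polynomial ℤ, P.map (Int.castRingHom (ZMod ℓ)) =
      Polynomial.expand (ZMod ℓ) (ℓ ^ t) (p i) :=
    fun i => Polynomial.map_surjective _ ZMod.intCast_surjective _
  choose P hPdef using hP
  refine ⟨P, fun i => ⟨h14_aeval_mem hint A₀ (P i), ?_⟩⟩
  rw [h14_residue_aeval A₀ hθ₀, ← key, hPdef, Polynomial.expand_aeval, ← ht, hp]

/-! ### the Galois orbit of a valuation subring, and `A₀ ∩ ℚ` -/

/-- the Galois orbit of a valuation subring of `ℚ̄` -/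
def h14_orbit (A₀ : ValuationSubring Qb) : Set (ValuationSubring Qb) :=
  Set.range fun σ : Γℚ => A₀.comap (σ : Qb →+* Qb)

theorem h14_orbit_self (A₀ : ValuationSubring Qb) : A₀ ∈ h14_orbit A₀ :=
  ⟨1, by ext x; simp [ValuationSubring.mem_comap]⟩

theorem h14_orbit_stab (A₀ : ValuationSubring Qb) (σ : Γℚ) :
    ∀ A ∈ h14_orbit A₀, A.comap (σ : Qb →+* Qb) ∈ h14_orbit A₀ := by
  rintro _ ⟨τ, rfl⟩
  refine ⟨τ * σ, ?_⟩
  ext x
  simp [ValuationSubring.mem_comap]

theorem h14_comap_liesOver {ℓ : ℕ} (A₀ : ValuationSubring Qb) (hA₀ : A₀.LiesOverPrime ℓ)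
    (σ : Γℚ) : (A₀.comap (σ : Qb →+* Qb)).LiesOverPrime ℓ := by
  have h0 : (ℓ : Qb) ∈ A₀.nonunits := hA₀
  show (ℓ : Qb) ∈ (A₀.comap (σ : Qb →+* Qb)).nonunits
  rw [ValuationSubring.mem_nonunits_iff_or] at h0 ⊢
  rcases h0 with h0 | h0
  · exact Or.inl h0
  · refine Or.inr fun hmem => h0 ?_
    have h1 : (σ : Qb →+* Qb) ((ℓ : Qb)⁻¹) ∈ A₀ := hmem
    rwa [map_inv₀, map_natCast] at h1

theorem h14_orbit_liesOver {ℓ : ℕ} (A₀ : ValuationSubring Qb) (hA₀ : A₀.LiesOverPrime ℓ) :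
    ∀ A ∈ h14_orbit A₀, A.LiesOverPrime ℓ := by
  rintro _ ⟨σ, rfl⟩
  exact h14_comap_liesOver A₀ hA₀ σ

theorem h14_int_orbit_iff (A₀ : ValuationSubring Qb) (a : Qb) :
    h26_Int (h14_orbit A₀) a ↔ ∀ σ : Γℚ, σ a ∈ A₀ := by
  constructor
  · intro h σ
    exact h _ ⟨σ, rfl⟩
  · rintro h _ ⟨σ, rfl⟩
    exact h σ

/-- `A₀ ∩ ℚ = ℤ_(ℓ)` (the hypothesis `h𝒜R` of `h26_order_of_coords`) -/
theorem h14_rat_mem_iff {ℓ : ℕ} [Fact ℓ.Prime] (A₀ : ValuationSubring Qb)
    (hA₀ : A₀.LiesOverPrime ℓ) (q : ℚ) :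
    algebraMap ℚ Qb q ∈ A₀ ↔ q ∈ GaloisRep.ratLocalizedAt ℓ := by
  have hℓ : ℓ.Prime := Fact.out
  have hden0 : (q.den : Qb) ≠ 0 := by exact_mod_cast q.den_ne_zero
  have hq : algebraMap ℚ Qb q = (q.num : Qb) * ((q.den : Qb))⁻¹ := by
    conv_lhs => rw [← Rat.num_div_den q]
    rw [map_div₀, map_intCast, map_natCast, div_eq_mul_inv]
  have hmem : q ∈ GaloisRep.ratLocalizedAt ℓ ↔ q.den.Coprime ℓ := Iff.rfl
  rw [hmem]
  constructor
  · intro hqA
    by_contra hcop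
    have hdvd : ℓ ∣ q.den := by
      rw [Nat.coprime_comm, hℓ.coprime_iff_not_dvd, not_not] at hcop
      exact hcop
    have hden : A₀.valuation (q.den : Qb) < 1 := by
      obtain ⟨c, hc⟩ := hdvd
      rw [hc]
      push_cast
      rw [map_mul]
      calc A₀.valuation (ℓ : Qb) * A₀.valuation (c : Qb) ≤ A₀.valuation (ℓ : Qb) * 1 := by
            gcongr
            exact (A₀.valuation_le_one_iff _).2 (natCast_mem A₀ c)
        _ < 1 := by rw [mul_one]; exact h14_val_ell_lt_one A₀ hA₀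
    have hnum : (q.num : Qb) = algebraMap ℚ Qb q * (q.den : Qb) := by
      rw [hq, mul_assoc, inv_mul_cancel₀ hden0, mul_one]
    have hnumval : A₀.valuation (q.num : Qb) < 1 := by
      rw [hnum, map_mul]
      calc A₀.valuation (algebraMap ℚ Qb q) * A₀.valuation (q.den : Qb)
          ≤ 1 * A₀.valuation (q.den : Qb) := by
            gcongr
            exact (A₀.valuation_le_one_iff _).2 hqA
        _ < 1 := by rw [one_mul]; exact hden
    have hnatabs : A₀.valuation ((q.num.natAbs : ℕ) : Qb) < 1 := by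
      rcases Int.natAbs_eq q.num with h | h
      · have h1 : ((q.num.natAbs : ℕ) : Qb) = (q.num : Qb) := by
          conv_rhs => rw [h]
          simp
        rw [h1]
        exact hnumval
      · have h1 : ((q.num.natAbs : ℕ) : Qb) = -(q.num : Qb) := by
          conv_rhs => rw [h]
          simp
        rw [h1, Valuation.map_neg]
        exact hnumval
    have hdvd2 : ℓ ∣ q.num.natAbs := by
      by_contra hnd
      rw [h14_val_natCast A₀ hA₀ _ hnd] at hnatabs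
      exact lt_irrefl _ hnatabs
    have h2 := Nat.dvd_gcd hdvd2 hdvd
    have h3 : Nat.gcd q.num.natAbs q.den = 1 := q.reduced
    rw [h3] at h2
    exact hℓ.one_lt.ne' (Nat.dvd_one.1 h2)
  · intro hcop
    have hnd : ¬ ℓ ∣ q.den := by
      rw [Nat.coprime_comm] at hcop
      exact (hℓ.coprime_iff_not_dvd).1 hcop
    rw [hq]
    exact A₀.mul_mem _ _ (intCast_mem A₀ _)
      (h14_inv_mem_of_val_eq_one A₀ (h14_val_natCast A₀ hA₀ _ hnd)).2.2

end Fermat.Agent.S19

end
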