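import Fermat.Agent.S27.h68_RRCons
import Fermat.Agent.S18.GR_ChartPt

/-!
# S19 / C1 MOVE-X (generic core, robust form)

`k` algebraically closed, `xb` a chart of `Fb / k`, `g` the genus.  For a finite set `Sg` of
divisors of degree `0`, an "orbit" map `orb` on `k` with finite orbits and finite fibres, and a
finite set `Bad` of values, there are values `β_1, …, β_g` whose orbits avoid `Bad` such that for
ALL places `Q_i` lying over ANY conjugates of the `β_i` and every `D ∈ Sg`

  `l(D + Q_1 + ⋯ + Q_g) = 1`.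

* `h82_bad_point_finite` : one step (all but finitely many points lower `l` of a divisor);
* `h82_tuples_finite` : finitely many tuples of places over the orbits;
* `h82_move_x_aux` : the induction (`l(W - D - Q_1 - ⋯ - Q_j) + j ≤ g`, `W` canonical);
* `h82_move_x` : the statement.
-/

set_option autoImplicit false

open AlgebraicCurve IntermediateField

namespace Fermat.Agent.S19

open Fermat.Agent.S18 Fermat.Agent.S27

variable {k Fb : Type*} [Field k] [IsAlgClosed k] [Field Fb] [Algebra k Fb]

/-- one step: if `l(E) + j ≤ g` and `j + 1 ≤ g`, then all but finitely many points `P` satisfy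
`l(E - P) + (j + 1) ≤ g`. -/
theorem h82_bad_point_finite {xb : Fb} (hx : h75_IsChart k xb) (E : Divisor k Fb) (j : ℕ)
    (hj : j + 1 ≤ h75_genus k xb)
    (hE : Module.finrank k ↥(riemannRochSpace E) + j ≤ h75_genus k xb) :
    {P : Place k Fb | ¬ (Module.finrank k ↥(riemannRochSpace (E - Finsupp.single P 1)) + (j + 1) ≤
      h75_genus k xb)}.Finite := by
  classical
  have hfin := (h75_riemann hx E).1
  have hmono : ∀ P : Place k Fb, Module.finrank k ↥(riemannRochSpace (E - Finsupp.single P 1)) ≤
      Module.finrank k ↥(riemannRochSpace E) := by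
    intro P
    have := (h68_rr_point hx (E - Finsupp.single P 1) P).1
    rwa [sub_add_cancel] at this
  by_cases hpos : 0 < Module.finrank k ↥(riemannRochSpace E)
  · obtain ⟨h, hh⟩ := Module.finrank_pos_iff_exists_ne_zero.mp hpos
    have hh0 : (h : Fb) ≠ 0 := fun h0 => hh (Subtype.ext h0)
    refine ((h75_finite_ord_ne hx (h : Fb) hh0).union E.support.finite_toSet).subset ?_
    intro P hP
    by_contra hcon
    apply hP
    have h1 : P.ord (h : Fb) = 0 := by
      by_contra h1
      exact hcon (Or.inl h1)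
    have h2 : E P = 0 := by
      by_contra h2
      exact hcon (Or.inr (Finsupp.mem_support_iff.mpr h2))
    have := h68_rr_sub_point hx E h.2 hh0 P h1 h2
    omega
  · have h0 : Module.finrank k ↥(riemannRochSpace E) = 0 := by omega
    refine Set.finite_empty.subset ?_
    intro P hP
    exfalso
    apply hP
    have := hmono P
    omega

/-- finitely many places over a finite set of values. -/
theorem h82_over_finite {xb : Fb} (hx : h75_IsChart k xb) (s : Set k) (hs : s.Finite) :
    {P : Place k Fb | ∃ b ∈ s, h39_Val P xb b}.Finite := by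
  have h2 : (⋃ b ∈ s, {Q : Place k Fb | 0 < Q.ord (xb - algebraMap k Fb b)}).Finite :=
    hs.biUnion fun b _ => h75_fibre_finite hx b
  refine h2.subset ?_
  rintro Q ⟨b, hb, hb'⟩
  simp only [Set.mem_iUnion, Set.mem_ofPred_eq]
  refine ⟨b, hb, ?_⟩
  rcases hb' with h | h
  · exact absurd (h ▸ isAlgebraic_algebraMap b) hx.tr
  · exact h

/-- finitely many tuples of places over the orbits. -/
theorem h82_tuples_finite {xb : Fb} (hx : h75_IsChart k xb) (orb : k → Set k)
    (horb : ∀ a : k, (orb a).Finite) {j : ℕ} (β : Fin j → k) :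
    {Q : Fin j → Place k Fb | ∀ i, ∃ b ∈ orb (β i), h39_Val (Q i) xb b}.Finite := by
  have h1 : (Set.pi Set.univ fun i : Fin j =>
      {P : Place k Fb | ∃ b ∈ orb (β i), h39_Val P xb b}).Finite :=
    Set.Finite.pi fun i => h82_over_finite hx (orb (β i)) (horb (β i))
  refine h1.subset ?_
  intro Q hQ
  rw [Set.mem_univ_pi]
  exact hQ

/-- the induction: `j ≤ g` values such that all tuples over their orbits impose independent
conditions on `W - D`, `D ∈ Sg`. -/
theorem h82_move_x_aux {xb : Fb} (hx : h75_IsChart k xb) (W : Divisor k Fb)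
    (Sg : Finset (Divisor k Fb))
    (hSg : ∀ D ∈ Sg, Module.finrank k ↥(riemannRochSpace (W - D)) ≤ h75_genus k xb)
    (orb : k → Set k) (horb : ∀ a : k, (orb a).Finite) (horb' : ∀ b : k, {a : k | b ∈ orb a}.Finite)
    (Bad : Set k) (hBad : Bad.Finite)
    (Rel : k → k → Prop) (hRel : ∀ a : k, {b : k | ¬ Rel a b}.Finite) :
    ∀ j : ℕ, j ≤ h75_genus k xb → ∃ β : Fin j → k,
      (∀ i, ∀ b ∈ orb (β i), b ∉ Bad) ∧ (∀ i i', i < i' → Rel (β i) (β i')) ∧
      ∀ Q : Fin j → Place k Fb, (∀ i, ∃ b ∈ orb (β i), h39_Val (Q i) xb b) →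
        ∀ D ∈ Sg, Module.finrank k
          ↥(riemannRochSpace (W - D - ∑ i, Finsupp.single (Q i) (1 : ℤ))) + j ≤
            h75_genus k xb := by
  classical
  intro j
  induction j with
  | zero =>
    intro _
    refine ⟨Fin.elim0, fun i => i.elim0, fun i => i.elim0, fun Q _ D hD => ?_⟩
    rw [Finset.univ_eq_empty, Finset.sum_empty, sub_zero, add_zero]
    exact hSg D hD
  | succ j ih =>
    intro hj
    obtain ⟨β, hβBad, hβRel, hβ⟩ := ih (by omega)
    -- the finitely many tuples
    have hT := h82_tuples_finite hx orb horb β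
    -- the bad places
    let BadPl : Set (Place k Fb) := ⋃ D ∈ (Sg : Set (Divisor k Fb)),
      ⋃ Q ∈ {Q : Fin j → Place k Fb | ∀ i, ∃ b ∈ orb (β i), h39_Val (Q i) xb b},
        {P : Place k Fb | ¬ (Module.finrank k ↥(riemannRochSpace
          (W - D - ∑ i, Finsupp.single (Q i) (1 : ℤ) - Finsupp.single P 1)) + (j + 1) ≤
            h75_genus k xb)}
    have hBadPl : BadPl.Finite := by
      refine Sg.finite_toSet.biUnion fun D hD => hT.biUnion fun Q hQ => ?_
      exact h82_bad_point_finite hx _ j hj (hβ Q hQ D hD)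
    -- the bad values
    let BadV : Set k := {b : k | ∃ P ∈ BadPl, h39_Val P xb b}
    have hBadV : BadV.Finite := by
      have h1 : (⋃ P ∈ BadPl, {b : k | h39_Val P xb b}).Finite := by
        refine hBadPl.biUnion fun P _ => ?_
        refine Set.Subsingleton.finite ?_
        intro b hb b' hb'
        exact h39_val_unique P hb hb'
      refine h1.subset ?_
      rintro b ⟨P, hP, hb⟩
      simp only [Set.mem_iUnion]
      exact ⟨P, hP, hb⟩
    -- the values to avoid
    have hav1 : (⋃ b ∈ BadV ∪ Bad, {a : k | b ∈ orb a}).Finite :=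
      (hBadV.union hBad).biUnion fun b _ => horb' b
    have hav2 : (⋃ i : Fin j, {b : k | ¬ Rel (β i) b}).Finite :=
      Set.finite_iUnion fun i => hRel (β i)
    have hinf : Infinite k := IsAlgClosed.instInfinite
    obtain ⟨a, ha⟩ := (hav1.union hav2).infinite_compl.nonempty
    have ha1 : ∀ b ∈ orb a, b ∉ BadV ∧ b ∉ Bad := by
      intro b hb
      refine ⟨fun hbv => ha (Or.inl ?_), fun hbv => ha (Or.inl ?_)⟩
      · simp only [Set.mem_iUnion]
        exact ⟨b, Or.inl hbv, hb⟩
      · simp only [Set.mem_iUnion]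
        exact ⟨b, Or.inr hbv, hb⟩
    have ha2 : ∀ i : Fin j, Rel (β i) a := by
      intro i
      by_contra hR
      exact ha (Or.inr (Set.mem_iUnion.mpr ⟨i, hR⟩))
    refine ⟨Fin.snoc β a, ?_, ?_, ?_⟩
    · intro i
      refine Fin.lastCases ?_ (fun i => ?_) i
      · intro b hb
        rw [Fin.snoc_last] at hb
        exact (ha1 b hb).2
      · intro b hb
        rw [Fin.snoc_castSucc] at hb
        exact hβBad i b hb
    · intro i i'
      refine Fin.lastCases ?_ (fun i' => ?_) i'
      · refine Fin.lastCases ?_ (fun i => ?_) i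
        · intro h
          exact absurd h (lt_irrefl _)
        · intro _
          rw [Fin.snoc_last, Fin.snoc_castSucc]
          exact ha2 i
      · refine Fin.lastCases ?_ (fun i => ?_) i
        · intro h
          exact absurd h (not_lt.mpr (Fin.le_last _))
        · intro h
          rw [Fin.snoc_castSucc, Fin.snoc_castSucc]
          exact hβRel i i' (by simpa using h)
    · intro Q hQ D hD
      have hQ' : ∀ i : Fin j, ∃ b ∈ orb (β i), h39_Val (Q i.castSucc) xb b := by
        intro i
        have := hQ i.castSucc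
        rwa [Fin.snoc_castSucc] at this
      obtain ⟨b, hb, hbv⟩ := hQ (Fin.last j)
      rw [Fin.snoc_last] at hb
      have hnb : Q (Fin.last j) ∉ BadPl := fun hmem => (ha1 b hb).1 ⟨_, hmem, hbv⟩
      have hgood : Module.finrank k ↥(riemannRochSpace
          (W - D - ∑ i : Fin j, Finsupp.single (Q i.castSucc) (1 : ℤ) -
            Finsupp.single (Q (Fin.last j)) 1)) + (j + 1) ≤ h75_genus k xb := by
        by_contra hcon
        refine hnb ?_
        simp only [BadPl, Set.mem_iUnion]
        exact ⟨D, Finset.mem_coe.mpr hD, fun i => Q i.castSucc, hQ', hcon⟩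
      rw [Fin.sum_univ_castSucc, ← sub_sub]
      exact hgood

/-- **MOVE-X (robust form).** -/
theorem h82_move_x {xb : Fb} (hx : h75_IsChart k xb) (Sg : Finset (Divisor k Fb))
    (hSg : ∀ D ∈ Sg, Divisor.degree D = 0)
    (orb : k → Set k) (horb : ∀ a : k, (orb a).Finite) (horb' : ∀ b : k, {a : k | b ∈ orb a}.Finite)
    (Bad : Set k) (hBad : Bad.Finite)
    (Rel : k → k → Prop) (hRel : ∀ a : k, {b : k | ¬ Rel a b}.Finite) :
    ∃ β : Fin (h75_genus k xb) → k,
      (∀ i, ∀ b ∈ orb (β i), b ∉ Bad) ∧ (∀ i j, i < j → Rel (β i) (β j)) ∧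
      ∀ Q : Fin (h75_genus k xb) → Place k Fb,
        (∀ i, ∃ b ∈ orb (β i), h39_Val (Q i) xb b) →
        ∀ D ∈ Sg, Module.finrank k
          ↥(riemannRochSpace (D + ∑ i, Finsupp.single (Q i) (1 : ℤ))) = 1 := by
  classical
  obtain ⟨W, hW⟩ := h68_exists_canonical hx
  have hSg' : ∀ D ∈ Sg, Module.finrank k ↥(riemannRochSpace (W - D)) ≤ h75_genus k xb := by
    intro D hD
    have h1 := hW D
    rw [hSg D hD] at h1
    have h2 : Module.finrank k ↥(riemannRochSpace D) ≤ 1 := by
      rcases h68_rr_deg_zero hx D (hSg D hD) with h | h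
      · omega
      · omega
    omega
  obtain ⟨β, hβBad, hβRel, hβ⟩ := h82_move_x_aux hx W Sg hSg' orb horb horb' Bad hBad Rel hRel
    (h75_genus k xb) le_rfl
  refine ⟨β, hβBad, hβRel, fun Q hQ D hD => ?_⟩
  have h0 := hβ Q hQ D hD
  have h1 := hW (D + ∑ i, Finsupp.single (Q i) (1 : ℤ))
  have hdeg : Divisor.degree (D + ∑ i, Finsupp.single (Q i) (1 : ℤ)) = (h75_genus k xb : ℤ) := by
    rw [map_add, hSg D hD, map_sum]
    simp [Divisor.degree_single, h75_deg_eq_one hx]
  rw [hdeg, ← sub_sub] at h1
  omega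

end Fermat.Agent.S19
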