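import Fermat.Agent.S19.h23_DatumDefs
import Fermat.Agent.S19.h82_MoveX
import Fermat.Agent.S19.h82_SemiRR
import Fermat.Agent.S19.h24_RedL
import Fermat.Agent.S18.GR_GenusEq

/-!
# S19 / X7 EXIST, hypothesis form (owner helper23)

`h23_exist_of` : the statement of `h23_exist` (skeleton origin/helper23, row X7) with the three
rows X1 `h23_good_of_points`, X2 `h23_exists_frame`, X3 `h23_exists_points` as explicit
hypotheses `hX1`, `hX2`, `hX3` (their statements, specialised to the data at hand).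

A datum `(Dinf, b', b'')` defined over an `ℓ`-good tower `K'` all of whose Galois conjugates
are good at the reduction datum `R` (`h23_Good`), from

* C1 `h82_move_x` (values `β_i` whose Frobenius orbits avoid the bad residues, such that ALL
  tuples of places over the orbits are non-special for the finitely many classes),
* X2 (a frame downstairs all of whose Frobenius twists are in general position with respect to
  the finitely many reduced subspaces),
* C2 `h23_Arith` (one inert `θ` lifting the residues `β_i` and the entries of the frame),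
* X3 (points over the lifts, with the tower step),
* X1 (goodness from conditions on the reduced curve).
-/

set_option autoImplicit false

noncomputable section

open AlgebraicCurve Fermat.Agent.S18 Fermat.Agent.S27 Polynomial IntermediateField

namespace Fermat.Agent.S19

/-! ### Frobenius orbits -/

section Frob

variable {k : Type*} [Field k] (ℓ : ℕ)

/-- the Frobenius orbit of `a`. -/
def h23_orb (a : k) : Set k := {b | ∃ t : ℕ, b = a ^ (ℓ ^ t)}

theorem h23_self_mem_orb (a : k) : a ∈ h23_orb ℓ a := ⟨0, by rw [pow_zero, pow_one]⟩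

theorem h23_frob_add (a : k) (s t : ℕ) : a ^ (ℓ ^ (s + t)) = (a ^ (ℓ ^ s)) ^ (ℓ ^ t) := by
  rw [pow_add, pow_mul]

theorem h23_frob_period (a : k) (n : ℕ) (h : a ^ (ℓ ^ n) = a) (m : ℕ) :
    a ^ (ℓ ^ (n * m)) = a := by
  induction m with
  | zero => rw [Nat.mul_zero, pow_zero, pow_one]
  | succ m ih => rw [Nat.mul_succ, h23_frob_add, ih, h]

theorem h23_orb_finite (hk : ∀ c : k, ∃ n : ℕ, 0 < n ∧ c ^ (ℓ ^ n) = c) (a : k) :
    (h23_orb ℓ a).Finite := by
  obtain ⟨n, hn, han⟩ := hk a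
  refine ((Finset.range n).finite_toSet.image fun t => a ^ (ℓ ^ t)).subset ?_
  rintro b ⟨t, rfl⟩
  refine ⟨t % n, Finset.mem_coe.mpr (Finset.mem_range.mpr (Nat.mod_lt t hn)), ?_⟩
  show a ^ (ℓ ^ (t % n)) = a ^ (ℓ ^ t)
  conv_rhs => rw [← Nat.div_add_mod t n, h23_frob_add, h23_frob_period ℓ a n han]

theorem h23_orb_fibre_finite (hk : ∀ c : k, ∃ n : ℕ, 0 < n ∧ c ^ (ℓ ^ n) = c) (b : k) :
    {a : k | b ∈ h23_orb ℓ a}.Finite := by
  refine (h23_orb_finite ℓ hk b).subset ?_
  rintro a ⟨t, rfl⟩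
  obtain ⟨n, hn, han⟩ := hk a
  refine ⟨n * t - t, ?_⟩
  rw [← h23_frob_add, Nat.add_sub_cancel' (Nat.le_mul_of_pos_left t hn),
    h23_frob_period ℓ a n han]

end Frob

section LinAlg

variable {𝕜 V : Type*} [Field 𝕜] [AddCommGroup V] [Module 𝕜 V]

/-- `n` independent vectors in the span of `n` independent vectors span the same space. -/
theorem h23_span_eq_of_li {n : ℕ} (v w : Fin n → V) (hv : LinearIndependent 𝕜 v)
    (hw : LinearIndependent 𝕜 w) (h : ∀ j, w j ∈ Submodule.span 𝕜 (Set.range v)) :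
    Submodule.span 𝕜 (Set.range w) = Submodule.span 𝕜 (Set.range v) := by
  have hle : Submodule.span 𝕜 (Set.range w) ≤ Submodule.span 𝕜 (Set.range v) := by
    refine Submodule.span_le.mpr ?_
    rintro _ ⟨j, rfl⟩
    exact h j
  have : FiniteDimensional 𝕜 (Submodule.span 𝕜 (Set.range v)) :=
    FiniteDimensional.span_of_finite 𝕜 (Set.finite_range v)
  refine Submodule.eq_of_le_of_finrank_eq hle ?_
  rw [finrank_span_eq_card hw, finrank_span_eq_card hv]

/-- a frame change by an invertible matrix keeps independence. -/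
theorem h23_li_comb {n : ℕ} (v : Fin n → V) (hv : LinearIndependent 𝕜 v)
    (A : Matrix (Fin n) (Fin n) 𝕜) (hA : A.det ≠ 0) :
    LinearIndependent 𝕜 (fun j => ∑ i, A i j • v i) := by
  rw [Fintype.linearIndependent_iff]
  intro c hc
  have h1 : ∑ i, (∑ j, A i j * c j) • v i = 0 := by
    rw [← hc]
    simp only [Finset.sum_smul, Finset.smul_sum]
    rw [Finset.sum_comm]
    refine Finset.sum_congr rfl fun j _ => Finset.sum_congr rfl fun i _ => ?_
    rw [smul_smul, mul_comm]
  have h2 := Fintype.linearIndependent_iff.mp hv _ h1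
  have h3 : A.mulVec c = 0 := by
    funext i
    exact h2 i
  have h4 := Matrix.eq_zero_of_mulVec_eq_zero hA h3
  intro j
  exact congrFun h4 j

theorem h23_comb_mem_span {n m : ℕ} (v : Fin n → V) (A : Matrix (Fin n) (Fin m) 𝕜) (j : Fin m) :
    ∑ i, A i j • v i ∈ Submodule.span 𝕜 (Set.range v) :=
  Submodule.sum_mem _ fun i _ => Submodule.smul_mem _ _ (Submodule.subset_span ⟨i, rfl⟩)

/-- the dimension of a preimage under an injective linear map. -/
theorem h23_finrank_comap_le {V' : Type*} [AddCommGroup V'] [Module 𝕜 V'] (f : V →ₗ[𝕜] V')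
    (hf : Function.Injective f) (W : Submodule 𝕜 V') [FiniteDimensional 𝕜 W] :
    Module.finrank 𝕜 (W.comap f) ≤ Module.finrank 𝕜 W := by
  refine LinearMap.finrank_le_finrank_of_injective
    (f := f.restrict (p := W.comap f) (q := W) fun x hx => hx) ?_
  intro a b hab
  apply Subtype.ext
  apply hf
  exact congrArg Subtype.val hab

end LinAlg

section Red

variable {K F k Fb : Type*} [Field K] [Field F] [Algebra K F] [Field k] [Field Fb] [Algebra k Fb]

/-- reindexing an orthonormal basis. -/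
theorem h23_onBasis_comp (R : h39_RedDatum K F k Fb) (S : h39_PlaceRed R) {ι κ : Type*}
    (e : ι → F) (φ : κ ≃ ι) (D : Divisor K F) (h : h26_ONBasis R S e D) :
    h26_ONBasis R S (e ∘ φ) D := by
  obtain ⟨⟨hO, hli⟩, hK, hk⟩ := h
  refine ⟨⟨fun i => hO (φ i), hli.comp φ φ.injective⟩, ?_, ?_⟩
  · rw [φ.surjective.range_comp]
    exact hK
  · have : (fun i => R.redF ((e ∘ φ) i)) = (fun i => R.redF (e i)) ∘ φ := rfl
    rw [this, φ.surjective.range_comp]
    exact hk

/-- a frame change by a matrix over `A` with invertible reduction. -/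
theorem h23_onBasis_frame (R : h39_RedDatum K F k Fb) (S : h39_PlaceRed R) (M : Divisor K F)
    {n : ℕ} (b : Fin n → F) (hb : h26_ONBasis R S b M) (Θ : Matrix (Fin n) (Fin n) K)
    (hΘ : ∀ i j, Θ i j ∈ R.A)
    (hdet : (Matrix.of fun i j => R.resK (Θ i j)).det ≠ 0) :
    h26_ONBasis R S (fun j => ∑ i, Θ i j • b i) M ∧
      ∀ j, R.redF (∑ i, Θ i j • b i) = ∑ i, R.resK (Θ i j) • R.redF (b i) := by
  obtain ⟨⟨hbO, hbli⟩, hbK, hbk⟩ := hb
  have hcO : ∀ j, ∑ i, Θ i j • b i ∈ R.O := fun j =>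
    (h24_on_mem_iff R b hbO hbli (fun i => Θ i j)).mpr fun i => hΘ i j
  have hred : ∀ j, R.redF (∑ i, Θ i j • b i) = ∑ i, R.resK (Θ i j) • R.redF (b i) := fun j =>
    h24_on_redF R b hbO (fun i => Θ i j) fun i => hΘ i j
  have hcli : LinearIndependent k (fun j => R.redF (∑ i, Θ i j • b i)) := by
    have h1 := h23_li_comb (fun i => R.redF (b i)) hbli (Matrix.of fun i j => R.resK (Θ i j)) hdet
    have h2 : (fun j => R.redF (∑ i, Θ i j • b i)) =
        fun j => ∑ i, (Matrix.of fun i j => R.resK (Θ i j)) i j • R.redF (b i) := by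
      funext j
      rw [hred j]
      rfl
    rw [h2]
    exact h1
  refine ⟨⟨⟨hcO, hcli⟩, ?_, ?_⟩, hred⟩
  · rw [← hbK]
    exact h23_span_eq_of_li b _ (h24_on_linearIndependent R b hbO hbli)
      (h24_on_linearIndependent R _ hcO hcli) fun j => h23_comb_mem_span b Θ j
  · rw [← hbk]
    refine h23_span_eq_of_li (fun i => R.redF (b i)) _ hbli hcli fun j => ?_
    show R.redF (∑ i, Θ i j • b i) ∈ _
    rw [hred j]
    exact h23_comb_mem_span (fun i => R.redF (b i)) (Matrix.of fun i j => R.resK (Θ i j)) j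

variable [IsAlgClosed K] [CharZero K] [IsAlgClosed k]

/-- an orthonormal family of `l(M)` elements of `L(M)` is an orthonormal basis, `deg M ≥ c`. -/
theorem h23_onBasis_of_card (R : h39_RedDatum K F k Fb) {x : F} (hx : h39_WeakChart R x)
    (S : h39_PlaceRed R) (M : Divisor K F) (hMc : S.c ≤ Divisor.degree M) {n : ℕ}
    (b : Fin n → F) (hbmem : ∀ i, b i ∈ riemannRochSpace M) (hbO : ∀ i, b i ∈ R.O)
    (hbli : LinearIndependent k (fun i => R.redF (b i)))
    (hcard : Module.finrank K ↥(riemannRochSpace M) = n) : h26_ONBasis R S b M := by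
  have hxK := h39_weakChart_isChart R hx
  have hxk := h39_weakChart_isChart_red R hx
  have hfK : FiniteDimensional K (riemannRochSpace M) := (h75_riemann hxK M).1
  have hfk : FiniteDimensional k (riemannRochSpace (Finsupp.mapDomain S.r0 M)) :=
    (h75_riemann hxk _).1
  refine ⟨⟨hbO, hbli⟩, ?_, ?_⟩
  · refine Submodule.eq_of_le_of_finrank_eq ?_ ?_
    · refine Submodule.span_le.mpr ?_
      rintro _ ⟨i, rfl⟩
      exact hbmem i
    · rw [finrank_span_eq_card (h24_on_linearIndependent R b hbO hbli), hcard, Fintype.card_fin]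
  · refine Submodule.eq_of_le_of_finrank_eq ?_ ?_
    · refine Submodule.span_le.mpr ?_
      rintro _ ⟨i, rfl⟩
      exact h24_redSub_rr_le R hx S M (h24_mem_redSub R _ (hbmem i) (hbO i))
    · rw [finrank_span_eq_card hbli, ← S.finrank_eq M hMc, hcard, Fintype.card_fin]

end Red

local notation "Qb" => AlgebraicClosure ℚ
local notation "Γℚ" => (AlgebraicClosure ℚ ≃ₐ[ℚ] AlgebraicClosure ℚ)

section Qbar

variable {F : Type*} [Field F] [Algebra Qb F] {k Fb : Type*} [Field k] [Field Fb] [Algebra k Fb]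
variable (gal : Γℚ →* SemilinearAut Qb F)

theorem h23_baseAut
    (hgal : ∀ (σ : Γℚ) (a : Qb), gal σ • algebraMap Qb F a = algebraMap Qb F (σ a))
    (σ : Γℚ) (a : Qb) : SemilinearAut.baseAut (gal σ) a = σ a := by
  have h := SemilinearAut.smul_algebraMap (gal σ) a
  rw [hgal] at h
  exact ((algebraMap Qb F).injective h).symm

/-- the set of reduced subspaces, and its finiteness and dimension bound. -/
theorem h23_exist_W [IsAlgClosed k] (ℓ : ℕ)
    (R : h39_RedDatum Qb F k Fb)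
    (hk : ∀ c : k, ∃ n : ℕ, 0 < n ∧ c ^ (ℓ ^ n) = c)
    {x : F} (hx : h39_Chart R x) (S : h39_PlaceRed R)
    (M : Divisor Qb F)
    (hMg : 3 * (h75_genus Qb x : ℤ) ≤ Divisor.degree M)
    {n' : ℕ}
    (hcard : Module.finrank Qb ↥(riemannRochSpace M) = n' + h75_genus Qb x)
    (coordk : (Fin (n' + h75_genus Qb x) → k) →ₗ[k] Fb) (hcoord : Function.Injective coordk)
    (G : Set (Pic0 Qb F)) (hG : G.Finite) (rep : Pic0 Qb F → Divisor Qb F)
    (hrep : ∀ z, rep z ∈ Divisor.degZero (K := Qb) (F := F))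
    (β : Fin (h75_genus Qb x) → k)
    (hβ : ∀ Q : Fin (h75_genus Qb x) → Place k Fb,
        (∀ i, ∃ b ∈ h23_orb ℓ (β i), h39_Val (Q i) (R.redF x) b) →
        ∀ z ∈ G, Module.finrank k ↥(riemannRochSpace
          (Finsupp.mapDomain S.r0 (rep z) + ∑ i, Finsupp.single (Q i) (1 : ℤ))) = 1) :
    ({W : Submodule k (Fin (n' + h75_genus Qb x) → k) | ∃ z ∈ G,
      ∃ Q ∈ {Q : Fin (h75_genus Qb x) → Place k Fb |
        ∀ i, ∃ b ∈ h23_orb ℓ (β i), h39_Val (Q i) (R.redF x) b},
      ∃ Eb : Divisor k Fb, 0 ≤ Eb ∧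
        Eb - (Finsupp.mapDomain S.r0 (rep z) + ∑ i, Finsupp.single (Q i) (1 : ℤ)) ∈
          Divisor.principal (K := k) (F := Fb) ∧
        W = (riemannRochSpace (Finsupp.mapDomain S.r0 M - Eb)).comap coordk}).Finite ∧
    ∀ W ∈ {W : Submodule k (Fin (n' + h75_genus Qb x) → k) | ∃ z ∈ G,
      ∃ Q ∈ {Q : Fin (h75_genus Qb x) → Place k Fb |
        ∀ i, ∃ b ∈ h23_orb ℓ (β i), h39_Val (Q i) (R.redF x) b},
      ∃ Eb : Divisor k Fb, 0 ≤ Eb ∧
        Eb - (Finsupp.mapDomain S.r0 (rep z) + ∑ i, Finsupp.single (Q i) (1 : ℤ)) ∈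
          Divisor.principal (K := k) (F := Fb) ∧
        W = (riemannRochSpace (Finsupp.mapDomain S.r0 M - Eb)).comap coordk},
      Module.finrank k W ≤ n' := by
  classical
  have hxW : h39_WeakChart R x := hx.toh39_WeakChart
  have hxK : h75_IsChart Qb x := h39_weakChart_isChart R hxW
  have hxk : h75_IsChart k (R.redF x) := h39_weakChart_isChart_red R hxW
  have hg : h75_genus k (R.redF x) = h75_genus Qb x := h39_genus_eq R hx
  have hTup := h82_tuples_finite hxk (h23_orb ℓ) (h23_orb_finite ℓ hk) β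
  constructor
  · have hfin : (⋃ z ∈ G, ⋃ Q ∈ {Q : Fin (h75_genus Qb x) → Place k Fb |
        ∀ i, ∃ b ∈ h23_orb ℓ (β i), h39_Val (Q i) (R.redF x) b},
        {W : Submodule k (Fin (n' + h75_genus Qb x) → k) | ∃ Eb : Divisor k Fb, 0 ≤ Eb ∧
          Eb - (Finsupp.mapDomain S.r0 (rep z) + ∑ i, Finsupp.single (Q i) (1 : ℤ)) ∈
            Divisor.principal (K := k) (F := Fb) ∧
          W = (riemannRochSpace (Finsupp.mapDomain S.r0 M - Eb)).comap coordk}).Finite := by
      refine hG.biUnion fun z hz => hTup.biUnion fun Q hQ => Set.Subsingleton.finite ?_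
      rintro W₁ ⟨E₁, hE₁, hp₁, rfl⟩ W₂ ⟨E₂, hE₂, hp₂, rfl⟩
      have := h24_effective_unique _ E₂ E₁ (hβ Q hQ z hz) (fun P => hE₂ P) (fun P => hE₁ P)
        hp₂ hp₁
      rw [this]
    refine hfin.subset ?_
    rintro W ⟨z, hz, Q, hQ, Eb, h⟩
    simp only [Set.mem_iUnion]
    exact ⟨z, hz, Q, hQ, Eb, h⟩
  · rintro W ⟨z, hz, Q, hQ, Eb, hEb, hprin, rfl⟩
    have hfk : FiniteDimensional k (riemannRochSpace (Finsupp.mapDomain S.r0 M - Eb)) :=
      (h75_riemann hxk _).1
    refine (h23_finrank_comap_le coordk hcoord _).trans ?_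
    -- degrees
    have hdegE : Divisor.degree Eb = (h75_genus Qb x : ℤ) := by
      obtain ⟨f, hf, hDf⟩ := hprin
      have h2 := h7_degree_div hxk hf _ hDf
      rw [map_sub, map_add, h64_degree_mapDomain_r0 R S hxK hxk,
        Divisor.mem_degZero.mp (hrep z), map_sum] at h2
      simp only [Divisor.degree_single, h75_deg_eq_one hxk, Finset.sum_const, Finset.card_univ,
        Fintype.card_fin] at h2
      simp at h2
      linarith
    have hdegM : Divisor.degree (Finsupp.mapDomain S.r0 M) = Divisor.degree M :=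
      h64_degree_mapDomain_r0 R S hxK hxk M
    have hup := h15_finrank_rr_of_deg hxK M (by linarith)
    have hdown := h15_finrank_rr_of_deg hxk (Finsupp.mapDomain S.r0 M - Eb) (by
      rw [map_sub, hdegM, hdegE, hg]
      linarith)
    rw [map_sub, hdegM, hdegE, hg] at hdown
    rw [hcard] at hup
    push_cast at hup
    have : (Module.finrank k ↥(riemannRochSpace (Finsupp.mapDomain S.r0 M - Eb)) : ℤ) = n' := by
      linarith
    exact le_of_eq (by exact_mod_cast this)

/-- the reduction of a conjugate of a point over `a ∈ ℚ(θ) ∩ A` lies over a Frobenius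
conjugate of `res a`. -/
theorem h23_r0_conj_val
    (hgal : ∀ (σ : Γℚ) (a : Qb), gal σ • algebraMap Qb F a = algebraMap Qb F (σ a))
    (R : h39_RedDatum Qb F k Fb) {x : F} (hxO : x ∈ R.O) (hxfix : ∀ σ, gal σ • x = x)
    (S : h39_PlaceRed R)
    (hS : ∃ r : Place Qb F → Place k Fb, h39_IsChartRed R x r ∧
      ∀ P : Place Qb F, h39_InDisc R x P → S.r0 P = r P)
    (Q : Place Qb F) (a : Qb) (hQ : h39_Val Q x a) (τ : Γℚ) (hτa : τ a ∈ R.A) :
    h39_Val (S.r0 (gal τ • Q)) (R.redF x) (R.resK (τ a)) := by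
  obtain ⟨r, hr, hrS⟩ := hS
  have hval : h39_Val (gal τ • Q) x (τ a) := by
    have := h82_val_smul_of_fixed (gal τ) (hxfix τ) hQ
    rwa [h23_baseAut gal hgal] at this
  have hdisc : h39_InDisc R x (gal τ • Q) := ⟨τ a, hτa, hval⟩
  rw [hrS _ hdisc]
  exact (hr _ hdisc).2 x hxO (fun _ h => h) (τ a) hval

/-- **(EXIST), hypothesis form**: a datum `(Dinf, b', b'')` defined over an `ℓ`-good tower all
of whose Galois conjugates are good at `R`.  (`b` = a Galois-fixed orthonormal basis of `L(M)`,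
from X5; `hX1`, `hX2`, `hX3` are the statements of the rows X1, X2, X3.) -/
theorem h23_exist_of [IsAlgClosed k] (ℓ : ℕ) [Fact ℓ.Prime] [CharP k ℓ]
    (hgal : ∀ (σ : Γℚ) (a : Qb), gal σ • algebraMap Qb F a = algebraMap Qb F (σ a))
    (R : h39_RedDatum Qb F k Fb) (𝒜 : Set (ValuationSubring Qb)) (hAr : h23_Arith ℓ R 𝒜)
    {x : F} (hx : h39_Chart R x) (hxfix : ∀ σ, gal σ • x = x)
    (S : h39_PlaceRed R)
    (hS : ∃ r : Place Qb F → Place k Fb, h39_IsChartRed R x r ∧
      ∀ P : Place Qb F, h39_InDisc R x P → S.r0 P = r P)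
    (M : Divisor Qb F)
    (hMc : S.c ≤ Divisor.degree M) (hMg : 3 * (h75_genus Qb x : ℤ) ≤ Divisor.degree M)
    {n' : ℕ} (b : Fin (n' + h75_genus Qb x) → F) (hbmem : ∀ i, b i ∈ riemannRochSpace M)
    (hbfix : ∀ σ i, gal σ • b i = b i) (hbO : ∀ i, b i ∈ R.O)
    (hbli : LinearIndependent k (fun i => R.redF (b i)))
    (hcard : Module.finrank Qb ↥(riemannRochSpace M) = n' + h75_genus Qb x)
    (G : Set (Pic0 Qb F)) (hG : G.Finite)
    (hX1 : ∀ (rep : Pic0 Qb F → Divisor Qb F),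
      (∀ z ∈ G, ∃ h : rep z ∈ Divisor.degZero (K := Qb) (F := F), Pic0.mk ⟨rep z, h⟩ = z) →
      ∀ (Q : Fin (h75_genus Qb x) → Place Qb F) (b' : Fin n' → F)
        (b'' : Fin (h75_genus Qb x) → F), h26_ONBasis R S (Sum.elim b' b'') M →
      (∀ z ∈ G, Module.finrank k ↥(riemannRochSpace
        (Finsupp.mapDomain S.r0 (rep z) + ∑ i, Finsupp.single (S.r0 (Q i)) (1 : ℤ))) = 1) →
      (∀ z ∈ G, ∀ Eb : Divisor k Fb, 0 ≤ Eb →
        Eb - (Finsupp.mapDomain S.r0 (rep z) + ∑ i, Finsupp.single (S.r0 (Q i)) (1 : ℤ)) ∈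
          Divisor.principal (K := k) (F := Fb) →
        ∀ v ∈ riemannRochSpace (Finsupp.mapDomain S.r0 M - Eb),
          v ∈ Submodule.span k (Set.range fun i => R.redF (b'' i)) → v = 0) →
      h23_Good R S M G (∑ i, Finsupp.single (Q i) (1 : ℤ)) b' b'')
    (hX2 : ∀ (𝒲 : Set (Submodule k (Fin (n' + h75_genus Qb x) → k))), 𝒲.Finite →
      (∀ W ∈ 𝒲, Module.finrank k W ≤ n') →
      ∃ Θ : Matrix (Fin (n' + h75_genus Qb x)) (Fin (n' + h75_genus Qb x)) k, Θ.det ≠ 0 ∧
        ∀ (t : ℕ), ∀ W ∈ 𝒲, ∀ v ∈ W,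
          v ∈ Submodule.span k (Set.range fun j : Fin (h75_genus Qb x) =>
            fun i => (Θ i (Fin.natAdd n' j)) ^ (ℓ ^ t)) → v = 0)
    (hX3 : ∃ Bad : Set k, Bad.Finite ∧ ∀ a : Qb, a ∈ R.A →
      (∀ u ∈ IntermediateField.adjoin ℚ {a}, u ∈ R.A → h26_Int 𝒜 u) → R.resK a ∉ Bad →
      ∃ (η : Qb) (Q : Place Qb F), h39_Val Q x a ∧
        (∀ σ : Γℚ, σ a = a → σ η = η → gal σ • Q = Q) ∧
        (∀ K' : IntermediateField ℚ Qb, h26_LGood 𝒜 K' → a ∈ K' →
          h26_LGood 𝒜 (K' ⊔ IntermediateField.adjoin ℚ {η}))) :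
    ∃ (Dinf : Divisor Qb F) (b' : Fin n' → F) (b'' : Fin (h75_genus Qb x) → F)
      (K' : IntermediateField ℚ Qb),
      h26_LGood 𝒜 K' ∧
      (∀ σ : Γℚ, (∀ a ∈ K', σ a = a) →
        gal σ • Dinf = Dinf ∧ (∀ j, gal σ • b' j = b' j) ∧ ∀ i, gal σ • b'' i = b'' i) ∧
      ∀ τ : Γℚ, h23_Good R S M G (gal τ • Dinf) (fun j => gal τ • b' j)
        (fun i => gal τ • b'' i) := by
  classical
  have hxW : h39_WeakChart R x := hx.toh39_WeakChart
  have hxK : h75_IsChart Qb x := h39_weakChart_isChart R hxW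
  have hxk : h75_IsChart k (R.redF x) := h39_weakChart_isChart_red R hxW
  have hg : h75_genus k (R.redF x) = h75_genus Qb x := h39_genus_eq R hx
  -- representatives of the classes
  let rep : Pic0 Qb F → Divisor Qb F := fun z => ((Pic0.mk_surjective z).choose : Divisor Qb F)
  have hrep0 : ∀ z, rep z ∈ Divisor.degZero (K := Qb) (F := F) := fun z =>
    (Pic0.mk_surjective z).choose.2
  have hrep : ∀ z ∈ G, ∃ h : rep z ∈ Divisor.degZero (K := Qb) (F := F),
      Pic0.mk ⟨rep z, h⟩ = z := fun z _ => ⟨hrep0 z, (Pic0.mk_surjective z).choose_spec⟩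
  -- X3: the points
  obtain ⟨Bad, hBad, hpts⟩ := hX3
  -- C1: the values
  let Sg : Finset (Divisor k Fb) := hG.toFinset.image fun z => Finsupp.mapDomain S.r0 (rep z)
  have hSg : ∀ D ∈ Sg, Divisor.degree D = 0 := by
    intro D hD
    obtain ⟨z, -, rfl⟩ := Finset.mem_image.mp hD
    rw [h64_degree_mapDomain_r0 R S hxK hxk]
    exact Divisor.mem_degZero.mp (hrep0 z)
  have hmove : ∃ β : Fin (h75_genus Qb x) → k,
      (∀ i, ∀ c ∈ h23_orb ℓ (β i), c ∉ Bad) ∧
      ∀ Q : Fin (h75_genus Qb x) → Place k Fb,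
        (∀ i, ∃ c ∈ h23_orb ℓ (β i), h39_Val (Q i) (R.redF x) c) →
        ∀ D ∈ Sg, Module.finrank k
          ↥(riemannRochSpace (D + ∑ i, Finsupp.single (Q i) (1 : ℤ))) = 1 := by
    rw [← hg]
    obtain ⟨β, h1, -, h2⟩ := h82_move_x hxk Sg hSg (h23_orb ℓ) (h23_orb_finite ℓ hAr.orbit)
      (h23_orb_fibre_finite ℓ hAr.orbit) Bad hBad (fun _ _ => True) (fun _ => by simp)
    exact ⟨β, h1, h2⟩
  obtain ⟨β, hβBad, hβ⟩ := hmove
  have hβ' : ∀ Q : Fin (h75_genus Qb x) → Place k Fb,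
      (∀ i, ∃ c ∈ h23_orb ℓ (β i), h39_Val (Q i) (R.redF x) c) →
      ∀ z ∈ G, Module.finrank k ↥(riemannRochSpace
        (Finsupp.mapDomain S.r0 (rep z) + ∑ i, Finsupp.single (Q i) (1 : ℤ))) = 1 :=
    fun Q hQ z hz => hβ Q hQ _ (Finset.mem_image.mpr ⟨z, hG.mem_toFinset.mpr hz, rfl⟩)
  -- the orthonormal basis and the coordinates downstairs
  have hb0 : h26_ONBasis R S b M := h23_onBasis_of_card R hxW S M hMc b hbmem hbO hbli hcard
  let coordk : (Fin (n' + h75_genus Qb x) → k) →ₗ[k] Fb :=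
    Fintype.linearCombination k fun i => R.redF (b i)
  have hcoord : ∀ c, coordk c = ∑ i, c i • R.redF (b i) := fun c =>
    Fintype.linearCombination_apply k _ c
  have hcoordinj : Function.Injective coordk := by
    rw [← LinearMap.ker_eq_bot, LinearMap.ker_eq_bot']
    intro c hc
    rw [hcoord] at hc
    funext i
    exact Fintype.linearIndependent_iff.mp hbli c hc i
  -- X2: the frame downstairs
  obtain ⟨h𝒲, hdim⟩ := h23_exist_W ℓ R hAr.orbit hx S M hMg hcard coordk hcoordinj G hG rep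
    hrep0 β hβ'
  obtain ⟨Θb, hΘbdet, hΘb⟩ := hX2 _ h𝒲 hdim
  -- C2: the inert field and the lifts
  obtain ⟨θ, hθgood, hθint, hθconj, hθfrob, hθlift⟩ :=
    hAr.theta (Fintype.card (Fin (h75_genus Qb x) ⊕
        (Fin (n' + h75_genus Qb x) × Fin (n' + h75_genus Qb x))))
      (fun m => Sum.elim β (fun p => Θb p.1 p.2) ((Fintype.equivFin _).symm m))
  have hlift : ∀ s : Fin (h75_genus Qb x) ⊕
      (Fin (n' + h75_genus Qb x) × Fin (n' + h75_genus Qb x)),
      ∃ u ∈ IntermediateField.adjoin ℚ {θ}, u ∈ R.A ∧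
        R.resK u = Sum.elim β (fun p => Θb p.1 p.2) s := by
    intro s
    have := hθlift (Fintype.equivFin _ s)
    rwa [Equiv.symm_apply_apply] at this
  choose u hu hurA hures using hlift
  -- the points
  have hpt : ∀ i : Fin (h75_genus Qb x), ∃ (η : Qb) (Q : Place Qb F),
      h39_Val Q x (u (Sum.inl i)) ∧
      (∀ σ : Γℚ, σ (u (Sum.inl i)) = u (Sum.inl i) → σ η = η → gal σ • Q = Q) ∧
      (∀ K' : IntermediateField ℚ Qb, h26_LGood 𝒜 K' → u (Sum.inl i) ∈ K' →
        h26_LGood 𝒜 (K' ⊔ IntermediateField.adjoin ℚ {η})) := by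
    intro i
    refine hpts (u (Sum.inl i)) (hurA _) ?_ ?_
    · intro v hv hvA
      have hle : IntermediateField.adjoin ℚ {u (Sum.inl i)} ≤ IntermediateField.adjoin ℚ {θ} :=
        IntermediateField.adjoin_simple_le_iff.mpr (hu _)
      exact hθint v (hle hv) hvA
    · rw [hures]
      exact hβBad i _ (h23_self_mem_orb ℓ (β i))
  choose η Q hQval hQfix hQtower using hpt
  -- the tower
  have htower : ∀ m : ℕ, m ≤ h75_genus Qb x → ∃ K' : IntermediateField ℚ Qb,
      h26_LGood 𝒜 K' ∧ IntermediateField.adjoin ℚ {θ} ≤ K' ∧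
      ∀ i : Fin (h75_genus Qb x), (i : ℕ) < m → η i ∈ K' := by
    intro m
    induction m with
    | zero =>
      intro _
      exact ⟨⊥ ⊔ IntermediateField.adjoin ℚ {θ}, hθgood, le_sup_right,
        fun i hi => absurd hi (Nat.not_lt_zero _)⟩
    | succ m ih =>
      intro hm
      obtain ⟨K', hK', hθK', hηK'⟩ := ih (by omega)
      refine ⟨K' ⊔ IntermediateField.adjoin ℚ {η ⟨m, hm⟩},
        hQtower ⟨m, hm⟩ K' hK' (hθK' (hu _)), le_trans hθK' le_sup_left, fun i hi => ?_⟩
      rcases Nat.lt_succ_iff_lt_or_eq.mp hi with h | h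
      · exact (le_sup_left : K' ≤ _) (hηK' i h)
      · have hi' : i = ⟨m, hm⟩ := Fin.ext h
        rw [hi']
        exact (le_sup_right : IntermediateField.adjoin ℚ {η ⟨m, hm⟩} ≤ _)
          (IntermediateField.mem_adjoin_simple_self ℚ _)
  obtain ⟨K', hK', hθK', hηK'⟩ := htower _ le_rfl
  -- the datum
  refine ⟨∑ i, Finsupp.single (Q i) (1 : ℤ),
    fun j => ∑ i, u (Sum.inr (i, Fin.castAdd _ j)) • b i,
    fun j => ∑ i, u (Sum.inr (i, Fin.natAdd n' j)) • b i, K', hK', ?_, ?_⟩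
  · -- fixed by the Galois group of `K'`
    intro σ hσ
    have hσu : ∀ s, σ (u s) = u s := fun s => hσ _ (hθK' (hu s))
    refine ⟨?_, fun j => ?_, fun j => ?_⟩
    · rw [h82_smul_sum_single]
      refine Finset.sum_congr rfl fun i _ => ?_
      rw [hQfix i σ (hσu _) (hσ _ (hηK' i i.2))]
    · rw [h82_smul_sum_smul_of_fixed (gal σ) _ _ b (hbfix σ)]
      refine Finset.sum_congr rfl fun i _ => ?_
      rw [h23_baseAut gal hgal, hσu]
    · rw [h82_smul_sum_smul_of_fixed (gal σ) _ _ b (hbfix σ)]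
      refine Finset.sum_congr rfl fun i _ => ?_
      rw [h23_baseAut gal hgal, hσu]
  · -- all conjugates are good
    intro τ
    obtain ⟨t, ht⟩ := hθfrob τ
    have hτA : ∀ s, τ (u s) ∈ R.A := fun s => hθconj _ (hu s) (hurA s) τ
    have hτres : ∀ s, R.resK (τ (u s)) = (Sum.elim β (fun p => Θb p.1 p.2) s) ^ (ℓ ^ t) :=
      fun s => by rw [ht _ (hu s) (hurA s), hures]
    -- the twisted frame
    have hdetτ : (Matrix.of fun i j => R.resK (τ (u (Sum.inr (i, j))))).det ≠ 0 := by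
      have h1 : (Matrix.of fun i j => R.resK (τ (u (Sum.inr (i, j))))) =
          (iterateFrobenius k ℓ t).mapMatrix Θb := by
        ext i j
        simp [hτres, iterateFrobenius_def]
      rw [h1, ← RingHom.map_det, iterateFrobenius_def]
      exact pow_ne_zero _ hΘbdet
    obtain ⟨hon, hred⟩ := h23_onBasis_frame R S M b hb0
      (fun i j => τ (u (Sum.inr (i, j)))) (fun i j => hτA _) hdetτ
    -- the conjugated datum
    have hDτ : gal τ • (∑ i, Finsupp.single (Q i) (1 : ℤ)) =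
        ∑ i, Finsupp.single (gal τ • Q i) (1 : ℤ) := h82_smul_sum_single _ _ _ _
    have hb'τ : (fun j : Fin n' => gal τ • ∑ i, u (Sum.inr (i, Fin.castAdd _ j)) • b i) =
        fun j => ∑ i, τ (u (Sum.inr (i, Fin.castAdd _ j))) • b i := by
      funext j
      rw [h82_smul_sum_smul_of_fixed (gal τ) _ _ b (hbfix τ)]
      refine Finset.sum_congr rfl fun i _ => ?_
      rw [h23_baseAut gal hgal]
    have hb''τ : (fun j : Fin (h75_genus Qb x) =>
        gal τ • ∑ i, u (Sum.inr (i, Fin.natAdd n' j)) • b i) =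
        fun j => ∑ i, τ (u (Sum.inr (i, Fin.natAdd n' j))) • b i := by
      funext j
      rw [h82_smul_sum_smul_of_fixed (gal τ) _ _ b (hbfix τ)]
      refine Finset.sum_congr rfl fun i _ => ?_
      rw [h23_baseAut gal hgal]
    rw [hDτ, hb'τ, hb''τ]
    -- the reduced points lie over the orbits
    have hTupτ : ∀ i, ∃ c ∈ h23_orb ℓ (β i),
        h39_Val (S.r0 (gal τ • Q i)) (R.redF x) c := by
      intro i
      refine ⟨β i ^ (ℓ ^ t), ⟨t, rfl⟩, ?_⟩
      have := h23_r0_conj_val gal hgal R hx.mem hxfix S hS (Q i) _ (hQval i) τ (hτA _)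
      rwa [hτres] at this
    refine hX1 rep hrep (fun i => gal τ • Q i) _ _ ?_ ?_ ?_
    · -- the frame
      have h1 := h23_onBasis_comp R S _ finSumFinEquiv M hon
      have h2 : (Sum.elim (fun j : Fin n' => ∑ i, τ (u (Sum.inr (i, Fin.castAdd _ j))) • b i)
          (fun j : Fin (h75_genus Qb x) => ∑ i, τ (u (Sum.inr (i, Fin.natAdd n' j))) • b i)) =
          (fun j => ∑ i, τ (u (Sum.inr (i, j))) • b i) ∘ finSumFinEquiv := by
        funext s
        rcases s with j | j
        · simp [finSumFinEquiv_apply_left]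
        · simp [finSumFinEquiv_apply_right]
      rw [h2]
      exact h1
    · -- (G1)
      intro z hz
      exact hβ' (fun i => S.r0 (gal τ • Q i)) hTupτ z hz
    · -- (cell)
      intro z hz Eb hEb hprin v hv hvspan
      have hfun : (fun j : Fin (h75_genus Qb x) =>
          R.redF (∑ i, τ (u (Sum.inr (i, Fin.natAdd n' j))) • b i)) =
          coordk ∘ fun j : Fin (h75_genus Qb x) => fun i => (Θb i (Fin.natAdd n' j)) ^ (ℓ ^ t) := by
        funext j
        rw [hred (Fin.natAdd n' j)]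
        show _ = coordk _
        rw [hcoord]
        refine Finset.sum_congr rfl fun i _ => ?_
        rw [hτres]
        rfl
      rw [hfun, Set.range_comp, ← Submodule.map_span] at hvspan
      obtain ⟨c, hc, rfl⟩ := hvspan
      have hc0 := hΘb t _ ⟨z, hz, fun i => S.r0 (gal τ • Q i), hTupτ, Eb, hEb, hprin, rfl⟩ c
        hv hc
      rw [hc0, map_zero]

end Qbar

end Fermat.Agent.S19

end
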