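import Fermat.Agent.S19.h38_HopfLA
import Fermat.Agent.S27.CoordPoint
import Fermat.Prelude.Def_AlgebraicCurve_BaseChangeGalois

/-!
# S19 / X3-P1 RATMODEL (owner helper23)

`h23_model_rat` : the monic equation `Ψ(x, y) = 0` of degree `[F : ℚ̄(x)]` of a Galois-fixed
pair `(x, y)` has rational coefficients: every `σ` maps `Ψ` to a monic equation of the same
degree, which is `Ψ` itself (`h88_dvd_of_ev2_eq_zero`), and the fixed field of the absolute
Galois group is `ℚ` (`h38_fixed_rat`).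
-/

set_option autoImplicit false

noncomputable section

open AlgebraicCurve Fermat.Agent.S18 Fermat.Agent.S27 Polynomial IntermediateField

namespace Fermat.Agent.S19

local notation "Qb" => AlgebraicClosure ℚ
local notation "Γℚ" => (AlgebraicClosure ℚ ≃ₐ[ℚ] AlgebraicClosure ℚ)

section Qbar

variable {F : Type*} [Field F] [Algebra Qb F]
variable (gal : Γℚ →* SemilinearAut Qb F)

/-- the Galois action on two-variable evaluations at a fixed pair. -/
theorem h23_smul_ev2
    (hgal : ∀ (σ : Γℚ) (a : Qb), gal σ • algebraMap Qb F a = algebraMap Qb F (σ a))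
    {x y : F} (hxfix : ∀ σ, gal σ • x = x) (hyfix : ∀ σ, gal σ • y = y) (σ : Γℚ)
    (H : Polynomial (Polynomial Qb)) :
    gal σ • h15_ev2 x y H =
      h15_ev2 x y (H.map (Polynomial.mapRingHom ((σ : Qb ≃+* Qb) : Qb →+* Qb))) := by
  have hcomp : (MulSemiringAction.toRingHom (SemilinearAut Qb F) F (gal σ)).comp
      ((aeval x : Qb[X] →ₐ[Qb] F) : Qb[X] →+* F) =
      ((aeval x : Qb[X] →ₐ[Qb] F) : Qb[X] →+* F).comp
        (Polynomial.mapRingHom ((σ : Qb ≃+* Qb) : Qb →+* Qb)) := by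
    refine Polynomial.ringHom_ext (fun a => ?_) ?_
    · simp only [RingHom.comp_apply, RingHom.coe_coe, aeval_C, Polynomial.coe_mapRingHom,
        Polynomial.map_C]
      exact hgal σ a
    · simp only [RingHom.comp_apply, RingHom.coe_coe, aeval_X, Polynomial.coe_mapRingHom,
        Polynomial.map_X]
      exact hxfix σ
  unfold h15_ev2
  rw [Polynomial.eval₂_map, ← hcomp]
  have h := Polynomial.hom_eval₂ H ((aeval x : Qb[X] →ₐ[Qb] F) : Qb[X] →+* F)
    (MulSemiringAction.toRingHom (SemilinearAut Qb F) F (gal σ)) y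
  have hy : (MulSemiringAction.toRingHom (SemilinearAut Qb F) F (gal σ)) y = y := hyfix σ
  rw [hy] at h
  exact h

/-- **P1 (RATMODEL)** the monic equation of degree `[F : ℚ̄(x)]` of a Galois-fixed pair `(x, y)`
has rational coefficients (uniqueness of the monic equation `h88_dvd_of_ev2_eq_zero` + the fixed
field of `Γℚ` is `ℚ`). -/
theorem h23_model_rat
    (hgal : ∀ (σ : Γℚ) (a : Qb), gal σ • algebraMap Qb F a = algebraMap Qb F (σ a))
    {x y : F} (hxfix : ∀ σ, gal σ • x = x) (hyfix : ∀ σ, gal σ • y = y)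
    (hxtr : Transcendental Qb x)
    (Ψ : Polynomial (Polynomial Qb)) (hmon : Ψ.Monic)
    (hdeg : Ψ.natDegree = Module.finrank Qb⟮x⟯ F) (hroot : h15_ev2 x y Ψ = 0)
    (hli : LinearIndependent Qb⟮x⟯ (fun i : Fin (Module.finrank Qb⟮x⟯ F) => y ^ (i : ℕ))) :
    ∃ Ψ₀ : Polynomial (Polynomial ℚ),
      Ψ₀.map (Polynomial.mapRingHom (algebraMap ℚ Qb)) = Ψ := by
  -- every `σ` fixes `Ψ`
  have hfix : ∀ σ : Γℚ, Ψ.map (Polynomial.mapRingHom ((σ : Qb ≃+* Qb) : Qb →+* Qb)) = Ψ := by
    intro σ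
    have h0 : h15_ev2 x y (Ψ.map (Polynomial.mapRingHom ((σ : Qb ≃+* Qb) : Qb →+* Qb))) = 0 := by
      rw [← h23_smul_ev2 gal hgal hxfix hyfix σ Ψ, hroot, smul_zero]
    have hdvd := h88_dvd_of_ev2_eq_zero hxtr Ψ hmon hdeg hroot hli _ h0
    have hmon' : (Ψ.map (Polynomial.mapRingHom ((σ : Qb ≃+* Qb) : Qb →+* Qb))).Monic :=
      hmon.map _
    exact Polynomial.eq_of_monic_of_dvd_of_natDegree_le hmon hmon' hdvd
      (le_of_eq (hmon.natDegree_map _))
  -- the coefficients are rational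
  have hcoeff : ∀ i j, ∃ q : ℚ, algebraMap ℚ Qb q = (Ψ.coeff i).coeff j := by
    intro i j
    refine h38_fixed_rat _ fun σ => ?_
    have h1 := congrArg (fun P : Polynomial (Polynomial Qb) => (P.coeff i).coeff j) (hfix σ)
    simp only [Polynomial.coeff_map, Polynomial.coe_mapRingHom] at h1
    exact h1
  have hmem : Ψ ∈ Polynomial.lifts (Polynomial.mapRingHom (algebraMap ℚ Qb)) := by
    rw [Polynomial.lifts_iff_coeff_lifts]
    intro i
    have h2 : Ψ.coeff i ∈ Polynomial.lifts (algebraMap ℚ Qb) := by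
      rw [Polynomial.lifts_iff_coeff_lifts]
      intro j
      obtain ⟨q, hq⟩ := hcoeff i j
      exact ⟨q, hq⟩
    obtain ⟨P, hP⟩ := (Polynomial.mem_lifts _).mp h2
    exact ⟨P, hP⟩
  exact (Polynomial.mem_lifts Ψ).mp hmem

end Qbar

end Fermat.Agent.S19

end
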