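import Fermat.Agent.S19.h92_RRDiv
import Fermat.Agent.S17.h80_Pencil

/-!
# S19 (ADD) on ONE curve: the six steps of the addition chain as identities between
Riemann–Roch spaces (helper24)

`K` algebraically closed, `F / K` a function field with a chart `x`, `g = h75_genus K x`.
The file is stated once for a generic pair `(K, F)`; the assembly uses it twice, for the generic
fibre and for the reduced curve.

Data: divisors `M`, `M0`, `Dinf`, `Ex`, `Ey`, `E2` with `deg Ex = deg Ey = deg Dinf = g`,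
`3 g ≤ deg M0`, `deg M0 + 2 g ≤ deg M`, `E2 ≥ 0`, `l(E2) = 1` and a function `r` with
`div r = Ex + Ey - E2 - Dinf`.  Write `W_x = L(M - Ex)`, `W_y = L(M - Ey)`.

* `h24_mcolon U V q = {s | s * U ⊆ q * V}` (the colon with a multiplier), `h24_mcolon_rr`;
* `h24_add_step1` : `(W_y : L(M - M0)) = L(M0 - Ey)`;
* `h24_add_step2` : `W_x * L(M0 - Ey) = L(M + M0 - Ex - Ey)`;
* `h24_add_step3` : `(L(M + M0 - Ex - Ey) : L(M - Dinf)) = L(M0 + Dinf - Ex - Ey)`;
* `h24_add_step4` : `(q * L(M0 + Dinf) : L(M0 + Dinf - Ex - Ey)) = L(Ex + Ey - div q)`;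
* `h24_add_step5` : `(q * L(M0) : L(M0 + Dinf - Ex - Ey)) = L(Ex + Ey - Dinf - div q)`,
  `h24_add_step5_span` : this space is the line `K ∙ (q * r⁻¹)`,
  `h24_add_step5_ord` : each nonzero `t` in it has `div t = div q - div r`;
* `h24_add_step6` : `(t * L(M + Dinf) : L(Ex + Ey - div q)) = L(M - E2)`;
* `h24_addQ`, `h24_addOut`, `h24_add_chain*` : the composite statements in terms of the subspaces;
* `h24_add_finrank*` : the dimension counts of all the spaces that occur.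
-/

set_option autoImplicit false

open AlgebraicCurve

namespace Fermat.Agent.S19

open Fermat.Agent.S18 Fermat.Agent.S27 Fermat.Agent.S17

variable {K F : Type*} [Field K] [Field F] [Algebra K F]

/-- the colon with a multiplier: `{s | s * U ⊆ q * V}`. -/
def h24_mcolon (U V : Submodule K F) (q : F) : Submodule K F :=
  h92_colon U (V.map (LinearMap.mulLeft K q))

theorem h24_mem_mcolon {U V : Submodule K F} {q s : F} :
    s ∈ h24_mcolon U V q ↔ ∀ w ∈ U, ∃ u ∈ V, s * w = q * u := by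
  unfold h24_mcolon
  rw [h92_mem_colon]
  refine forall₂_congr fun w _ => ?_
  rw [Submodule.mem_map]
  constructor
  · rintro ⟨u, hu, he⟩
    exact ⟨u, hu, he.symm⟩
  · rintro ⟨u, hu, he⟩
    exact ⟨u, hu, he.symm⟩

/-- the steps 1–3 in terms of subspaces: `A = L(M - M0)`, `B = L(M - Dinf)`. -/
def h24_addQ (A B Wx Wy : Submodule K F) : Submodule K F :=
  h92_colon B (Wx * h92_colon A Wy)

/-- the steps 4 and 6 in terms of subspaces: `Z = L(M0 + Dinf)`, `N = L(M + Dinf)`. -/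
def h24_addOut (Q Z N : Submodule K F) (q t : F) : Submodule K F :=
  h24_mcolon (h24_mcolon Q Z q) N t

section AlgClosed

variable [IsAlgClosed K]

/-- `(t * L(Y) : L(Z)) = L(Y - Z - div t)` for `deg Z ≥ 2g`, `t ≠ 0`. -/
theorem h24_mcolon_rr {x : F} (hx : h75_IsChart K x) (Y Z : Divisor K F)
    (hZ : 2 * (h75_genus K x : ℤ) ≤ Divisor.degree Z) {t : F} (ht : t ≠ 0)
    (Dt : Divisor K F) (hDt : ∀ P : Place K F, Dt P = P.ord t) :
    h24_mcolon (riemannRochSpace Z) (riemannRochSpace Y) t = riemannRochSpace (Y - Z - Dt) := by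
  ext s
  rw [h24_mem_mcolon]
  exact h92_rr_colon hx Y Z hZ ht Dt hDt s

/-- (ADD 1) `(L(M - Ey) : L(M - M0)) = L(M0 - Ey)`. -/
theorem h24_add_step1 {x : F} (hx : h75_IsChart K x) (M M0 Ey : Divisor K F)
    (h : 2 * (h75_genus K x : ℤ) ≤ Divisor.degree (M - M0)) :
    h92_colon (riemannRochSpace (M - M0)) (riemannRochSpace (M - Ey)) =
      riemannRochSpace (M0 - Ey) := by
  rw [h92_colon_rr hx _ _ h]
  congr 1
  abel

/-- (ADD 2) `L(M - Ex) * L(M0 - Ey) = L(M + M0 - Ex - Ey)`. -/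
theorem h24_add_step2 {x : F} (hx : h75_IsChart K x) (M M0 Ex Ey : Divisor K F)
    (h1 : 2 * (h75_genus K x : ℤ) ≤ Divisor.degree (M0 - Ey))
    (h2 : Divisor.degree (M0 - Ey) + 2 * (h75_genus K x : ℤ) - 1 ≤ Divisor.degree (M - Ex)) :
    riemannRochSpace (M - Ex) * riemannRochSpace (M0 - Ey) =
      riemannRochSpace (M + M0 - Ex - Ey) := by
  rw [mul_comm, h80_rr_mul_eq hx _ _ h1 h2]
  congr 1
  abel

/-- (ADD 3) `(L(M + M0 - Ex - Ey) : L(M - Dinf)) = L(M0 + Dinf - Ex - Ey)`. -/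
theorem h24_add_step3 {x : F} (hx : h75_IsChart K x) (M M0 Dinf Ex Ey : Divisor K F)
    (h : 2 * (h75_genus K x : ℤ) ≤ Divisor.degree (M - Dinf)) :
    h92_colon (riemannRochSpace (M - Dinf)) (riemannRochSpace (M + M0 - Ex - Ey)) =
      riemannRochSpace (M0 + Dinf - Ex - Ey) := by
  rw [h92_colon_rr hx _ _ h]
  congr 1
  abel

/-- (ADD 4) `(q * L(M0 + Dinf) : L(M0 + Dinf - Ex - Ey)) = L(Ex + Ey - div q)`. -/
theorem h24_add_step4 {x : F} (hx : h75_IsChart K x) (M0 Dinf Ex Ey : Divisor K F)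
    (h : 2 * (h75_genus K x : ℤ) ≤ Divisor.degree (M0 + Dinf - Ex - Ey)) {q : F} (hq : q ≠ 0)
    (Dq : Divisor K F) (hDq : ∀ P : Place K F, Dq P = P.ord q) :
    h24_mcolon (riemannRochSpace (M0 + Dinf - Ex - Ey)) (riemannRochSpace (M0 + Dinf)) q =
      riemannRochSpace (Ex + Ey - Dq) := by
  rw [h24_mcolon_rr hx _ _ h hq Dq hDq]
  congr 1
  abel

/-- (ADD 5) `(q * L(M0) : L(M0 + Dinf - Ex - Ey)) = L(Ex + Ey - Dinf - div q)`. -/
theorem h24_add_step5 {x : F} (hx : h75_IsChart K x) (M0 Dinf Ex Ey : Divisor K F)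
    (h : 2 * (h75_genus K x : ℤ) ≤ Divisor.degree (M0 + Dinf - Ex - Ey)) {q : F} (hq : q ≠ 0)
    (Dq : Divisor K F) (hDq : ∀ P : Place K F, Dq P = P.ord q) :
    h24_mcolon (riemannRochSpace (M0 + Dinf - Ex - Ey)) (riemannRochSpace M0) q =
      riemannRochSpace (Ex + Ey - Dinf - Dq) := by
  rw [h24_mcolon_rr hx _ _ h hq Dq hDq]
  congr 1
  abel

/-- (ADD 5, rank one) if `Ex + Ey - Dinf = E2 + div r` with `E2 ≥ 0`, `l(E2) = 1`, then
`L(Ex + Ey - Dinf - div q)` is the line spanned by `q * r⁻¹`. -/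
theorem h24_add_step5_span {x : F} (hx : h75_IsChart K x) (Dinf Ex Ey E2 : Divisor K F)
    (hE2 : 0 ≤ E2) (hl : Module.finrank K (riemannRochSpace E2) = 1)
    {r : F} (hr : r ≠ 0) (hDr : ∀ P : Place K F, P.ord r = (Ex + Ey - E2 - Dinf) P)
    {q : F} (hq : q ≠ 0) (Dq : Divisor K F) (hDq : ∀ P : Place K F, Dq P = P.ord q) :
    riemannRochSpace (Ex + Ey - Dinf - Dq) = Submodule.span K {q * r⁻¹} := by
  have hm : r * q⁻¹ ≠ 0 := mul_ne_zero hr (inv_ne_zero hq)
  have hDm : ∀ P : Place K F, (Ex + Ey - E2 - Dinf - Dq) P = P.ord (r * q⁻¹) := by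
    intro P
    rw [P.ord_mul hr (inv_ne_zero hq), P.ord_inv, hDr P, ← hDq P, Finsupp.sub_apply]
    ring
  have hspan := h68_rr_eq_span_one hx E2 hE2 hl
  have hD : E2 + (Ex + Ey - E2 - Dinf - Dq) = Ex + Ey - Dinf - Dq := by abel
  ext f
  rw [← hD, ← h92_rr_mul_iff hm _ hDm E2 f, hspan, Submodule.mem_span_singleton,
    Submodule.mem_span_singleton]
  constructor
  · rintro ⟨c, hc⟩
    refine ⟨c, ?_⟩
    rw [Algebra.smul_def, mul_one] at hc
    rw [Algebra.smul_def, hc]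
    field_simp
  · rintro ⟨c, hc⟩
    refine ⟨c, ?_⟩
    rw [Algebra.smul_def] at hc
    rw [Algebra.smul_def, mul_one, ← hc]
    field_simp

/-- (ADD 5, the divisor of the generator) every nonzero `t ∈ L(Ex + Ey - Dinf - div q)` has
`div t = div q - div r = E2 + Dinf + div q - Ex - Ey`. -/
theorem h24_add_step5_ord {x : F} (hx : h75_IsChart K x) (Dinf Ex Ey E2 : Divisor K F)
    (hE2 : 0 ≤ E2) (hl : Module.finrank K (riemannRochSpace E2) = 1)
    {r : F} (hr : r ≠ 0) (hDr : ∀ P : Place K F, P.ord r = (Ex + Ey - E2 - Dinf) P)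
    {q : F} (hq : q ≠ 0) (Dq : Divisor K F) (hDq : ∀ P : Place K F, Dq P = P.ord q)
    {t : F} (ht : t ∈ riemannRochSpace (Ex + Ey - Dinf - Dq)) (ht0 : t ≠ 0) (P : Place K F) :
    (E2 + Dinf + Dq - Ex - Ey) P = P.ord t := by
  rw [h24_add_step5_span hx Dinf Ex Ey E2 hE2 hl hr hDr hq Dq hDq,
    Submodule.mem_span_singleton] at ht
  obtain ⟨c, rfl⟩ := ht
  have hc : c ≠ 0 := by
    rintro rfl
    exact ht0 (zero_smul _ _)
  have hc' : algebraMap K F c ≠ 0 := by simpa using hc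
  rw [Algebra.smul_def, P.ord_mul hc' (mul_ne_zero hq (inv_ne_zero hr)),
    P.ord_mul hq (inv_ne_zero hr), P.ord_inv, Fermat.Agent.S24.h35_ord_algebraMap, hDr P, ← hDq P]
  simp only [Finsupp.sub_apply, Finsupp.add_apply]
  ring

/-- (ADD 6) `(t * L(M + Dinf) : L(Ex + Ey - div q)) = L(M - E2)` when
`div t = E2 + Dinf + div q - Ex - Ey`. -/
theorem h24_add_step6 {x : F} (hx : h75_IsChart K x) (M Dinf Ex Ey E2 : Divisor K F)
    (Dq : Divisor K F) (h : 2 * (h75_genus K x : ℤ) ≤ Divisor.degree (Ex + Ey - Dq))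
    {t : F} (ht : t ≠ 0) (hDt : ∀ P : Place K F, (E2 + Dinf + Dq - Ex - Ey) P = P.ord t) :
    h24_mcolon (riemannRochSpace (Ex + Ey - Dq)) (riemannRochSpace (M + Dinf)) t =
      riemannRochSpace (M - E2) := by
  rw [h24_mcolon_rr hx _ _ h ht _ hDt]
  congr 1
  abel

/-! ### composite statements in terms of the subspaces -/

/-- (ADD 1–3, composite) `Q = ((W_x * (W_y : L(M - M0))) : L(M - Dinf)) = L(M0 + Dinf - Ex - Ey)`. -/
theorem h24_addQ_rr {x : F} (hx : h75_IsChart K x) (M M0 Dinf Ex Ey : Divisor K F)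
    (hEx : Divisor.degree Ex = h75_genus K x) (hEy : Divisor.degree Ey = h75_genus K x)
    (hDinf : Divisor.degree Dinf = h75_genus K x)
    (hM0 : 3 * (h75_genus K x : ℤ) ≤ Divisor.degree M0)
    (hM : Divisor.degree M0 + 2 * (h75_genus K x : ℤ) ≤ Divisor.degree M) :
    h24_addQ (riemannRochSpace (M - M0)) (riemannRochSpace (M - Dinf))
        (riemannRochSpace (M - Ex)) (riemannRochSpace (M - Ey)) =
      riemannRochSpace (M0 + Dinf - Ex - Ey) := by
  unfold h24_addQ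
  rw [h24_add_step1 hx M M0 Ey (by rw [map_sub]; omega),
    h24_add_step2 hx M M0 Ex Ey (by rw [map_sub]; omega) (by rw [map_sub, map_sub]; omega),
    h24_add_step3 hx M M0 Dinf Ex Ey (by rw [map_sub]; omega)]

omit [IsAlgClosed K] in
/-- the degree of `M0 + Dinf - Ex - Ey`. -/
theorem h24_add_degree_Q {x : F} (M0 Dinf Ex Ey : Divisor K F)
    (hEx : Divisor.degree Ex = h75_genus K x) (hEy : Divisor.degree Ey = h75_genus K x)
    (hDinf : Divisor.degree Dinf = h75_genus K x) :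
    Divisor.degree (M0 + Dinf - Ex - Ey) = Divisor.degree M0 - h75_genus K x := by
  rw [map_sub, map_sub, map_add, hEx, hEy, hDinf]
  ring

/-- (ADD 5, composite) the line `(q * L(M0) : Q)` is spanned by `q * r⁻¹`. -/
theorem h24_add_line {x : F} (hx : h75_IsChart K x) (M0 Dinf Ex Ey E2 : Divisor K F)
    (hEx : Divisor.degree Ex = h75_genus K x) (hEy : Divisor.degree Ey = h75_genus K x)
    (hDinf : Divisor.degree Dinf = h75_genus K x)
    (hM0 : 3 * (h75_genus K x : ℤ) ≤ Divisor.degree M0)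
    (hE2 : 0 ≤ E2) (hl : Module.finrank K (riemannRochSpace E2) = 1)
    {r : F} (hr : r ≠ 0) (hDr : ∀ P : Place K F, P.ord r = (Ex + Ey - E2 - Dinf) P)
    {q : F} (hq : q ≠ 0) :
    h24_mcolon (riemannRochSpace (M0 + Dinf - Ex - Ey)) (riemannRochSpace M0) q =
      Submodule.span K {q * r⁻¹} := by
  obtain ⟨Dq, hDq⟩ := h7_exists_div hx q hq
  have hdQ := h24_add_degree_Q (x := x) M0 Dinf Ex Ey hEx hEy hDinf
  rw [h24_add_step5 hx M0 Dinf Ex Ey (by rw [hdQ]; omega) hq Dq hDq,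
    h24_add_step5_span hx Dinf Ex Ey E2 hE2 hl hr hDr hq Dq hDq]

/-- (ADD 4–6, composite) for `q ≠ 0` and a nonzero `t` of the line `(q * L(M0) : Q)`:
`((t * L(M + Dinf)) : ((q * L(M0 + Dinf)) : Q)) = L(M - E2)`. -/
theorem h24_addOut_rr {x : F} (hx : h75_IsChart K x) (M M0 Dinf Ex Ey E2 : Divisor K F)
    (hEx : Divisor.degree Ex = h75_genus K x) (hEy : Divisor.degree Ey = h75_genus K x)
    (hDinf : Divisor.degree Dinf = h75_genus K x)
    (hM0 : 3 * (h75_genus K x : ℤ) ≤ Divisor.degree M0)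
    (hE2 : 0 ≤ E2) (hl : Module.finrank K (riemannRochSpace E2) = 1)
    {r : F} (hr : r ≠ 0) (hDr : ∀ P : Place K F, P.ord r = (Ex + Ey - E2 - Dinf) P)
    {q : F} (hq : q ≠ 0) {t : F} (ht0 : t ≠ 0)
    (ht : t ∈ h24_mcolon (riemannRochSpace (M0 + Dinf - Ex - Ey)) (riemannRochSpace M0) q) :
    h24_addOut (riemannRochSpace (M0 + Dinf - Ex - Ey)) (riemannRochSpace (M0 + Dinf))
      (riemannRochSpace (M + Dinf)) q t = riemannRochSpace (M - E2) := by
  obtain ⟨Dq, hDq⟩ := h7_exists_div hx q hq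
  have hdq : Divisor.degree Dq = 0 := h7_degree_div hx hq Dq hDq
  have hdQ := h24_add_degree_Q (x := x) M0 Dinf Ex Ey hEx hEy hDinf
  have hQ : 2 * (h75_genus K x : ℤ) ≤ Divisor.degree (M0 + Dinf - Ex - Ey) := by
    rw [hdQ]
    omega
  rw [h24_add_step5 hx M0 Dinf Ex Ey hQ hq Dq hDq] at ht
  have hDt := h24_add_step5_ord hx Dinf Ex Ey E2 hE2 hl hr hDr hq Dq hDq ht ht0
  unfold h24_addOut
  rw [h24_add_step4 hx M0 Dinf Ex Ey hQ hq Dq hDq,
    h24_add_step6 hx M Dinf Ex Ey E2 Dq (by rw [map_sub, map_add, hEx, hEy, hdq]; omega) ht0 hDt]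

/-- **(ADD) on one curve**, all six steps: from `W_x = L(M - Ex)` and `W_y = L(M - Ey)` the chain
of colons and products computes `L(M - E2)`, for every nonzero `q` and every nonzero `t` of the
line of step 5. -/
theorem h24_add_chain {x : F} (hx : h75_IsChart K x) (M M0 Dinf Ex Ey E2 : Divisor K F)
    (hEx : Divisor.degree Ex = h75_genus K x) (hEy : Divisor.degree Ey = h75_genus K x)
    (hDinf : Divisor.degree Dinf = h75_genus K x)
    (hM0 : 3 * (h75_genus K x : ℤ) ≤ Divisor.degree M0)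
    (hM : Divisor.degree M0 + 2 * (h75_genus K x : ℤ) ≤ Divisor.degree M)
    (hE2 : 0 ≤ E2) (hl : Module.finrank K (riemannRochSpace E2) = 1)
    {r : F} (hr : r ≠ 0) (hDr : ∀ P : Place K F, P.ord r = (Ex + Ey - E2 - Dinf) P)
    {q : F} (hq : q ≠ 0) {t : F} (ht0 : t ≠ 0)
    (ht : t ∈ h24_mcolon (h24_addQ (riemannRochSpace (M - M0)) (riemannRochSpace (M - Dinf))
      (riemannRochSpace (M - Ex)) (riemannRochSpace (M - Ey))) (riemannRochSpace M0) q) :
    h24_addOut (h24_addQ (riemannRochSpace (M - M0)) (riemannRochSpace (M - Dinf))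
        (riemannRochSpace (M - Ex)) (riemannRochSpace (M - Ey)))
      (riemannRochSpace (M0 + Dinf)) (riemannRochSpace (M + Dinf)) q t =
      riemannRochSpace (M - E2) := by
  rw [h24_addQ_rr hx M M0 Dinf Ex Ey hEx hEy hDinf hM0 hM] at ht ⊢
  exact h24_addOut_rr hx M M0 Dinf Ex Ey E2 hEx hEy hDinf hM0 hE2 hl hr hDr hq ht0 ht

/-! ### the dimension counts -/

/-- `l(D - E) = deg D - deg E + 1 - g` for `deg D - deg E > 2g - 2`. -/
theorem h24_finrank_rr_sub {x : F} (hx : h75_IsChart K x) (D E : Divisor K F)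
    (h : 2 * (h75_genus K x : ℤ) - 2 < Divisor.degree D - Divisor.degree E) :
    (Module.finrank K (riemannRochSpace (D - E)) : ℤ) =
      Divisor.degree D - Divisor.degree E + 1 - h75_genus K x := by
  rw [h15_finrank_rr_of_deg hx (D - E) (by rw [map_sub]; exact h), map_sub]

/-- step 1: `dim (W_y : L(M - M0)) = deg M0 - 2g + 1`. -/
theorem h24_add_finrank_U {x : F} (hx : h75_IsChart K x) (M M0 Ey : Divisor K F)
    (hEy : Divisor.degree Ey = h75_genus K x)
    (hM0 : 3 * (h75_genus K x : ℤ) ≤ Divisor.degree M0)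
    (hM : Divisor.degree M0 + 2 * (h75_genus K x : ℤ) ≤ Divisor.degree M) :
    (Module.finrank K (h92_colon (riemannRochSpace (M - M0)) (riemannRochSpace (M - Ey))) : ℤ) =
      Divisor.degree M0 - 2 * (h75_genus K x : ℤ) + 1 := by
  rw [h24_add_step1 hx M M0 Ey (by rw [map_sub]; omega),
    h24_finrank_rr_sub hx M0 Ey (by omega), hEy]
  ring

/-- step 2: `dim (W_x * (W_y : L(M - M0))) = deg M + deg M0 - 3g + 1`. -/
theorem h24_add_finrank_P {x : F} (hx : h75_IsChart K x) (M M0 Ex Ey : Divisor K F)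
    (hEx : Divisor.degree Ex = h75_genus K x) (hEy : Divisor.degree Ey = h75_genus K x)
    (hM0 : 3 * (h75_genus K x : ℤ) ≤ Divisor.degree M0)
    (hM : Divisor.degree M0 + 2 * (h75_genus K x : ℤ) ≤ Divisor.degree M) :
    (Module.finrank K ↥(riemannRochSpace (M - Ex) *
        h92_colon (riemannRochSpace (M - M0)) (riemannRochSpace (M - Ey))) : ℤ) =
      Divisor.degree M + Divisor.degree M0 - 3 * (h75_genus K x : ℤ) + 1 := by
  rw [h24_add_step1 hx M M0 Ey (by rw [map_sub]; omega),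
    h24_add_step2 hx M M0 Ex Ey (by rw [map_sub]; omega) (by rw [map_sub, map_sub]; omega),
    h15_finrank_rr_of_deg hx _ (by rw [map_sub, map_sub, map_add]; omega),
    map_sub, map_sub, map_add, hEx, hEy]
  ring

/-- step 3: `dim Q = deg M0 - 2g + 1`. -/
theorem h24_add_finrank_Q {x : F} (hx : h75_IsChart K x) (M M0 Dinf Ex Ey : Divisor K F)
    (hEx : Divisor.degree Ex = h75_genus K x) (hEy : Divisor.degree Ey = h75_genus K x)
    (hDinf : Divisor.degree Dinf = h75_genus K x)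
    (hM0 : 3 * (h75_genus K x : ℤ) ≤ Divisor.degree M0)
    (hM : Divisor.degree M0 + 2 * (h75_genus K x : ℤ) ≤ Divisor.degree M) :
    (Module.finrank K (h24_addQ (riemannRochSpace (M - M0)) (riemannRochSpace (M - Dinf))
        (riemannRochSpace (M - Ex)) (riemannRochSpace (M - Ey))) : ℤ) =
      Divisor.degree M0 - 2 * (h75_genus K x : ℤ) + 1 := by
  have hdQ := h24_add_degree_Q (x := x) M0 Dinf Ex Ey hEx hEy hDinf
  rw [h24_addQ_rr hx M M0 Dinf Ex Ey hEx hEy hDinf hM0 hM,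
    h15_finrank_rr_of_deg hx _ (by rw [hdQ]; omega), hdQ]
  ring

/-- step 4: `dim ((q * L(M0 + Dinf)) : Q) = g + 1`. -/
theorem h24_add_finrank_Q2 {x : F} (hx : h75_IsChart K x) (M0 Dinf Ex Ey : Divisor K F)
    (hEx : Divisor.degree Ex = h75_genus K x) (hEy : Divisor.degree Ey = h75_genus K x)
    (hDinf : Divisor.degree Dinf = h75_genus K x)
    (hM0 : 3 * (h75_genus K x : ℤ) ≤ Divisor.degree M0) {q : F} (hq : q ≠ 0) :
    Module.finrank K (h24_mcolon (riemannRochSpace (M0 + Dinf - Ex - Ey))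
      (riemannRochSpace (M0 + Dinf)) q) = h75_genus K x + 1 := by
  obtain ⟨Dq, hDq⟩ := h7_exists_div hx q hq
  have hdq : Divisor.degree Dq = 0 := h7_degree_div hx hq Dq hDq
  have hdQ := h24_add_degree_Q (x := x) M0 Dinf Ex Ey hEx hEy hDinf
  have h1 := h15_finrank_rr_of_deg hx (Ex + Ey - Dq)
    (by rw [map_sub, map_add, hEx, hEy, hdq]; omega)
  rw [map_sub, map_add, hEx, hEy, hdq] at h1
  rw [h24_add_step4 hx M0 Dinf Ex Ey (by rw [hdQ]; omega) hq Dq hDq]
  omega

/-- step 5: the line `(q * L(M0) : Q)` has dimension `1`. -/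
theorem h24_add_finrank_line {x : F} (hx : h75_IsChart K x) (M0 Dinf Ex Ey E2 : Divisor K F)
    (hEx : Divisor.degree Ex = h75_genus K x) (hEy : Divisor.degree Ey = h75_genus K x)
    (hDinf : Divisor.degree Dinf = h75_genus K x)
    (hM0 : 3 * (h75_genus K x : ℤ) ≤ Divisor.degree M0)
    (hE2 : 0 ≤ E2) (hl : Module.finrank K (riemannRochSpace E2) = 1)
    {r : F} (hr : r ≠ 0) (hDr : ∀ P : Place K F, P.ord r = (Ex + Ey - E2 - Dinf) P)
    {q : F} (hq : q ≠ 0) :
    Module.finrank K (h24_mcolon (riemannRochSpace (M0 + Dinf - Ex - Ey))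
      (riemannRochSpace M0) q) = 1 := by
  rw [h24_add_line hx M0 Dinf Ex Ey E2 hEx hEy hDinf hM0 hE2 hl hr hDr hq]
  exact finrank_span_singleton (mul_ne_zero hq (inv_ne_zero hr))

/-- the degree of `E2` is `g`. -/
theorem h24_add_degree_E2 {x : F} (hx : h75_IsChart K x) (Dinf Ex Ey E2 : Divisor K F)
    (hEx : Divisor.degree Ex = h75_genus K x) (hEy : Divisor.degree Ey = h75_genus K x)
    (hDinf : Divisor.degree Dinf = h75_genus K x)
    {r : F} (hr : r ≠ 0) (hDr : ∀ P : Place K F, P.ord r = (Ex + Ey - E2 - Dinf) P) :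
    Divisor.degree E2 = h75_genus K x := by
  have h := h7_degree_div hx hr (Ex + Ey - E2 - Dinf) (fun P => (hDr P).symm)
  rw [map_sub, map_sub, map_add, hEx, hEy, hDinf] at h
  omega

/-- step 6: `dim L(M - E2) = deg M - 2g + 1`. -/
theorem h24_add_finrank_out {x : F} (hx : h75_IsChart K x) (M Dinf Ex Ey E2 : Divisor K F)
    (hEx : Divisor.degree Ex = h75_genus K x) (hEy : Divisor.degree Ey = h75_genus K x)
    (hDinf : Divisor.degree Dinf = h75_genus K x)
    (hM : 3 * (h75_genus K x : ℤ) ≤ Divisor.degree M)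
    {r : F} (hr : r ≠ 0) (hDr : ∀ P : Place K F, P.ord r = (Ex + Ey - E2 - Dinf) P) :
    (Module.finrank K (riemannRochSpace (M - E2)) : ℤ) =
      Divisor.degree M - 2 * (h75_genus K x : ℤ) + 1 := by
  have hE2 := h24_add_degree_E2 hx Dinf Ex Ey E2 hEx hEy hDinf hr hDr
  rw [h24_finrank_rr_sub hx M E2 (by omega), hE2]
  ring

/-! ### the spaces stay inside their ambient spaces -/

omit [IsAlgClosed K] in
/-- `L(D - E) ≤ L(D)` for `E ≥ 0`. -/
theorem h24_rr_sub_le (D E : Divisor K F) (hE : 0 ≤ E) :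
    riemannRochSpace (D - E) ≤ riemannRochSpace D :=
  h68_rr_mono (sub_le_self D hE)

omit [IsAlgClosed K] in
/-- step 4: `((q * L(M0 + Dinf)) : Q) ≤ L(M0 + Dinf)` for `0 ≠ q ∈ Q`. -/
theorem h24_add_Q2_le (M0 Dinf Ex Ey : Divisor K F) {q : F} (hq : q ≠ 0)
    (hqQ : q ∈ riemannRochSpace (M0 + Dinf - Ex - Ey))
    (Dq : Divisor K F) (hDq : ∀ P : Place K F, Dq P = P.ord q) :
    riemannRochSpace (Ex + Ey - Dq) ≤ riemannRochSpace (M0 + Dinf) := by
  apply h68_rr_mono
  rw [Finsupp.le_def]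
  intro P
  rw [mem_riemannRochSpace_iff] at hqQ
  rcases hqQ P with h | h
  · exact absurd h hq
  · rw [← hDq P] at h
    simp only [Finsupp.sub_apply, Finsupp.add_apply] at h ⊢
    omega

omit [IsAlgClosed K] in
/-- step 5: `(q * L(M0) : Q) ≤ L(M0)` for `0 ≠ q ∈ Q`. -/
theorem h24_add_line_le (M0 Dinf Ex Ey : Divisor K F) {q : F} (hq : q ≠ 0)
    (hqQ : q ∈ riemannRochSpace (M0 + Dinf - Ex - Ey))
    (Dq : Divisor K F) (hDq : ∀ P : Place K F, Dq P = P.ord q) :
    riemannRochSpace (Ex + Ey - Dinf - Dq) ≤ riemannRochSpace M0 := by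
  apply h68_rr_mono
  rw [Finsupp.le_def]
  intro P
  rw [mem_riemannRochSpace_iff] at hqQ
  rcases hqQ P with h | h
  · exact absurd h hq
  · rw [← hDq P] at h
    simp only [Finsupp.sub_apply, Finsupp.add_apply] at h ⊢
    omega

end AlgClosed

end Fermat.Agent.S19
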