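import Fermat.Agent.S19.h23_DatumDefs
import Fermat.Agent.S19.RedL
import Fermat.Agent.S19.Sep
import Fermat.Agent.S19.h82_SemiRR
import Fermat.Agent.S18.GR_GenusEq

/-!
# S19, row X8 COORDS: the generic layer (one datum, one reduction datum) (helper24)

* `h24_mk_eq_mk_iff`, `h24_isRep_*` : calculus of `h23_IsRep Dinf E c`
  (`E - Dinf` has degree `0` and class `c`): degree, difference of two representatives, sums,
  semilinear automorphisms, existence of an effective representative (`deg Dinf = g`);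
* `h24_effRep Dinf c` : the effective representative (by choice), `h24_effRep_spec`;
* `h24_graph_inf` : under the big-cell hypothesis `L(D) ∩ ⟨b''⟩ = 0`;
  `h24_graph_unique` : graph coordinates are unique;
* `h24_graphCoord M Dinf b' b'' c` : the graph coordinates of `L(M - effRep Dinf c)` (by choice);
* for a good datum (`h23_Good`): `h24_good_finrank_one`, `h24_good_unique` (the effective
  representative is unique), `h24_graphCoord_spec` (membership, integrality, uniqueness),
  `h24_graphCoord_smul` (equivariance under a semilinear automorphism fixing `M`).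
-/

set_option autoImplicit false

noncomputable section

open AlgebraicCurve

namespace Fermat.Agent.S19

open Fermat.Agent.S18 Fermat.Agent.S27

section Rep

variable {K F : Type*} [Field K] [Field F] [Algebra K F]

theorem h24_mk_eq_mk_iff (D E : Divisor.degZero (K := K) (F := F)) :
    Pic0.mk D = Pic0.mk E ↔
      (D : Divisor K F) - (E : Divisor K F) ∈ Divisor.principal (K := K) (F := F) := by
  have h1 : Pic0.mk D - Pic0.mk E = Pic0.mk (D - E) := rfl
  rw [← sub_eq_zero, h1, h64_mk_eq_zero_iff]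
  rfl

theorem h24_isRep_degree {Dinf E : Divisor K F} {c : Pic0 K F} (h : h23_IsRep Dinf E c) :
    Divisor.degree E = Divisor.degree Dinf := by
  obtain ⟨h0, -⟩ := h
  have h1 := Divisor.mem_degZero.mp h0
  rw [map_sub] at h1
  linarith

/-- two representatives of the same class differ by a principal divisor. -/
theorem h24_isRep_sub {Dinf E E' : Divisor K F} {c : Pic0 K F} (h : h23_IsRep Dinf E c)
    (h' : h23_IsRep Dinf E' c) : E' - E ∈ Divisor.principal (K := K) (F := F) := by
  obtain ⟨h0, h1⟩ := h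
  obtain ⟨h0', h1'⟩ := h'
  have h2 := (h24_mk_eq_mk_iff ⟨E' - Dinf, h0'⟩ ⟨E - Dinf, h0⟩).mp (h1'.trans h1.symm)
  have h3 : E' - Dinf - (E - Dinf) = E' - E := by abel
  rw [← h3]
  exact h2

/-- representatives of a sum. -/
theorem h24_isRep_add {Dinf E1 E2 E3 : Divisor K F} {c1 c2 : Pic0 K F}
    (h1 : h23_IsRep Dinf E1 c1) (h2 : h23_IsRep Dinf E2 c2) (h3 : h23_IsRep Dinf E3 (c1 + c2)) :
    E3 + Dinf - E1 - E2 ∈ Divisor.principal (K := K) (F := F) := by
  obtain ⟨k1, e1⟩ := h1
  obtain ⟨k2, e2⟩ := h2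
  obtain ⟨k3, e3⟩ := h3
  have h : Pic0.mk ⟨E3 - Dinf, k3⟩ =
      Pic0.mk ((⟨E1 - Dinf, k1⟩ : Divisor.degZero (K := K) (F := F)) + ⟨E2 - Dinf, k2⟩) := by
    rw [Pic0.mk_add, e1, e2, e3]
  have h' := (h24_mk_eq_mk_iff _ _).mp h
  have h4 : (E3 - Dinf) - ((E1 - Dinf) + (E2 - Dinf)) = E3 + Dinf - E1 - E2 := by abel
  rw [← h4]
  exact h'

/-- representatives under a semilinear automorphism. -/
theorem h24_isRep_smul (g : SemilinearAut K F) {Dinf E : Divisor K F} {c : Pic0 K F}
    (h : h23_IsRep Dinf E c) : h23_IsRep (g • Dinf) (g • E) (g • c) := by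
  obtain ⟨h0, rfl⟩ := h
  have h0' : g • E - g • Dinf ∈ Divisor.degZero (K := K) (F := F) := by
    rw [← smul_sub]
    exact SemilinearAut.smul_mem_degZero g h0
  refine ⟨h0', ?_⟩
  rw [SemilinearAut.pic0_smul_mk]
  congr 1
  apply Subtype.ext
  rw [SemilinearAut.coe_degZeroSMulHom]
  exact (smul_sub g E Dinf).symm

/-- an effective representative exists when `deg Dinf = g`. -/
theorem h24_exists_isRep [IsAlgClosed K] {x : F} (hx : h75_IsChart K x) (Dinf : Divisor K F)
    (hdeg : Divisor.degree Dinf = h75_genus K x) (c : Pic0 K F) :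
    ∃ E : Divisor K F, 0 ≤ E ∧ h23_IsRep Dinf E c := by
  obtain ⟨D0, rfl⟩ := Pic0.mk_surjective c
  have hD0 : Divisor.degree (D0 : Divisor K F) = 0 := Divisor.mem_degZero.mp D0.2
  obtain ⟨h, hh0, hpos⟩ := h64_exists_effective hx ((D0 : Divisor K F) + Dinf)
    (by rw [map_add, hD0, hdeg, zero_add])
  obtain ⟨Dh, hDh⟩ := h7_exists_div hx h hh0
  have hdh : Divisor.degree Dh = 0 := h7_degree_div hx hh0 Dh hDh
  have hz : (D0 : Divisor K F) + Dinf + Dh - Dinf ∈ Divisor.degZero (K := K) (F := F) := by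
    rw [Divisor.mem_degZero, map_sub, map_add, map_add, hD0, hdh]
    ring
  refine ⟨(D0 : Divisor K F) + Dinf + Dh, ?_, hz, ?_⟩
  · rw [Finsupp.le_def]
    intro P
    rw [Finsupp.add_apply, hDh P]
    exact hpos P
  · rw [h24_mk_eq_mk_iff]
    have h5 : (D0 : Divisor K F) + Dinf + Dh - Dinf - (D0 : Divisor K F) = Dh := by abel
    show (D0 : Divisor K F) + Dinf + Dh - Dinf - (D0 : Divisor K F) ∈ _
    rw [h5]
    exact ⟨h, hh0, hDh⟩

open Classical in
/-- the effective representative of the class `c` shifted by `Dinf` (junk value `0` if there is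
none). -/
def h24_effRep (Dinf : Divisor K F) (c : Pic0 K F) : Divisor K F :=
  if h : ∃ E : Divisor K F, 0 ≤ E ∧ h23_IsRep Dinf E c then h.choose else 0

theorem h24_effRep_spec [IsAlgClosed K] {x : F} (hx : h75_IsChart K x) (Dinf : Divisor K F)
    (hdeg : Divisor.degree Dinf = h75_genus K x) (c : Pic0 K F) :
    0 ≤ h24_effRep Dinf c ∧ h23_IsRep Dinf (h24_effRep Dinf c) c := by
  unfold h24_effRep
  rw [dif_pos (h24_exists_isRep hx Dinf hdeg c)]
  exact (h24_exists_isRep hx Dinf hdeg c).choose_spec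

/-- graph coordinates are unique when the space meets `⟨b''⟩` trivially. -/
theorem h24_graph_unique {n' g' : ℕ} (b' : Fin n' → F) (b'' : Fin g' → F) (W : Submodule K F)
    (hinf : W ⊓ Submodule.span K (Set.range b'') = ⊥) (hb'' : LinearIndependent K b'')
    (a a' : Matrix (Fin g') (Fin n') K)
    (h : ∀ j, b' j + ∑ i, a i j • b'' i ∈ W) (h' : ∀ j, b' j + ∑ i, a' i j • b'' i ∈ W) :
    a = a' := by
  ext i j
  have hd : ∑ i, (a i j - a' i j) • b'' i ∈ W := by
    have h1 := W.sub_mem (h j) (h' j)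
    have e : (b' j + ∑ i, a i j • b'' i) - (b' j + ∑ i, a' i j • b'' i) =
        ∑ i, (a i j - a' i j) • b'' i := by
      simp only [sub_smul, Finset.sum_sub_distrib]
      abel
    rwa [e] at h1
  have hs : ∑ i, (a i j - a' i j) • b'' i ∈ Submodule.span K (Set.range b'') :=
    Submodule.sum_mem _ fun i _ => Submodule.smul_mem _ _ (Submodule.subset_span ⟨i, rfl⟩)
  have h0 : ∑ i, (a i j - a' i j) • b'' i = 0 := by
    have h2 : ∑ i, (a i j - a' i j) • b'' i ∈ W ⊓ Submodule.span K (Set.range b'') := ⟨hd, hs⟩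
    rw [hinf] at h2
    exact (Submodule.mem_bot K).mp h2
  exact sub_eq_zero.mp (Fintype.linearIndependent_iff.mp hb'' _ h0 i)

open Classical in
/-- the graph coordinates of `L(M - effRep Dinf c)` in the frame `(b', b'')` (junk value `0` if
there are none). -/
def h24_graphCoord (M Dinf : Divisor K F) {n' g' : ℕ} (b' : Fin n' → F) (b'' : Fin g' → F)
    (c : Pic0 K F) : Matrix (Fin g') (Fin n') K :=
  if h : ∃ a : Matrix (Fin g') (Fin n') K,
      ∀ j, b' j + ∑ i, a i j • b'' i ∈ riemannRochSpace (M - h24_effRep Dinf c)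
  then h.choose else 0

end Rep

section Red

variable {K F k Fb : Type*} [Field K] [Field F] [Algebra K F] [Field k] [Field Fb] [Algebra k Fb]

/-- big cell: `L(D) ∩ ⟨b''⟩ = 0` when `L(r0_* D)` meets the span of the reductions of `b''`
trivially. -/
theorem h24_graph_inf [IsAlgClosed K] (R : h39_RedDatum K F k Fb) (S : h39_PlaceRed R) {x : F}
    (hx : h75_IsChart K x) {n' g' : ℕ} (b' : Fin n' → F) (b'' : Fin g' → F)
    (hbO : ∀ i, Sum.elim b' b'' i ∈ R.O)
    (hbli : LinearIndependent k (fun i => R.redF (Sum.elim b' b'' i)))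
    (D : Divisor K F)
    (hcell : ∀ f ∈ riemannRochSpace (Finsupp.mapDomain S.r0 D),
      f ∈ Submodule.span k (Set.range fun i => R.redF (b'' i)) → f = 0) :
    riemannRochSpace D ⊓ Submodule.span K (Set.range b'') = ⊥ := by
  classical
  have hres0 : R.resK 0 = 0 := by
    rw [R.resK_of_mem R.A.zero_mem]
    exact map_zero R.res
  rw [Submodule.eq_bot_iff]
  rintro w ⟨hwW, hwV⟩
  by_contra hw0
  obtain ⟨α, rfl⟩ := (Submodule.mem_span_range_iff_exists_fun K).mp hwV
  obtain ⟨c, -, hred⟩ := h39_exists_scale_unit R hw0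
  have hwc : algebraMap K F c * ∑ i, α i • b'' i =
      ∑ i, (Sum.elim (fun _ => 0) (fun i => c * α i) : Fin n' ⊕ Fin g' → K) i •
        Sum.elim b' b'' i := by
    rw [Fintype.sum_sum_type, Finset.mul_sum]
    simp only [Sum.elim_inl, Sum.elim_inr, zero_smul, Finset.sum_const_zero, zero_add]
    refine Finset.sum_congr rfl fun i _ => ?_
    rw [← Algebra.smul_def, smul_smul]
  have hwO := h39_mem_of_redF_ne_zero R hred
  have hwW' : algebraMap K F c * ∑ i, α i • b'' i ∈ riemannRochSpace D := by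
    rw [← Algebra.smul_def]
    exact Submodule.smul_mem _ c hwW
  rw [hwc] at hred hwO hwW'
  exact hred (h24_graph_core R S hx b' b'' hbO hbli D hcell _ hwW' hwO (fun i => hres0))

variable [IsAlgClosed K] [CharZero K] [IsAlgClosed k]
variable (R : h39_RedDatum K F k Fb) {x : F} (hx : h39_Chart R x) (S : h39_PlaceRed R)
  (M : Divisor K F) (G : Set (Pic0 K F)) {n' : ℕ} (Dinf : Divisor K F) (b' : Fin n' → F)
  (b'' : Fin (h75_genus K x) → F)

include hx in
/-- in a good datum the effective representatives are non-special. -/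
theorem h24_good_finrank_one (hgood : h23_Good R S M G Dinf b' b'') {c : Pic0 K F}
    (hc : c ∈ G) {E : Divisor K F} (hE : 0 ≤ E) (hrep : h23_IsRep Dinf E c) :
    Module.finrank K (riemannRochSpace E) = 1 :=
  (h24_exists_unique_effective R hx.toh39_WeakChart S E
    (by rw [h24_isRep_degree hrep, hgood.deg]) (hgood.G1 c hc E hE hrep)).1

include hx in
/-- in a good datum the effective representative is unique. -/
theorem h24_good_unique (hgood : h23_Good R S M G Dinf b' b'') {c : Pic0 K F}
    (hc : c ∈ G) {E : Divisor K F} (hE : 0 ≤ E) (hrep : h23_IsRep Dinf E c) :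
    E = h24_effRep Dinf c := by
  have hxK := h39_weakChart_isChart R hx.toh39_WeakChart
  obtain ⟨hE0, hrep0⟩ := h24_effRep_spec hxK Dinf hgood.deg c
  have h1 := h24_good_finrank_one R hx S M G Dinf b' b'' hgood hc hE0 hrep0
  exact h64_eq_of_effective_of_finrank_one (h24_effRep Dinf c) E
    (fun Q => Finsupp.le_def.mp hE0 Q) h1 (fun Q => Finsupp.le_def.mp hE Q)
    (h24_isRep_sub hrep0 hrep)

include hx in
/-- the graph coordinates of a good datum: membership, integrality, uniqueness. -/
theorem h24_graphCoord_spec (hgood : h23_Good R S M G Dinf b' b'')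
    (hMc : S.c ≤ Divisor.degree M - (h75_genus K x : ℤ))
    (hMg : 2 * (h75_genus K x : ℤ) - 2 < Divisor.degree M - (h75_genus K x : ℤ))
    {c : Pic0 K F} (hc : c ∈ G) :
    (∀ j, b' j + ∑ i, h24_graphCoord M Dinf b' b'' c i j • b'' i ∈
      riemannRochSpace (M - h24_effRep Dinf c)) ∧
    (∀ i j, h24_graphCoord M Dinf b' b'' c i j ∈ R.A) ∧
    ∀ a : Matrix (Fin (h75_genus K x)) (Fin n') K,
      (∀ j, b' j + ∑ i, a i j • b'' i ∈ riemannRochSpace (M - h24_effRep Dinf c)) →
      a = h24_graphCoord M Dinf b' b'' c := by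
  have hxK := h39_weakChart_isChart R hx.toh39_WeakChart
  have hxk := h39_weakChart_isChart_red R hx.toh39_WeakChart
  have hg := h39_genus_eq R hx
  obtain ⟨hE0, hrep0⟩ := h24_effRep_spec hxK Dinf hgood.deg c
  have hEdeg : Divisor.degree (h24_effRep Dinf c) = (h75_genus K x : ℤ) := by
    rw [h24_isRep_degree hrep0, hgood.deg]
  have hcell := hgood.cell c hc _ hE0 hrep0
  obtain ⟨Ac, hAc⟩ := h26_graph_coords R S hxK hxk hg b' b'' M hgood.on (h24_effRep Dinf c) hE0
    hEdeg hMc hMg hcell
  have hex : ∃ a : Matrix (Fin (h75_genus K x)) (Fin n') K,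
      ∀ j, b' j + ∑ i, a i j • b'' i ∈ riemannRochSpace (M - h24_effRep Dinf c) :=
    ⟨fun i j => ((Ac i j : R.A) : K), hAc⟩
  have hbK : LinearIndependent K (Sum.elim b' b'') :=
    h24_on_linearIndependent R _ hgood.on.1.1 hgood.on.1.2
  have hb''K : LinearIndependent K b'' := hbK.comp Sum.inr Sum.inr_injective
  have hinf := h24_graph_inf R S hxK b' b'' hgood.on.1.1 hgood.on.1.2 _ hcell
  have hdef : h24_graphCoord M Dinf b' b'' c = hex.choose := by
    unfold h24_graphCoord
    rw [dif_pos hex]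
  have huniq : ∀ a : Matrix (Fin (h75_genus K x)) (Fin n') K,
      (∀ j, b' j + ∑ i, a i j • b'' i ∈ riemannRochSpace (M - h24_effRep Dinf c)) →
      a = h24_graphCoord M Dinf b' b'' c := fun a ha => by
    rw [hdef]
    exact h24_graph_unique b' b'' _ hinf hb''K a _ ha hex.choose_spec
  refine ⟨?_, ?_, huniq⟩
  · rw [hdef]
    exact hex.choose_spec
  · intro i j
    rw [← huniq (fun i j => ((Ac i j : R.A) : K)) hAc]
    exact (Ac i j).2

include hx in
/-- equivariance of the graph coordinates under a semilinear automorphism fixing `M`. -/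
theorem h24_graphCoord_smul (g : SemilinearAut K F) (hgM : g • M = M)
    (hgood : h23_Good R S M G Dinf b' b'')
    (hgood' : h23_Good R S M G (g • Dinf) (fun j => g • b' j) (fun i => g • b'' i))
    (hMc : S.c ≤ Divisor.degree M - (h75_genus K x : ℤ))
    (hMg : 2 * (h75_genus K x : ℤ) - 2 < Divisor.degree M - (h75_genus K x : ℤ))
    {c : Pic0 K F} (hc : c ∈ G) (hc' : g • c ∈ G) (i : Fin (h75_genus K x)) (j : Fin n') :
    h24_graphCoord M (g • Dinf) (fun j => g • b' j) (fun i => g • b'' i) (g • c) i j =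
      SemilinearAut.baseAut g (h24_graphCoord M Dinf b' b'' c i j) := by
  have hxK := h39_weakChart_isChart R hx.toh39_WeakChart
  obtain ⟨hE0, hrep0⟩ := h24_effRep_spec hxK Dinf hgood.deg c
  obtain ⟨hmem, -, -⟩ := h24_graphCoord_spec R hx S M G Dinf b' b'' hgood hMc hMg hc
  obtain ⟨-, -, huniq'⟩ := h24_graphCoord_spec R hx S M G (g • Dinf) (fun j => g • b' j)
    (fun i => g • b'' i) hgood' hMc hMg hc'
  have hE' : g • h24_effRep Dinf c = h24_effRep (g • Dinf) (g • c) :=
    h24_good_unique R hx S M G (g • Dinf) (fun j => g • b' j) (fun i => g • b'' i) hgood' hc'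
      ((h82_smul_nonneg g _).mpr hE0) (h24_isRep_smul g hrep0)
  have key : ∀ j, g • b' j +
      ∑ i, (SemilinearAut.baseAut g (h24_graphCoord M Dinf b' b'' c i j)) • (g • b'' i) ∈
        riemannRochSpace (M - h24_effRep (g • Dinf) (g • c)) := by
    intro j
    have h1 := (h82_smul_mem_rr g (M - h24_effRep Dinf c) _).mpr (hmem j)
    rw [smul_sub, hgM, hE', smul_add, h82_smul_sum_smul] at h1
    exact h1
  have h2 := huniq' (fun i j => SemilinearAut.baseAut g (h24_graphCoord M Dinf b' b'' c i j)) key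
  exact (congrFun (congrFun h2 i) j).symm

end Red

end Fermat.Agent.S19

end
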