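import Fermat.Agent.S19.h24_CoordCore
import Fermat.Agent.S19.LGood
import Fermat.Agent.S18.GR_LxDim

/-!
# S19, row X8 COORDS in hypothesis form (helper24)

`h24_coords_core` : from a datum `(Dinf, b', b'', K')` all of whose Galois conjugates are good
(the output of X7 EXIST) and the conclusion of (ADD) for the divisor `M`, the finite set `C` of
graph coordinates of all the conjugates of the datum has the five properties required by T1
(`h26_order_of_coords`): finite, Galois-stable, defined over `ℓ`-good fields, integral,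
separating, and closed under the addition law.

`h24_coords_of` : the statement of `h23_coords` with the rows X4 + X5 (`hX5`), X7 (`hX7`) and
GEOM (ADD) (`hADD`) as hypotheses in instantiated form (X6 is on main).
-/

set_option autoImplicit false

noncomputable section

open AlgebraicCurve IntermediateField

namespace Fermat.Agent.S19

open Fermat.Agent.S18 Fermat.Agent.S27

local notation "Qb" => AlgebraicClosure ℚ
local notation "Γℚ" => (AlgebraicClosure ℚ ≃ₐ[ℚ] AlgebraicClosure ℚ)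

/-- a class has at most one... : the class of a representative is determined. -/
theorem h24_isRep_class {K F : Type*} [Field K] [Field F] [Algebra K F] {Dinf E : Divisor K F}
    {c c' : Pic0 K F} (h : h23_IsRep Dinf E c) (h' : h23_IsRep Dinf E c') : c = c' := by
  obtain ⟨_, rfl⟩ := h
  obtain ⟨_, rfl⟩ := h'
  rfl

section Qbar

variable {F : Type*} [Field F] [Algebra Qb F] {k Fb : Type*} [Field k] [Field Fb] [Algebra k Fb]
variable (gal : Γℚ →* SemilinearAut Qb F)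

/-- the base automorphism of `gal σ` is `σ`. -/
theorem h24_baseAut_gal
    (hgal : ∀ (σ : Γℚ) (a : Qb), gal σ • algebraMap Qb F a = algebraMap Qb F (σ a))
    (σ : Γℚ) (a : Qb) : SemilinearAut.baseAut (gal σ) a = σ a := by
  have h1 := SemilinearAut.smul_algebraMap (gal σ) a
  rw [hgal σ a] at h1
  exact ((algebraMap Qb F).injective h1).symm

/-- **(COORDS), core**: the graph coordinates of all conjugates of a datum. -/
theorem h24_coords_core [IsAlgClosed k]
    (hgal : ∀ (σ : Γℚ) (a : Qb), gal σ • algebraMap Qb F a = algebraMap Qb F (σ a))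
    (R : h39_RedDatum Qb F k Fb) (𝒜 : Set (ValuationSubring Qb))
    (h𝒜stab : ∀ (σ : Γℚ), ∀ A ∈ 𝒜, A.comap (σ : Qb →+* Qb) ∈ 𝒜)
    {x : F} (hx : h39_Chart R x) (S : h39_PlaceRed R)
    {G : Type} [AddCommGroup G] [Finite G] [DistribMulAction Γℚ G]
    (ι : G →+ Pic0 Qb F) (hι : Function.Injective ι)
    (hιeq : ∀ (σ : Γℚ) (z : G), ι (σ • z) = gal σ • ι z)
    (M : Divisor Qb F) (hMfix : ∀ σ, gal σ • M = M)
    (hMc : S.c ≤ Divisor.degree M - (h75_genus Qb x : ℤ))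
    (hMg : 4 * (h75_genus Qb x : ℤ) - 2 < Divisor.degree M)
    {n' : ℕ} (Dinf : Divisor Qb F) (b' : Fin n' → F) (b'' : Fin (h75_genus Qb x) → F)
    (K' : IntermediateField ℚ Qb) (hK' : h26_LGood 𝒜 K')
    (hfix : ∀ σ : Γℚ, (∀ a ∈ K', σ a = a) →
      gal σ • Dinf = Dinf ∧ (∀ j, gal σ • b' j = b' j) ∧ ∀ i, gal σ • b'' i = b'' i)
    (hgood : ∀ τ : Γℚ, h23_Good R S M (Set.range ι) (gal τ • Dinf) (fun j => gal τ • b' j)
      (fun i => gal τ • b'' i))
    (hADD : ∀ (Dinf : Divisor Qb F), Divisor.degree Dinf = h75_genus Qb x →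
      ∀ (E : G → Divisor Qb F), (∀ t, 0 ≤ E t) →
      (∀ t, Divisor.degree (E t) = h75_genus Qb x) →
      (∀ s t, Divisor.IsPrincipal (E (s + t) + Dinf - E s - E t)) →
      (∀ t, Module.finrank Qb (riemannRochSpace (E t)) = 1) →
      (∀ t, Module.finrank k (riemannRochSpace (Finsupp.mapDomain S.r0 (E t))) = 1) →
      ∀ (b' : Fin n' → F) (b'' : Fin (h75_genus Qb x) → F),
      h26_ONBasis R S (Sum.elim b' b'') M →
      ∀ (Ac : G → Matrix (Fin (h75_genus Qb x)) (Fin n') R.A),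
      (∀ t j, b' j + ∑ i, ((Ac t i j : R.A) : Qb) • b'' i ∈ riemannRochSpace (M - E t)) →
      ∀ i j, (fun p : G × G => Ac (p.1 + p.2) i j) ∈
        Algebra.adjoin R.A
          (Set.range (fun (q : Fin (h75_genus Qb x) × Fin n') (p : G × G) => Ac p.1 q.1 q.2) ∪
            Set.range (fun (q : Fin (h75_genus Qb x) × Fin n') (p : G × G) =>
              Ac p.2 q.1 q.2))) :
    ∃ C : Set (G → Qb), C.Finite ∧
      (∀ (σ : Γℚ), ∀ c ∈ C, (fun z => σ (c (σ⁻¹ • z))) ∈ C) ∧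
      (∀ c ∈ C, ∃ K' : IntermediateField ℚ Qb, h26_LGood 𝒜 K' ∧
        ∀ σ : Γℚ, (∀ a ∈ K', σ a = a) → ∀ z, c (σ • z) = σ (c z)) ∧
      (∀ c ∈ C, ∀ z, c z ∈ R.A) ∧
      (∀ z w : G, (∀ c ∈ C, c z = c w) → z = w) ∧
      (∀ c ∈ C, (fun p : G × G => c (p.1 + p.2)) ∈
        Algebra.adjoin R.A (((fun (c' : G → Qb) (p : G × G) => c' p.1) '' C) ∪
          ((fun (c' : G → Qb) (p : G × G) => c' p.2) '' C))) := by
  classical
  have hxw := hx.toh39_WeakChart
  have hxK : h75_IsChart Qb x := h39_weakChart_isChart R hxw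
  have hgnn : (0 : ℤ) ≤ (h75_genus Qb x : ℤ) := Int.natCast_nonneg _
  have hMg' : 2 * (h75_genus Qb x : ℤ) - 2 < Divisor.degree M - (h75_genus Qb x : ℤ) := by
    omega
  have hbase := h24_baseAut_gal gal hgal
  have hmemG : ∀ z, ι z ∈ Set.range ι := fun z => ⟨z, rfl⟩
  -- the coordinate functions
  let cf : Γℚ → Fin (h75_genus Qb x) → Fin n' → G → Qb := fun τ i j z =>
    h24_graphCoord M (gal τ • Dinf) (fun j => gal τ • b' j) (fun i => gal τ • b'' i) (ι z) i j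
  have hspec : ∀ (τ : Γℚ) (z : G), _ := fun τ z =>
    h24_graphCoord_spec R hx S M (Set.range ι) (gal τ • Dinf) (fun j => gal τ • b' j)
      (fun i => gal τ • b'' i) (hgood τ) hMc hMg' (hmemG z)
  -- equivariance
  have hequiv : ∀ (σ τ : Γℚ) (i : Fin (h75_genus Qb x)) (j : Fin n') (z : G),
      cf (σ * τ) i j z = σ (cf τ i j (σ⁻¹ • z)) := by
    intro σ τ i j z
    have e1 : gal (σ * τ) • Dinf = gal σ • gal τ • Dinf := by rw [map_mul, mul_smul]
    have e2 : (fun j => gal (σ * τ) • b' j) = fun j => gal σ • gal τ • b' j := by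
      funext j
      rw [map_mul, mul_smul]
    have e3 : (fun i => gal (σ * τ) • b'' i) = fun i => gal σ • gal τ • b'' i := by
      funext i
      rw [map_mul, mul_smul]
    have e4 : gal σ • ι (σ⁻¹ • z) = ι z := by rw [← hιeq, smul_inv_smul]
    have hg' := hgood (σ * τ)
    rw [e1, e2, e3] at hg'
    have h1 := h24_graphCoord_smul R hx S M (Set.range ι) (gal τ • Dinf)
      (fun j => gal τ • b' j) (fun i => gal τ • b'' i) (gal σ) (hMfix σ) (hgood τ) hg' hMc hMg'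
      (hmemG (σ⁻¹ • z)) (by rw [e4]; exact hmemG z) i j
    rw [e4, hbase] at h1
    show h24_graphCoord M (gal (σ * τ) • Dinf) (fun j => gal (σ * τ) • b' j)
      (fun i => gal (σ * τ) • b'' i) (ι z) i j = _
    rw [e1, e2, e3]
    exact h1
  -- the coordinates only depend on the restriction of `τ` to `K'`
  have hdata : ∀ (τ ρ : Γℚ), (∀ a ∈ K', ρ a = a) →
      ∀ (i : Fin (h75_genus Qb x)) (j : Fin n'), cf (τ * ρ) i j = cf τ i j := by
    intro τ ρ hρ i j
    obtain ⟨h1, h2, h3⟩ := hfix ρ hρ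
    have e1 : gal (τ * ρ) • Dinf = gal τ • Dinf := by rw [map_mul, mul_smul, h1]
    have e2 : (fun j => gal (τ * ρ) • b' j) = fun j => gal τ • b' j := by
      funext j
      rw [map_mul, mul_smul, h2]
    have e3 : (fun i => gal (τ * ρ) • b'' i) = fun i => gal τ • b'' i := by
      funext i
      rw [map_mul, mul_smul, h3]
    show (fun z => h24_graphCoord M (gal (τ * ρ) • Dinf) (fun j => gal (τ * ρ) • b' j)
      (fun i => gal (τ * ρ) • b'' i) (ι z) i j) = _
    rw [e1, e2, e3]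
  refine ⟨Set.range (fun p : Γℚ × Fin (h75_genus Qb x) × Fin n' => cf p.1 p.2.1 p.2.2),
    ?_, ?_, ?_, ?_, ?_, ?_⟩
  · -- finite
    have hfinK : FiniteDimensional ℚ K' := h23_lgood_finite 𝒜 K' hK'
    let res : Γℚ → (K' →ₐ[ℚ] Qb) := fun τ => (τ : Qb →ₐ[ℚ] Qb).comp K'.val
    have hres : ∀ τ τ' : Γℚ, res τ = res τ' →
        ∀ (i : Fin (h75_genus Qb x)) (j : Fin n'), cf τ' i j = cf τ i j := by
      intro τ τ' h i j
      have hρ : ∀ a ∈ K', (τ⁻¹ * τ') a = a := by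
        intro a ha
        have h1 : τ a = τ' a := DFunLike.congr_fun h ⟨a, ha⟩
        show τ.symm (τ' a) = a
        rw [← h1]
        exact τ.symm_apply_apply a
      have h2 := hdata τ (τ⁻¹ * τ') hρ i j
      have e : τ * (τ⁻¹ * τ') = τ' := by group
      rwa [e] at h2
    let lift : (K' →ₐ[ℚ] Qb) → Γℚ := fun e => if h : ∃ τ, res τ = e then h.choose else 1
    have hlift : ∀ τ, res (lift (res τ)) = res τ := fun τ => by
      have h : ∃ τ', res τ' = res τ := ⟨τ, rfl⟩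
      show res (if h : ∃ τ', res τ' = res τ then h.choose else 1) = res τ
      rw [dif_pos h]
      exact h.choose_spec
    apply Set.Finite.subset (Set.finite_range
      (fun p : (K' →ₐ[ℚ] Qb) × Fin (h75_genus Qb x) × Fin n' => cf (lift p.1) p.2.1 p.2.2))
    rintro _ ⟨⟨τ, i, j⟩, rfl⟩
    exact ⟨⟨res τ, i, j⟩, hres τ (lift (res τ)) (hlift τ).symm i j⟩
  · -- stable
    rintro σ _ ⟨⟨τ, i, j⟩, rfl⟩
    refine ⟨⟨σ * τ, i, j⟩, ?_⟩
    funext z
    exact hequiv σ τ i j z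
  · -- good
    rintro _ ⟨⟨τ, i, j⟩, rfl⟩
    refine ⟨K'.map (τ : Qb →ₐ[ℚ] Qb), h23_lgood_conj 𝒜 h𝒜stab K' hK' τ, ?_⟩
    intro σ hσ z
    show cf τ i j (σ • z) = σ (cf τ i j z)
    have hρ : ∀ a ∈ K', (τ⁻¹ * σ * τ) a = a := by
      intro a ha
      have h1 : σ (τ a) = τ a := hσ (τ a) ⟨a, ha, rfl⟩
      show τ.symm (σ (τ a)) = a
      rw [h1]
      exact τ.symm_apply_apply a
    have h2 := hdata τ (τ⁻¹ * σ * τ) hρ i j
    have e : τ * (τ⁻¹ * σ * τ) = σ * τ := by group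
    rw [e] at h2
    have h3 := hequiv σ τ i j (σ • z)
    rw [inv_smul_smul, h2] at h3
    exact h3
  · -- integral
    rintro _ ⟨⟨τ, i, j⟩, rfl⟩ z
    exact (hspec τ z).2.1 i j
  · -- separating
    intro z w h
    have hmat : h24_graphCoord M (gal 1 • Dinf) (fun j => gal 1 • b' j)
        (fun i => gal 1 • b'' i) (ι z) =
        h24_graphCoord M (gal 1 • Dinf) (fun j => gal 1 • b' j) (fun i => gal 1 • b'' i)
          (ι w) := by
      ext i j
      exact h _ ⟨⟨1, i, j⟩, rfl⟩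
    have hz := (hspec 1 z).1
    have hw := (hspec 1 w).1
    rw [hmat] at hz
    obtain ⟨hEz, hrz⟩ := h24_effRep_spec hxK (gal 1 • Dinf) (hgood 1).deg (ι z)
    obtain ⟨hEw, hrw⟩ := h24_effRep_spec hxK (gal 1 • Dinf) (hgood 1).deg (ι w)
    have hbind : LinearIndependent Qb (Sum.elim (fun j => gal 1 • b' j)
        (fun i => gal 1 • b'' i)) :=
      h24_on_linearIndependent R _ (hgood 1).on.1.1 (hgood 1).on.1.2
    have hE : h24_effRep (gal 1 • Dinf) (ι z) = h24_effRep (gal 1 • Dinf) (ι w) :=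
      h26_graph_sep hxK M _ _ hEz hEw
        (by rw [h24_isRep_degree hrz, (hgood 1).deg])
        (by rw [h24_isRep_degree hrw, (hgood 1).deg])
        (by omega) _ _ hbind (hgood 1).on.2.1 _ hz hw
    rw [hE] at hrz
    exact hι (h24_isRep_class hrz hrw)
  · -- addition
    rintro _ ⟨⟨τ, i, j⟩, rfl⟩
    have hErep : ∀ z : G, 0 ≤ h24_effRep (gal τ • Dinf) (ι z) ∧
        h23_IsRep (gal τ • Dinf) (h24_effRep (gal τ • Dinf) (ι z)) (ι z) := fun z =>
      h24_effRep_spec hxK (gal τ • Dinf) (hgood τ).deg (ι z)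
    have hadd := hADD (gal τ • Dinf) (hgood τ).deg
      (fun z => h24_effRep (gal τ • Dinf) (ι z)) (fun z => (hErep z).1)
      (fun z => by rw [h24_isRep_degree (hErep z).2, (hgood τ).deg])
      (fun s t => h24_isRep_add (hErep s).2 (hErep t).2
        (by rw [← map_add]; exact (hErep (s + t)).2))
      (fun z => h24_good_finrank_one R hx S M (Set.range ι) _ _ _ (hgood τ) (hmemG z)
        (hErep z).1 (hErep z).2)
      (fun z => (hgood τ).G1 (ι z) (hmemG z) _ (hErep z).1 (hErep z).2)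
      (fun j => gal τ • b' j) (fun i => gal τ • b'' i) (hgood τ).on
      (fun z i j => ⟨cf τ i j z, (hspec τ z).2.1 i j⟩)
      (fun z j => (hspec τ z).1 j) i j
    let φ : (G × G → R.A) →ₐ[R.A] (G × G → Qb) := (Algebra.ofId R.A Qb).compLeft (G × G)
    have h1 : φ (fun p : G × G => (⟨cf τ i j (p.1 + p.2), (hspec τ (p.1 + p.2)).2.1 i j⟩ : R.A)) ∈
        (Algebra.adjoin R.A _).map φ := ⟨_, hadd, rfl⟩
    rw [AlgHom.map_adjoin] at h1
    refine Algebra.adjoin_mono ?_ h1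
    rintro _ ⟨f, hf | hf, rfl⟩
    · obtain ⟨q, rfl⟩ := hf
      exact Or.inl ⟨cf τ q.1 q.2, ⟨⟨τ, q.1, q.2⟩, rfl⟩, rfl⟩
    · obtain ⟨q, rfl⟩ := hf
      exact Or.inr ⟨cf τ q.1 q.2, ⟨⟨τ, q.1, q.2⟩, rfl⟩, rfl⟩

/-- **(COORDS) in hypothesis form**: the statement of `h23_coords` from the rows X4 + X5
(`hX5`: Galois-fixed orthonormal bases of Galois-stable spaces), X7 (`hX7`: EXIST) and GEOM
(`hADD`: the addition law in graph coordinates), all instantiated at the given data. -/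
theorem h24_coords_of [IsAlgClosed k]
    (hgal : ∀ (σ : Γℚ) (a : Qb), gal σ • algebraMap Qb F a = algebraMap Qb F (σ a))
    (R : h39_RedDatum Qb F k Fb) (𝒜 : Set (ValuationSubring Qb))
    (h𝒜stab : ∀ (σ : Γℚ), ∀ A ∈ 𝒜, A.comap (σ : Qb →+* Qb) ∈ 𝒜)
    {x : F} (hx : h39_Chart R x) (hxfix : ∀ σ, gal σ • x = x) (S : h39_PlaceRed R)
    {G : Type} [AddCommGroup G] [Finite G] [DistribMulAction Γℚ G]
    (ι : G →+ Pic0 Qb F) (hι : Function.Injective ι)
    (hιeq : ∀ (σ : Γℚ) (z : G), ι (σ • z) = gal σ • ι z)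
    (hX5 : ∀ (V : Submodule Qb F), (∀ σ, ∀ f ∈ V, gal σ • f ∈ V) → ∀ (n : ℕ),
      Module.finrank Qb ↥V = n → FiniteDimensional Qb ↥V →
      ∃ b : Fin n → F, (∀ i, b i ∈ V) ∧ (∀ σ i, gal σ • b i = b i) ∧
        (∀ i, b i ∈ R.O) ∧ LinearIndependent k (fun i => R.redF (b i)))
    (hX7 : ∀ (M : Divisor Qb F), (∀ σ, gal σ • M = M) → S.c ≤ Divisor.degree M →
      3 * (h75_genus Qb x : ℤ) ≤ Divisor.degree M →
      ∀ {n' : ℕ} (b : Fin (n' + h75_genus Qb x) → F), (∀ i, b i ∈ riemannRochSpace M) →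
      (∀ σ i, gal σ • b i = b i) → (∀ i, b i ∈ R.O) →
      LinearIndependent k (fun i => R.redF (b i)) →
      Module.finrank Qb ↥(riemannRochSpace M) = n' + h75_genus Qb x →
      ∀ (G : Set (Pic0 Qb F)), G.Finite →
      ∃ (Dinf : Divisor Qb F) (b' : Fin n' → F) (b'' : Fin (h75_genus Qb x) → F)
        (K' : IntermediateField ℚ Qb),
        h26_LGood 𝒜 K' ∧
        (∀ σ : Γℚ, (∀ a ∈ K', σ a = a) →
          gal σ • Dinf = Dinf ∧ (∀ j, gal σ • b' j = b' j) ∧ ∀ i, gal σ • b'' i = b'' i) ∧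
        ∀ τ : Γℚ, h23_Good R S M G (gal τ • Dinf) (fun j => gal τ • b' j)
          (fun i => gal τ • b'' i))
    (hADD : ∀ (M M0 Dinf : Divisor Qb F), Divisor.degree Dinf = h75_genus Qb x →
      S.c ≤ Divisor.degree M0 → 4 * (h75_genus Qb x : ℤ) + 4 ≤ Divisor.degree M0 →
      S.c ≤ Divisor.degree M - Divisor.degree M0 →
      4 * (h75_genus Qb x : ℤ) + 4 ≤ Divisor.degree M - Divisor.degree M0 →
      ∀ (E : G → Divisor Qb F), (∀ t, 0 ≤ E t) →
      (∀ t, Divisor.degree (E t) = h75_genus Qb x) →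
      (∀ s t, Divisor.IsPrincipal (E (s + t) + Dinf - E s - E t)) →
      (∀ t, Module.finrank Qb (riemannRochSpace (E t)) = 1) →
      (∀ t, Module.finrank k (riemannRochSpace (Finsupp.mapDomain S.r0 (E t))) = 1) →
      ∀ {n' : ℕ} (b' : Fin n' → F) (b'' : Fin (h75_genus Qb x) → F),
      h26_ONBasis R S (Sum.elim b' b'') M →
      ∀ (Ac : G → Matrix (Fin (h75_genus Qb x)) (Fin n') R.A),
      (∀ t j, b' j + ∑ i, ((Ac t i j : R.A) : Qb) • b'' i ∈ riemannRochSpace (M - E t)) →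
      ∀ i j, (fun p : G × G => Ac (p.1 + p.2) i j) ∈
        Algebra.adjoin R.A
          (Set.range (fun (q : Fin (h75_genus Qb x) × Fin n') (p : G × G) => Ac p.1 q.1 q.2) ∪
            Set.range (fun (q : Fin (h75_genus Qb x) × Fin n') (p : G × G) =>
              Ac p.2 q.1 q.2))) :
    ∃ C : Set (G → Qb), C.Finite ∧
      (∀ (σ : Γℚ), ∀ c ∈ C, (fun z => σ (c (σ⁻¹ • z))) ∈ C) ∧
      (∀ c ∈ C, ∃ K' : IntermediateField ℚ Qb, h26_LGood 𝒜 K' ∧
        ∀ σ : Γℚ, (∀ a ∈ K', σ a = a) → ∀ z, c (σ • z) = σ (c z)) ∧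
      (∀ c ∈ C, ∀ z, c z ∈ R.A) ∧
      (∀ z w : G, (∀ c ∈ C, c z = c w) → z = w) ∧
      (∀ c ∈ C, (fun p : G × G => c (p.1 + p.2)) ∈
        Algebra.adjoin R.A (((fun (c' : G → Qb) (p : G × G) => c' p.1) '' C) ∪
          ((fun (c' : G → Qb) (p : G × G) => c' p.2) '' C))) := by
  have hxw := hx.toh39_WeakChart
  have hxK : h75_IsChart Qb x := h39_weakChart_isChart R hxw
  have hgnn : (0 : ℤ) ≤ (h75_genus Qb x : ℤ) := Int.natCast_nonneg _
  -- the pole divisor of `x` and its multiples `M0`, `M = 2 M0`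
  obtain ⟨Dx, hDx, hdegDx⟩ := h7_exists_poleDiv hxK
  have hfinF : Module.Finite Qb⟮x⟯ F := hxw.finite
  have hn : (1 : ℤ) ≤ (Module.finrank Qb⟮x⟯ F : ℤ) := by
    exact_mod_cast (Module.finrank_pos : 0 < Module.finrank Qb⟮x⟯ F)
  obtain ⟨m0, hm0S, hm0g⟩ : ∃ m0 : ℕ, S.c ≤ (m0 : ℤ) ∧
      4 * (h75_genus Qb x : ℤ) + 4 ≤ (m0 : ℤ) :=
    ⟨(max S.c (4 * (h75_genus Qb x : ℤ) + 4)).toNat,
      (le_max_left _ _).trans (Int.self_le_toNat _),
      (le_max_right _ _).trans (Int.self_le_toNat _)⟩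
  have hdegM0 : Divisor.degree (m0 • Dx) = (m0 : ℤ) * (Module.finrank Qb⟮x⟯ F : ℤ) := by
    rw [map_nsmul, hdegDx, nsmul_eq_mul]
  have hM0ge : (m0 : ℤ) ≤ Divisor.degree (m0 • Dx) := by
    rw [hdegM0]
    nlinarith [Int.natCast_nonneg m0]
  have hdegM : Divisor.degree (m0 • Dx + m0 • Dx) =
      Divisor.degree (m0 • Dx) + Divisor.degree (m0 • Dx) := map_add _ _ _
  have hMfix : ∀ σ, gal σ • (m0 • Dx + m0 • Dx) = m0 • Dx + m0 • Dx := fun σ =>
    h82_smul_divisor_of_fixed (gal σ) (fun _ : Unit => x) (fun _ => hxfix σ)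
      (fun n => (m0 : ℤ) * max (-(n ())) 0 + (m0 : ℤ) * max (-(n ())) 0) _ (fun P => by
        rw [Finsupp.add_apply, Finsupp.smul_apply, hDx P, nsmul_eq_mul])
  -- a Galois-fixed orthonormal basis of `L(M)`
  have hfinM : FiniteDimensional Qb (riemannRochSpace (m0 • Dx + m0 • Dx)) :=
    (h75_riemann hxK _).1
  have hrrM := h15_finrank_rr_of_deg hxK (m0 • Dx + m0 • Dx) (by omega)
  obtain ⟨n', hn'⟩ : ∃ n' : ℕ,
      Module.finrank Qb ↥(riemannRochSpace (m0 • Dx + m0 • Dx)) = n' + h75_genus Qb x :=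
    ⟨Module.finrank Qb ↥(riemannRochSpace (m0 • Dx + m0 • Dx)) - h75_genus Qb x, by omega⟩
  obtain ⟨b, hbmem, hbfix, hbO, hbli⟩ := hX5 (riemannRochSpace (m0 • Dx + m0 • Dx))
    (fun σ f hf => h82_smul_mem_rr_of_fixed (gal σ) (hMfix σ) hf) (n' + h75_genus Qb x) hn' hfinM
  -- the datum
  obtain ⟨Dinf, b', b'', K', hK', hfix, hgood⟩ := hX7 (m0 • Dx + m0 • Dx) hMfix (by omega)
    (by omega) b hbmem hbfix hbO hbli hn' (Set.range ι) (Set.finite_range ι)
  exact h24_coords_core gal hgal R 𝒜 h𝒜stab hx S ι hι hιeq (m0 • Dx + m0 • Dx) hMfix (by omega)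
    (by omega) Dinf b' b'' K' hK' hfix hgood
    (fun Dinf hD E hE hEd hEa h1 h2 b' b'' hb Ac hAc =>
      hADD (m0 • Dx + m0 • Dx) (m0 • Dx) Dinf hD (by omega) (by omega) (by omega) (by omega)
        E hE hEd hEa h1 h2 b' b'' hb Ac hAc)

end Qbar

end Fermat.Agent.S19

end
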