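import Fermat.Agent.S19.h24_RedL
import Fermat.Agent.S19.h26_FamDefs
import Fermat.Agent.S27.h68_RRCons

/-!
# S19, block GEOM, row B3 RED-L: the two skeleton statements (helper24)

* `h26_exists_onbasis` (L1) : for `S.c ≤ deg D` the space `L(D)` has an orthonormal basis whose
  reductions are a basis of `L(r0_* D)`;
* `h26_graph_coords` (INT) : if `(b', b'')` is an orthonormal basis of `L(M)`, `E ≥ 0` has degree
  `g'` and the reduced space `L(r0_* (M - E))` meets the span of the reductions of `b''` only in
  `0`, then `L(M - E)` is the graph of a matrix over `R.A` in the coordinates `(b', b'')`.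

Both statements are verbatim the rows of `skel/h26_SkelGeom.lean` (architect helper26).
-/

set_option autoImplicit false

noncomputable section

open AlgebraicCurve

namespace Fermat.Agent.S19

open Fermat.Agent.S18 Fermat.Agent.S27

variable {K F k Fb : Type*} [Field K] [Field F] [Algebra K F] [Field k] [Field Fb] [Algebra k Fb]

section RedL

variable [IsAlgClosed K] [IsAlgClosed k]

/-- (L1) orthonormal bases of `L(D)` for `deg D ≥ S.c`. -/
theorem h26_exists_onbasis (R : h39_RedDatum K F k Fb) (S : h39_PlaceRed R) {x : F} {xb : Fb}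
    (hx : h75_IsChart K x) (hxb : h75_IsChart k xb) (D : Divisor K F)
    (hD : S.c ≤ Divisor.degree D) :
    ∃ (n : ℕ) (e : Fin n → F), h26_ONBasis R S e D := by
  have hfinK : FiniteDimensional K (riemannRochSpace D) := (h75_riemann hx D).1
  have hfink : FiniteDimensional k (riemannRochSpace (Finsupp.mapDomain S.r0 D)) :=
    (h75_riemann hxb _).1
  let bb := Module.finBasis k (riemannRochSpace (Finsupp.mapDomain S.r0 D))
  have hlift : ∀ i, ∃ (f : F) (hf : f ∈ R.O), f ∈ riemannRochSpace D ∧
      R.red ⟨f, hf⟩ = (bb i : Fb) := fun i => S.lift D hD _ (bb i).2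
  choose e heO heD hered using hlift
  have hredF : (fun i => R.redF (e i)) = fun i => (bb i : Fb) := by
    funext i
    rw [R.redF_of_mem (heO i)]
    exact hered i
  have hli : LinearIndependent k (fun i => R.redF (e i)) := by
    rw [hredF]
    exact bb.linearIndependent.map' (Submodule.subtype _) (Submodule.ker_subtype _)
  have hliK : LinearIndependent K e := h24_on_linearIndependent R e heO hli
  refine ⟨_, e, ⟨heO, hli⟩, ?_, ?_⟩
  · apply Submodule.eq_of_le_of_finrank_eq
    · refine Submodule.span_le.mpr ?_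
      rintro _ ⟨i, rfl⟩
      exact heD i
    · rw [finrank_span_eq_card hliK, Fintype.card_fin]
      exact (S.finrank_eq D hD).symm
  · rw [hredF]
    have h1 := congrArg (Submodule.map (Submodule.subtype _)) bb.span_eq
    rw [Submodule.map_span, Submodule.map_subtype_top, ← Set.range_comp] at h1
    exact h1

omit [IsAlgClosed k] in
/-- core of (INT): an integral element of `L(D)` whose `b'`-coordinates reduce to zero reduces
to zero, when `L(r0_* D)` meets the span of the reductions of `b''` trivially. -/
theorem h24_graph_core (R : h39_RedDatum K F k Fb) (S : h39_PlaceRed R) {x : F}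
    (hx : h75_IsChart K x) {n' g' : ℕ} (b' : Fin n' → F) (b'' : Fin g' → F)
    (hbO : ∀ i, Sum.elim b' b'' i ∈ R.O)
    (hbli : LinearIndependent k (fun i => R.redF (Sum.elim b' b'' i)))
    (D : Divisor K F)
    (hcell : ∀ f ∈ riemannRochSpace (Finsupp.mapDomain S.r0 D),
      f ∈ Submodule.span k (Set.range fun i => R.redF (b'' i)) → f = 0)
    (coef : Fin n' ⊕ Fin g' → K) (hw : ∑ i, coef i • Sum.elim b' b'' i ∈ riemannRochSpace D)
    (hwO : ∑ i, coef i • Sum.elim b' b'' i ∈ R.O)
    (h0 : ∀ i, R.resK (coef (Sum.inl i)) = 0) :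
    R.redF (∑ i, coef i • Sum.elim b' b'' i) = 0 := by
  have := h75_hasPrincipalDivisors hx
  have hA := h52_coord_mem R _ hbO hbli coef hwO
  have hred := (h52_redF_comb R _ hbO coef hA).2
  apply hcell _ (h64_red_mem_rr R S.r0 S.compat D hw hwO)
  rw [hred, Fintype.sum_sum_type]
  simp only [h0, zero_smul, Finset.sum_const_zero, zero_add, Sum.elim_inr]
  exact Submodule.sum_mem _ fun i _ => Submodule.smul_mem _ _ (Submodule.subset_span ⟨i, rfl⟩)

/-- (INT) graph coordinates exist and are integral when the reduced space is in the big cell. -/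
theorem h26_graph_coords (R : h39_RedDatum K F k Fb) (S : h39_PlaceRed R) {x : F} {xb : Fb}
    (hx : h75_IsChart K x) (hxb : h75_IsChart k xb) (hg : h75_genus k xb = h75_genus K x)
    {n' g' : ℕ} (b' : Fin n' → F) (b'' : Fin g' → F) (M : Divisor K F)
    (hb : h26_ONBasis R S (Sum.elim b' b'') M) (E : Divisor K F) (hE : 0 ≤ E)
    (hEdeg : Divisor.degree E = g')
    (hMc : S.c ≤ Divisor.degree M - g')
    (hMg : 2 * (h75_genus K x : ℤ) - 2 < Divisor.degree M - g')
    (hcell : ∀ f ∈ riemannRochSpace (Finsupp.mapDomain S.r0 (M - E)),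
      f ∈ Submodule.span k (Set.range fun i => R.redF (b'' i)) → f = 0) :
    ∃ Ac : Matrix (Fin g') (Fin n') R.A,
      ∀ j, b' j + ∑ i, ((Ac i j : R.A) : K) • b'' i ∈ riemannRochSpace (M - E) := by
  classical
  have hbO := hb.1.1
  have hbli := hb.1.2
  have hspan := hb.2.1
  have hbK : LinearIndependent K (Sum.elim b' b'') := h24_on_linearIndependent R _ hbO hbli
  have hfinM : FiniteDimensional K (riemannRochSpace M) := (h75_riemann hx M).1
  have hfinW : FiniteDimensional K (riemannRochSpace (M - E)) := (h75_riemann hx _).1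
  have hfinV : FiniteDimensional K (Submodule.span K (Set.range b'')) :=
    FiniteDimensional.span_of_finite K (Set.finite_range _)
  have hWM : riemannRochSpace (M - E) ≤ riemannRochSpace M := h68_rr_mono (sub_le_self M hE)
  have hres0 : R.resK 0 = 0 := by
    rw [R.resK_of_mem R.A.zero_mem]
    exact map_zero R.res
  -- dimensions
  have hdM : Module.finrank K (riemannRochSpace M) = n' + g' := by
    rw [← hspan, finrank_span_eq_card hbK]
    simp
  have hdW : Module.finrank K (riemannRochSpace (M - E)) = n' := by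
    have h1 := h15_finrank_rr_of_deg hx (M - E) (by rw [map_sub, hEdeg]; exact hMg)
    have h2 := h15_finrank_rr_of_deg hx M (by
      have : (0 : ℤ) ≤ g' := Int.natCast_nonneg _
      omega)
    rw [map_sub, hEdeg] at h1
    rw [hdM] at h2
    push_cast at h2
    omega
  have hsum : ∀ coef : Fin n' ⊕ Fin g' → K, ∑ i, coef i • Sum.elim b' b'' i =
      ∑ i, coef (Sum.inl i) • b' i + ∑ i, coef (Sum.inr i) • b'' i := fun coef => by
    rw [Fintype.sum_sum_type]
    rfl
  -- scaling a nonzero element of `L(M - E)` to a unit of `O`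
  have hscale : ∀ coef : Fin n' ⊕ Fin g' → K,
      ∑ i, coef i • Sum.elim b' b'' i ∈ riemannRochSpace (M - E) →
      ∑ i, coef i • Sum.elim b' b'' i ≠ 0 →
      ∃ c : K, c ≠ 0 ∧ (∀ i, c * coef i ∈ R.A) ∧ ∃ i, R.resK (c * coef (Sum.inl i)) ≠ 0 := by
    intro coef hw hw0
    obtain ⟨c, hc, hred⟩ := h39_exists_scale_unit R hw0
    have hwc : algebraMap K F c * ∑ i, coef i • Sum.elim b' b'' i =
        ∑ i, (c * coef i) • Sum.elim b' b'' i := by
      rw [Finset.mul_sum]
      refine Finset.sum_congr rfl fun i _ => ?_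
      rw [← Algebra.smul_def, smul_smul]
    rw [hwc] at hred
    have hwO := h39_mem_of_redF_ne_zero R hred
    have hwW : ∑ i, (c * coef i) • Sum.elim b' b'' i ∈ riemannRochSpace (M - E) := by
      rw [← hwc, ← Algebra.smul_def]
      exact Submodule.smul_mem _ c hw
    refine ⟨c, hc, h52_coord_mem R _ hbO hbli _ hwO, ?_⟩
    by_contra hcon
    push Not at hcon
    exact hred (h24_graph_core R S hx b' b'' hbO hbli (M - E) hcell _ hwW hwO hcon)
  -- `L(M - E) ⊓ ⟨b''⟩ = ⊥`
  have hinf : riemannRochSpace (M - E) ⊓ Submodule.span K (Set.range b'') = ⊥ := by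
    rw [Submodule.eq_bot_iff]
    rintro w ⟨hwW, hwV⟩
    by_contra hw0
    obtain ⟨α, rfl⟩ := (Submodule.mem_span_range_iff_exists_fun K).mp hwV
    have he : ∑ i, α i • b'' i =
        ∑ i, (Sum.elim (fun _ => 0) α : Fin n' ⊕ Fin g' → K) i • Sum.elim b' b'' i := by
      rw [hsum]
      simp
    rw [he] at hwW hw0
    obtain ⟨c, -, -, i, hi⟩ := hscale _ hwW hw0
    apply hi
    simp [hres0]
  have hV : Module.finrank K (Submodule.span K (Set.range b'')) = g' := by
    have hb''K : LinearIndependent K b'' := hbK.comp Sum.inr Sum.inr_injective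
    rw [finrank_span_eq_card hb''K, Fintype.card_fin]
  have hVM : Submodule.span K (Set.range b'') ≤ riemannRochSpace M := by
    rw [← hspan]
    apply Submodule.span_mono
    rintro _ ⟨i, rfl⟩
    exact ⟨Sum.inr i, rfl⟩
  have hsup : riemannRochSpace (M - E) ⊔ Submodule.span K (Set.range b'') =
      riemannRochSpace M := by
    apply Submodule.eq_of_le_of_finrank_eq (sup_le hWM hVM)
    have h := Submodule.finrank_sup_add_finrank_inf_eq (riemannRochSpace (M - E))
      (Submodule.span K (Set.range b''))
    rw [hinf, finrank_bot, hdW, hV] at h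
    rw [hdM]
    omega
  -- graph coordinates over `K`
  have hex : ∀ j, ∃ a : Fin g' → K, b' j + ∑ i, a i • b'' i ∈ riemannRochSpace (M - E) := by
    intro j
    have hj : b' j ∈ riemannRochSpace M := by
      rw [← hspan]
      exact Submodule.subset_span ⟨Sum.inl j, rfl⟩
    rw [← hsup] at hj
    obtain ⟨w, hw, v, hv, hwv⟩ := Submodule.mem_sup.mp hj
    obtain ⟨α, rfl⟩ := (Submodule.mem_span_range_iff_exists_fun K).mp hv
    refine ⟨fun i => -α i, ?_⟩
    have : b' j + ∑ i, (-α i) • b'' i = w := by
      rw [← hwv]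
      simp [neg_smul, Finset.sum_neg_distrib]
    rw [this]
    exact hw
  choose a ha using hex
  -- integrality
  have haA : ∀ j i, a j i ∈ R.A := by
    intro j i
    have he : ∑ l, (Sum.elim (Pi.single j 1) (a j) : Fin n' ⊕ Fin g' → K) l • Sum.elim b' b'' l =
        b' j + ∑ i, a j i • b'' i := by
      rw [hsum]
      simp [Pi.single_apply]
    have hw0 : ∑ l, (Sum.elim (Pi.single j 1) (a j) : Fin n' ⊕ Fin g' → K) l •
        Sum.elim b' b'' l ≠ 0 := by
      intro h0
      have := Fintype.linearIndependent_iff.mp hbK _ h0 (Sum.inl j)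
      simp at this
    obtain ⟨c, hc, hcA, l, hl⟩ := hscale _ (by rw [he]; exact ha j) hw0
    have hcj : R.resK c ≠ 0 := by
      by_cases hlj : l = j
      · subst hlj
        simpa using hl
      · exfalso
        apply hl
        simp [hlj, hres0]
    have hcA' : c ∈ R.A := by simpa using hcA (Sum.inl j)
    have hcinv : c⁻¹ ∈ R.A := by
      by_contra hcon
      exact hcj ((h39_resK_eq_zero_iff R hcA').mpr (Or.inr hcon))
    have h1 := R.A.mul_mem _ _ hcinv (hcA (Sum.inr i))
    simpa [← mul_assoc, inv_mul_cancel₀ hc] using h1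
  exact ⟨fun i j => ⟨a j i, haA j i⟩, fun j => ha j⟩

end RedL

end Fermat.Agent.S19

end
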