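import Fermat.Agent.S19.h2_ModChartJ
import Fermat.Agent.S18.RR_Chart
import Fermat.Agent.S18.GR_RedAPI

/-!
# S19, row M1 MODCHART: the Hauptmodul charts (`2 ∣ N` or `3 ∣ N`)

On a chart `x` of the modular reduction datum with `k(j̄) ⊆ k(x̄)` and such that the poles of `j`
on the chart lie over `x = 0`, the function `y = x^e * j_N` (`e` large) lies in `O`, is regular on
the chart and has primitive reduction over `k(x̄)`.  Applied to `x = h₂` (`j h₂² = (h₂ + 256)³`)
and `x = h₃` (`j h₃³ = (h₃ + 27)(h₃ + 243)³`).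
-/

set_option autoImplicit false
set_option synthInstance.maxHeartbeats 400000

noncomputable section

open ModularCurve AlgebraicCurve IntermediateField Polynomial CongruenceSubgroup
open scoped MatrixGroups

namespace Fermat.Agent.S19

open Fermat.Agent.S18 Fermat.Agent.S24 Fermat.Agent.S27 Fermat.Agent.S28 Fermat.Agent.GAL

local notation "Qb" => AlgebraicClosure ℚ
local notation "Γℚ" => (AlgebraicClosure ℚ ≃ₐ[ℚ] AlgebraicClosure ℚ)

/-- if the powers of `w` below `[E : L0]` are independent over `L0 ≤ L`, then for a nonzero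
`u ∈ L` the powers of `u * w` below `[E : L]` are independent over `L`. -/
theorem h2_li_pow_of_le {k E : Type*} [Field k] [Field E] [Algebra k E]
    (L0 L : IntermediateField k E) (hle : L0 ≤ L) (w : E) {d : ℕ}
    (hli : LinearIndependent L0 (fun i : Fin d => w ^ (i : ℕ))) (hd : Module.finrank L0 E = d)
    (hd0 : 0 < d) (u : E) (hu : u ∈ L) (hu0 : u ≠ 0) :
    LinearIndependent L (fun i : Fin (Module.finrank L E) => (u * w) ^ (i : ℕ)) := by
  have hfd : FiniteDimensional L0 E := Module.finite_of_finrank_pos (by rw [hd]; exact hd0)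
  have hspan : Submodule.span L0 (Set.range fun i : Fin d => w ^ (i : ℕ)) = ⊤ :=
    hli.span_eq_top_of_card_eq_finrank' (by rw [Fintype.card_fin, hd])
  have hLmem : ∀ c : E, c ∈ L → c ∈ L⟮u * w⟯ := fun c hc =>
    (L⟮u * w⟯).algebraMap_mem (⟨c, hc⟩ : L)
  have hw : w ∈ L⟮u * w⟯ := by
    have h1 : u⁻¹ * (u * w) = w := by
      rw [← mul_assoc, inv_mul_cancel₀ hu0, one_mul]
    have h2 : u⁻¹ * (u * w) ∈ L⟮u * w⟯ :=
      mul_mem (inv_mem (hLmem u hu)) (mem_adjoin_simple_self L (u * w))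
    rwa [h1] at h2
  have hall : ∀ z : E, z ∈ Submodule.span L0 (Set.range fun i : Fin d => w ^ (i : ℕ)) →
      z ∈ L⟮u * w⟯ := by
    intro z hz
    induction hz using Submodule.span_induction with
    | mem z hz =>
      obtain ⟨i, rfl⟩ := hz
      exact pow_mem hw _
    | zero => exact zero_mem _
    | add a b _ _ ha hb => exact add_mem ha hb
    | smul c a _ ha =>
      rw [Algebra.smul_def]
      exact mul_mem (hLmem _ (hle c.2)) ha
  have htop : L⟮u * w⟯ = ⊤ :=
    eq_top_iff.2 fun z _ => hall z (by rw [hspan]; exact Submodule.mem_top)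
  have hle' : Module.finrank L E ≤ (minpoly L (u * w)).natDegree := by
    by_cases hfin : FiniteDimensional L E
    · have hint : IsIntegral L (u * w) := IsIntegral.of_finite L (u * w)
      rw [← IntermediateField.adjoin.finrank hint, htop, IntermediateField.finrank_top']
    · rw [Module.finrank_of_not_finite hfin]
      exact Nat.zero_le _
  exact (linearIndependent_pow (K := L) (u * w)).comp (Fin.castLE hle') (Fin.castLE_injective hle')

section

variable (N : ℕ) [NeZero N] {ℓ : ℕ} [Fact ℓ.Prime] (hℓN : ¬ ℓ ∣ N)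
  (A : ValuationSubring Qb) (hA : A.LiesOverPrime ℓ)

/-- if the poles of `j` on the chart `x` lie over `x = 0`, then `x^e * j_N` is regular on the
chart for a suitable `e`. -/
theorem h2_xe_jN_reg (x : ↥(modularFunctionFieldBar N)) (hxc : h75_IsChart Qb x)
    (hpole : ∀ P : Place Qb ↥(modularFunctionFieldBar N), x ∈ P.toValuationSubring →
      h59_jbar N ∉ P.toValuationSubring → 0 < P.ord x) :
    ∃ e : ℕ, h39_Reg Qb x (x ^ e * h69_jN N) := by
  classical
  by_cases h0 : h69_jN N = 0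
  · exact ⟨0, fun P _ => by rw [h0, mul_zero]; exact zero_mem _⟩
  have hfin : {P : Place Qb ↥(modularFunctionFieldBar N) | P.ord (h69_jN N) ≠ 0}.Finite :=
    h75_finite_ord_ne hxc _ h0
  refine ⟨∑ P ∈ hfin.toFinset, (P.ord (h69_jN N)).natAbs, fun P hP => ?_⟩
  by_cases hj : h59_jbar N ∈ P.toValuationSubring
  · exact mul_mem (pow_mem hP _) (h2_jN_reg N P hj)
  · have hpos := hpole P hP hj
    have hx0 : x ≠ 0 := by
      rintro rfl
      rw [P.ord_zero] at hpos
      exact lt_irrefl _ hpos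
    refine Fermat.Agent.S24.h24_mem_of_ord_nonneg P ?_
    rw [P.ord_mul (pow_ne_zero _ hx0) h0, ← zpow_natCast, P.ord_zpow]
    have hb : -(P.ord (h69_jN N)) ≤
        ((∑ Q ∈ hfin.toFinset, (Q.ord (h69_jN N)).natAbs : ℕ) : ℤ) := by
      by_cases hP0 : P.ord (h69_jN N) = 0
      · rw [hP0, neg_zero]
        exact Int.natCast_nonneg _
      · have hmem : P ∈ hfin.toFinset := hfin.mem_toFinset.2 hP0
        have h1 := Finset.single_le_sum (f := fun Q : Place Qb ↥(modularFunctionFieldBar N) =>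
          (Q.ord (h69_jN N)).natAbs) (fun _ _ => Nat.zero_le _) hmem
        have h2 : -(P.ord (h69_jN N)) ≤ ((P.ord (h69_jN N)).natAbs : ℤ) := by
          rw [← Int.natAbs_neg]
          exact Int.le_natAbs
        exact h2.trans (by exact_mod_cast h1)
    have hnn : (0 : ℤ) ≤ ((∑ Q ∈ hfin.toFinset, (Q.ord (h69_jN N)).natAbs : ℕ) : ℤ) :=
      Int.natCast_nonneg _
    nlinarith [mul_nonneg hnn (sub_nonneg.2 (Int.add_one_le_iff.2 hpos))]

/-- **generic chart**: `y = x^e * j_N` on a chart `x` with `k(j̄) ⊆ k(x̄)` whose `j`-poles lie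
over `x = 0`. -/
theorem h2_chart_prim_of (x : ↥(modularFunctionFieldBar N))
    (hx : h39_Chart (h39_modRed N hℓN A hA) x)
    (hj : h54_jk (IsLocalRing.ResidueField A) N ∈
      (IsLocalRing.ResidueField A)⟮(h39_modRed N hℓN A hA).redF x⟯)
    (hpole : ∀ P : Place Qb ↥(modularFunctionFieldBar N), x ∈ P.toValuationSubring →
      h59_jbar N ∉ P.toValuationSubring → 0 < P.ord x) :
    ∃ e : ℕ, x ^ e * h69_jN N ∈ (h39_modRed N hℓN A hA).O ∧
      h39_Reg Qb x (x ^ e * h69_jN N) ∧
      LinearIndependent (IsLocalRing.ResidueField A)⟮(h39_modRed N hℓN A hA).redF x⟯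
        (fun i : Fin (Module.finrank Qb⟮x⟯ ↥(modularFunctionFieldBar N)) =>
          (h39_modRed N hℓN A hA).redF (x ^ e * h69_jN N) ^ (i : ℕ)) := by
  have hxc : h75_IsChart Qb x := h39_weakChart_isChart _ hx.toh39_WeakChart
  obtain ⟨e, he⟩ := h2_xe_jN_reg N x hxc hpole
  have hxe : x ^ e ∈ (h39_modRed N hℓN A hA).O := pow_mem hx.mem e
  refine ⟨e, mul_mem hxe (h2_jN_memO N hℓN A hA), he, ?_⟩
  rw [h39_redF_mul _ hxe (h2_jN_memO N hℓN A hA), h39_redF_pow _ hx.mem]
  have hd0 : 0 < Nat.card (SL(2, ℤ) ⧸ Gamma0 N) := by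
    rw [← h78_finrank N]
    have : Module.Finite Qb⟮h59_jbar N⟯ ↥(modularFunctionFieldBar N) := h78_finiteDimensional N
    exact Module.finrank_pos
  have hx0 : (h39_modRed N hℓN A hA).redF x ≠ 0 := by
    intro h0
    apply hx.transcendental
    rw [h0]
    exact isAlgebraic_zero
  have key : ∀ n : ℕ, n = Module.finrank
        (IsLocalRing.ResidueField A)⟮(h39_modRed N hℓN A hA).redF x⟯
        ↥(modularFunctionFieldFullC (IsLocalRing.ResidueField A) N) →
      LinearIndependent (IsLocalRing.ResidueField A)⟮(h39_modRed N hℓN A hA).redF x⟯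
        (fun i : Fin n => ((h39_modRed N hℓN A hA).redF x ^ e *
          (h39_modRed N hℓN A hA).redF (h69_jN N)) ^ (i : ℕ)) := by
    intro n hn
    subst hn
    exact h2_li_pow_of_le _ _ (adjoin_simple_le_iff.2 hj) _ (h2_jN_li_red N hℓN A hA)
      (h39_mod_finrank_fb N hℓN A hA) hd0 _
      (pow_mem (mem_adjoin_simple_self _ _) e) (pow_ne_zero e hx0)
  exact key _ hx.finrank_eq.symm

/-- a pole of `j` at a place where `x` is finite lies over `x = 0`, given a relation
`j * x^n = g` with `g` regular. -/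
theorem h2_pole_of_rel (x j g : ↥(modularFunctionFieldBar N)) (n : ℕ) (hx0 : x ≠ 0)
    (hrel : j * x ^ n = g) (P : Place Qb ↥(modularFunctionFieldBar N))
    (hg : g ∈ P.toValuationSubring) (hx : x ∈ P.toValuationSubring)
    (hj : j ∉ P.toValuationSubring) : 0 < P.ord x := by
  by_contra hpos
  have h0 : P.ord x = 0 :=
    le_antisymm (not_lt.1 hpos) (Fermat.Agent.S24.h24_ord_nonneg_of_mem P hx)
  have hinv : x⁻¹ ∈ P.toValuationSubring := by
    refine Fermat.Agent.S24.h24_mem_of_ord_nonneg P ?_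
    rw [P.ord_inv, h0, neg_zero]
  apply hj
  have hjeq : j = g * x⁻¹ ^ n := by
    rw [← hrel, mul_assoc, ← mul_pow, mul_inv_cancel₀ hx0, one_pow, mul_one]
  rw [hjeq]
  exact mul_mem hg (pow_mem hinv n)

/-- the common conclusion of the Hauptmodul cases, from the generic chart lemma. -/
theorem h2_mod_chart_prim_of (x : ↥(modularFunctionFieldBar N))
    (hx : h39_Chart (h39_modRed N hℓN A hA) x)
    (hxfix : ∀ σ : Γℚ, arithmeticGalois (modularFunctionFieldFull N) σ • x = x)
    (hj : h54_jk (IsLocalRing.ResidueField A) N ∈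
      (IsLocalRing.ResidueField A)⟮(h39_modRed N hℓN A hA).redF x⟯)
    (hpole : ∀ P : Place Qb ↥(modularFunctionFieldBar N), x ∈ P.toValuationSubring →
      h59_jbar N ∉ P.toValuationSubring → 0 < P.ord x) :
    ∃ x y : ↥(modularFunctionFieldBar N),
      h39_Chart (h39_modRed N hℓN A hA) x ∧
      (∀ σ : Γℚ, arithmeticGalois (modularFunctionFieldFull N) σ • x = x) ∧
      (∀ σ : Γℚ, arithmeticGalois (modularFunctionFieldFull N) σ • y = y) ∧
      y ∈ (h39_modRed N hℓN A hA).O ∧ h39_Reg Qb x y ∧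
      LinearIndependent (IsLocalRing.ResidueField A)⟮(h39_modRed N hℓN A hA).redF x⟯
        (fun i : Fin (Module.finrank Qb⟮x⟯ ↥(modularFunctionFieldBar N)) =>
          (h39_modRed N hℓN A hA).redF y ^ (i : ℕ)) := by
  obtain ⟨e, h1, h2, h3⟩ := h2_chart_prim_of N hℓN A hA x hx hj hpole
  refine ⟨x, x ^ e * h69_jN N, hx, hxfix, fun σ => ?_, h1, h2, h3⟩
  rw [smul_mul', smul_pow', hxfix σ, h2_jN_fix N σ]

/-- **(MODCHART), case `2 ∣ N`**: the chart `x = h₂` and `y = h₂^e * j_N`. -/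
theorem h2_mod_chart_prim_h2 (h2 : 2 ∣ N) :
    ∃ x y : ↥(modularFunctionFieldBar N),
      h39_Chart (h39_modRed N hℓN A hA) x ∧
      (∀ σ : Γℚ, arithmeticGalois (modularFunctionFieldFull N) σ • x = x) ∧
      (∀ σ : Γℚ, arithmeticGalois (modularFunctionFieldFull N) σ • y = y) ∧
      y ∈ (h39_modRed N hℓN A hA).O ∧ h39_Reg Qb x y ∧
      LinearIndependent (IsLocalRing.ResidueField A)⟮(h39_modRed N hℓN A hA).redF x⟯
        (fun i : Fin (Module.finrank Qb⟮x⟯ ↥(modularFunctionFieldBar N)) =>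
          (h39_modRed N hℓN A hA).redF y ^ (i : ℕ)) := by
  have hℓ2 : ℓ ≠ 2 := by
    rintro rfl
    exact hℓN h2
  have hc : CharP (IsLocalRing.ResidueField A) ℓ := h19_residueField_charP A ℓ hA
  have hxk := h59_h2k_mem_final (IsLocalRing.ResidueField A) N h2 hℓ2
  set x : ↥(modularFunctionFieldBar N) := ⟨h54_hm2 Qb, h59_hm2_mem_bar_final N h2⟩ with hxdef
  have hxc : (x : LaurentSeries Qb) = h54_hm2 Qb := rfl
  have hchart : h39_Chart (h39_modRed N hℓN A hA) x :=
    h3_chart_h2_of N hℓ2 A hA (h39_modRed_spec N hℓN A hA) _ rfl hxk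
      (h59_h2_finrank_final N h2).1 (h59_h2_finrank_final N h2).2
      (h59_h2k_finrank_final (IsLocalRing.ResidueField A) N h2 hℓ2)
      (h39_mod_finrank_fb N hℓN A hA) (h39_mod_separable_fb N hℓN A hA)
  have hred : (h39_modRed N hℓN A hA).redF x = (⟨h54_hm2 (IsLocalRing.ResidueField A), hxk⟩ :
      ↥(modularFunctionFieldFullC (IsLocalRing.ResidueField A) N)) := by
    apply Subtype.ext
    rw [(h39_modRed_spec N hℓN A hA).redF_of_integral x (h54_hm2 A)
      (hxc.trans (h3_coeffMap_hm2 A.subtype).symm)]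
    exact h3_coeffMap_hm2 (IsLocalRing.residue A)
  have hx0 : x ≠ 0 := by
    intro h0
    apply hchart.transcendental
    rw [h0, h39_redF_zero]
    exact isAlgebraic_zero
  have hrel : h59_jbar N * x ^ 2 = (x + 256) ^ 3 := by
    apply Subtype.ext
    have e := h3_hm2_rel1 Qb
    have hj : ((h59_jbar N : ↥(modularFunctionFieldBar N)) : LaurentSeries Qb) = jqModC Qb := by
      rw [h54_coe_jbar N A, coeffMap_jqModC]
    change ((h59_jbar N : ↥(modularFunctionFieldBar N)) : LaurentSeries Qb)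
        * (x : LaurentSeries Qb) ^ 2 = ((x : LaurentSeries Qb) + 256) ^ 3
    rw [hj, hxc]
    exact e
  refine h2_mod_chart_prim_of N hℓN A hA x hchart
    (h2_gal_fix_of_rat N x (h54_hm2 ℚ) (hxc.trans (h3_coeffMap_hm2 (algebraMap ℚ Qb)).symm))
    (by rw [hred]; exact h3_jk_mem_adjoin_hm2 _ N hxk) ?_
  intro P hP hj
  exact h2_pole_of_rel N x _ _ 2 hx0 hrel P
    (pow_mem (add_mem hP (ofNat_mem _ 256)) 3) hP hj

/-- **(MODCHART), case `3 ∣ N`**: the chart `x = h₃` and `y = h₃^e * j_N`. -/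
theorem h2_mod_chart_prim_h3 (h3 : 3 ∣ N) :
    ∃ x y : ↥(modularFunctionFieldBar N),
      h39_Chart (h39_modRed N hℓN A hA) x ∧
      (∀ σ : Γℚ, arithmeticGalois (modularFunctionFieldFull N) σ • x = x) ∧
      (∀ σ : Γℚ, arithmeticGalois (modularFunctionFieldFull N) σ • y = y) ∧
      y ∈ (h39_modRed N hℓN A hA).O ∧ h39_Reg Qb x y ∧
      LinearIndependent (IsLocalRing.ResidueField A)⟮(h39_modRed N hℓN A hA).redF x⟯
        (fun i : Fin (Module.finrank Qb⟮x⟯ ↥(modularFunctionFieldBar N)) =>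
          (h39_modRed N hℓN A hA).redF y ^ (i : ℕ)) := by
  have hℓ3 : ℓ ≠ 3 := by
    rintro rfl
    exact hℓN h3
  have hc : CharP (IsLocalRing.ResidueField A) ℓ := h19_residueField_charP A ℓ hA
  have hxk := h59_h3k_mem_final (IsLocalRing.ResidueField A) N h3 hℓ3
  set x : ↥(modularFunctionFieldBar N) := ⟨h54_hm3 Qb, h59_hm3_mem_bar_final N h3⟩ with hxdef
  have hxc : (x : LaurentSeries Qb) = h54_hm3 Qb := rfl
  have hchart : h39_Chart (h39_modRed N hℓN A hA) x :=
    h3_chart_h3_of N hℓ3 A hA (h39_modRed_spec N hℓN A hA) _ rfl hxk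
      (h59_h3_finrank_final N h3).1 (h59_h3_finrank_final N h3).2
      (h59_h3k_finrank_final (IsLocalRing.ResidueField A) N h3 hℓ3)
      (h39_mod_finrank_fb N hℓN A hA) (h39_mod_separable_fb N hℓN A hA)
  have hred : (h39_modRed N hℓN A hA).redF x = (⟨h54_hm3 (IsLocalRing.ResidueField A), hxk⟩ :
      ↥(modularFunctionFieldFullC (IsLocalRing.ResidueField A) N)) := by
    apply Subtype.ext
    rw [(h39_modRed_spec N hℓN A hA).redF_of_integral x (h54_hm3 A)
      (hxc.trans (h24_coeffMap_hm3_h54 A.subtype).symm)]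
    exact h24_coeffMap_hm3_h54 (IsLocalRing.residue A)
  have hx0 : x ≠ 0 := by
    intro h0
    apply hchart.transcendental
    rw [h0, h39_redF_zero]
    exact isAlgebraic_zero
  have hrel : h59_jbar N * x ^ 3 = (x + 27) * (x + 243) ^ 3 := by
    apply Subtype.ext
    have e := (h24_hm3_rel_ring Qb).1
    have hj : ((h59_jbar N : ↥(modularFunctionFieldBar N)) : LaurentSeries Qb) = jqModC Qb := by
      rw [h54_coe_jbar N A, coeffMap_jqModC]
    change ((h59_jbar N : ↥(modularFunctionFieldBar N)) : LaurentSeries Qb)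
        * (x : LaurentSeries Qb) ^ 3
        = ((x : LaurentSeries Qb) + 27) * ((x : LaurentSeries Qb) + 243) ^ 3
    rw [hj, hxc]
    exact e
  refine h2_mod_chart_prim_of N hℓN A hA x hchart
    (h2_gal_fix_of_rat N x (h54_hm3 ℚ) (hxc.trans (h24_coeffMap_hm3_h54 (algebraMap ℚ Qb)).symm))
    (by rw [hred]; exact h3_jk_mem_adjoin_hm3 _ N hxk) ?_
  intro P hP hj
  exact h2_pole_of_rel N x _ _ 3 hx0 hrel P
    (mul_mem (add_mem hP (ofNat_mem _ 27)) (pow_mem (add_mem hP (ofNat_mem _ 243)) 3)) hP hj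

/-- **(MODCHART)** `h23_mod_chart_prim`, all cases. -/
theorem h2_mod_chart_prim (hlev : 5 ≤ ℓ ∨ 2 ∣ N ∨ 3 ∣ N) :
    ∃ x y : ↥(modularFunctionFieldBar N),
      h39_Chart (h39_modRed N hℓN A hA) x ∧
      (∀ σ : Γℚ, arithmeticGalois (modularFunctionFieldFull N) σ • x = x) ∧
      (∀ σ : Γℚ, arithmeticGalois (modularFunctionFieldFull N) σ • y = y) ∧
      y ∈ (h39_modRed N hℓN A hA).O ∧ h39_Reg Qb x y ∧
      LinearIndependent (IsLocalRing.ResidueField A)⟮(h39_modRed N hℓN A hA).redF x⟯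
        (fun i : Fin (Module.finrank Qb⟮x⟯ ↥(modularFunctionFieldBar N)) =>
          (h39_modRed N hℓN A hA).redF y ^ (i : ℕ)) := by
  rcases hlev with h5 | h2 | h3
  · exact h2_mod_chart_prim_j N hℓN A hA h5
  · exact h2_mod_chart_prim_h2 N hℓN A hA h2
  · exact h2_mod_chart_prim_h3 N hℓN A hA h3

end

end Fermat.Agent.S19

end
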