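import Fermat.Agent.S19.h2_ModelJN
import Fermat.Prelude.Def_ModularCurve_ArithmeticGalois

/-!
# S19, row M1 MODCHART, inputs: Galois-fixedness of rational `q`-series and the `j`-chart case

* `h2_gal_fix_of_rat` : an element of the modular function field whose `q`-expansion has rational
  coefficients is fixed by the arithmetic Galois action;
* `h2_jbar_fix`, `h2_jN_fix` : `j` and `j_N = j(q^N)` are Galois-fixed;
* `h2_mod_chart_prim_j` : the conclusion of `h23_mod_chart_prim` for `ℓ ≥ 5` (chart `j`,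
  `y = j_N`).
-/

set_option autoImplicit false
set_option synthInstance.maxHeartbeats 400000

noncomputable section

open ModularCurve AlgebraicCurve IntermediateField Polynomial CongruenceSubgroup
open scoped MatrixGroups

namespace Fermat.Agent.S19

open Fermat.Agent.S18 Fermat.Agent.S24 Fermat.Agent.S27 Fermat.Agent.S28 Fermat.Agent.GAL

local notation "Qb" => AlgebraicClosure ℚ
local notation "Γℚ" => (AlgebraicClosure ℚ ≃ₐ[ℚ] AlgebraicClosure ℚ)

/-- an element of the modular function field with a rational `q`-expansion is Galois-fixed. -/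
theorem h2_gal_fix_of_rat (N : ℕ) (f : ↥(modularFunctionFieldBar N)) (g : LaurentSeries ℚ)
    (h : (f : LaurentSeries Qb) = coeffMap (algebraMap ℚ Qb) g) (σ : Γℚ) :
    arithmeticGalois (modularFunctionFieldFull N) σ • f = f := by
  refine Subtype.ext ?_
  rw [coe_arithmeticGalois_smul, h, coeffMap_coeffMap]
  exact coeffMap_congr (RingHom.ext fun a => σ.commutes a) g

/-- `j` is Galois-fixed. -/
theorem h2_jbar_fix (N : ℕ) (σ : Γℚ) :
    arithmeticGalois (modularFunctionFieldFull N) σ • h59_jbar N = h59_jbar N :=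
  h2_gal_fix_of_rat N _ jq (h59_coe_jbar N) σ

/-- `j_N = j(q^N)` is Galois-fixed. -/
theorem h2_jN_fix (N : ℕ) [NeZero N] (σ : Γℚ) :
    arithmeticGalois (modularFunctionFieldFull N) σ • h69_jN N = h69_jN N :=
  h2_gal_fix_of_rat N _ (qExpand ℚ N jq) rfl σ

section

variable (N : ℕ) [NeZero N] {ℓ : ℕ} [Fact ℓ.Prime] (hℓN : ¬ ℓ ∣ N)
  (A : ValuationSubring Qb) (hA : A.LiesOverPrime ℓ)

/-- **(MODCHART), case `ℓ ≥ 5`**: the chart `x = j` and `y = j_N`. -/
theorem h2_mod_chart_prim_j (hℓ : 5 ≤ ℓ) :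
    ∃ x y : ↥(modularFunctionFieldBar N),
      h39_Chart (h39_modRed N hℓN A hA) x ∧
      (∀ σ : Γℚ, arithmeticGalois (modularFunctionFieldFull N) σ • x = x) ∧
      (∀ σ : Γℚ, arithmeticGalois (modularFunctionFieldFull N) σ • y = y) ∧
      y ∈ (h39_modRed N hℓN A hA).O ∧ h39_Reg Qb x y ∧
      LinearIndependent (IsLocalRing.ResidueField A)⟮(h39_modRed N hℓN A hA).redF x⟯
        (fun i : Fin (Module.finrank Qb⟮x⟯ ↥(modularFunctionFieldBar N)) =>
          (h39_modRed N hℓN A hA).redF y ^ (i : ℕ)) :=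
  ⟨h59_jbar N, h69_jN N, h39_modRed_chart_j N hℓN A hA hℓ, h2_jbar_fix N, h2_jN_fix N,
    h2_jN_memO N hℓN A hA, h2_jN_reg N, h2_jN_li_red' N hℓN A hA⟩

end

end Fermat.Agent.S19

end
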