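import Fermat.Agent.S18.h39_Mod
import Fermat.Agent.S18.h69_PowerBasis
import Fermat.Agent.S27.CoordModel
import Fermat.Agent.GAL.AnDictPt

/-!
# S19, block EXIST, row C3: the rational plane model `(j, j_N)` of the modular reduction datum

For the modular reduction datum `R = h39_modRed N hℓN A hA` of level `N` at a valuation ring `A`
over `ℓ ∤ N`, the function `y = j_N = j(q^N)` (`h69_jN N`) lies in `R.O`, is regular on the
chart `j`, and its reduction is a primitive element over `k(j̄)` (Igusa); hence the landed row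
CO1b of S27 (`h2_model_of_prim`) gives the plane model `h2_Model R j j_N Φ` with this explicit,
Galois-fixed `y`.
-/

set_option autoImplicit false
set_option synthInstance.maxHeartbeats 400000

noncomputable section

open ModularCurve AlgebraicCurve IntermediateField Polynomial CongruenceSubgroup
open scoped MatrixGroups

namespace Fermat.Agent.S19

open Fermat.Agent.S18 Fermat.Agent.S24 Fermat.Agent.S27 Fermat.Agent.S28 Fermat.Agent.GAL

local notation "Qb" => AlgebraicClosure ℚ

/-- polynomials in `j̄`, as `q`-series. -/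
theorem h2_coe_aeval_jk (k : Type) [Field k] (N : ℕ) [NeZero N] (P : Polynomial k) :
    ((aeval (h54_jk k N) P : ↥(modularFunctionFieldFullC k N)) : LaurentSeries k) =
      aeval (jqModC k) P := by
  rw [← IntermediateField.aeval_coe]
  rfl

section

variable (N : ℕ) [NeZero N] {ℓ : ℕ} [Fact ℓ.Prime] (hℓN : ¬ ℓ ∣ N)
  (A : ValuationSubring Qb) (hA : A.LiesOverPrime ℓ)

/-- the `q`-expansion of `j_N` is `A`-integral. -/
theorem h2_coe_jN (A : ValuationSubring Qb) :
    ((h69_jN N : ↥(modularFunctionFieldBar N)) : LaurentSeries Qb) =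
      coeffMap A.subtype (jqNModC A N) := by
  rw [h69_coe_jN, coeffMap_jqNModC]
  rfl

/-- `j_N` lies in the valuation ring of the modular reduction datum. -/
theorem h2_jN_memO : h69_jN N ∈ (h39_modRed N hℓN A hA).O :=
  (h39_modRed_spec N hℓN A hA).mem_of_integral _ _ (h2_coe_jN N A)

/-- the reduction of `j_N` is `j̄_N`. -/
theorem h2_jN_redF :
    (((h39_modRed N hℓN A hA).redF (h69_jN N) :
        ↥(modularFunctionFieldFullC (IsLocalRing.ResidueField A) N)) :
      LaurentSeries (IsLocalRing.ResidueField A)) =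
      qExpand (IsLocalRing.ResidueField A) N (jqModC (IsLocalRing.ResidueField A)) := by
  rw [(h39_modRed_spec N hℓN A hA).redF_of_integral _ _ (h2_coe_jN N A), coeffMap_jqNModC]
  rfl

/-- **Igusa, in field form**: the powers of `j̄_N` below the index of `Γ₀(N)` are linearly
independent over `k(j̄)`. -/
theorem h2_jN_li_red :
    LinearIndependent (IsLocalRing.ResidueField A)⟮h54_jk (IsLocalRing.ResidueField A) N⟯
      (fun i : Fin (Nat.card (SL(2, ℤ) ⧸ Gamma0 N)) =>
        (h39_modRed N hℓN A hA).redF (h69_jN N) ^ (i : ℕ)) := by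
  classical
  have hc : CharP (IsLocalRing.ResidueField A) ℓ := h19_residueField_charP A ℓ hA
  rw [Fintype.linearIndependent_iff]
  intro c hc0 i
  obtain ⟨p, q, hq, hpq⟩ := h69_clear_denominators (h54_jk (IsLocalRing.ResidueField A) N) c
  have h1 : ∑ i, aeval (h54_jk (IsLocalRing.ResidueField A) N) (p i) *
      (h39_modRed N hℓN A hA).redF (h69_jN N) ^ (i : ℕ) = 0 := by
    have h2 : ∑ i, aeval (h54_jk (IsLocalRing.ResidueField A) N) (p i) *
        (h39_modRed N hℓN A hA).redF (h69_jN N) ^ (i : ℕ) =
        aeval (h54_jk (IsLocalRing.ResidueField A) N) q *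
          ∑ i, c i • (h39_modRed N hℓN A hA).redF (h69_jN N) ^ (i : ℕ) := by
      rw [Finset.mul_sum]
      refine Finset.sum_congr rfl fun i _ => ?_
      rw [← hpq i, Algebra.smul_def, mul_assoc]
      rfl
    rw [h2, hc0, mul_zero]
  have h3 : ∑ i, aeval (jqModC (IsLocalRing.ResidueField A)) (p i) *
      qExpand (IsLocalRing.ResidueField A) N (jqModC (IsLocalRing.ResidueField A)) ^ (i : ℕ)
        = 0 := by
    have h4 := congrArg (fun f : ↥(modularFunctionFieldFullC (IsLocalRing.ResidueField A) N) =>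
      (f : LaurentSeries (IsLocalRing.ResidueField A))) h1
    simp only [AddSubmonoidClass.coe_finsetSum, MulMemClass.coe_mul, SubmonoidClass.coe_pow,
      ZeroMemClass.coe_zero, h2_jN_redF N hℓN A hA] at h4
    rw [← h4]
    refine Finset.sum_congr rfl fun i _ => ?_
    congr 1
    exact (h2_coe_aeval_jk (IsLocalRing.ResidueField A) N (p i)).symm
  by_contra hci
  have hp : p ≠ 0 := by
    intro hp0
    have h5 := hpq i
    rw [hp0, Pi.zero_apply, map_zero] at h5
    rcases mul_eq_zero.mp h5 with h6 | h6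
    · exact hq h6
    · exact hci (by exact_mod_cast h6)
  exact h9_igA_family _ _ _ (h84_igusa_field N ℓ hℓN (IsLocalRing.ResidueField A)) p hp h3

/-- `j_N` is regular on the chart `j`: no pole at the places where `j` is finite. -/
theorem h2_jN_reg : h39_Reg Qb (h59_jbar N) (h69_jN N) := by
  intro P hP
  have hj : h78_j Qb N = h59_jbar N := rfl
  obtain ⟨τ₀, g, e, hrel, he⟩ := gal_dict_point_K h78_iota N P (by rw [hj]; exact hP)
  by_cases ha : h69_jNA N = 0
  · have h0 : h69_jN N = 0 := by
      show algebraMap (h78_AN Qb N) ↥(modularFunctionFieldBar N) (h69_jNA N) = 0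
      rw [ha, map_zero]
    rw [h0]
    exact zero_mem _
  have h1 := hrel (h69_jNA N) 1 ha one_ne_zero
  have h2 : (h54_taylor τ₀ (fun z => h54_ev h78_iota N (1 : h78_AN Qb N) (g⁻¹ • z))).order.toNat = 0 := by
    have h3 : (fun z : UpperHalfPlane => h54_ev h78_iota N (1 : h78_AN Qb N) (g⁻¹ • z)) = 1 := by
      funext z
      rw [map_one]
      rfl
    rw [h3, h54_taylor_one, PowerSeries.order_one]
    rfl
  rw [h2, map_one, div_one] at h1
  have he0 : (0 : ℤ) < e := by
    rcases he with h | h | h
    · rw [h]; norm_num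
    · rw [h.1]; norm_num
    · rw [h.1]; norm_num
  refine Fermat.Agent.S24.h24_mem_of_ord_nonneg P ?_
  have h4 : (0 : ℤ) ≤ e * P.ord (algebraMap (h78_AN Qb N) (gal_F Qb N) (h69_jNA N)) := by
    rw [← h1]
    simp
  exact nonneg_of_mul_nonneg_right h4 he0

/-- the primitivity hypothesis of `h2_model_of_prim` for `y = j_N` on the chart `j`. -/
theorem h2_jN_li_red' :
    LinearIndependent
      (IsLocalRing.ResidueField A)⟮(h39_modRed N hℓN A hA).redF (h59_jbar N)⟯
      (fun i : Fin (Module.finrank Qb⟮h59_jbar N⟯ ↥(modularFunctionFieldBar N)) =>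
        (h39_modRed N hℓN A hA).redF (h69_jN N) ^ (i : ℕ)) := by
  have key : ∀ n : ℕ, n = Nat.card (SL(2, ℤ) ⧸ Gamma0 N) →
      LinearIndependent
        (IsLocalRing.ResidueField A)⟮(h39_modRed N hℓN A hA).redF (h59_jbar N)⟯
        (fun i : Fin n => (h39_modRed N hℓN A hA).redF (h69_jN N) ^ (i : ℕ)) := by
    intro n hn
    subst hn
    rw [h54_redF_jbar (h39_modRed_spec N hℓN A hA)]
    exact h2_jN_li_red N hℓN A hA
  exact key _ (h78_finrank N)

/-- **(C3) the plane model `(j, j_N)` of the modular reduction datum** (`ℓ ≥ 5`): the explicit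
Galois-fixed function `y = j_N` has a model polynomial over `A`. -/
theorem h2_modelJN (hℓ : 5 ≤ ℓ) :
    ∃ Φ : Polynomial (Polynomial (h39_modRed N hℓN A hA).A),
      h2_Model (h39_modRed N hℓN A hA) (h59_jbar N) (h69_jN N) Φ := by
  have hk : IsAlgClosed (IsLocalRing.ResidueField A) := h19_residueField_isAlgClosed A
  exact h2_model_of_prim _ (h39_modRed_chart_j N hℓN A hA hℓ) (h2_jN_memO N hℓN A hA)
    (h2_jN_reg N) (h2_jN_li_red' N hℓN A hA)

end

end Fermat.Agent.S19

end
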