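import Fermat.Agent.S19.h2_Tower
import Fermat.Agent.S27.CoordModel
import Fermat.Agent.S27.CoordDenom
import Fermat.Agent.S27.CoordPoint
import Fermat.Agent.S27.CoordSmooth
import Fermat.Agent.S27.CoordGood
import Fermat.Agent.S27.h82_CoordAsm
import Fermat.Agent.S27.h24_LiftInjCore
import Fermat.Prelude.Def_AlgebraicCurve_BaseChangeGalois

/-!
# S19, row X3 POINTS: inputs

* (R) `h2_model_gal_fix`, `h2_model_rat` : the model polynomial of Galois-fixed `x, y` is
  Galois-fixed, so its coefficients are rational;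
* (D) `h2_resultant_deriv_map`, `h2_model_disc` : the `Y`-discriminant of the model polynomial
  has nonzero reduction; `h2_spec`, `h2_points_step` : the tower step at a point;
* (F) `h2_val_smul`, `h2_place_fixed` : a place determined by its coordinates is fixed by the
  Galois elements fixing the coordinates;
* `h2_exists_points` : the statement of row X3 (`h23_exists_points`).
-/

set_option autoImplicit false

noncomputable section

open AlgebraicCurve Fermat.Agent.S18 Fermat.Agent.S27 Polynomial IntermediateField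

namespace Fermat.Agent.S19

local notation "Qb" => AlgebraicClosure ℚ
local notation "Γℚ" => (AlgebraicClosure ℚ ≃ₐ[ℚ] AlgebraicClosure ℚ)

/-! ## generic algebra -/

/-- the `Y`-discriminant (resultant with the derivative) of a monic polynomial commutes with
ring homomorphisms, even when the degree of the derivative drops. -/
theorem h2_resultant_deriv_map {S T : Type*} [CommRing S] [CommRing T] (φ : S →+* T)
    (f : S[X]) (hf : f.Monic) :
    φ (f.resultant f.derivative) = (f.map φ).resultant (f.map φ).derivative := by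
  nontriviality T
  have hdeg : (f.map φ).derivative.natDegree ≤ f.derivative.natDegree := by
    rw [Polynomial.derivative_map]
    exact Polynomial.natDegree_map_le
  obtain ⟨k, hk⟩ := Nat.exists_eq_add_of_le hdeg
  have h1 : φ (f.resultant f.derivative) =
      (f.map φ).resultant (f.map φ).derivative f.natDegree f.derivative.natDegree := by
    rw [Polynomial.derivative_map, Polynomial.resultant_map_map]
  have hm : (f.map φ).natDegree = f.natDegree := hf.natDegree_map φ
  have hc : (f.map φ).coeff f.natDegree = 1 := by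
    rw [← hm]
    exact (hf.map φ).coeff_natDegree
  rw [h1, hk, Polynomial.resultant_add_right_deg _ _ _ _ k le_rfl, hc, one_pow, one_mul, ← hm]

/-- the value at `a` of a polynomial with coefficients in a subring containing `a`. -/
theorem h2_eval_mem {S : Type*} [SetLike S Qb] [SubringClass S Qb] (E : S) (p : Polynomial Qb)
    (hp : ∀ i, p.coeff i ∈ E) {a : Qb} (ha : a ∈ E) : p.eval a ∈ E := by
  rw [Polynomial.eval_eq_sum_range]
  exact sum_mem fun i _ => mul_mem (hp i) (pow_mem ha i)

/-- the discriminant of a polynomial with coefficients in a subfield lies in the subfield. -/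
theorem h2_resultant_mem (E : IntermediateField ℚ Qb) (g : Polynomial Qb)
    (hg : ∀ i, g.coeff i ∈ E) : g.resultant g.derivative ∈ E := by
  have hl : g ∈ Polynomial.lifts (algebraMap E Qb) := by
    rw [Polynomial.lifts_iff_coeff_lifts]
    intro i
    exact ⟨⟨g.coeff i, hg i⟩, rfl⟩
  obtain ⟨g0, rfl⟩ := (Polynomial.mem_lifts _).1 hl
  have hinj : Function.Injective (algebraMap E Qb) := (algebraMap E Qb).injective
  have e1 : (g0.map (algebraMap E Qb)).natDegree = g0.natDegree :=
    Polynomial.natDegree_map_eq_of_injective hinj _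
  have e2 : ((derivative g0).map (algebraMap E Qb)).natDegree = (derivative g0).natDegree :=
    Polynomial.natDegree_map_eq_of_injective hinj _
  rw [Polynomial.derivative_map, e1, e2, Polynomial.resultant_map_map]
  exact Subtype.property _

/-! ## (R) rationality of the model polynomial -/

section Rat

variable {F : Type*} [Field F] [Algebra Qb F]
variable (gal : Γℚ →* SemilinearAut Qb F)

/-- Galois acts on the values of polynomials in a Galois-fixed `x` through the coefficients. -/
theorem h2_gal_aeval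
    (hgal : ∀ (σ : Γℚ) (a : Qb), gal σ • algebraMap Qb F a = algebraMap Qb F (σ a))
    {x : F} (hxfix : ∀ σ, gal σ • x = x) (σ : Γℚ) (c : Polynomial Qb) :
    gal σ • aeval x c = aeval x (c.map (σ : Qb →+* Qb)) := by
  induction c using Polynomial.induction_on' with
  | add p q hp hq => rw [map_add, smul_add, hp, hq, Polynomial.map_add, map_add]
  | monomial i a =>
    rw [Polynomial.map_monomial, aeval_monomial, aeval_monomial, smul_mul', smul_pow', hgal,
      hxfix]
    rfl

/-- Galois acts on `H(x, y)` through the coefficients, for Galois-fixed `x, y`. -/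
theorem h2_gal_ev2
    (hgal : ∀ (σ : Γℚ) (a : Qb), gal σ • algebraMap Qb F a = algebraMap Qb F (σ a))
    {x y : F} (hxfix : ∀ σ, gal σ • x = x) (hyfix : ∀ σ, gal σ • y = y) (σ : Γℚ)
    (H : Polynomial (Polynomial Qb)) :
    gal σ • h15_ev2 x y H =
      h15_ev2 x y (H.map (Polynomial.mapRingHom (σ : Qb →+* Qb))) := by
  induction H using Polynomial.induction_on' with
  | add p q hp hq => rw [h69_ev2_add, smul_add, hp, hq, Polynomial.map_add, h69_ev2_add]
  | monomial j c =>
    rw [Polynomial.map_monomial, h69_ev2_monomial, h69_ev2_monomial, smul_mul', smul_pow',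
      hyfix, h2_gal_aeval gal hgal hxfix, Polynomial.coe_mapRingHom]

variable {k Fb : Type*} [Field k] [Field Fb] [Algebra k Fb]

/-- **(R)** the model polynomial of Galois-fixed `x`, `y` is Galois-fixed. -/
theorem h2_model_gal_fix
    (hgal : ∀ (σ : Γℚ) (a : Qb), gal σ • algebraMap Qb F a = algebraMap Qb F (σ a))
    (R : h39_RedDatum Qb F k Fb) {x y : F} (hxt : Transcendental Qb x)
    (hxfix : ∀ σ, gal σ • x = x) (hyfix : ∀ σ, gal σ • y = y)
    {Φ : Polynomial (Polynomial R.A)} (hM : h2_Model R x y Φ) (σ : Γℚ) :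
    (Φ.map (Polynomial.mapRingHom R.A.subtype)).map (Polynomial.mapRingHom (σ : Qb →+* Qb)) =
      Φ.map (Polynomial.mapRingHom R.A.subtype) := by
  have hmon : (Φ.map (Polynomial.mapRingHom R.A.subtype)).Monic := hM.monic.map _
  have hdeg : (Φ.map (Polynomial.mapRingHom R.A.subtype)).natDegree =
      Module.finrank Qb⟮x⟯ F := by
    rw [hM.monic.natDegree_map, hM.natDegree_eq]
  have hroot' : h15_ev2 x y ((Φ.map (Polynomial.mapRingHom R.A.subtype)).map
      (Polynomial.mapRingHom (σ : Qb →+* Qb))) = 0 := by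
    rw [← h2_gal_ev2 gal hgal hxfix hyfix, hM.root, smul_zero]
  have hdvd := h88_dvd_of_ev2_eq_zero hxt _ hmon hdeg hM.root hM.li _ hroot'
  exact Polynomial.eq_of_monic_of_dvd_of_natDegree_le hmon (hmon.map _) hdvd
    (by rw [hmon.natDegree_map])

/-- **(R)** the coefficients of the model polynomial of Galois-fixed `x`, `y` are rational. -/
theorem h2_model_rat
    (hgal : ∀ (σ : Γℚ) (a : Qb), gal σ • algebraMap Qb F a = algebraMap Qb F (σ a))
    (R : h39_RedDatum Qb F k Fb) {x y : F} (hxt : Transcendental Qb x)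
    (hxfix : ∀ σ, gal σ • x = x) (hyfix : ∀ σ, gal σ • y = y)
    {Φ : Polynomial (Polynomial R.A)} (hM : h2_Model R x y Φ) (i j : ℕ) :
    ∃ q : ℚ, (((Φ.coeff i).coeff j : R.A) : Qb) = algebraMap ℚ Qb q := by
  have hfix : ∀ σ : Γℚ, σ (((Φ.coeff i).coeff j : R.A) : Qb) = ((Φ.coeff i).coeff j : R.A) := by
    intro σ
    have h := h2_model_gal_fix gal hgal R hxt hxfix hyfix hM σ
    have h2 := congrArg (fun P : Polynomial (Polynomial Qb) => (P.coeff i).coeff j) h
    simpa [Polynomial.coeff_map] using h2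
  have hG1 : Algebra.IsAlgebraic ℚ Qb := AlgebraicClosure.isAlgebraic ℚ
  have hG2 : IsAlgClosure ℚ Qb := ⟨inferInstance, hG1⟩
  have hG : IsGalois ℚ Qb := IsAlgClosure.isGalois ℚ Qb
  obtain ⟨q, hq⟩ := (InfiniteGalois.mem_range_algebraMap_iff_fixed _).2 hfix
  exact ⟨q, hq.symm⟩

end Rat

/-! ## (D) the discriminant -/

section Disc

variable {K F k Fb : Type*} [Field K] [Field F] [Algebra K F] [Field k] [Field Fb] [Algebra k Fb]

/-- **(D)** the `Y`-discriminant of the model polynomial has nonzero reduction. -/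
theorem h2_model_disc (R : h39_RedDatum K F k Fb) {x y : F} (hw : h39_WeakChart R x)
    {Φ : Polynomial (Polynomial R.A)} (hM : h2_Model R x y Φ) :
    (Φ.resultant Φ.derivative).map R.res ≠ 0 := by
  have hxk : h75_IsChart k (R.redF x) := h39_weakChart_isChart_red R hw
  have hΨmon : (Φ.map (Polynomial.mapRingHom R.res)).Monic := hM.monic.map _
  have hΨdeg : (Φ.map (Polynomial.mapRingHom R.res)).natDegree =
      Module.finrank k⟮R.redF x⟯ Fb := by
    rw [hM.monic.natDegree_map, hM.natDegree_eq, hw.finrank_eq]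
  have hΨroot : h15_ev2 (R.redF x) (R.redF y) (Φ.map (Polynomial.mapRingHom R.res)) = 0 := by
    have h := (h82_red_ev2 R hw hM.memO Φ).2
    rw [hM.root, h39_redF_zero] at h
    exact h.symm
  have hlib : LinearIndependent k⟮R.redF x⟯
      (fun i : Fin (Module.finrank k⟮R.redF x⟯ Fb) => R.redF y ^ (i : ℕ)) := by
    have h := hM.li_red
    rw [← hw.finrank_eq] at h
    exact h
  have hne := h69_resultant_ne_zero hxk _ hΨmon hΨdeg hΨroot hlib
  rw [← h2_resultant_deriv_map (Polynomial.mapRingHom R.res) Φ hM.monic] at hne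
  exact hne

/-- a value of a polynomial over `A` with nonzero residue is a unit of `A`. -/
theorem h2_eval_unit (R : h39_RedDatum K F k Fb) (p : Polynomial R.A) {a : K} (ha : a ∈ R.A)
    (h : (p.map R.res).eval (R.resK a) ≠ 0) :
    (p.map R.A.subtype).eval a ≠ 0 ∧ ((p.map R.A.subtype).eval a)⁻¹ ∈ R.A := by
  have e1 : (p.map R.A.subtype).eval a = ((p.eval (⟨a, ha⟩ : R.A) : R.A) : K) := by
    rw [Polynomial.eval_map]
    exact Polynomial.eval₂_at_apply R.A.subtype (⟨a, ha⟩ : R.A)
  have e2 : R.resK ((p.eval (⟨a, ha⟩ : R.A) : R.A) : K) = (p.map R.res).eval (R.resK a) := by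
    rw [R.resK_of_mem (p.eval (⟨a, ha⟩ : R.A)).2, R.resK_of_mem ha, Polynomial.eval_map,
      Polynomial.eval₂_at_apply]
  rw [e1]
  have h3 : ¬ (((p.eval (⟨a, ha⟩ : R.A) : R.A) : K) = 0 ∨
      (((p.eval (⟨a, ha⟩ : R.A) : R.A) : K))⁻¹ ∉ R.A) := by
    rw [← h39_resK_eq_zero_iff R (p.eval (⟨a, ha⟩ : R.A)).2, e2]
    exact h
  exact ⟨fun h0 => h3 (Or.inl h0), by_contra fun h0 => h3 (Or.inr h0)⟩

/-- the specialisation `Φ(a, Y)` of a polynomial over `A`. -/
def h2_spec (R : h39_RedDatum K F k Fb) (Φ : Polynomial (Polynomial R.A)) (a : K) :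
    Polynomial K :=
  (Φ.map (Polynomial.mapRingHom R.A.subtype)).map (Polynomial.evalRingHom a)

theorem h2_spec_eval (R : h39_RedDatum K F k Fb) (Φ : Polynomial (Polynomial R.A)) (a η : K) :
    (h2_spec R Φ a).eval η =
      ((Φ.map (Polynomial.mapRingHom R.A.subtype)).eval (C η)).eval a :=
  Polynomial.map_evalRingHom_eval a η _

theorem h2_spec_monic (R : h39_RedDatum K F k Fb) {Φ : Polynomial (Polynomial R.A)}
    (hΦ : Φ.Monic) (a : K) : (h2_spec R Φ a).Monic :=
  (hΦ.map _).map _

theorem h2_spec_coeff (R : h39_RedDatum K F k Fb) (Φ : Polynomial (Polynomial R.A)) (a : K)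
    (j : ℕ) : (h2_spec R Φ a).coeff j = ((Φ.coeff j).map R.A.subtype).eval a := by
  unfold h2_spec
  rw [Polynomial.coeff_map, Polynomial.coeff_map]
  rfl

theorem h2_spec_resultant (R : h39_RedDatum K F k Fb) {Φ : Polynomial (Polynomial R.A)}
    (hΦ : Φ.Monic) (a : K) :
    (h2_spec R Φ a).resultant (h2_spec R Φ a).derivative =
      ((Φ.resultant Φ.derivative).map R.A.subtype).eval a := by
  unfold h2_spec
  rw [← h2_resultant_deriv_map (Polynomial.evalRingHom a) _ (hΦ.map _),
    ← h2_resultant_deriv_map (Polynomial.mapRingHom R.A.subtype) Φ hΦ]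
  rfl

end Disc

section Step

variable {F : Type*} [Field F] [Algebra Qb F] {k Fb : Type*} [Field k] [Field Fb] [Algebra k Fb]

/-- **(D) the tower step at a point**: adjoining a root `η` of `Φ(a, Y)` to an `ℓ`-good field
containing `a` gives an `ℓ`-good field, when the discriminant does not vanish at `ā`. -/
theorem h2_points_step (R : h39_RedDatum Qb F k Fb) (𝒜 : Set (ValuationSubring Qb))
    {Φ : Polynomial (Polynomial R.A)} (hΦ : Φ.Monic)
    (hrat : ∀ i j, ∃ q : ℚ, (((Φ.coeff i).coeff j : R.A) : Qb) = algebraMap ℚ Qb q)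
    (a : Qb) (ha : a ∈ R.A)
    (hA : ∀ u ∈ IntermediateField.adjoin ℚ {a}, u ∈ R.A → h26_Int 𝒜 u)
    (hD : ((Φ.resultant Φ.derivative).map R.res).eval (R.resK a) ≠ 0)
    (η : Qb) (hη : (h2_spec R Φ a).eval η = 0)
    (K' : IntermediateField ℚ Qb) (hK' : h26_LGood 𝒜 K') (haK : a ∈ K') :
    h26_LGood 𝒜 (K' ⊔ IntermediateField.adjoin ℚ {η}) := by
  have hcoefE : ∀ (E : IntermediateField ℚ Qb), a ∈ E → ∀ j, (h2_spec R Φ a).coeff j ∈ E := by
    intro E haE j
    rw [h2_spec_coeff]
    refine h2_eval_mem E _ (fun i => ?_) haE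
    rw [Polynomial.coeff_map]
    obtain ⟨q, hq⟩ := hrat j i
    rw [ValuationSubring.subtype_apply, hq]
    exact E.algebraMap_mem q
  have hcoefA : ∀ j, (h2_spec R Φ a).coeff j ∈ R.A := by
    intro j
    rw [h2_spec_coeff]
    refine h2_eval_mem R.A _ (fun i => ?_) ha
    rw [Polynomial.coeff_map]
    exact ((Φ.coeff j).coeff i).2
  have haa : a ∈ IntermediateField.adjoin ℚ {a} := IntermediateField.mem_adjoin_simple_self ℚ a
  obtain ⟨hres, hresA⟩ := h2_eval_unit R (Φ.resultant Φ.derivative) ha hD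
  rw [← h2_spec_resultant R hΦ a] at hres hresA
  refine h2_lgood_step_of_resultant 𝒜 K' hK' (h2_spec R Φ a) (h2_spec_monic R hΦ a)
    (hcoefE K' haK) (fun j => hA _ (hcoefE _ haa j) (hcoefA j)) hres ?_ η hη
  exact hA _ (inv_mem (h2_resultant_mem _ _ (hcoefE _ haa))) hresA

end Step

/-! ## (F) Galois-fixed places -/

section Fix

variable {F : Type*} [Field F] [Algebra Qb F]
variable (gal : Γℚ →* SemilinearAut Qb F)

/-- the Galois action on values at places. -/
theorem h2_val_smul
    (hgal : ∀ (σ : Γℚ) (a : Qb), gal σ • algebraMap Qb F a = algebraMap Qb F (σ a))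
    (σ : Γℚ) (Q : Place Qb F) {f : F} {b : Qb} (h : h39_Val Q f b) :
    h39_Val (gal σ • Q) (gal σ • f) (σ b) := by
  rcases h with h | h
  · left
    rw [h, hgal]
  · right
    have h1 := SemilinearAut.ord_smul (gal σ) Q (f - algebraMap Qb F b)
    rw [smul_sub, hgal] at h1
    rw [h1]
    exact h

/-- **(F)** a smooth point of the plane model off the denominator is fixed by the Galois
elements fixing its coordinates. -/
theorem h2_place_fixed
    (hgal : ∀ (σ : Γℚ) (a : Qb), gal σ • algebraMap Qb F a = algebraMap Qb F (σ a))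
    {x y : F} (hxK : h75_IsChart Qb x) (hyreg : h39_Reg Qb x y)
    (hxfix : ∀ σ, gal σ • x = x) (hyfix : ∀ σ, gal σ • y = y)
    (Ψ : Polynomial (Polynomial Qb)) (hroot : h15_ev2 x y Ψ = 0) (d : Polynomial Qb)
    (hden : ∀ f : F, h39_Reg Qb x f →
      ∃ H : Polynomial (Polynomial Qb), h15_ev2 x y H = aeval x d * f)
    (Q : Place Qb F) (a η : Qb) (hb : h39_Val Q x a) (hc : h39_Val Q y η) (hd : d.eval a ≠ 0)
    (hsm : (Ψ.derivative.eval (C η)).eval a ≠ 0) (σ : Γℚ) (hσa : σ a = a) (hση : σ η = η) :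
    gal σ • Q = Q := by
  obtain ⟨-, huniq⟩ := h2_good_point hxK hyreg Ψ hroot d hden Q a η hb hc hd hsm
  apply huniq
  · have h := h2_val_smul gal hgal σ Q hb
    rwa [hxfix, hσa] at h
  · have h := h2_val_smul gal hgal σ Q hc
    rwa [hyfix, hση] at h

end Fix

/-! ## the statement of row X3 -/

section Points

variable {F : Type*} [Field F] [Algebra Qb F] {k Fb : Type*} [Field k] [Field Fb] [Algebra k Fb]
variable (gal : Γℚ →* SemilinearAut Qb F)

/-- **(POINTS)** = `h23_exists_points`. -/
theorem h2_exists_points [IsAlgClosed k]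
    (hgal : ∀ (σ : Γℚ) (a : Qb), gal σ • algebraMap Qb F a = algebraMap Qb F (σ a))
    (R : h39_RedDatum Qb F k Fb) (𝒜 : Set (ValuationSubring Qb))
    {x : F} (hx : h39_Chart R x) (hxfix : ∀ σ, gal σ • x = x)
    {y : F} (hyfix : ∀ σ, gal σ • y = y) (hyO : y ∈ R.O) (hyreg : h39_Reg Qb x y)
    (hyprim : LinearIndependent k⟮R.redF x⟯
      (fun i : Fin (Module.finrank Qb⟮x⟯ F) => R.redF y ^ (i : ℕ))) :
    ∃ Bad : Set k, Bad.Finite ∧ ∀ a : Qb, a ∈ R.A →
      (∀ u ∈ IntermediateField.adjoin ℚ {a}, u ∈ R.A → h26_Int 𝒜 u) → R.resK a ∉ Bad →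
      ∃ (η : Qb) (Q : Place Qb F), h39_Val Q x a ∧
        (∀ σ : Γℚ, σ a = a → σ η = η → gal σ • Q = Q) ∧
        (∀ K' : IntermediateField ℚ Qb, h26_LGood 𝒜 K' → a ∈ K' →
          h26_LGood 𝒜 (K' ⊔ IntermediateField.adjoin ℚ {η})) := by
  have hw : h39_WeakChart R x := hx.toh39_WeakChart
  have hxK : h75_IsChart Qb x := h39_weakChart_isChart R hw
  obtain ⟨Φ, hM⟩ := h2_model_of_prim R hx hyO hyreg hyprim
  obtain ⟨d, hd0, hdenK, -⟩ := h2_model_denom R hx hM
  have hDb : (Φ.resultant Φ.derivative).map R.res ≠ 0 := h2_model_disc R hw hM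
  have hrat := h2_model_rat gal hgal R hxK.tr hxfix hyfix hM
  refine ⟨{b | ((Φ.resultant Φ.derivative).map R.res).IsRoot b} ∪ {b | (d.map R.res).IsRoot b},
    (Polynomial.finite_setOfPred_isRoot hDb).union (Polynomial.finite_setOfPred_isRoot hd0), ?_⟩
  intro a ha hA hbad
  have h1 : ((Φ.resultant Φ.derivative).map R.res).eval (R.resK a) ≠ 0 :=
    fun h => hbad (Or.inl h)
  have h2 : (d.map R.res).eval (R.resK a) ≠ 0 := fun h => hbad (Or.inr h)
  have hfin : Module.Finite Qb⟮x⟯ F := hw.finite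
  have hgdeg : (h2_spec R Φ a).degree ≠ 0 := by
    rw [Polynomial.degree_eq_natDegree (h2_spec_monic R hM.monic a).ne_zero]
    have h3 : (h2_spec R Φ a).natDegree = Module.finrank Qb⟮x⟯ F := by
      unfold h2_spec
      rw [(hM.monic.map _).natDegree_map, hM.monic.natDegree_map, hM.natDegree_eq]
    rw [h3]
    exact_mod_cast (Module.finrank_pos (R := Qb⟮x⟯) (M := F)).ne'
  obtain ⟨η, hη⟩ := IsAlgClosed.exists_root (h2_spec R Φ a) hgdeg
  have hη' : (h2_spec R Φ a).eval η = 0 := hη
  have h0 : ((Φ.map (Polynomial.mapRingHom R.A.subtype)).eval (C η)).eval a = 0 := by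
    rw [← h2_spec_eval]
    exact hη'
  obtain ⟨Q, hQx, hQy⟩ := h2_point_of_root hxK hM.reg (Φ.map (Polynomial.mapRingHom R.A.subtype))
    (hM.monic.map _) (by rw [hM.monic.natDegree_map, hM.natDegree_eq]) hM.root hM.li a η h0
  refine ⟨η, Q, hQx, ?_, ?_⟩
  · intro σ hσa hση
    have hn0 : (Φ.map (Polynomial.mapRingHom R.A.subtype)).natDegree ≠ 0 := by
      rw [hM.monic.natDegree_map, hM.natDegree_eq]
      exact (Module.finrank_pos (R := Qb⟮x⟯) (M := F)).ne'
    have hres : ((Φ.map (Polynomial.mapRingHom R.A.subtype)).resultant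
        (derivative (Φ.map (Polynomial.mapRingHom R.A.subtype)))).eval a ≠ 0 := by
      rw [← h2_resultant_deriv_map (Polynomial.mapRingHom R.A.subtype) Φ hM.monic]
      exact (h2_eval_unit R _ ha h1).1
    exact h2_place_fixed gal hgal hxK hM.reg hxfix hyfix _ hM.root (d.map R.A.subtype)
      (h24_hden_K R d hdenK) Q a η hQx hQy (h2_eval_unit R d ha h2).1
      (h69_resultant_smooth _ hn0 a η h0 hres) σ hσa hση
  · intro K' hK' haK
    exact h2_points_step R 𝒜 hM.monic hrat a ha hA h1 η hη' K' hK' haK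

end Points

end Fermat.Agent.S19

end
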