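import Fermat.Agent.S19.h26_Defs

/-!
# S19, block EXIST: the tower step from a resultant (Mathlib + `h26_Defs` only)

`h2_lgood_step_of_resultant`: if `K'` is `ℓ`-good, `g` is monic with coefficients in `K'` that
are integral at the whole family `𝒜`, and `Res(g, g')` is a unit at the whole family, then
`K'(η)` is `ℓ`-good for every root `η` of `g`: by the Bezout identity of the resultant,
`g'(η)` divides `Res(g, g')` in every valuation ring of the family.
-/

set_option autoImplicit false

noncomputable section

open Polynomial

namespace Fermat.Agent.S19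

local notation "Qb" => AlgebraicClosure ℚ

/-- a root of a monic polynomial over a valuation subring lies in it. -/
theorem h2_mem_of_monic_root {K : Type*} [Field K] (A : ValuationSubring K)
    (p : Polynomial A) (hp : p.Monic) (η : K) (hη : (p.map A.subtype).eval η = 0) : η ∈ A := by
  have hint : IsIntegral A η := ⟨p, hp, by rw [← Polynomial.eval_map]; exact hη⟩
  obtain ⟨y, hy⟩ := IsIntegrallyClosed.isIntegral_iff.mp hint
  rw [← hy]
  exact y.2

/-- a polynomial over a field all of whose coefficients lie in a valuation subring comes from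
a polynomial over the subring. -/
theorem h2_exists_lift_poly {K : Type*} [Field K] (A : ValuationSubring K) (g : Polynomial K)
    (hg : ∀ i, g.coeff i ∈ A) : ∃ p : Polynomial A, p.map A.subtype = g := by
  have h1 : g ∈ Polynomial.lifts A.subtype := by
    rw [Polynomial.lifts_iff_coeff_lifts]
    intro i
    exact ⟨⟨g.coeff i, hg i⟩, rfl⟩
  exact (Polynomial.mem_lifts g).mp h1

/-- the derivative at a root divides the resultant, with an integral cofactor. -/
theorem h2_deriv_root_dvd_resultant {K : Type*} [Field K] (A : ValuationSubring K)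
    (g : Polynomial K) (hg : g.Monic) (hgI : ∀ i, g.coeff i ∈ A) (η : K) (hη : g.eval η = 0) :
    ∃ c : K, c ∈ A ∧ g.derivative.eval η * c = g.resultant g.derivative := by
  obtain ⟨p, hp⟩ := h2_exists_lift_poly A g hgI
  have hinj : Function.Injective A.subtype := Subtype.val_injective
  have hpm : p.Monic := by
    rw [← hp] at hg
    exact Polynomial.monic_of_injective hinj hg
  have hn0 : p.natDegree ≠ 0 := by
    intro h0
    have h1 : p = 1 := Polynomial.eq_one_of_monic_natDegree_zero hpm h0
    rw [← hp, h1, Polynomial.map_one, Polynomial.eval_one] at hη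
    exact one_ne_zero hη
  obtain ⟨u, v, -, -, huv⟩ := Polynomial.exists_mul_add_mul_eq_C_resultant p (derivative p)
    le_rfl le_rfl (Or.inl hn0)
  have hηA : η ∈ A := h2_mem_of_monic_root A p hpm η (by rw [hp]; exact hη)
  refine ⟨((v.eval ⟨η, hηA⟩ : A) : K), (v.eval ⟨η, hηA⟩).2, ?_⟩
  have h1 := congrArg (fun P : Polynomial A => A.subtype (P.eval ⟨η, hηA⟩)) huv
  simp only [eval_add, eval_mul, eval_C, map_add, map_mul] at h1
  have hev : ∀ P : Polynomial A, A.subtype (P.eval ⟨η, hηA⟩) = (P.map A.subtype).eval η := by
    intro P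
    rw [Polynomial.eval_map]
    exact (Polynomial.eval₂_at_apply A.subtype ⟨η, hηA⟩).symm
  rw [hev p, hev (derivative p), hp, ← Polynomial.derivative_map, hp, hη, zero_mul,
    zero_add] at h1
  have h3 : g.natDegree = p.natDegree := by
    rw [← hp, Polynomial.natDegree_map_eq_of_injective hinj]
  have h4 : (derivative g).natDegree = (derivative p).natDegree := by
    rw [← hp, Polynomial.derivative_map, Polynomial.natDegree_map_eq_of_injective hinj]
  have h2 : A.subtype (p.resultant (derivative p)) = g.resultant g.derivative := by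
    have h5 := Polynomial.resultant_map_map p (derivative p) p.natDegree
      (derivative p).natDegree A.subtype
    rw [← Polynomial.derivative_map, hp] at h5
    rw [h3, h4]
    exact h5.symm
  exact h1.trans h2

/-- **TOWER step.** -/
theorem h2_lgood_step_of_resultant (𝒜 : Set (ValuationSubring Qb))
    (K' : IntermediateField ℚ Qb) (hK' : h26_LGood 𝒜 K') (g : Polynomial Qb) (hg : g.Monic)
    (hgK : ∀ i, g.coeff i ∈ K') (hgI : ∀ i, h26_Int 𝒜 (g.coeff i))
    (hres : g.resultant g.derivative ≠ 0)
    (hresI : h26_Int 𝒜 (g.resultant g.derivative)⁻¹)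
    (η : Qb) (hη : g.eval η = 0) :
    h26_LGood 𝒜 (K' ⊔ IntermediateField.adjoin ℚ {η}) := by
  have hn0 : g.natDegree ≠ 0 := by
    intro h0
    have h1 : g = 1 := Polynomial.eq_one_of_monic_natDegree_zero hg h0
    rw [h1, Polynomial.eval_one] at hη
    exact one_ne_zero hη
  have hne : g.derivative.eval η ≠ 0 := by
    obtain ⟨u, v, -, -, huv⟩ := Polynomial.exists_mul_add_mul_eq_C_resultant g (derivative g)
      le_rfl le_rfl (Or.inl hn0)
    intro h0
    have h1 := congrArg (fun P : Polynomial Qb => P.eval η) huv
    simp only [eval_add, eval_mul, eval_C, hη, h0, zero_mul, add_zero] at h1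
    exact hres h1.symm
  refine h26_LGood.step K' η g hK' hg hgK hgI hη hne ?_
  intro A hA
  obtain ⟨c, hcA, hc⟩ := h2_deriv_root_dvd_resultant A g hg (fun i => hgI i A hA) η hη
  have h1 : (g.derivative.eval η)⁻¹ = c * (g.resultant g.derivative)⁻¹ := by
    rw [← hc]
    have hc0 : c ≠ 0 := by
      rintro rfl
      rw [mul_zero] at hc
      exact hres hc.symm
    field_simp
  rw [h1]
  exact A.mul_mem _ _ hcA (hresI A hA)

end Fermat.Agent.S19

end
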