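import Mathlib
import Fermat.Agent.GAL.h67_GalHecke
import Fermat.Agent.S37.h87_RhoGen
import Fermat.Agent.S37.h88_HICore
import Fermat.Agent.S37.h82_FI
import Fermat.Agent.S19.h38_TopDefs

/-!
# S19, block D1 LEVEL (helper38): the level-raising pull-back on torsion is Galois equivariant

* `h38_pullPic0_smul` : `h87_pullPic0 φ` intertwines semilinear automorphisms intertwined by `φ`;
* `h38_alphaPull N c : JZero N →+ JZero (N * c)` : pull-back along the inclusion
  `α_c : F(N) → F(N c)`, with `h38_alphaPull_smul` (Galois equivariance);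
* `h38_alphaPullTors N c n` : its restriction to `n`-torsion, `h38_alphaPullTors_smul`;
* `h38_hasCoords_level` : integral coordinates on `J₀(N c)[n]` restrict to `J₀(N)[n]` as soon as
  `α_c^*` is injective on `n`-torsion.
-/

set_option autoImplicit false
set_option synthInstance.maxHeartbeats 400000
set_option linter.style.haveILetI false

noncomputable section

open ModularCurve AlgebraicCurve

namespace Fermat.Agent.S19

open Fermat.Agent.S37 Fermat.Agent.GAL

local notation "Qb" => AlgebraicClosure ℚ
local notation "Γℚ" => (AlgebraicClosure ℚ ≃ₐ[ℚ] AlgebraicClosure ℚ)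

section Generic

variable {K F F' : Type*} [Field K] [Field F] [Field F'] [Algebra K F] [Algebra K F']
  [HasPrincipalDivisors K F'] (φ : F →ₐ[K] F') (hφ : φ.toRingHom.IsIntegral)
  (hFI : FundamentalIdentityAlong K φ hφ)

/-- The pull-back on `Pic⁰` is equivariant. -/
theorem h38_pullPic0_smul {g : SemilinearAut K F} {g' : SemilinearAut K F'}
    (h : SemilinearAut.IntertwinesAlong (φ : F →+* F') g g') (x : Pic0 K F) :
    h87_pullPic0 φ hφ hFI (g • x) = g' • h87_pullPic0 φ hφ hFI x := by
  obtain ⟨D, rfl⟩ := Pic0.mk_surjective x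
  rw [SemilinearAut.pic0_smul_mk, h87_pullPic0_mk, h87_pullPic0_mk, SemilinearAut.pic0_smul_mk]
  refine congrArg Pic0.mk (Subtype.ext ?_)
  rw [h87_coe_pullDegZero, SemilinearAut.coe_degZeroSMulHom, SemilinearAut.coe_degZeroSMulHom,
    h87_coe_pullDegZero, h67_pullbackAlong_smul φ hφ h]

end Generic

section Level

variable (N c : ℕ) [NeZero N] [NeZero c]

/-- The fundamental identity along the inclusion `α_c : F(N) → F(N c)`. -/
theorem h38_FI_alpha [HasPrincipalDivisors Qb (modularFunctionFieldBar (N * c))] :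
    FundamentalIdentityAlong Qb (heckeAlphaBar Qb N c) (h88_alphaIntegral N c) := by
  let _ := algebraAlong (heckeAlphaBar Qb N c)
  have := isScalarTower_along (heckeAlphaBar Qb N c)
  have : FiniteDimensional (modularFunctionFieldBar N) (modularFunctionFieldBar (N * c)) :=
    h88_finiteAlong_alpha N c
  exact h82_FI (h88_isFF N)

/-- Pull-back of classes along the inclusion `α_c : F(N) → F(N c)`. -/
def h38_alphaPull : JZero N →+ JZero (N * c) :=
  haveI := h88_hasPrincipalDivisors (N * c)
  h87_pullPic0 (heckeAlphaBar Qb N c) (h88_alphaIntegral N c) (h38_FI_alpha N c)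

theorem h38_alphaPull_eq [HasPrincipalDivisors Qb (modularFunctionFieldBar (N * c))]
    (hα : (heckeAlphaBar Qb N c).toRingHom.IsIntegral)
    (hFI : FundamentalIdentityAlong Qb (heckeAlphaBar Qb N c) hα) (x : JZero N) :
    h38_alphaPull N c x = h87_pullPic0 (heckeAlphaBar Qb N c) hα hFI x := rfl

/-- The pull-back along `α_c` is Galois equivariant. -/
theorem h38_alphaPull_smul (σ : Γℚ) (x : JZero N) :
    h38_alphaPull N c (σ • x) = σ • h38_alphaPull N c x := by
  haveI := h88_hasPrincipalDivisors (N * c)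
  rw [galois_smul_pic0_def, galois_smul_pic0_def]
  exact h38_pullPic0_smul (heckeAlphaBar Qb N c) (h88_alphaIntegral N c) (h38_FI_alpha N c)
    (h67_intertwines_alpha N c σ) x

/-- The pull-back along `α_c` on `n`-torsion. -/
def h38_alphaPullTors (n : ℤ) :
    ↥(Submodule.torsionBy ℤ (JZero N) n) →+ ↥(Submodule.torsionBy ℤ (JZero (N * c)) n) where
  toFun x := ⟨h38_alphaPull N c (x : JZero N), by
    have hx : n • (x : JZero N) = 0 := (Submodule.mem_torsionBy_iff _ _).mp x.2
    rw [Submodule.mem_torsionBy_iff, ← map_zsmul, hx, map_zero]⟩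
  map_zero' := Subtype.ext (map_zero _)
  map_add' x y := Subtype.ext (map_add _ _ _)

theorem h38_coe_alphaPullTors (n : ℤ) (x : ↥(Submodule.torsionBy ℤ (JZero N) n)) :
    ((h38_alphaPullTors N c n x : ↥(Submodule.torsionBy ℤ (JZero (N * c)) n)) : JZero (N * c))
      = h38_alphaPull N c (x : JZero N) := rfl

theorem h38_alphaPullTors_smul (n : ℤ) (σ : Γℚ) (x : ↥(Submodule.torsionBy ℤ (JZero N) n)) :
    h38_alphaPullTors N c n (σ • x) = σ • h38_alphaPullTors N c n x :=
  Subtype.ext (h38_alphaPull_smul N c σ (x : JZero N))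

/-- **LEVEL.** Integral coordinates on `J₀(N c)[n]` restrict to `J₀(N)[n]`, provided the pull-back
along `α_c` is injective on `n`-torsion. -/
theorem h38_hasCoords_level (ℓ : ℕ) (n : ℤ)
    (hinj : ∀ x : JZero N, n • x = 0 → h38_alphaPull N c x = 0 → x = 0)
    (h : h38_HasCoords ℓ ↥(Submodule.torsionBy ℤ (JZero (N * c)) n)) :
    h38_HasCoords ℓ ↥(Submodule.torsionBy ℤ (JZero N) n) := by
  refine h38_hasCoords_of_injective ℓ (h38_alphaPullTors N c n) ?_
    (h38_alphaPullTors_smul N c n) h
  rw [injective_iff_map_eq_zero]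
  intro x hx
  have h1 : h38_alphaPull N c (x : JZero N) = 0 := by
    rw [← h38_coe_alphaPullTors, hx]
    rfl
  exact Subtype.ext (hinj _ ((Submodule.mem_torsionBy_iff _ _).mp x.2) h1)

end Level

end Fermat.Agent.S19

end
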