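import Mathlib
import Fermat.Agent.S19.h54_Fin
import Fermat.Agent.S37.h87_RhoGen
import Fermat.Agent.GAL.h67_GalPlace
import Fermat.Agent.GAL.h67_GalHecke

/-!
# S19, block LVL-INJ (helper54): the level map `π^* : J₀(N) → J₀(N c)` is injective on torsion

`h54_lvl_inj` : for a prime `c ∤ N`, a class `x ∈ J₀(N)(ℚ̄)` killed by some `n > 0` (ANY `n`,
also a power of the degree `c + 1` of the level map) whose pull-back to level `N c` vanishes is
zero.

Route: by `h54_exists_char` the class `x` has an analytic character `χ` of `Γ₀(N)`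
(`gal_R N n ι χ x`).  The same root function shows `gal_R (N c) n ι (χ|Γ₀(N c)) (π^* x)`
(`h54_R_pull`; the realisation `Φ` is compatible with the inclusion of function fields,
`h54_Phi_alpha`).  If `π^* x = 0` then `χ|Γ₀(N c) = 1` (`gal_R_char_unique`), and a character of
`Γ₀(N)` into a commutative group that is trivial on `Γ₀(N c)` is trivial (`h54_char_trivial`:
explicit matrices).  So `gal_R N n ι 1 x`, and `x = 0` by `gal_R_unique`.
-/

set_option autoImplicit false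

open AlgebraicCurve ModularCurve CongruenceSubgroup UpperHalfPlane
open scoped MatrixGroups

namespace Fermat.Agent.S19

open Fermat.Agent.GAL Fermat.Agent.S24 Fermat.Agent.S37

/-! ### Group theory: `Γ₀(N)` is generated by the conjugates of `Γ₀(N c)` -/

section group

variable {N c : ℕ}

/-- The matrix `[[1, 0], [t N, 1]]`. -/
def h54_L (N : ℕ) (t : ℤ) : SL(2, ℤ) :=
  ⟨!![1, 0; t * N, 1], by simp [Matrix.det_fin_two]⟩

theorem h54_L_mem (N : ℕ) (t : ℤ) : h54_L N t ∈ Gamma0 N := by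
  rw [Gamma0_mem]
  show (((t * N : ℤ)) : ZMod N) = 0
  push_cast
  simp

/-- The matrix `[[1, 1], [0, 1]]`. -/
def h54_T : SL(2, ℤ) := ⟨!![1, 1; 0, 1], by simp [Matrix.det_fin_two]⟩

theorem h54_T_mem (M : ℕ) : h54_T ∈ Gamma0 M := by
  rw [Gamma0_mem]
  show (((0 : ℤ)) : ZMod M) = 0
  simp

theorem h54_mem_Gamma0_iff {M : ℕ} {A : SL(2, ℤ)} : A ∈ Gamma0 M ↔ (M : ℤ) ∣ A 1 0 := by
  rw [Gamma0_mem]
  exact ZMod.intCast_zmod_eq_zero_iff_dvd _ _

theorem h54_Gamma0_le (N c : ℕ) : Gamma0 (N * c) ≤ Gamma0 N := by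
  intro A hA
  rw [h54_mem_Gamma0_iff] at hA ⊢
  exact dvd_trans ⟨(c : ℤ), by push_cast; ring⟩ hA

variable {A : Type*} [CommGroup A]

/-- A character of `Γ₀(N)` that is trivial on `Γ₀(N c)` kills the matrices `[[1,0],[tN,1]]`
(`c` coprime to `N`). -/
theorem h54_char_L (hcN : Nat.Coprime c N) (χ : ↥(Gamma0 N) →* A)
    (hχ : ∀ γ : ↥(Gamma0 N), (γ : SL(2, ℤ)) ∈ Gamma0 (N * c) → χ γ = 1) (t : ℤ) :
    χ ⟨h54_L N t, h54_L_mem N t⟩ = 1 := by
  -- `c d' - m N = 1`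
  have hco : IsCoprime (c : ℤ) (N : ℤ) := Nat.isCoprime_iff_coprime.mpr hcN
  obtain ⟨d', m', hdm⟩ := hco
  -- d' * c + m' * N = 1 ; put m = -m'
  set m : ℤ := -m' with hm
  have hdet : (c : ℤ) * d' - m * N = 1 := by rw [hm]; linarith
  let g : SL(2, ℤ) := ⟨!![(c : ℤ), m; (N : ℤ), d'], by
    rw [Matrix.det_fin_two_of]; linarith⟩
  have hg : g ∈ Gamma0 N := by
    rw [h54_mem_Gamma0_iff]
    show (N : ℤ) ∣ (N : ℤ)
    exact dvd_rfl
  let h : SL(2, ℤ) := ⟨!![1 - t * m * N * c, -(t * N * m ^ 2); t * N * c ^ 2, 1 + t * N * m * c], by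
    rw [Matrix.det_fin_two_of]; ring⟩
  have hh : h ∈ Gamma0 N := by
    rw [h54_mem_Gamma0_iff]
    show (N : ℤ) ∣ t * N * c ^ 2
    exact ⟨t * c ^ 2, by ring⟩
  have hh' : h ∈ Gamma0 (N * c) := by
    rw [h54_mem_Gamma0_iff]
    show ((N * c : ℕ) : ℤ) ∣ t * N * c ^ 2
    exact ⟨t * c, by push_cast; ring⟩
  have hmul : h54_L N t * g = g * h := by
    apply Subtype.ext
    show (!![1, 0; t * N, 1] : Matrix (Fin 2) (Fin 2) ℤ) * !![(c : ℤ), m; (N : ℤ), d']
      = !![(c : ℤ), m; (N : ℤ), d'] *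
        !![1 - t * m * N * c, -(t * N * m ^ 2); t * N * c ^ 2, 1 + t * N * m * c]
    rw [Matrix.mul_fin_two, Matrix.mul_fin_two]
    have e1 : (1 : ℤ) * c + 0 * N = c * (1 - t * m * N * c) + m * (t * N * c ^ 2) := by ring
    have e2 : (1 : ℤ) * m + 0 * d' = c * -(t * N * m ^ 2) + m * (1 + t * N * m * c) := by ring
    have e3 : t * N * c + 1 * N = N * (1 - t * m * N * c) + d' * (t * N * c ^ 2) := by
      linear_combination (-(t * N * c)) * hdet
    have e4 : t * N * m + 1 * d' = N * -(t * N * m ^ 2) + d' * (1 + t * N * m * c) := by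
      linear_combination (-(t * N * m)) * hdet
    rw [e1, e2, e3, e4]
  have hmul' : (⟨h54_L N t, h54_L_mem N t⟩ : ↥(Gamma0 N)) * ⟨g, hg⟩ = ⟨g, hg⟩ * ⟨h, hh⟩ :=
    Subtype.ext hmul
  have h1 := congrArg χ hmul'
  rw [map_mul, map_mul, hχ ⟨h, hh⟩ hh', mul_one] at h1
  exact mul_right_cancel (b := χ ⟨g, hg⟩) (by rw [h1, one_mul])

/-- **A character of `Γ₀(N)` into a commutative group that is trivial on `Γ₀(N c)` is trivial**
(`c` a prime not dividing `N`). -/
theorem h54_char_trivial (hc : c.Prime) (hcN : ¬ c ∣ N) (χ : ↥(Gamma0 N) →* A)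
    (hχ : ∀ γ : ↥(Gamma0 N), (γ : SL(2, ℤ)) ∈ Gamma0 (N * c) → χ γ = 1) (γ : ↥(Gamma0 N)) :
    χ γ = 1 := by
  have hcop : Nat.Coprime c N := (Nat.Prime.coprime_iff_not_dvd hc).mpr hcN
  have hL := h54_char_L hcop χ hχ
  have key : ∀ γ : ↥(Gamma0 N), ¬ (c : ℤ) ∣ (γ : SL(2, ℤ)) 0 0 → χ γ = 1 := by
    intro γ hca
    obtain ⟨C', hC'⟩ := h54_mem_Gamma0_iff.mp γ.2
    have hco : IsCoprime (c : ℤ) ((γ : SL(2, ℤ)) 0 0) :=
      (Nat.prime_iff_prime_int.mp hc).coprime_iff_not_dvd.mpr hca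
    obtain ⟨w, u, hwu⟩ := hco
    set t : ℤ := -(C' * u) with ht
    have hentry : (h54_L N t * (γ : SL(2, ℤ))) 1 0
        = t * N * (γ : SL(2, ℤ)) 0 0 + (γ : SL(2, ℤ)) 1 0 := by
      rw [Matrix.SpecialLinearGroup.coe_mul, Matrix.mul_apply, Fin.sum_univ_two]
      simp [h54_L]
    have hmem : ((⟨h54_L N t, h54_L_mem N t⟩ * γ : ↥(Gamma0 N)) : SL(2, ℤ)) ∈ Gamma0 (N * c) := by
      rw [h54_mem_Gamma0_iff]
      show ((N * c : ℕ) : ℤ) ∣ (h54_L N t * (γ : SL(2, ℤ))) 1 0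
      rw [hentry, hC']
      refine ⟨C' * w, ?_⟩
      push_cast
      rw [ht]
      linear_combination (-((N : ℤ) * C')) * hwu
    have h1 := hχ _ hmem
    rw [map_mul, hL t, one_mul] at h1
    exact h1
  obtain ⟨C', hC'⟩ := h54_mem_Gamma0_iff.mp γ.2
  by_cases h1 : (c : ℤ) ∣ C'
  · apply hχ
    rw [h54_mem_Gamma0_iff, hC']
    obtain ⟨q, rfl⟩ := h1
    exact ⟨q, by push_cast; ring⟩
  by_cases h2 : (c : ℤ) ∣ (γ : SL(2, ℤ)) 0 0
  · have hT : χ ⟨h54_T, h54_T_mem N⟩ = 1 := hχ _ (h54_T_mem (N * c))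
    have hentry : (h54_T * (γ : SL(2, ℤ))) 0 0
        = (γ : SL(2, ℤ)) 0 0 + (γ : SL(2, ℤ)) 1 0 := by
      rw [Matrix.SpecialLinearGroup.coe_mul, Matrix.mul_apply, Fin.sum_univ_two]
      simp [h54_T]
    have h3 := key (⟨h54_T, h54_T_mem N⟩ * γ) (by
      show ¬ (c : ℤ) ∣ (h54_T * (γ : SL(2, ℤ))) 0 0
      rw [hentry, hC']
      intro hd
      have h4 : (c : ℤ) ∣ N * C' := (dvd_add_right h2).mp hd
      rcases (Nat.prime_iff_prime_int.mp hc).dvd_or_dvd h4 with h5 | h5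
      · exact hcN (Int.natCast_dvd_natCast.mp h5)
      · exact h1 h5)
    rw [map_mul, hT, one_mul] at h3
    exact h3
  · exact key γ h2

end group

/-! ### The analytic realisation and the level map -/

section analytic

local notation "Qb" => AlgebraicClosure ℚ

theorem h54_AN_le (K : Type*) [Field K] [Algebra ℚ K] (N c : ℕ) :
    h78_AN K N ≤ h78_AN K (N * c) := by
  apply Algebra.adjoin_mono
  rintro x ⟨d, hd0, hd, rfl⟩
  exact ⟨d, hd0, Dvd.dvd.mul_right hd c, rfl⟩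

/-- The analytic realisation is compatible with the inclusion `F(N) ⊆ F(N c)`. -/
theorem h54_Phi_alpha {K : Type*} [Field K] [Algebra ℚ K] (ι : K →+* ℂ) (N c : ℕ) [NeZero N]
    [NeZero c] (f : gal_F K N) :
    gal_Phi ι (N * c) (heckeAlphaBar K N c f) = gal_Phi ι N f := by
  have h : (gal_Phi ι (N * c)).comp (heckeAlphaBar K N c).toRingHom = gal_Phi ι N := by
    apply IsLocalization.ringHom_ext (nonZeroDivisors (h78_AN K N))
    ext a
    simp only [RingHom.comp_apply]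
    have h1 : (heckeAlphaBar K N c).toRingHom (algebraMap (h78_AN K N) (gal_F K N) a)
        = algebraMap (h78_AN K (N * c)) (gal_F K (N * c)) ⟨a.1, h54_AN_le K N c a.2⟩ := by
      apply Subtype.ext
      rfl
    rw [h1, gal_Phi_algebraMap, gal_Phi_algebraMap]
    congr 1
  exact congrArg (fun φ : gal_F K N →+* h25_Mer => φ f) h

variable (N c : ℕ) [NeZero N] [NeZero c]
  [HasPrincipalDivisors Qb (modularFunctionFieldBar (N * c))]
  (hα : (heckeAlphaBar Qb N c).toRingHom.IsIntegral)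
  (hFI : FundamentalIdentityAlong Qb (heckeAlphaBar Qb N c) hα)

/-- The relation `gal_R` is compatible with the pull-back to level `N c` (same root function,
restricted character). -/
theorem h54_R_pull (ι : Qb →+* ℂ) (n : ℕ) (χ : ↥(Gamma0 N) →* ℂˣ) (x : JZero N)
    (h : gal_R N n ι χ x) :
    gal_R (N * c) n ι (χ.comp (Subgroup.inclusion (h54_Gamma0_le N c)))
      (h87_pullPic0 (heckeAlphaBar Qb N c) hα hFI x) := by
  obtain ⟨D, f₀, u, hf₀, rfl, hD, hu, hpow⟩ := h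
  refine ⟨h87_pullDegZero (heckeAlphaBar Qb N c) hα hFI D, heckeAlphaBar Qb N c f₀, u,
    (map_ne_zero (heckeAlphaBar Qb N c)).mpr hf₀, (h87_pullPic0_mk (heckeAlphaBar Qb N c) hα hFI D).symm,
    fun W => ?_, fun γ => ?_, ?_⟩
  · have hD' : ∀ P : Place Qb (modularFunctionFieldBar N),
        (n • (D : Divisor Qb (modularFunctionFieldBar N))) P = P.ord f₀ := by
      intro P
      rw [Finsupp.smul_apply, nsmul_eq_mul]
      exact hD P
    have h2 := h87_pullbackAlong_isDiv (heckeAlphaBar Qb N c) hα hD' W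
    rw [map_nsmul, Finsupp.smul_apply, nsmul_eq_mul] at h2
    rw [h87_coe_pullDegZero]
    exact h2
  · exact hu (Subgroup.inclusion (h54_Gamma0_le N c) γ)
  · rw [h54_Phi_alpha]
    exact hpow

/-- **LVL-INJ**: the level map `π^* : J₀(N)(ℚ̄) → J₀(N c)(ℚ̄)`, `c` a prime not dividing `N`, is
injective on torsion (of ANY order). -/
theorem h54_lvl_inj (hc : c.Prime) (hcN : ¬ c ∣ N) (n : ℕ) (hn : 0 < n) (x : JZero N)
    (hx : n • x = 0) (h0 : h87_pullPic0 (heckeAlphaBar Qb N c) hα hFI x = 0) : x = 0 := by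
  obtain ⟨χ, -, hR⟩ := h54_exists_char N h78_iota n hn x hx
  have hR' := h54_R_pull N c hα hFI h78_iota n χ x hR
  rw [h0] at hR'
  have h1 : χ.comp (Subgroup.inclusion (h54_Gamma0_le N c)) = 1 :=
    gal_R_char_unique hn (gal_picEqHyp (N * c) n hn) _ _ _ hR' (gal_R_one_zero n h78_iota)
  have h2 : χ = 1 := by
    ext γ
    have h3 := h54_char_trivial hc hcN χ (fun γ' hγ' => by
      have h5 : Subgroup.inclusion (h54_Gamma0_le N c) ⟨(γ' : SL(2, ℤ)), hγ'⟩ = γ' :=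
        Subtype.ext rfl
      have h4 : χ (Subgroup.inclusion (h54_Gamma0_le N c) ⟨(γ' : SL(2, ℤ)), hγ'⟩) = 1 :=
        congrArg (fun ψ : ↥(Gamma0 (N * c)) →* ℂˣ => ψ ⟨(γ' : SL(2, ℤ)), hγ'⟩) h1
      rw [h5] at h4
      exact h4) γ
    rw [h3]
    rfl
  rw [h2] at hR
  exact gal_R_unique hn (gal_rootAlgHyp N n hn) (gal_descInjHyp N n hn h78_iota)
    (gal_picEqHyp N n hn) 1 x 0 hR (gal_R_one_zero n h78_iota)

/-- The level map `π^*` commutes with the Galois action. -/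
theorem h54_pull_galois (σ : Qb ≃ₐ[ℚ] Qb) (x : JZero N) :
    h87_pullPic0 (heckeAlphaBar Qb N c) hα hFI (σ • x)
      = σ • h87_pullPic0 (heckeAlphaBar Qb N c) hα hFI x := by
  obtain ⟨D, rfl⟩ := Pic0.mk_surjective x
  rw [galois_smul_pic0_def, SemilinearAut.pic0_smul_mk, h87_pullPic0_mk, h87_pullPic0_mk,
    galois_smul_pic0_def, SemilinearAut.pic0_smul_mk]
  refine congrArg Pic0.mk (Subtype.ext ?_)
  rw [h87_coe_pullDegZero, SemilinearAut.coe_degZeroSMulHom, SemilinearAut.coe_degZeroSMulHom,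
    h87_coe_pullDegZero]
  exact h67_pullbackAlong_smul (heckeAlphaBar Qb N c) hα (h67_intertwines_alpha N c σ) _

/-- **LEVEL package**: on the `n`-torsion the level map is an injective, Galois-equivariant
homomorphism `J₀(N)[n] → J₀(N c)[n]`. -/
theorem h54_level_package (hα' : (heckeAlphaBar Qb N c).toRingHom.IsIntegral)
    (hFI' : FundamentalIdentityAlong Qb (heckeAlphaBar Qb N c) hα')
    (hc : c.Prime) (hcN : ¬ c ∣ N) (n : ℕ) (hn : 0 < n) :
    ∃ φ : JZero N →+ JZero (N * c),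
      (∀ x : JZero N, n • x = 0 → φ x = 0 → x = 0) ∧
      (∀ x y : JZero N, n • x = 0 → n • y = 0 → φ x = φ y → x = y) ∧
      (∀ x : JZero N, n • x = 0 → n • φ x = 0) ∧
      ∀ (σ : Qb ≃ₐ[ℚ] Qb) (x : JZero N), φ (σ • x) = σ • φ x := by
  refine ⟨h87_pullPic0 (heckeAlphaBar Qb N c) hα' hFI',
    fun x hx h0 => h54_lvl_inj N c hα' hFI' hc hcN n hn x hx h0, fun x y hx hy hxy => ?_,
    fun x hx => by rw [← map_nsmul, hx, map_zero], fun σ x => h54_pull_galois N c hα' hFI' σ x⟩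
  have h2 : n • (x - y) = 0 := by
    have h3 : n • (x - y) = n • x - n • y := nsmul_sub x y n
    rw [h3, hx, hy, sub_zero]
  have h1 : x - y = 0 := h54_lvl_inj N c hα' hFI' hc hcN n hn (x - y) h2
    (by rw [map_sub, hxy, sub_self])
  exact sub_eq_zero.mp h1

end analytic

end Fermat.Agent.S19
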