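import Fermat.Agent.S19.T1
import Fermat.Agent.S19.h54_Fin
import Fermat.Agent.S19.h54_LvlInj
import Fermat.Agent.S19.h38_Level

/-!
# S19, top level (block D2, helper38): the frozen statement from chart-level coordinates

* `h38_hopf_of_hasCoords` : T1 in bundled form (`h38_HasCoords ℓ G` ⟹ frozen S19 shape for `G`);
* `h38_hasCoords_all` : integral coordinates on `J₀(N)[ℓ^k]` for EVERY level `N` prime to `ℓ`,
  given them at the levels which carry a chart (`ℓ ≥ 5`, `2 ∣ N` or `3 ∣ N`): for `ℓ = 2, 3`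
  pass to level `3 N`, `2 N` and restrict along the injective equivariant pull-back
  (`h54_lvl_inj`, `h38_hasCoords_level`);
* `h38_S19_of_chart_coords` : the frozen S19 from chart-level coordinates.
-/

set_option autoImplicit false
set_option synthInstance.maxHeartbeats 400000
set_option linter.style.haveILetI false

noncomputable section

open ModularCurve AlgebraicCurve

namespace Fermat.Agent.S19

open Fermat.Agent.S37

local notation "Qb" => AlgebraicClosure ℚ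
local notation "Γℚ" => (AlgebraicClosure ℚ ≃ₐ[ℚ] AlgebraicClosure ℚ)

/-- T1 in bundled form. -/
theorem h38_hopf_of_hasCoords (ℓ : ℕ) [Fact ℓ.Prime] {G : Type} [AddCommGroup G] [Finite G]
    [DistribMulAction Γℚ G] (h : h38_HasCoords ℓ G) :
    ∃ (H' : Type) (_ : CommRing H') (_ : HopfAlgebra (GaloisRep.ratLocalizedAt ℓ) H'),
      Module.Finite (GaloisRep.ratLocalizedAt ℓ) H' ∧ Module.Flat (GaloisRep.ratLocalizedAt ℓ) H' ∧
      Coalgebra.IsCocomm (GaloisRep.ratLocalizedAt ℓ) H' ∧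
      ∃ e : WithConv (H' →ₐ[GaloisRep.ratLocalizedAt ℓ] Qb) ≃ G,
        (∀ f g, e (f * g) = e f + e g) ∧
        ∀ (σ : Γℚ) (f g : WithConv (H' →ₐ[GaloisRep.ratLocalizedAt ℓ] Qb)),
          (∀ h : H', g h = σ (f h)) → e g = σ • e f := by
  obtain ⟨𝒜, A₀, hA₀, hstab, hR, C, hCfin, hCstab, hCgood, hCint, hCsep, hCadd⟩ := h
  exact h26_hopf_order ℓ 𝒜 A₀ hA₀ hstab hR C hCfin hCstab hCgood hCint hCsep hCadd

/-- The statement "integral coordinates exist on `J₀(N)[ℓ^k]` at every level `N` prime to `ℓ`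
which carries a chart" (the export of the blocks GEOM + EXIST). -/
def h38_ChartCoords : Prop :=
  ∀ (N : ℕ) [NeZero N] (ℓ : ℕ) [Fact ℓ.Prime], ¬ ℓ ∣ N → (5 ≤ ℓ ∨ 2 ∣ N ∨ 3 ∣ N) → ∀ k : ℕ,
    h38_HasCoords ℓ ↥(Submodule.torsionBy ℤ (JZero N) ((ℓ : ℤ) ^ k))

/-- Integral coordinates on `J₀(N)[ℓ^k]` at every level prime to `ℓ`. -/
theorem h38_hasCoords_all (hcoords : h38_ChartCoords) (N : ℕ) [NeZero N] (ℓ : ℕ)
    [hℓ : Fact ℓ.Prime] (hℓN : ¬ ℓ ∣ N) (k : ℕ) :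
    h38_HasCoords ℓ ↥(Submodule.torsionBy ℤ (JZero N) ((ℓ : ℤ) ^ k)) := by
  by_cases hch : 5 ≤ ℓ ∨ 2 ∣ N ∨ 3 ∣ N
  · exact hcoords N ℓ hℓN hch k
  · push Not at hch
    obtain ⟨h5, h2N, h3N⟩ := hch
    have hℓ2 : 2 ≤ ℓ := hℓ.out.two_le
    -- `ℓ ∈ {2, 3}`; the auxiliary prime is the other one
    have hℓ23 : ℓ = 2 ∨ ℓ = 3 := by
      have h4 : ℓ ≠ 4 := by
        rintro rfl
        exact absurd hℓ.out (by norm_num)
      omega
    obtain ⟨c, hc, hcN, hcℓ, hc23⟩ : ∃ c : ℕ, c.Prime ∧ ¬ c ∣ N ∧ c ≠ ℓ ∧ (c = 2 ∨ c = 3) := by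
      rcases hℓ23 with rfl | rfl
      · exact ⟨3, Nat.prime_three, h3N, by norm_num, Or.inr rfl⟩
      · exact ⟨2, Nat.prime_two, h2N, by norm_num, Or.inl rfl⟩
    haveI : NeZero c := ⟨hc.ne_zero⟩
    have hℓNc : ¬ ℓ ∣ N * c := by
      intro h
      rcases (Nat.Prime.dvd_mul hℓ.out).mp h with h | h
      · exact hℓN h
      · exact hcℓ ((Nat.prime_dvd_prime_iff_eq hℓ.out hc).mp h).symm
    have hch' : 5 ≤ ℓ ∨ 2 ∣ N * c ∨ 3 ∣ N * c := by
      rcases hc23 with rfl | rfl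
      · exact Or.inr (Or.inl (dvd_mul_left 2 N))
      · exact Or.inr (Or.inr (dvd_mul_left 3 N))
    refine h38_hasCoords_level N c ℓ _ ?_ (hcoords (N * c) ℓ hℓNc hch' k)
    intro x hx h0
    haveI := h88_hasPrincipalDivisors (N * c)
    refine h54_lvl_inj N c (h88_alphaIntegral N c) (h38_FI_alpha N c) hc hcN (ℓ ^ k)
      (pow_pos hℓ.out.pos k) x ?_ h0
    rw [← natCast_zsmul]
    push_cast
    exact hx

/-- **S19** (the frozen statement), from chart-level coordinates. -/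
theorem h38_S19_of_chart_coords (hcoords : h38_ChartCoords)
    (p : ℕ) [NeZero p] (ℓ : ℕ) [hℓ : Fact ℓ.Prime] (hℓp : ¬ ℓ ∣ p) (k : ℕ) :
    ∃ (H : Type) (_ : CommRing H) (_ : HopfAlgebra (GaloisRep.ratLocalizedAt ℓ) H),
      Module.Finite (GaloisRep.ratLocalizedAt ℓ) H ∧ Module.Flat (GaloisRep.ratLocalizedAt ℓ) H ∧
      Coalgebra.IsCocomm (GaloisRep.ratLocalizedAt ℓ) H ∧
      ∃ e : WithConv (H →ₐ[GaloisRep.ratLocalizedAt ℓ] AlgebraicClosure ℚ) ≃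
          ↥(Submodule.torsionBy ℤ (JZero p) ((ℓ : ℤ) ^ k)),
        (∀ f g, e (f * g) = e f + e g) ∧
        ∀ (σ : AlgebraicClosure ℚ ≃ₐ[ℚ] AlgebraicClosure ℚ)
          (f g : WithConv (H →ₐ[GaloisRep.ratLocalizedAt ℓ] AlgebraicClosure ℚ)),
          (∀ h : H, g h = σ (f h)) → ((e g : JZero p)) = σ • (e f : JZero p) := by
  have hpow : ((ℓ : ℤ) ^ k) ≠ 0 := pow_ne_zero _ (Int.natCast_ne_zero.mpr hℓ.out.ne_zero)
  haveI := h54_finite_torsionBy p _ hpow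
  obtain ⟨H', i1, i2, h1, h2, h3, e, he, heq⟩ :=
    h38_hopf_of_hasCoords ℓ (h38_hasCoords_all hcoords p ℓ hℓp k)
  refine ⟨H', i1, i2, h1, h2, h3, e, he, fun σ f g hfg => ?_⟩
  rw [heq σ f g hfg]
  rfl

end Fermat.Agent.S19

end
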