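import Mathlib
import Fermat.Prelude.Def_GaloisRep_Flat
import Fermat.Agent.S28.ZlBasics

/-!
# S19 / CLOSURE (helper41): arithmetic and linear algebra over `ℤ_(ℓ) ⊂ ℚ ⊂ ℚ̄`

* `h41_isFractionRing` : `ℚ` is the fraction field of `ℤ_(ℓ)`;
* `h41_mem_of_fixed_of_isIntegral` : a Galois-fixed element of `ℚ̄` which is integral over
  `ℤ_(ℓ)` lies in `ℤ_(ℓ)`;
* `h41_artin` : Galois-equivariant functions with values in `ℚ̄` which are linearly independent
  over `ℚ` are linearly independent over `ℚ̄`;
* `h41_exists_adapted_basis` : a saturated submodule of a finite torsion-free module over a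
  principal ideal domain is spanned by a part of a basis.
-/

set_option autoImplicit false

noncomputable section

namespace Fermat.Agent.S19

local notation "Qb" => AlgebraicClosure ℚ
local notation "Γℚ" => (AlgebraicClosure ℚ ≃ₐ[ℚ] AlgebraicClosure ℚ)

/-! ### The ring `ℤ_(ℓ)` inside `ℚ̄` -/

section Arith

variable (ℓ : ℕ)

theorem h41_isFractionRing : IsFractionRing ↥(GaloisRep.ratLocalizedAt ℓ) ℚ := by
  refine IsFractionRing.of_field _ _ fun z => ?_
  refine ⟨((z.num : ℤ) : ↥(GaloisRep.ratLocalizedAt ℓ)),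
    ((z.den : ℕ) : ↥(GaloisRep.ratLocalizedAt ℓ)), ?_⟩
  rw [map_intCast, map_natCast]
  exact (Rat.num_div_den z).symm

theorem h41_algebraMap_injective :
    Function.Injective (algebraMap ↥(GaloisRep.ratLocalizedAt ℓ) Qb) :=
  (algebraMap ℚ Qb).injective.comp Subtype.val_injective

theorem h41_algebraMap_apply (r : ↥(GaloisRep.ratLocalizedAt ℓ)) :
    algebraMap ↥(GaloisRep.ratLocalizedAt ℓ) Qb r = algebraMap ℚ Qb (r : ℚ) := rfl

/-- The elements of `ℚ̄` fixed by the Galois group are rational. -/
theorem h41_rat_of_fixed (x : Qb) (hfix : ∀ σ : Γℚ, σ x = x) : ∃ q : ℚ, algebraMap ℚ Qb q = x := by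
  have h1 : Algebra.IsAlgebraic ℚ Qb := AlgebraicClosure.isAlgebraic ℚ
  have h2 : IsAlgClosure ℚ Qb := ⟨inferInstance, h1⟩
  have h3 : IsGalois ℚ Qb := IsAlgClosure.isGalois ℚ Qb
  exact (InfiniteGalois.mem_range_algebraMap_iff_fixed (k := ℚ) (K := Qb) x).mpr hfix

/-- A Galois-fixed element of `ℚ̄` which is integral over `ℤ_(ℓ)` lies in `ℤ_(ℓ)`. -/
theorem h41_mem_of_fixed_of_isIntegral [Fact ℓ.Prime] (x : Qb) (hfix : ∀ σ : Γℚ, σ x = x)
    (hint : IsIntegral ↥(GaloisRep.ratLocalizedAt ℓ) x) :
    ∃ r : ↥(GaloisRep.ratLocalizedAt ℓ), algebraMap ↥(GaloisRep.ratLocalizedAt ℓ) Qb r = x := by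
  obtain ⟨q, rfl⟩ := h41_rat_of_fixed x hfix
  have := h41_isFractionRing ℓ
  have := Fermat.Agent.S28.ratLocalizedAt_isIntegrallyClosed ℓ
  have hq : IsIntegral ↥(GaloisRep.ratLocalizedAt ℓ) q :=
    (isIntegral_algebraMap_iff (algebraMap ℚ Qb).injective).mp hint
  obtain ⟨r, hr⟩ := IsIntegrallyClosed.algebraMap_eq_of_integral hq
  exact ⟨r, by rw [h41_algebraMap_apply]; exact congrArg (algebraMap ℚ Qb) hr⟩

/-- Linear independence over `ℤ_(ℓ)` implies linear independence over `ℚ`. -/
theorem h41_li_rat {X ι : Type*} (v : ι → X → Qb)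
    (h : LinearIndependent ↥(GaloisRep.ratLocalizedAt ℓ) v) : LinearIndependent ℚ v := by
  have := h41_isFractionRing ℓ
  exact (LinearIndependent.iff_fractionRing ↥(GaloisRep.ratLocalizedAt ℓ) ℚ).mp h

end Arith

/-! ### The Artin lemma for equivariant functions -/

/-- Galois-equivariant functions with values in `ℚ̄` which are linearly independent over `ℚ` are
linearly independent over `ℚ̄`. (No axiom on `act` is needed.) -/
theorem h41_artin {X ι : Type*} (act : Γℚ → X → X) (v : ι → X → Qb)
    (hv : ∀ (i : ι) (σ : Γℚ) (x : X), v i (act σ x) = σ (v i x))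
    (hli : LinearIndependent ℚ v) : LinearIndependent Qb v := by
  classical
  rw [linearIndependent_iff'] at hli ⊢
  have key : ∀ n : ℕ, ∀ s : Finset ι, s.card = n → ∀ c : ι → Qb,
      ∑ i ∈ s, c i • v i = 0 → ∀ i ∈ s, c i = 0 := by
    intro n
    induction n using Nat.strong_induction_on with
    | _ n ih =>
      intro s hs c hc
      by_contra hne
      obtain ⟨i₀, hne⟩ := not_forall.mp hne
      obtain ⟨hi₀, hci₀⟩ := Classical.not_imp.mp hne
      -- normalise the coefficient at `i₀`
      let d : ι → Qb := fun i => (c i₀)⁻¹ * c i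
      have hd : ∑ i ∈ s, d i • v i = 0 := by
        have h1 : ∑ i ∈ s, d i • v i = (c i₀)⁻¹ • ∑ i ∈ s, c i • v i := by
          rw [Finset.smul_sum]
          refine Finset.sum_congr rfl fun i _ => ?_
          rw [smul_smul]
        rw [h1, hc, smul_zero]
      have hd0 : d i₀ = 1 := inv_mul_cancel₀ hci₀
      -- the conjugate relations
      have htw : ∀ τ : Γℚ, ∑ i ∈ s, τ (d i) • v i = 0 := by
        intro τ
        funext x
        have h1 := congrFun hd (act τ⁻¹ x)
        simp only [Finset.sum_apply, Pi.smul_apply, smul_eq_mul, Pi.zero_apply, hv] at h1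
        have h2 := congrArg τ h1
        simp only [map_sum, map_mul, map_zero] at h2
        simp only [Finset.sum_apply, Pi.smul_apply, smul_eq_mul, Pi.zero_apply]
        rw [← h2]
        refine Finset.sum_congr rfl fun i _ => ?_
        congr 1
        exact (AlgEquiv.apply_symm_apply τ (v i x)).symm
      have hdiff : ∀ τ : Γℚ, ∑ i ∈ s.erase i₀, (τ (d i) - d i) • v i = 0 := by
        intro τ
        have h3 : ∑ i ∈ s, (τ (d i) - d i) • v i = 0 := by
          simp only [sub_smul, Finset.sum_sub_distrib, htw τ, hd, sub_zero]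
        rw [← Finset.add_sum_erase s _ hi₀, hd0, map_one, sub_self, zero_smul, zero_add] at h3
        exact h3
      have hfix : ∀ i ∈ s, ∀ τ : Γℚ, τ (d i) = d i := by
        intro i hi τ
        by_cases hii : i = i₀
        · rw [hii, hd0, map_one]
        · have h4 := ih (s.erase i₀).card (by rw [← hs]; exact Finset.card_erase_lt_of_mem hi₀)
            (s.erase i₀) rfl (fun i => τ (d i) - d i) (hdiff τ) i
            (Finset.mem_erase.mpr ⟨hii, hi⟩)
          exact sub_eq_zero.mp h4
      have hq : ∀ i ∈ s, ∃ q : ℚ, algebraMap ℚ Qb q = d i := fun i hi =>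
        h41_rat_of_fixed (d i) (hfix i hi)
      choose! q hq using hq
      have hrel : ∑ i ∈ s, q i • v i = 0 := by
        rw [← hd]
        refine Finset.sum_congr rfl fun i hi => ?_
        rw [← hq i hi, algebraMap_smul]
      have h5 := hli s q hrel i₀ hi₀
      have h6 := hq i₀ hi₀
      rw [h5, map_zero, hd0] at h6
      exact zero_ne_one h6
  intro s c hc i hi
  exact key s.card s rfl c hc i hi

/-! ### Saturated submodules over a principal ideal domain -/

/-- A saturated submodule of a finite torsion-free module over a principal ideal domain is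
spanned by a part of a basis. -/
theorem h41_exists_adapted_basis {R M : Type} [CommRing R] [IsDomain R] [IsPrincipalIdealRing R]
    [AddCommGroup M] [Module R M] [Module.Finite R M]
    (htf : ∀ (r : R) (m : M), r • m = 0 → r = 0 ∨ m = 0)
    (N : Submodule R M) (hsat : ∀ (r : R) (m : M), r ≠ 0 → r • m ∈ N → m ∈ N) :
    ∃ (ι₁ ι₂ : Type) (_ : Fintype ι₁) (_ : Fintype ι₂) (b : Module.Basis (ι₁ ⊕ ι₂) R M),
      (∀ i, b (Sum.inl i) ∈ N) ∧
      ∀ m ∈ N, m ∈ Submodule.span R (Set.range fun i => b (Sum.inl i)) := by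
  classical
  have : IsNoetherian R M := inferInstance
  have hN : Module.IsTorsionFree R ↥N := by
    refine Module.IsTorsionFree.of_smul_eq_zero fun r m hrm => ?_
    rcases htf r (m : M) (by rw [← Submodule.coe_smul, hrm, Submodule.coe_zero]) with h | h
    · exact Or.inl h
    · exact Or.inr (Subtype.ext h)
  have hQ : Module.IsTorsionFree R (M ⧸ N) := by
    refine Module.IsTorsionFree.of_smul_eq_zero fun r m hrm => ?_
    by_cases hr : r = 0
    · exact Or.inl hr
    · right
      obtain ⟨m, rfl⟩ := Submodule.Quotient.mk_surjective N m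
      rw [← Submodule.Quotient.mk_smul, Submodule.Quotient.mk_eq_zero] at hrm
      rw [Submodule.Quotient.mk_eq_zero]
      exact hsat r m hr hrm
  have : Module.Free R ↥N := Module.free_of_finite_type_torsion_free'
  have : Module.Free R (M ⧸ N) := Module.free_of_finite_type_torsion_free'
  obtain ⟨s, hs⟩ := LinearMap.exists_rightInverse_of_surjective N.mkQ (Submodule.range_mkQ N)
  have hs' : ∀ q, N.mkQ (s q) = q := fun q => LinearMap.congr_fun hs q
  let φ : (↥N × (M ⧸ N)) →ₗ[R] M := N.subtype.coprod s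
  have hφ : Function.Bijective φ := by
    constructor
    · rw [← LinearMap.ker_eq_bot, LinearMap.ker_eq_bot']
      rintro ⟨n, q⟩ h
      have h1 : (n : M) + s q = 0 := by simpa [φ] using h
      have h2 : q = 0 := by
        have h3 := congrArg N.mkQ h1
        rw [map_add, hs', map_zero, Submodule.mkQ_apply,
          (Submodule.Quotient.mk_eq_zero N).mpr n.2, zero_add] at h3
        exact h3
      rw [h2, map_zero, add_zero] at h1
      exact Prod.ext (Subtype.ext h1) h2
    · intro m
      have hm : m - s (N.mkQ m) ∈ N := by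
        rw [← Submodule.Quotient.mk_eq_zero, ← Submodule.mkQ_apply, map_sub, hs', sub_self]
      refine ⟨(⟨m - s (N.mkQ m), hm⟩, N.mkQ m), ?_⟩
      simp [φ]
  let e : (↥N × (M ⧸ N)) ≃ₗ[R] M := LinearEquiv.ofBijective φ hφ
  let bN := Module.Free.chooseBasis R ↥N
  let bQ := Module.Free.chooseBasis R (M ⧸ N)
  let b : Module.Basis (Module.Free.ChooseBasisIndex R ↥N ⊕ Module.Free.ChooseBasisIndex R (M ⧸ N))
      R M := (bN.prod bQ).map e
  have hb : ∀ i, b (Sum.inl i) = (bN i : M) := by
    intro i
    simp [b, e, φ]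
  refine ⟨_, _, inferInstance, inferInstance, b, fun i => ?_, fun m hm => ?_⟩
  · rw [hb]
    exact (bN i).2
  · have h1 : (⟨m, hm⟩ : ↥N) ∈ Submodule.span R (Set.range bN) := by
      rw [bN.span_eq]
      trivial
    have h2 := Submodule.apply_mem_span_image_of_mem_span N.subtype h1
    have h3 : (N.subtype '' Set.range bN) = Set.range fun i => b (Sum.inl i) := by
      rw [← Set.range_comp]
      congr 1
      funext i
      exact (hb i).symm
    rw [h3] at h2
    exact h2

end Fermat.Agent.S19
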