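import Mathlib
import Fermat.Prelude.Def_GaloisRep_Flat
import Fermat.Agent.S28.ZlBasics
import Fermat.Agent.S19.h26_Defs
import Fermat.Agent.S19.h21_HopfOrder
import Fermat.Agent.S19.h41_HopfArith

/-!
# S19 / CLOSURE (helper41): the quotient of a Hopf order by a Galois-stable subgroup

`π : G → G₂` a surjective Galois-equivariant homomorphism of finite Galois modules, `H` a Hopf
order in the functions on `G` (`h26_IsHopfOrder`). Then the functions `f` on `G₂` with
`f ∘ π ∈ H` form a Hopf order (`h41_hopfOrder_quot`).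

* `SPAN`: the fibre sums (`h41_push`) of elements of `H` are in the quotient order: the
  coefficients `∑_{g ∈ ker π} h₂ g` are Galois-fixed and integral over `ℤ_(ℓ)`;
* `COMUL`: the quotient order is saturated in `H`, hence spanned by a part of a basis of `H`,
  which is a `ℚ̄`-basis of all functions (Artin); compare coefficients.
-/

set_option autoImplicit false

noncomputable section

namespace Fermat.Agent.S19

local notation "Qb" => AlgebraicClosure ℚ
local notation "Γℚ" => (AlgebraicClosure ℚ ≃ₐ[ℚ] AlgebraicClosure ℚ)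

/-! ### Functions: pull-back, external product, fibre sums -/

section Fun

variable {Ω : Type*} [CommRing Ω]

/-- Pull-back of functions, as an algebra homomorphism. -/
def h41_pull (S : Type*) [CommSemiring S] [Algebra S Ω] {X Y : Type*} (φ : X → Y) :
    (Y → Ω) →ₐ[S] (X → Ω) :=
  AlgHom.pi fun x => Pi.evalAlgHom S (fun _ => Ω) (φ x)

@[simp]
theorem h41_pull_apply (S : Type*) [CommSemiring S] [Algebra S Ω] {X Y : Type*} (φ : X → Y)
    (f : Y → Ω) (x : X) : h41_pull S φ f x = f (φ x) := rfl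

theorem h41_pull_injective (S : Type*) [CommSemiring S] [Algebra S Ω] {X Y : Type*} (φ : X → Y)
    (hφ : Function.Surjective φ) : Function.Injective (h41_pull (Ω := Ω) S φ) := by
  intro f g hfg
  funext y
  obtain ⟨x, rfl⟩ := hφ y
  exact congrFun hfg x

/-- The external product of two functions, as a bilinear map. -/
def h41_tens (S : Type*) [CommSemiring S] [Algebra S Ω] (X Y : Type*) :
    (X → Ω) →ₗ[S] (Y → Ω) →ₗ[S] (X × Y → Ω) :=
  LinearMap.mk₂ S (fun u w p => u p.1 * w p.2)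
    (fun u u' w => by funext p; simp [add_mul])
    (fun c u w => by funext p; simp)
    (fun u w w' => by funext p; simp [mul_add])
    (fun c u w => by funext p; simp)

@[simp]
theorem h41_tens_apply (S : Type*) [CommSemiring S] [Algebra S Ω] {X Y : Type*} (u : X → Ω)
    (w : Y → Ω) (p : X × Y) : h41_tens S X Y u w p = u p.1 * w p.2 := rfl

/-- The span of the products of two submodules of functions. -/
theorem h41_span_gens (S : Type*) [CommSemiring S] [Algebra S Ω] {X Y : Type*}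
    (P : Submodule S (X → Ω)) (Q : Submodule S (Y → Ω)) :
    Submodule.span S {f : X × Y → Ω | ∃ u ∈ P, ∃ w ∈ Q, f = fun p => u p.1 * w p.2} =
      Submodule.map₂ (h41_tens S X Y) P Q := by
  have h : {f : X × Y → Ω | ∃ u ∈ P, ∃ w ∈ Q, f = fun p => u p.1 * w p.2} =
      Set.image2 (fun u w => h41_tens S X Y u w) (P : Set (X → Ω)) (Q : Set (Y → Ω)) := by
    ext f
    constructor
    · rintro ⟨u, hu, w, hw, rfl⟩
      exact ⟨u, hu, w, hw, rfl⟩
    · rintro ⟨u, hu, w, hw, rfl⟩
      exact ⟨u, hu, w, hw, rfl⟩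
  rw [h, ← Submodule.map₂_span_span, Submodule.span_eq, Submodule.span_eq]

/-- The sums over the fibres of a map. -/
def h41_push {X Y : Type*} [Fintype X] [DecidableEq Y] (φ : X → Y) : (X → Ω) →ₗ[Ω] (Y → Ω) where
  toFun h := fun y => ∑ z ∈ Finset.univ.filter (fun z => φ z = y), h z
  map_add' a b := by
    funext y
    simp [Finset.sum_add_distrib]
  map_smul' c a := by
    funext y
    simp [Finset.mul_sum]

theorem h41_push_apply {X Y : Type*} [Fintype X] [DecidableEq Y] (φ : X → Y) (h : X → Ω) (y : Y) :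
    h41_push φ h y = ∑ z ∈ Finset.univ.filter (fun z => φ z = y), h z := rfl

theorem h41_push_single {X Y : Type*} [Fintype X] [DecidableEq X] [DecidableEq Y] (φ : X → Y)
    (x₀ : X) : h41_push φ (Pi.single x₀ (1 : Ω)) = Pi.single (φ x₀) (1 : Ω) := by
  funext y
  rw [h41_push_apply]
  by_cases hy : φ x₀ = y
  · rw [Finset.sum_eq_single_of_mem x₀ (Finset.mem_filter.mpr ⟨Finset.mem_univ _, hy⟩)
      (fun z _ hz => Pi.single_eq_of_ne hz 1), Pi.single_eq_same, ← hy, Pi.single_eq_same]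
  · rw [Pi.single_eq_of_ne (Ne.symm hy)]
    refine Finset.sum_eq_zero fun z hz => Pi.single_eq_of_ne ?_ 1
    rintro rfl
    exact hy (Finset.mem_filter.mp hz).2

end Fun

/-! ### The quotient order -/

section Quot

variable {ℓ : ℕ} {G G₂ : Type} [AddCommGroup G] [DistribMulAction Γℚ G] [AddCommGroup G₂]
  [DistribMulAction Γℚ G₂]

/-- The functions on the quotient whose pull-back lies in the order. -/
def h41_quotOrder (H : Subalgebra (GaloisRep.ratLocalizedAt ℓ) (G → Qb)) (π : G → G₂) :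
    Subalgebra (GaloisRep.ratLocalizedAt ℓ) (G₂ → Qb) :=
  H.comap (h41_pull (GaloisRep.ratLocalizedAt ℓ) π)

omit [AddCommGroup G] [DistribMulAction Γℚ G] [AddCommGroup G₂] [DistribMulAction Γℚ G₂] in
theorem h41_mem_quotOrder (H : Subalgebra (GaloisRep.ratLocalizedAt ℓ) (G → Qb)) (π : G → G₂)
    (f : G₂ → Qb) : f ∈ h41_quotOrder H π ↔ (fun x => f (π x)) ∈ H := Iff.rfl

variable {H : Subalgebra (GaloisRep.ratLocalizedAt ℓ) (G → Qb)}

/-- The sum of the values of an element of a Hopf order over a Galois-stable finite set is in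
`ℤ_(ℓ)`. -/
theorem h41_sum_mem [Fact ℓ.Prime] (hH : h26_IsHopfOrder ℓ H) (K : Finset G)
    (hK : ∀ (σ : Γℚ) (g : G), g ∈ K → σ • g ∈ K) (h : G → Qb) (hh : h ∈ H) :
    ∃ r : GaloisRep.ratLocalizedAt ℓ,
      algebraMap (GaloisRep.ratLocalizedAt ℓ) Qb r = ∑ g ∈ K, h g := by
  refine h41_mem_of_fixed_of_isIntegral ℓ _ (fun σ => ?_) ?_
  · rw [map_sum]
    refine Finset.sum_nbij' (fun g => σ • g) (fun g => σ⁻¹ • g) (fun g hg => hK σ g hg)
      (fun g hg => hK σ⁻¹ g hg) (fun g _ => inv_smul_smul σ g) (fun g _ => smul_inv_smul σ g)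
      (fun g _ => (hH.equiv h hh σ g).symm)
  · refine IsIntegral.sum _ fun g _ => ?_
    exact IsIntegral.map (Pi.evalAlgHom (GaloisRep.ratLocalizedAt ℓ) (fun _ : G => Qb) g)
      (IsIntegral.of_mem_of_fg H hH.fg h hh)

variable (π : G →+ G₂)

/-- The fibre sums of an element of a Hopf order lie in the quotient order. -/
theorem h41_push_mem [Fact ℓ.Prime] [Fintype G] [DecidableEq G₂] (hH : h26_IsHopfOrder ℓ H)
    (hσ : ∀ (σ : Γℚ) (x : G), π (σ • x) = σ • π x) (h : G → Qb) (hh : h ∈ H) :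
    h41_push π h ∈ h41_quotOrder H π := by
  classical
  rw [h41_mem_quotOrder]
  let K : Finset G := Finset.univ.filter (fun g => π g = 0)
  have hK : ∀ (σ : Γℚ) (g : G), g ∈ K → σ • g ∈ K := by
    intro σ g hg
    have hg' : π g = 0 := (Finset.mem_filter.mp hg).2
    exact Finset.mem_filter.mpr ⟨Finset.mem_univ _, by rw [hσ, hg', smul_zero]⟩
  -- the partial sum over `K` in the second variable
  let Λ : (G × G → Qb) →ₗ[GaloisRep.ratLocalizedAt ℓ] (G → Qb) :=
    { toFun := fun Φ x => ∑ g ∈ K, Φ (x, g)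
      map_add' := fun a b => by
        funext x
        simp [Finset.sum_add_distrib]
      map_smul' := fun c a => by
        funext x
        simp [Finset.smul_sum] }
  have hΛ : ∀ Φ x, Λ Φ x = ∑ g ∈ K, Φ (x, g) := fun _ _ => rfl
  have e1 : (fun x => h41_push π h (π x)) = Λ (fun p : G × G => h (p.1 + p.2)) := by
    funext x
    rw [hΛ, h41_push_apply]
    refine (Finset.sum_nbij' (fun g => x + g) (fun z => z - x) ?_ ?_ ?_ ?_ ?_).symm
    · intro g hg
      have hg' : π g = 0 := (Finset.mem_filter.mp hg).2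
      exact Finset.mem_filter.mpr ⟨Finset.mem_univ _, by rw [map_add, hg', add_zero]⟩
    · intro z hz
      have hz' : π z = π x := (Finset.mem_filter.mp hz).2
      exact Finset.mem_filter.mpr ⟨Finset.mem_univ _, by rw [map_sub, hz', sub_self]⟩
    · intro g _
      exact add_sub_cancel_left x g
    · intro z _
      exact add_sub_cancel x z
    · intro g _
      rfl
  rw [e1]
  have e2 : Submodule.span (GaloisRep.ratLocalizedAt ℓ)
      {f : G × G → Qb | ∃ h₁ ∈ H, ∃ h₂ ∈ H, f = fun p => h₁ p.1 * h₂ p.2} ≤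
      (Subalgebra.toSubmodule H).comap Λ := by
    rw [Submodule.span_le]
    rintro _ ⟨h₁, hh₁, h₂, hh₂, rfl⟩
    obtain ⟨r, hr⟩ := h41_sum_mem hH K hK h₂ hh₂
    have e3 : Λ (fun p : G × G => h₁ p.1 * h₂ p.2) = r • h₁ := by
      funext x
      show ∑ g ∈ K, h₁ x * h₂ g = (r • h₁) x
      rw [← Finset.mul_sum, ← hr, Pi.smul_apply, Algebra.smul_def, mul_comm]
    show Λ (fun p : G × G => h₁ p.1 * h₂ p.2) ∈ H
    rw [e3]
    exact H.smul_mem hh₁ r
  exact e2 (hH.comul h hh)

theorem h41_quot_equiv (hH : h26_IsHopfOrder ℓ H) (hπ : Function.Surjective π)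
    (hσ : ∀ (σ : Γℚ) (x : G), π (σ • x) = σ • π x) :
    ∀ f ∈ h41_quotOrder H π, ∀ (σ : Γℚ) (y : G₂), f (σ • y) = σ (f y) := by
  intro f hf σ y
  obtain ⟨x, rfl⟩ := hπ y
  rw [← hσ]
  exact hH.equiv _ hf σ x

omit [DistribMulAction Γℚ G₂] in
theorem h41_quot_counit (hH : h26_IsHopfOrder ℓ H) :
    ∀ f ∈ h41_quotOrder H π, ∃ r : GaloisRep.ratLocalizedAt ℓ, f 0 = algebraMap ℚ Qb (r : ℚ) := by
  intro f hf
  obtain ⟨r, hr⟩ := hH.counit _ hf
  refine ⟨r, ?_⟩
  rw [← hr]
  show f 0 = f (π 0)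
  rw [map_zero]

omit [DistribMulAction Γℚ G₂] in
theorem h41_quot_fg [Fact ℓ.Prime] (hH : h26_IsHopfOrder ℓ H) (hπ : Function.Surjective π) :
    (Subalgebra.toSubmodule (h41_quotOrder H π)).FG := by
  have hPID := Fermat.Agent.S28.ratLocalizedAt_isPrincipalIdealRing ℓ
  have hNoeth : IsNoetherian (GaloisRep.ratLocalizedAt ℓ) ↥(Subalgebra.toSubmodule H) :=
    isNoetherian_of_fg_of_noetherian _ hH.fg
  let P := (h41_pull (Ω := Qb) (GaloisRep.ratLocalizedAt ℓ) π).toLinearMap
  have hP : Function.Injective P :=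
    h41_pull_injective (Ω := Qb) (GaloisRep.ratLocalizedAt ℓ) π hπ
  refine Submodule.fg_of_fg_map_injective P hP ?_
  have h1 : Submodule.map P (Subalgebra.toSubmodule (h41_quotOrder H π)) =
      LinearMap.range P ⊓ Subalgebra.toSubmodule H :=
    Submodule.map_comap_eq P (Subalgebra.toSubmodule H)
  rw [h1]
  have h2 : ((LinearMap.range P ⊓ Subalgebra.toSubmodule H).comap
      (Subalgebra.toSubmodule H).subtype).FG := IsNoetherian.noetherian _
  have h3 := h2.map (Subalgebra.toSubmodule H).subtype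
  rw [Submodule.map_comap_subtype, inf_eq_right.mpr inf_le_right] at h3
  exact h3

theorem h41_quot_span [Fact ℓ.Prime] [Finite G] (hH : h26_IsHopfOrder ℓ H)
    (hπ : Function.Surjective π) (hσ : ∀ (σ : Γℚ) (x : G), π (σ • x) = σ • π x) :
    Submodule.span Qb (h41_quotOrder H π : Set (G₂ → Qb)) = ⊤ := by
  classical
  have := Fintype.ofFinite G
  have : Finite G₂ := Finite.of_surjective π hπ
  rw [eq_top_iff, ← (Pi.basisFun Qb G₂).span_eq, Submodule.span_le]
  rintro _ ⟨y, rfl⟩
  obtain ⟨x, rfl⟩ := hπ y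
  rw [Pi.basisFun_apply, ← h41_push_single (Ω := Qb) π x]
  have h1 : (Pi.single x (1 : Qb) : G → Qb) ∈ Submodule.span Qb (H : Set (G → Qb)) := by
    rw [hH.span]
    trivial
  have h2 := Submodule.apply_mem_span_image_of_mem_span (h41_push (Ω := Qb) π) h1
  refine Submodule.span_mono ?_ h2
  rintro _ ⟨h, hh, rfl⟩
  exact h41_push_mem π hH hσ h hh

/-- A basis of a Hopf order which is adapted to the quotient order, with the expansion of
the comultiplication. -/
theorem h41_quot_comul [Fact ℓ.Prime] [Finite G] (hH : h26_IsHopfOrder ℓ H)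
    (hπ : Function.Surjective π) (hσ : ∀ (σ : Γℚ) (x : G), π (σ • x) = σ • π x) :
    ∀ f ∈ h41_quotOrder H π, (fun p : G₂ × G₂ => f (p.1 + p.2)) ∈
      Submodule.span (GaloisRep.ratLocalizedAt ℓ)
        {F : G₂ × G₂ → Qb | ∃ f₁ ∈ h41_quotOrder H π, ∃ f₂ ∈ h41_quotOrder H π,
          F = fun p => f₁ p.1 * f₂ p.2} := by
  classical
  intro f hf
  have hPID := Fermat.Agent.S28.ratLocalizedAt_isPrincipalIdealRing ℓ
  have hinj := h41_algebraMap_injective ℓ
  have := Fintype.ofFinite G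
  have : Finite G₂ := Finite.of_surjective π hπ
  have := Fintype.ofFinite G₂
  -- the module structure of `H`
  have hfin : Module.Finite (GaloisRep.ratLocalizedAt ℓ) ↥H :=
    (Module.Finite.iff_fg (N := Subalgebra.toSubmodule H)).mpr hH.fg
  have hsmul : ∀ (r : GaloisRep.ratLocalizedAt ℓ) (m : ↥H) (x : G),
      ((r • m : ↥H) : G → Qb) x = algebraMap (GaloisRep.ratLocalizedAt ℓ) Qb r * (m : G → Qb) x := by
    intro r m x
    rw [Subalgebra.coe_smul, Pi.smul_apply, Algebra.smul_def]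
  have htf : ∀ (r : GaloisRep.ratLocalizedAt ℓ) (m : ↥H), r • m = 0 → r = 0 ∨ m = 0 := by
    intro r m hrm
    by_cases hr : r = 0
    · exact Or.inl hr
    · right
      apply Subtype.ext
      funext x
      have h1 := congrFun (congrArg Subtype.val hrm) x
      rw [hsmul] at h1
      rcases mul_eq_zero.mp h1 with h2 | h2
      · exact absurd (hinj (h2.trans (map_zero _).symm)) hr
      · exact h2
  -- the saturated submodule of the functions which factor through `π`
  let P := (h41_pull (Ω := Qb) (GaloisRep.ratLocalizedAt ℓ) π).toLinearMap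
  let N : Submodule (GaloisRep.ratLocalizedAt ℓ) ↥H := (LinearMap.range P).comap H.val.toLinearMap
  have hN : ∀ m : ↥H, m ∈ N ↔ ∃ f' : G₂ → Qb, (fun x => f' (π x)) = (m : G → Qb) :=
    fun m => Iff.rfl
  have hsat : ∀ (r : GaloisRep.ratLocalizedAt ℓ) (m : ↥H), r ≠ 0 → r • m ∈ N → m ∈ N := by
    intro r m hr hrm
    obtain ⟨f', hf'⟩ := (hN _).mp hrm
    refine (hN m).mpr ⟨fun y => (algebraMap (GaloisRep.ratLocalizedAt ℓ) Qb r)⁻¹ * f' y, ?_⟩
    funext x
    have h1 := congrFun hf' x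
    rw [hsmul] at h1
    show (algebraMap (GaloisRep.ratLocalizedAt ℓ) Qb r)⁻¹ * f' (π x) = (m : G → Qb) x
    rw [h1, inv_mul_cancel_left₀ (fun h0 => hr (hinj (h0.trans (map_zero _).symm)))]
  obtain ⟨ι₁, ι₂, _, _, b, hb1, hb2⟩ := h41_exists_adapted_basis htf N hsat
  -- the basis as functions
  let B : ι₁ ⊕ ι₂ → G → Qb := fun i => (b i : G → Qb)
  have hBR : LinearIndependent (GaloisRep.ratLocalizedAt ℓ) B :=
    b.linearIndependent.map' H.val.toLinearMap (LinearMap.ker_eq_bot.mpr Subtype.val_injective)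
  have hBQ : LinearIndependent Qb B :=
    h41_artin (fun σ x => σ • x) B (fun i σ x => hH.equiv _ (b i).2 σ x) (h41_li_rat ℓ B hBR)
  have hexp : ∀ h : ↥H, (h : G → Qb) = ∑ i, b.repr h i • B i := by
    intro h
    conv_lhs => rw [← b.sum_repr h]
    rw [AddSubmonoidClass.coe_finsetSum]
    rfl
  have hspanR : Subalgebra.toSubmodule H =
      Submodule.span (GaloisRep.ratLocalizedAt ℓ) (Set.range B) := by
    apply le_antisymm
    · intro h hh
      have e := hexp ⟨h, hh⟩
      change h = _ at e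
      rw [e]
      exact Submodule.sum_mem _ fun i _ =>
        Submodule.smul_mem _ _ (Submodule.subset_span ⟨i, rfl⟩)
    · rw [Submodule.span_le]
      rintro _ ⟨i, rfl⟩
      exact (b i).2
  let 𝔓 : (ι₁ ⊕ ι₂) × (ι₁ ⊕ ι₂) → G × G → Qb := fun p q => B p.1 q.1 * B p.2 q.2
  have h𝔓 : LinearIndependent Qb 𝔓 := h21_prod_indep B B hBQ hBQ
  -- the comultiplication in the basis of products, coefficients in `ℤ_(ℓ)`
  have hS4 : ∃ r : (ι₁ ⊕ ι₂) × (ι₁ ⊕ ι₂) → GaloisRep.ratLocalizedAt ℓ,
      ∑ p, r p • 𝔓 p = fun q : G × G => f (π q.1 + π q.2) := by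
    have h1 := hH.comul _ hf
    have h2 : Submodule.span (GaloisRep.ratLocalizedAt ℓ)
        {F : G × G → Qb | ∃ h₁ ∈ H, ∃ h₂ ∈ H, F = fun p => h₁ p.1 * h₂ p.2} =
        Submodule.span (GaloisRep.ratLocalizedAt ℓ) (Set.range 𝔓) := by
      refine (h41_span_gens (Ω := Qb) (GaloisRep.ratLocalizedAt ℓ) (Subalgebra.toSubmodule H)
        (Subalgebra.toSubmodule H)).trans ?_
      rw [hspanR, Submodule.map₂_span_span, Set.image2_range]
      rfl
    rw [h2] at h1
    obtain ⟨r, hr⟩ := (Submodule.mem_span_range_iff_exists_fun (GaloisRep.ratLocalizedAt ℓ)).mp h1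
    refine ⟨r, hr.trans ?_⟩
    funext q
    show f (π (q.1 + q.2)) = f (π q.1 + π q.2)
    rw [map_add]
  obtain ⟨r, hr⟩ := hS4
  -- the comultiplication in the products of the first part of the basis, coefficients in `ℚ̄`
  let B₁ : ι₁ → G → Qb := fun i => B (Sum.inl i)
  have hV : ∀ y : G₂, (fun x => (Pi.single y (1 : Qb) : G₂ → Qb) (π x)) ∈
      Submodule.span Qb (Set.range B₁) := by
    intro y
    have h1 : (Pi.single y (1 : Qb) : G₂ → Qb) ∈
        Submodule.span Qb (h41_quotOrder H π : Set (G₂ → Qb)) := by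
      rw [h41_quot_span π hH hπ hσ]
      trivial
    have h2 := Submodule.apply_mem_span_image_of_mem_span
      (h41_pull (Ω := Qb) Qb π).toLinearMap h1
    refine Submodule.span_le.mpr ?_ h2
    rintro _ ⟨f', hf', rfl⟩
    have h3 : (⟨fun x => f' (π x), hf'⟩ : ↥H) ∈ N := (hN _).mpr ⟨f', rfl⟩
    have h4 := hb2 _ h3
    have h5 := Submodule.apply_mem_span_image_of_mem_span H.val.toLinearMap h4
    have h6 : (H.val.toLinearMap '' Set.range fun i => b (Sum.inl i)) = Set.range B₁ := by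
      rw [← Set.range_comp]
      rfl
    rw [h6] at h5
    exact Submodule.span_le_restrictScalars (GaloisRep.ratLocalizedAt ℓ) Qb _ h5
  let 𝔓₁ : ι₁ × ι₁ → G × G → Qb := fun p q => B₁ p.1 q.1 * B₁ p.2 q.2
  have hS5 : ∃ c : ι₁ × ι₁ → Qb, ∑ p, c p • 𝔓₁ p = fun q : G × G => f (π q.1 + π q.2) := by
    rw [← Submodule.mem_span_range_iff_exists_fun Qb]
    have h1 : Submodule.map₂ (h41_tens (Ω := Qb) Qb G G) (Submodule.span Qb (Set.range B₁))
        (Submodule.span Qb (Set.range B₁)) = Submodule.span Qb (Set.range 𝔓₁) := by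
      rw [Submodule.map₂_span_span, Set.image2_range]
      rfl
    rw [← h1]
    have h2 : (fun q : G × G => f (π q.1 + π q.2)) = ∑ y₁ : G₂, ∑ y₂ : G₂, f (y₁ + y₂) •
        h41_tens (Ω := Qb) Qb G G (fun x => (Pi.single y₁ (1 : Qb) : G₂ → Qb) (π x))
          (fun x => (Pi.single y₂ (1 : Qb) : G₂ → Qb) (π x)) := by
      funext q
      simp only [Finset.sum_apply, Pi.smul_apply, h41_tens_apply, smul_eq_mul]
      rw [Finset.sum_eq_single (π q.1), Finset.sum_eq_single (π q.2)]
      · simp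
      · intro y _ hy
        rw [Pi.single_eq_of_ne (Ne.symm hy), mul_zero, mul_zero]
      · intro hcon
        exact absurd (Finset.mem_univ _) hcon
      · intro y _ hy
        refine Finset.sum_eq_zero fun y' _ => ?_
        rw [Pi.single_eq_of_ne (Ne.symm hy), zero_mul, mul_zero]
      · intro hcon
        exact absurd (Finset.mem_univ _) hcon
    rw [h2]
    exact Submodule.sum_mem _ fun y₁ _ => Submodule.sum_mem _ fun y₂ _ =>
      Submodule.smul_mem _ _ (Submodule.apply_mem_map₂ _ (hV y₁) (hV y₂))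
  obtain ⟨c, hc⟩ := hS5
  -- comparison of the coefficients
  let c' : (ι₁ ⊕ ι₂) × (ι₁ ⊕ ι₂) → Qb := fun p =>
    Sum.elim (fun i => Sum.elim (fun j => c (i, j)) (fun _ => 0) p.2) (fun _ => 0) p.1
  have hc' : ∑ p, c' p • 𝔓 p = fun q : G × G => f (π q.1 + π q.2) := by
    rw [← hc, Fintype.sum_prod_type, Fintype.sum_prod_type]
    simp only [Fintype.sum_sum_type, c', Sum.elim_inl, Sum.elim_inr, zero_smul,
      Finset.sum_const_zero, add_zero]
    rfl
  have hrel : ∑ p, (algebraMap (GaloisRep.ratLocalizedAt ℓ) Qb (r p) - c' p) • 𝔓 p = 0 := by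
    simp only [sub_smul, Finset.sum_sub_distrib]
    rw [hc', sub_eq_zero, ← hr]
    refine Finset.sum_congr rfl fun p _ => ?_
    rw [algebraMap_smul]
  have hcoef : ∀ p, algebraMap (GaloisRep.ratLocalizedAt ℓ) Qb (r p) = c' p := fun p =>
    sub_eq_zero.mp (Fintype.linearIndependent_iff.mp h𝔓 _ hrel p)
  have hr' : ∑ i : ι₁, ∑ j : ι₁, r (Sum.inl i, Sum.inl j) • 𝔓₁ (i, j) =
      fun q : G × G => f (π q.1 + π q.2) := by
    rw [← hc, Fintype.sum_prod_type]
    refine Finset.sum_congr rfl fun i _ => Finset.sum_congr rfl fun j _ => ?_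
    rw [← algebraMap_smul Qb (r (Sum.inl i, Sum.inl j)), hcoef]
    rfl
  -- descent to the quotient
  have hfi : ∀ i : ι₁, ∃ f' : G₂ → Qb, (fun x => f' (π x)) = B₁ i := fun i => (hN _).mp (hb1 i)
  choose φ hφ using hfi
  have hφmem : ∀ i, φ i ∈ h41_quotOrder H π := by
    intro i
    rw [h41_mem_quotOrder, hφ i]
    exact (b (Sum.inl i)).2
  have hfinal : (fun p : G₂ × G₂ => f (p.1 + p.2)) = ∑ i : ι₁, ∑ j : ι₁,
      r (Sum.inl i, Sum.inl j) • (fun p : G₂ × G₂ => φ i p.1 * φ j p.2) := by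
    funext p
    rcases p with ⟨p1, p2⟩
    obtain ⟨x, rfl⟩ := hπ p1
    obtain ⟨y, rfl⟩ := hπ p2
    have h1 := congrFun hr' (x, y)
    simp only [Finset.sum_apply, Pi.smul_apply] at h1 ⊢
    rw [← h1]
    refine Finset.sum_congr rfl fun i _ => Finset.sum_congr rfl fun j _ => ?_
    have e1 := congrFun (hφ i) x
    have e2 := congrFun (hφ j) y
    show r _ • (B₁ i x * B₁ j y) = r _ • (φ i (π x) * φ j (π y))
    rw [← e1, ← e2]
  rw [hfinal]
  exact Submodule.sum_mem _ fun i _ => Submodule.sum_mem _ fun j _ =>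
    Submodule.smul_mem _ _ (Submodule.subset_span ⟨φ i, hφmem i, φ j, hφmem j, rfl⟩)

/-- **CLOSURE, quotients.** The quotient of a Hopf order by a Galois-stable subgroup: if `H` is
a Hopf order in the functions on `G` and `π : G → G₂` is a surjective Galois-equivariant
homomorphism, the functions on `G₂` whose pull-back lies in `H` form a Hopf order. -/
theorem h41_hopfOrder_quot (ℓ : ℕ) [Fact ℓ.Prime] {G G₂ : Type} [AddCommGroup G] [Finite G]
    [DistribMulAction Γℚ G] [AddCommGroup G₂] [DistribMulAction Γℚ G₂]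
    (H : Subalgebra (GaloisRep.ratLocalizedAt ℓ) (G → Qb)) (hH : h26_IsHopfOrder ℓ H)
    (π : G →+ G₂) (hπ : Function.Surjective π)
    (hσ : ∀ (σ : Γℚ) (x : G), π (σ • x) = σ • π x) :
    h26_IsHopfOrder ℓ (h41_quotOrder H π) :=
  ⟨h41_quot_equiv π hH hπ hσ, h41_quot_fg π hH hπ, h41_quot_span π hH hπ hσ,
    h41_quot_counit π hH, h41_quot_comul π hH hπ hσ⟩

end Quot

end Fermat.Agent.S19
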