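import Mathlib
import Fermat.Prelude.Def_GaloisRep_Flat
import Fermat.Agent.S19.h26_Defs
import Fermat.Agent.S19.h41_HopfQuot

/-!
# S19 / CLOSURE (helper41): restriction of a Hopf order to a Galois-stable subgroup

`ι : G₁ → G` an injective Galois-equivariant homomorphism, `H` a Hopf order in the functions on
`G` (`h26_IsHopfOrder`). Then the restrictions `h ∘ ι`, `h ∈ H`, form a Hopf order in the
functions on `G₁` (`h41_hopfOrder_sub`). With `ι` an isomorphism this is transport of structure.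
-/

set_option autoImplicit false

noncomputable section

namespace Fermat.Agent.S19

local notation "Qb" => AlgebraicClosure ℚ
local notation "Γℚ" => (AlgebraicClosure ℚ ≃ₐ[ℚ] AlgebraicClosure ℚ)

section Sub

variable {ℓ : ℕ} {G G₁ : Type}

/-- The restrictions of the elements of an order along a map. -/
def h41_subOrder (H : Subalgebra (GaloisRep.ratLocalizedAt ℓ) (G → Qb)) (ι : G₁ → G) :
    Subalgebra (GaloisRep.ratLocalizedAt ℓ) (G₁ → Qb) :=
  H.map (h41_pull (GaloisRep.ratLocalizedAt ℓ) ι)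

theorem h41_mem_subOrder (H : Subalgebra (GaloisRep.ratLocalizedAt ℓ) (G → Qb)) (ι : G₁ → G)
    (f : G₁ → Qb) : f ∈ h41_subOrder H ι ↔ ∃ h ∈ H, (fun x => h (ι x)) = f := Iff.rfl

/-- **CLOSURE, subgroups.** The restriction of a Hopf order to a Galois-stable subgroup: if `H`
is a Hopf order in the functions on `G` and `ι : G₁ → G` is an injective Galois-equivariant
homomorphism, the restrictions of the elements of `H` form a Hopf order on `G₁`. -/
theorem h41_hopfOrder_sub (ℓ : ℕ) {G G₁ : Type} [AddCommGroup G] [DistribMulAction Γℚ G]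
    [AddCommGroup G₁] [DistribMulAction Γℚ G₁]
    (H : Subalgebra (GaloisRep.ratLocalizedAt ℓ) (G → Qb)) (hH : h26_IsHopfOrder ℓ H)
    (ι : G₁ →+ G) (hι : Function.Injective ι)
    (hσ : ∀ (σ : Γℚ) (x : G₁), ι (σ • x) = σ • ι x) :
    h26_IsHopfOrder ℓ (h41_subOrder H ι) := by
  refine ⟨?_, ?_, ?_, ?_, ?_⟩
  · rintro _ ⟨h, hh, rfl⟩ σ x
    show h (ι (σ • x)) = σ (h (ι x))
    rw [hσ]
    exact hH.equiv h hh σ (ι x)
  · have h1 : Subalgebra.toSubmodule (h41_subOrder H ι) =
        (Subalgebra.toSubmodule H).map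
          (h41_pull (Ω := Qb) (GaloisRep.ratLocalizedAt ℓ) ι).toLinearMap := rfl
    rw [h1]
    exact hH.fg.map _
  · rw [eq_top_iff]
    intro f _
    have h1 : Function.extend ι f 0 ∈ Submodule.span Qb (H : Set (G → Qb)) := by
      rw [hH.span]
      trivial
    have h2 := Submodule.apply_mem_span_image_of_mem_span
      (h41_pull (Ω := Qb) Qb ι).toLinearMap h1
    have h3 : (h41_pull (Ω := Qb) Qb ι).toLinearMap (Function.extend ι f 0) = f := by
      funext x
      exact hι.extend_apply f 0 x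
    rw [h3] at h2
    refine Submodule.span_mono ?_ h2
    rintro _ ⟨h, hh, rfl⟩
    exact ⟨h, hh, rfl⟩
  · rintro _ ⟨h, hh, rfl⟩
    obtain ⟨r, hr⟩ := hH.counit h hh
    refine ⟨r, ?_⟩
    show h (ι 0) = _
    rw [map_zero]
    exact hr
  · rintro _ ⟨h, hh, rfl⟩
    have h1 := hH.comul h hh
    have h2 := Submodule.apply_mem_span_image_of_mem_span
      (h41_pull (Ω := Qb) (GaloisRep.ratLocalizedAt ℓ) (Prod.map ι ι)).toLinearMap h1
    have h3 : (h41_pull (Ω := Qb) (GaloisRep.ratLocalizedAt ℓ) (Prod.map ι ι)).toLinearMap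
        (fun p : G × G => h (p.1 + p.2)) =
        fun p : G₁ × G₁ => (h41_pull (Ω := Qb) (GaloisRep.ratLocalizedAt ℓ) ι h) (p.1 + p.2) := by
      funext p
      show h (ι p.1 + ι p.2) = h (ι (p.1 + p.2))
      rw [map_add]
    rw [h3] at h2
    refine Submodule.span_mono ?_ h2
    rintro _ ⟨_, ⟨h₁, hh₁, h₂, hh₂, rfl⟩, rfl⟩
    exact ⟨_, ⟨h₁, hh₁, rfl⟩, _, ⟨h₂, hh₂, rfl⟩, rfl⟩

end Sub

end Fermat.Agent.S19
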