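import Mathlib
import Fermat.Prelude.Def_GaloisRep_Flat
import Fermat.Agent.S19.h26_Defs
import Fermat.Agent.S19.h41_HopfQuot
import Fermat.Agent.S19.h41_HopfSub

/-!
# S19 / CLOSURE (helper41): products and powers of Hopf orders

* `h41_hopfOrder_prod` : the functions `∑ h₁ (x₁) h₂ (x₂)` on `G₁ × G₂` (the image of
  `H₁ ⊗ H₂`) form a Hopf order if `H₁` and `H₂` are Hopf orders;
* `h41_hopfOrder_pi` : a Hopf order on `G` gives a Hopf order on `Fin n → G`;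
* `h41_hopfOrder_subquot_pi` : a Hopf order on `G` gives a Hopf order on every Galois
  equivariant quotient of a Galois-stable subgroup of `Fin n → G`.
-/

set_option autoImplicit false

noncomputable section

open TensorProduct

namespace Fermat.Agent.S19

local notation "Qb" => AlgebraicClosure ℚ
local notation "Γℚ" => (AlgebraicClosure ℚ ≃ₐ[ℚ] AlgebraicClosure ℚ)

section Prod

variable {ℓ : ℕ} {G₁ G₂ : Type}

/-- The map `H₁ ⊗ H₂ → functions on G₁ × G₂`. -/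
def h41_prodMap (H₁ : Subalgebra (GaloisRep.ratLocalizedAt ℓ) (G₁ → Qb))
    (H₂ : Subalgebra (GaloisRep.ratLocalizedAt ℓ) (G₂ → Qb)) :
    ↥H₁ ⊗[GaloisRep.ratLocalizedAt ℓ] ↥H₂ →ₐ[GaloisRep.ratLocalizedAt ℓ] (G₁ × G₂ → Qb) :=
  Algebra.TensorProduct.lift
    ((h41_pull (Ω := Qb) (GaloisRep.ratLocalizedAt ℓ) (Prod.fst : G₁ × G₂ → G₁)).comp H₁.val)
    ((h41_pull (Ω := Qb) (GaloisRep.ratLocalizedAt ℓ) (Prod.snd : G₁ × G₂ → G₂)).comp H₂.val)
    (fun _ _ => Commute.all _ _)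

theorem h41_prodMap_tmul (H₁ : Subalgebra (GaloisRep.ratLocalizedAt ℓ) (G₁ → Qb))
    (H₂ : Subalgebra (GaloisRep.ratLocalizedAt ℓ) (G₂ → Qb)) (a : ↥H₁) (b : ↥H₂)
    (p : G₁ × G₂) :
    h41_prodMap H₁ H₂ (a ⊗ₜ[GaloisRep.ratLocalizedAt ℓ] b) p =
      (a : G₁ → Qb) p.1 * (b : G₂ → Qb) p.2 := by
  simp [h41_prodMap]

/-- The product order: the image of `H₁ ⊗ H₂` in the functions on `G₁ × G₂`. -/
def h41_prodOrder (H₁ : Subalgebra (GaloisRep.ratLocalizedAt ℓ) (G₁ → Qb))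
    (H₂ : Subalgebra (GaloisRep.ratLocalizedAt ℓ) (G₂ → Qb)) :
    Subalgebra (GaloisRep.ratLocalizedAt ℓ) (G₁ × G₂ → Qb) :=
  (h41_prodMap H₁ H₂).range

theorem h41_tens_mem_prodOrder (H₁ : Subalgebra (GaloisRep.ratLocalizedAt ℓ) (G₁ → Qb))
    (H₂ : Subalgebra (GaloisRep.ratLocalizedAt ℓ) (G₂ → Qb)) {u : G₁ → Qb} (hu : u ∈ H₁)
    {w : G₂ → Qb} (hw : w ∈ H₂) :
    (fun p : G₁ × G₂ => u p.1 * w p.2) ∈ h41_prodOrder H₁ H₂ :=
  ⟨(⟨u, hu⟩ : ↥H₁) ⊗ₜ[GaloisRep.ratLocalizedAt ℓ] (⟨w, hw⟩ : ↥H₂),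
    funext fun p => h41_prodMap_tmul H₁ H₂ _ _ p⟩

theorem h41_prodOrder_toSubmodule (H₁ : Subalgebra (GaloisRep.ratLocalizedAt ℓ) (G₁ → Qb))
    (H₂ : Subalgebra (GaloisRep.ratLocalizedAt ℓ) (G₂ → Qb)) :
    Subalgebra.toSubmodule (h41_prodOrder H₁ H₂) =
      Submodule.map₂ (h41_tens (Ω := Qb) (GaloisRep.ratLocalizedAt ℓ) G₁ G₂)
        (Subalgebra.toSubmodule H₁) (Subalgebra.toSubmodule H₂) := by
  have key : ∀ t : ↥H₁ ⊗[GaloisRep.ratLocalizedAt ℓ] ↥H₂, h41_prodMap H₁ H₂ t ∈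
      Submodule.map₂ (h41_tens (Ω := Qb) (GaloisRep.ratLocalizedAt ℓ) G₁ G₂)
        (Subalgebra.toSubmodule H₁) (Subalgebra.toSubmodule H₂) := by
    intro t
    induction t using TensorProduct.induction_on with
    | zero =>
      rw [map_zero]
      exact Submodule.zero_mem _
    | tmul a b =>
      have h1 : h41_prodMap H₁ H₂ (a ⊗ₜ[GaloisRep.ratLocalizedAt ℓ] b) =
          h41_tens (Ω := Qb) (GaloisRep.ratLocalizedAt ℓ) G₁ G₂ (a : G₁ → Qb) (b : G₂ → Qb) :=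
        funext fun p => h41_prodMap_tmul H₁ H₂ a b p
      rw [h1]
      exact Submodule.apply_mem_map₂ _ a.2 b.2
    | add s t hs ht =>
      rw [map_add]
      exact Submodule.add_mem _ hs ht
  apply le_antisymm
  · rintro _ ⟨t, rfl⟩
    exact key t
  · rw [Submodule.map₂_le]
    intro u hu w hw
    exact h41_tens_mem_prodOrder H₁ H₂ hu hw

end Prod

section ProdOrder

variable {ℓ : ℕ} {G₁ G₂ : Type}

/-- Induction principle for the product order. -/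
theorem h41_prodOrder_induction (H₁ : Subalgebra (GaloisRep.ratLocalizedAt ℓ) (G₁ → Qb))
    (H₂ : Subalgebra (GaloisRep.ratLocalizedAt ℓ) (G₂ → Qb)) {C : (G₁ × G₂ → Qb) → Prop}
    (h0 : C 0) (hadd : ∀ f g, C f → C g → C (f + g))
    (htmul : ∀ u ∈ H₁, ∀ w ∈ H₂, C (fun p => u p.1 * w p.2)) :
    ∀ f ∈ h41_prodOrder H₁ H₂, C f := by
  have key : ∀ t : ↥H₁ ⊗[GaloisRep.ratLocalizedAt ℓ] ↥H₂, C (h41_prodMap H₁ H₂ t) := by
    intro t
    induction t using TensorProduct.induction_on with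
    | zero =>
      rw [map_zero]
      exact h0
    | tmul a b =>
      have h1 : h41_prodMap H₁ H₂ (a ⊗ₜ[GaloisRep.ratLocalizedAt ℓ] b) =
          fun p : G₁ × G₂ => (a : G₁ → Qb) p.1 * (b : G₂ → Qb) p.2 :=
        funext fun p => h41_prodMap_tmul H₁ H₂ a b p
      rw [h1]
      exact htmul _ a.2 _ b.2
    | add s t hs ht =>
      rw [map_add]
      exact hadd _ _ hs ht
  rintro _ ⟨t, rfl⟩
  exact key t

variable [AddCommGroup G₁] [DistribMulAction Γℚ G₁] [AddCommGroup G₂] [DistribMulAction Γℚ G₂]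
  {H₁ : Subalgebra (GaloisRep.ratLocalizedAt ℓ) (G₁ → Qb)}
  {H₂ : Subalgebra (GaloisRep.ratLocalizedAt ℓ) (G₂ → Qb)}

theorem h41_prod_equiv (h1 : h26_IsHopfOrder ℓ H₁) (h2 : h26_IsHopfOrder ℓ H₂) :
    ∀ f ∈ h41_prodOrder H₁ H₂, ∀ (σ : Γℚ) (p : G₁ × G₂), f (σ • p) = σ (f p) := by
  refine h41_prodOrder_induction H₁ H₂ ?_ ?_ ?_
  · intro σ p
    simp
  · intro f g hf hg σ p
    rw [Pi.add_apply, Pi.add_apply, hf, hg, map_add]
  · intro u hu w hw σ p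
    show u (σ • p.1) * w (σ • p.2) = σ (u p.1 * w p.2)
    rw [h1.equiv u hu, h2.equiv w hw, map_mul]

theorem h41_prod_counit (h1 : h26_IsHopfOrder ℓ H₁) (h2 : h26_IsHopfOrder ℓ H₂) :
    ∀ f ∈ h41_prodOrder H₁ H₂, ∃ r : GaloisRep.ratLocalizedAt ℓ,
      f 0 = algebraMap ℚ Qb (r : ℚ) := by
  refine h41_prodOrder_induction H₁ H₂ ?_ ?_ ?_
  · exact ⟨0, by simp⟩
  · rintro f g ⟨r, hr⟩ ⟨s, hs⟩
    exact ⟨r + s, by rw [Pi.add_apply, hr, hs, Subring.coe_add, map_add]⟩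
  · intro u hu w hw
    obtain ⟨r, hr⟩ := h1.counit u hu
    obtain ⟨s, hs⟩ := h2.counit w hw
    refine ⟨r * s, ?_⟩
    show u 0 * w 0 = _
    rw [hr, hs, Subring.coe_mul, map_mul]

theorem h41_prod_fg (h1 : h26_IsHopfOrder ℓ H₁) (h2 : h26_IsHopfOrder ℓ H₂) :
    (Subalgebra.toSubmodule (h41_prodOrder H₁ H₂)).FG := by
  rw [h41_prodOrder_toSubmodule]
  exact Submodule.FG.map₂ _ h1.fg h2.fg

theorem h41_prod_span [Finite G₁] [Finite G₂] (h1 : h26_IsHopfOrder ℓ H₁)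
    (h2 : h26_IsHopfOrder ℓ H₂) :
    Submodule.span Qb (h41_prodOrder H₁ H₂ : Set (G₁ × G₂ → Qb)) = ⊤ := by
  classical
  rw [eq_top_iff, ← (Pi.basisFun Qb (G₁ × G₂)).span_eq, Submodule.span_le]
  rintro _ ⟨⟨a, b⟩, rfl⟩
  rw [Pi.basisFun_apply]
  have e : (Pi.single (a, b) (1 : Qb) : G₁ × G₂ → Qb) =
      h41_tens (Ω := Qb) Qb G₁ G₂ (Pi.single a 1) (Pi.single b 1) := by
    funext p
    rw [h41_tens_apply]
    simp only [Pi.single_apply]
    by_cases e1 : p.1 = a <;> by_cases e2 : p.2 = b <;> simp [e1, e2, Prod.ext_iff]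
  rw [e]
  have e1 : (Pi.single a (1 : Qb) : G₁ → Qb) ∈ Submodule.span Qb (H₁ : Set (G₁ → Qb)) := by
    rw [h1.span]
    trivial
  have e2 : (Pi.single b (1 : Qb) : G₂ → Qb) ∈ Submodule.span Qb (H₂ : Set (G₂ → Qb)) := by
    rw [h2.span]
    trivial
  have e3 := Submodule.apply_mem_map₂ (h41_tens (Ω := Qb) Qb G₁ G₂) e1 e2
  rw [Submodule.map₂_span_span] at e3
  refine Submodule.span_mono ?_ e3
  rintro _ ⟨u, hu, w, hw, rfl⟩
  exact h41_tens_mem_prodOrder H₁ H₂ hu hw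

theorem h41_prod_comul (h1 : h26_IsHopfOrder ℓ H₁) (h2 : h26_IsHopfOrder ℓ H₂) :
    ∀ f ∈ h41_prodOrder H₁ H₂, (fun p : (G₁ × G₂) × (G₁ × G₂) => f (p.1 + p.2)) ∈
      Submodule.span (GaloisRep.ratLocalizedAt ℓ)
        {F : (G₁ × G₂) × (G₁ × G₂) → Qb | ∃ f₁ ∈ h41_prodOrder H₁ H₂,
          ∃ f₂ ∈ h41_prodOrder H₁ H₂, F = fun p => f₁ p.1 * f₂ p.2} := by
  refine h41_prodOrder_induction H₁ H₂ ?_ ?_ ?_
  · exact Submodule.zero_mem _
  · intro f g hf hg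
    exact Submodule.add_mem _ hf hg
  · intro u hu w hw
    have e1 := h1.comul u hu
    have e2 := h2.comul w hw
    let s : (G₁ × G₂) × (G₁ × G₂) → (G₁ × G₁) × (G₂ × G₂) :=
      fun p => ((p.1.1, p.2.1), (p.1.2, p.2.2))
    have e3 := Submodule.apply_mem_map₂
      (h41_tens (Ω := Qb) (GaloisRep.ratLocalizedAt ℓ) (G₁ × G₁) (G₂ × G₂)) e1 e2
    rw [Submodule.map₂_span_span] at e3
    have e4 := Submodule.apply_mem_span_image_of_mem_span
      (h41_pull (Ω := Qb) (GaloisRep.ratLocalizedAt ℓ) s).toLinearMap e3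
    refine Submodule.span_mono ?_ e4
    rintro _ ⟨_, ⟨_, ⟨a₁, ha₁, a₂, ha₂, rfl⟩, _, ⟨b₁, hb₁, b₂, hb₂, rfl⟩, rfl⟩, rfl⟩
    refine ⟨fun p => a₁ p.1 * b₁ p.2, h41_tens_mem_prodOrder H₁ H₂ ha₁ hb₁,
      fun p => a₂ p.1 * b₂ p.2, h41_tens_mem_prodOrder H₁ H₂ ha₂ hb₂, ?_⟩
    funext p
    show a₁ p.1.1 * a₂ p.2.1 * (b₁ p.1.2 * b₂ p.2.2) = a₁ p.1.1 * b₁ p.1.2 * (a₂ p.2.1 * b₂ p.2.2)
    ring

/-- **CLOSURE, products.** The product of two Hopf orders is a Hopf order on the product. -/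
theorem h41_hopfOrder_prod (ℓ : ℕ) {G₁ G₂ : Type} [AddCommGroup G₁] [Finite G₁]
    [DistribMulAction Γℚ G₁] [AddCommGroup G₂] [Finite G₂] [DistribMulAction Γℚ G₂]
    (H₁ : Subalgebra (GaloisRep.ratLocalizedAt ℓ) (G₁ → Qb))
    (H₂ : Subalgebra (GaloisRep.ratLocalizedAt ℓ) (G₂ → Qb))
    (h1 : h26_IsHopfOrder ℓ H₁) (h2 : h26_IsHopfOrder ℓ H₂) :
    h26_IsHopfOrder ℓ (h41_prodOrder H₁ H₂) :=
  ⟨h41_prod_equiv h1 h2, h41_prod_fg h1 h2, h41_prod_span h1 h2, h41_prod_counit h1 h2,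
    h41_prod_comul h1 h2⟩

end ProdOrder

/-! ### Powers and subquotients -/

section Power

/-- **CLOSURE, powers.** A Hopf order on `G` gives a Hopf order on `Fin n → G`. -/
theorem h41_hopfOrder_pi (ℓ : ℕ) {G : Type} [AddCommGroup G] [Finite G] [DistribMulAction Γℚ G]
    (H : Subalgebra (GaloisRep.ratLocalizedAt ℓ) (G → Qb)) (hH : h26_IsHopfOrder ℓ H) (n : ℕ) :
    ∃ Hn : Subalgebra (GaloisRep.ratLocalizedAt ℓ) ((Fin n → G) → Qb),
      h26_IsHopfOrder ℓ Hn := by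
  induction n with
  | zero =>
    refine ⟨_, h41_hopfOrder_sub ℓ H hH (0 : (Fin 0 → G) →+ G)
      (Function.injective_of_subsingleton _) (fun σ x => ?_)⟩
    show (0 : G) = σ • (0 : G)
    rw [smul_zero]
  | succ n ih =>
    obtain ⟨Hn, hHn⟩ := ih
    let ι : (Fin (n + 1) → G) →+ G × (Fin n → G) :=
      { toFun := fun f => (f 0, Fin.tail f)
        map_zero' := rfl
        map_add' := fun f g => rfl }
    have hι : Function.Injective ι := by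
      intro f g hfg
      have e1 : f 0 = g 0 := congrArg Prod.fst hfg
      have e2 : Fin.tail f = Fin.tail g := congrArg Prod.snd hfg
      funext i
      exact Fin.cases e1 (fun j => congrFun e2 j) i
    exact ⟨_, h41_hopfOrder_sub ℓ _ (h41_hopfOrder_prod ℓ H Hn hH hHn) ι hι (fun σ x => rfl)⟩

/-- **CLOSURE, subquotients.** A Hopf order on `G` gives a Hopf order on every Galois
equivariant quotient `π : G₁ → G₂` of a group `G₁` with a Galois-equivariant embedding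
`ι : G₁ → G`. -/
theorem h41_hopfOrder_subquot (ℓ : ℕ) [Fact ℓ.Prime] {G G₁ G₂ : Type} [AddCommGroup G]
    [Finite G] [DistribMulAction Γℚ G] [AddCommGroup G₁] [DistribMulAction Γℚ G₁]
    [AddCommGroup G₂] [DistribMulAction Γℚ G₂]
    (H : Subalgebra (GaloisRep.ratLocalizedAt ℓ) (G → Qb)) (hH : h26_IsHopfOrder ℓ H)
    (ι : G₁ →+ G) (hι : Function.Injective ι)
    (hισ : ∀ (σ : Γℚ) (x : G₁), ι (σ • x) = σ • ι x)
    (π : G₁ →+ G₂) (hπ : Function.Surjective π)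
    (hπσ : ∀ (σ : Γℚ) (x : G₁), π (σ • x) = σ • π x) :
    h26_IsHopfOrder ℓ (h41_quotOrder (h41_subOrder H ι) π) := by
  have : Finite G₁ := Finite.of_injective ι hι
  exact h41_hopfOrder_quot ℓ _ (h41_hopfOrder_sub ℓ H hH ι hι hισ) π hπ hπσ

/-- **CLOSURE, subquotients of powers, raw form.** `G` a finite Galois module with a Hopf order,
`S` a Galois-stable subgroup of `Fin n → G`, `Ψ : S → G₂` a surjective homomorphism which
intertwines the Galois action with a family of maps `act σ : G₂ → G₂` (no axiom on `act` is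
assumed: they follow). Then there is a subalgebra of functions on `G₂` with the five properties
of a Hopf order with respect to `act`. -/
theorem h41_hopfOrder_subquot_pi_raw (ℓ : ℕ) [Fact ℓ.Prime] {G G₂ : Type} [AddCommGroup G]
    [Finite G] [DistribMulAction Γℚ G] [AddCommGroup G₂]
    (H : Subalgebra (GaloisRep.ratLocalizedAt ℓ) (G → Qb)) (hH : h26_IsHopfOrder ℓ H) (n : ℕ)
    (S : AddSubgroup (Fin n → G)) (hS : ∀ (σ : Γℚ), ∀ m ∈ S, σ • m ∈ S)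
    (act : Γℚ → G₂ → G₂) (Ψ : S →+ G₂) (hΨ : Function.Surjective Ψ)
    (hΨσ : ∀ (σ : Γℚ) (m : S), Ψ ⟨σ • (m : Fin n → G), hS σ m m.2⟩ = act σ (Ψ m)) :
    ∃ H₂ : Subalgebra (GaloisRep.ratLocalizedAt ℓ) (G₂ → Qb),
      (∀ h ∈ H₂, ∀ (σ : Γℚ) (y : G₂), h (act σ y) = σ (h y)) ∧
      (Subalgebra.toSubmodule H₂).FG ∧
      Submodule.span Qb (H₂ : Set (G₂ → Qb)) = ⊤ ∧
      (∀ h ∈ H₂, ∃ r : GaloisRep.ratLocalizedAt ℓ, h 0 = algebraMap ℚ Qb (r : ℚ)) ∧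
      ∀ h ∈ H₂, (fun p : G₂ × G₂ => h (p.1 + p.2)) ∈
        Submodule.span (GaloisRep.ratLocalizedAt ℓ)
          {f : G₂ × G₂ → Qb | ∃ h₁ ∈ H₂, ∃ h₂ ∈ H₂, f = fun p => h₁ p.1 * h₂ p.2} := by
  obtain ⟨Hn, hHn⟩ := h41_hopfOrder_pi ℓ H hH n
  letI : DistribMulAction Γℚ S :=
    { smul := fun σ m => ⟨σ • (m : Fin n → G), hS σ m m.2⟩
      one_smul := fun m => Subtype.ext (one_smul _ _)
      mul_smul := fun σ τ m => Subtype.ext (mul_smul _ _ _)
      smul_zero := fun σ => Subtype.ext (smul_zero _)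
      smul_add := fun σ m m' => Subtype.ext (smul_add _ _ _) }
  have hact : ∀ (σ : Γℚ) (m : S), Ψ (σ • m) = act σ (Ψ m) := fun σ m => hΨσ σ m
  letI : DistribMulAction Γℚ G₂ :=
    { smul := fun σ y => act σ y
      one_smul := fun y => by
        obtain ⟨m, rfl⟩ := hΨ y
        show act 1 (Ψ m) = Ψ m
        rw [← hact, one_smul]
      mul_smul := fun σ τ y => by
        obtain ⟨m, rfl⟩ := hΨ y
        show act (σ * τ) (Ψ m) = act σ (act τ (Ψ m))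
        rw [← hact, ← hact, ← hact, mul_smul]
      smul_zero := fun σ => by
        show act σ 0 = 0
        rw [← map_zero Ψ, ← hact, smul_zero]
      smul_add := fun σ y y' => by
        obtain ⟨m, rfl⟩ := hΨ y
        obtain ⟨m', rfl⟩ := hΨ y'
        show act σ (Ψ m + Ψ m') = act σ (Ψ m) + act σ (Ψ m')
        rw [← map_add, ← hact, ← hact, ← hact, smul_add, map_add] }
  have h1 := h41_hopfOrder_subquot ℓ Hn hHn S.subtype Subtype.val_injective (fun σ x => rfl)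
    Ψ hΨ hact
  exact ⟨_, h1.equiv, h1.fg, h1.span, h1.counit, h1.comul⟩

end Power

end Fermat.Agent.S19
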