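import Mathlib
import Fermat.Prelude.Def_GaloisRep_Flat
import Fermat.Agent.S19.h26_Defs
import Fermat.Agent.S19.h41_HopfProd

/-!
# S19 / CLOSURE (helper41): Hopf orders with respect to a raw family of maps

`h41_IsHopfOrderRaw ℓ act H` is the conjunction of the five properties of `h26_IsHopfOrder`
where the Galois action on the finite group `G` is just a family of maps `act σ : G → G`.
The five properties force `act` to be an action by additive automorphisms (`h41_rawDMA`), and
the closure of Hopf orders under subquotients of finite powers is stated in this form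
(`h41_hopfOrder_subquot_raw`), with no type class on the actions at all.
-/

set_option autoImplicit false

noncomputable section

namespace Fermat.Agent.S19

local notation "Qb" => AlgebraicClosure ℚ
local notation "Γℚ" => (AlgebraicClosure ℚ ≃ₐ[ℚ] AlgebraicClosure ℚ)

/-- A Hopf order with respect to a raw family of maps `act σ : G → G`. -/
def h41_IsHopfOrderRaw (ℓ : ℕ) {G : Type} [AddCommGroup G] (act : Γℚ → G → G)
    (H : Subalgebra (GaloisRep.ratLocalizedAt ℓ) (G → Qb)) : Prop :=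
  (∀ h ∈ H, ∀ (σ : Γℚ) (x : G), h (act σ x) = σ (h x)) ∧
  (Subalgebra.toSubmodule H).FG ∧
  Submodule.span Qb (H : Set (G → Qb)) = ⊤ ∧
  (∀ h ∈ H, ∃ r : GaloisRep.ratLocalizedAt ℓ, h 0 = algebraMap ℚ Qb (r : ℚ)) ∧
  ∀ h ∈ H, (fun p : G × G => h (p.1 + p.2)) ∈
    Submodule.span (GaloisRep.ratLocalizedAt ℓ)
      {f : G × G → Qb | ∃ h₁ ∈ H, ∃ h₂ ∈ H, f = fun p => h₁ p.1 * h₂ p.2}

theorem h41_raw_of_isHopfOrder {ℓ : ℕ} {G : Type} [AddCommGroup G] [DistribMulAction Γℚ G]
    {H : Subalgebra (GaloisRep.ratLocalizedAt ℓ) (G → Qb)} (hH : h26_IsHopfOrder ℓ H) :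
    h41_IsHopfOrderRaw ℓ (fun (σ : Γℚ) (x : G) => σ • x) H :=
  ⟨hH.equiv, hH.fg, hH.span, hH.counit, hH.comul⟩

section Raw

variable {ℓ : ℕ} {G : Type} [AddCommGroup G] {act : Γℚ → G → G}
  {H : Subalgebra (GaloisRep.ratLocalizedAt ℓ) (G → Qb)}

/-- An order which spans all functions separates the points. -/
theorem h41_raw_sep (hH : h41_IsHopfOrderRaw ℓ act H) (x y : G)
    (hxy : ∀ h ∈ H, h x = h y) : x = y := by
  classical
  have h1 : ∀ f ∈ Submodule.span Qb (H : Set (G → Qb)), f x = f y := by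
    intro f hf
    induction hf using Submodule.span_induction with
    | mem f hf => exact hxy f hf
    | zero => rfl
    | add f g _ _ hf hg => rw [Pi.add_apply, Pi.add_apply, hf, hg]
    | smul a f _ hf => rw [Pi.smul_apply, Pi.smul_apply, hf]
  have h2 := h1 (Pi.single x (1 : Qb)) (by rw [hH.2.2.1]; trivial)
  rw [Pi.single_eq_same] at h2
  by_contra hne
  rw [Pi.single_eq_of_ne (Ne.symm hne)] at h2
  exact one_ne_zero h2

theorem h41_raw_add (hH : h41_IsHopfOrderRaw ℓ act H) (σ : Γℚ) (x y : G) :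
    act σ (x + y) = act σ x + act σ y := by
  refine h41_raw_sep hH _ _ fun h hh => ?_
  have key : ∀ Φ ∈ Submodule.span (GaloisRep.ratLocalizedAt ℓ)
      {f : G × G → Qb | ∃ h₁ ∈ H, ∃ h₂ ∈ H, f = fun p => h₁ p.1 * h₂ p.2},
      Φ (act σ x, act σ y) = σ (Φ (x, y)) := by
    intro Φ hΦ
    induction hΦ using Submodule.span_induction with
    | mem f hf =>
      obtain ⟨h₁, hh₁, h₂, hh₂, rfl⟩ := hf
      show h₁ (act σ x) * h₂ (act σ y) = σ (h₁ x * h₂ y)
      rw [hH.1 h₁ hh₁, hH.1 h₂ hh₂, map_mul]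
    | zero => exact (map_zero σ).symm
    | add f g _ _ hf hg => rw [Pi.add_apply, Pi.add_apply, hf, hg, map_add]
    | smul a f _ hf =>
      rw [Pi.smul_apply, Pi.smul_apply, hf, Algebra.smul_def, Algebra.smul_def, map_mul]
      congr 1
      exact (σ.commutes (a : ℚ)).symm
  have h1 := key _ (hH.2.2.2.2 h hh)
  rw [hH.1 h hh]
  exact h1.symm

theorem h41_raw_zero (hH : h41_IsHopfOrderRaw ℓ act H) (σ : Γℚ) : act σ 0 = 0 := by
  refine h41_raw_sep hH _ _ fun h hh => ?_
  obtain ⟨r, hr⟩ := hH.2.2.2.1 h hh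
  rw [hH.1 h hh, hr]
  exact σ.commutes (r : ℚ)

theorem h41_raw_one (hH : h41_IsHopfOrderRaw ℓ act H) (x : G) : act 1 x = x := by
  refine h41_raw_sep hH _ _ fun h hh => ?_
  rw [hH.1 h hh]
  rfl

theorem h41_raw_mul (hH : h41_IsHopfOrderRaw ℓ act H) (σ τ : Γℚ) (x : G) :
    act (σ * τ) x = act σ (act τ x) := by
  refine h41_raw_sep hH _ _ fun h hh => ?_
  rw [hH.1 h hh, hH.1 h hh, hH.1 h hh]
  rfl

/-- The maps `act σ` of a raw Hopf order form an action by additive automorphisms. -/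
@[reducible]
def h41_rawDMA (hH : h41_IsHopfOrderRaw ℓ act H) : DistribMulAction Γℚ G where
  smul σ x := act σ x
  one_smul x := h41_raw_one hH x
  mul_smul σ τ x := h41_raw_mul hH σ τ x
  smul_zero σ := h41_raw_zero hH σ
  smul_add σ x y := h41_raw_add hH σ x y

theorem h41_isHopfOrder_of_raw (hH : h41_IsHopfOrderRaw ℓ act H) :
    letI := h41_rawDMA hH
    h26_IsHopfOrder ℓ H :=
  letI := h41_rawDMA hH
  ⟨hH.1, hH.2.1, hH.2.2.1, hH.2.2.2.1, hH.2.2.2.2⟩

end Raw

/-- **CLOSURE, powers over a finite index type.** -/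
theorem h41_hopfOrder_fun (ℓ : ℕ) {G : Type} [AddCommGroup G] [Finite G] [DistribMulAction Γℚ G]
    (H : Subalgebra (GaloisRep.ratLocalizedAt ℓ) (G → Qb)) (hH : h26_IsHopfOrder ℓ H)
    (X : Type) [Finite X] :
    ∃ HX : Subalgebra (GaloisRep.ratLocalizedAt ℓ) ((X → G) → Qb), h26_IsHopfOrder ℓ HX := by
  obtain ⟨n, ⟨e⟩⟩ := Finite.exists_equiv_fin X
  obtain ⟨Hn, hHn⟩ := h41_hopfOrder_pi ℓ H hH n
  let ι : (X → G) →+ (Fin n → G) :=
    { toFun := fun f => fun j => f (e.symm j)
      map_zero' := rfl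
      map_add' := fun f g => rfl }
  have hι : Function.Injective ι := by
    intro f g hfg
    funext x
    have h1 := congrFun hfg (e x)
    simpa [ι] using h1
  exact ⟨_, h41_hopfOrder_sub ℓ Hn hHn ι hι (fun σ x => rfl)⟩

/-- **CLOSURE, one-shot raw form.** `W` a finite group with a Hopf order with respect to maps
`actW σ`; `B` a group with maps `actB σ`, embedded in a finite power `X → W` compatibly with
the maps; `π : B → G₂` a surjective homomorphism which intertwines `actB` with maps `act₂ σ` of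
`G₂`. Then `G₂` has a Hopf order with respect to `act₂`. No axiom on the maps is assumed. -/
theorem h41_hopfOrder_subquot_raw (ℓ : ℕ) [Fact ℓ.Prime] {W X B G₂ : Type} [AddCommGroup W]
    [Finite W] [Finite X] [AddCommGroup B] [AddCommGroup G₂] (actW : Γℚ → W → W)
    (H : Subalgebra (GaloisRep.ratLocalizedAt ℓ) (W → Qb)) (hH : h41_IsHopfOrderRaw ℓ actW H)
    (actB : Γℚ → B → B) (act₂ : Γℚ → G₂ → G₂)
    (i : B →+ (X → W)) (hi : Function.Injective i)
    (hiσ : ∀ (σ : Γℚ) (b : B) (x : X), i (actB σ b) x = actW σ (i b x))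
    (π : B →+ G₂) (hπ : Function.Surjective π)
    (hπσ : ∀ (σ : Γℚ) (b : B), π (actB σ b) = act₂ σ (π b)) :
    ∃ H₂ : Subalgebra (GaloisRep.ratLocalizedAt ℓ) (G₂ → Qb), h41_IsHopfOrderRaw ℓ act₂ H₂ := by
  letI := h41_rawDMA hH
  have hH' : h26_IsHopfOrder ℓ H := h41_isHopfOrder_of_raw hH
  obtain ⟨HX, hHX⟩ := h41_hopfOrder_fun ℓ H hH' X
  have hi' : ∀ (σ : Γℚ) (b : B), i (actB σ b) = σ • i b := fun σ b => funext fun x => hiσ σ b x
  letI : DistribMulAction Γℚ B :=
    { smul := fun σ b => actB σ b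
      one_smul := fun b => hi (by
        show i (actB 1 b) = i b
        rw [hi', one_smul])
      mul_smul := fun σ τ b => hi (by
        show i (actB (σ * τ) b) = i (actB σ (actB τ b))
        rw [hi', hi', hi', mul_smul])
      smul_zero := fun σ => hi (by
        show i (actB σ 0) = i 0
        rw [hi', map_zero, smul_zero])
      smul_add := fun σ b b' => hi (by
        show i (actB σ (b + b')) = i (actB σ b + actB σ b')
        rw [hi', map_add, map_add, hi', hi', smul_add]) }
  have hactB : ∀ (σ : Γℚ) (b : B), π (σ • b) = act₂ σ (π b) := fun σ b => hπσ σ b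
  letI : DistribMulAction Γℚ G₂ :=
    { smul := fun σ y => act₂ σ y
      one_smul := fun y => by
        obtain ⟨b, rfl⟩ := hπ y
        show act₂ 1 (π b) = π b
        rw [← hactB, one_smul]
      mul_smul := fun σ τ y => by
        obtain ⟨b, rfl⟩ := hπ y
        show act₂ (σ * τ) (π b) = act₂ σ (act₂ τ (π b))
        rw [← hactB, ← hactB, ← hactB, mul_smul]
      smul_zero := fun σ => by
        show act₂ σ 0 = 0
        rw [← map_zero π, ← hactB, smul_zero]
      smul_add := fun σ y y' => by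
        obtain ⟨b, rfl⟩ := hπ y
        obtain ⟨b', rfl⟩ := hπ y'
        show act₂ σ (π b + π b') = act₂ σ (π b) + act₂ σ (π b')
        rw [← map_add, ← hactB, ← hactB, ← hactB, smul_add, map_add] }
  have h1 := h41_hopfOrder_subquot ℓ HX hHX i hi (fun σ b => hi' σ b) π hπ hactB
  exact ⟨_, h1.equiv, h1.fg, h1.span, h1.counit, h1.comul⟩

end Fermat.Agent.S19
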