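import Fermat.Agent.S19.h26_Defs

/-!
# S19 / EXIST: the compositum of two `ℓ`-good fields is `ℓ`-good (helper43)

`h26_LGood 𝒜 K₁ → h26_LGood 𝒜 K₂ → h26_LGood 𝒜 (K₁ ⊔ K₂)`: replay the tower of `K₂` over `K₁`.
Needed in the EXIST assembly: `h23_Arith.theta` only gives `h26_LGood 𝒜 (⊥ ⊔ ℚ(θ))` for each
inert generator `θ` separately, while the datum lives over `ℚ(θ₀, η₁, …, η_g, θ₁)`.
-/

set_option autoImplicit false

namespace Fermat.Agent.S19

local notation "Qb" => AlgebraicClosure ℚ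

/-- The compositum of two `ℓ`-good fields is `ℓ`-good. -/
theorem h43_lgood_sup (𝒜 : Set (ValuationSubring Qb)) (K₁ K₂ : IntermediateField ℚ Qb)
    (h₁ : h26_LGood 𝒜 K₁) (h₂ : h26_LGood 𝒜 K₂) : h26_LGood 𝒜 (K₁ ⊔ K₂) := by
  induction h₂ with
  | bot => rwa [sup_bot_eq]
  | step K' θ g _ hmon hcoeff hint hroot hder hinv ih =>
    rw [← sup_assoc]
    exact h26_LGood.step (K₁ ⊔ K') θ g ih hmon (fun i => (le_sup_right : K' ≤ K₁ ⊔ K') (hcoeff i))
      hint hroot hder hinv

/-- Adjoining an `ℓ`-good field generated by one element: the form used with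
`h23_Arith.theta`. -/
theorem h43_lgood_sup_adjoin (𝒜 : Set (ValuationSubring Qb)) (K₁ : IntermediateField ℚ Qb)
    (h₁ : h26_LGood 𝒜 K₁) (θ : Qb)
    (hθ : h26_LGood 𝒜 (⊥ ⊔ IntermediateField.adjoin ℚ {θ})) :
    h26_LGood 𝒜 (K₁ ⊔ IntermediateField.adjoin ℚ {θ}) := by
  have h := h43_lgood_sup 𝒜 K₁ _ h₁ hθ
  rwa [bot_sup_eq] at h

/-- An `ℓ`-good field stays `ℓ`-good as a subfield statement is NOT available in general, but
monotonicity in the family is: a smaller family of valuation rings has more `ℓ`-good fields. -/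
theorem h43_lgood_mono {𝒜 ℬ : Set (ValuationSubring Qb)} (hsub : ℬ ⊆ 𝒜)
    (K' : IntermediateField ℚ Qb) (h : h26_LGood 𝒜 K') : h26_LGood ℬ K' := by
  induction h with
  | bot => exact h26_LGood.bot
  | step K' θ g _ hmon hcoeff hint hroot hder hinv ih =>
    exact h26_LGood.step K' θ g ih hmon hcoeff (fun i A hA => hint i A (hsub hA)) hroot hder
      (fun A hA => hinv A (hsub hA))

end Fermat.Agent.S19
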