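import Fermat.Agent.S19.h57_OrdBase

/-!
# S19, block A2 (helper57): Artin independence for equivariant functions and two
finite-function lemmas

* `h57_artin` : `ℚ`-linearly independent `Γℚ`-equivariant functions `G → Qb` are
  `Qb`-linearly independent;
* `h57_tensor_indep` : products `h i (x) * h j (y)` of an independent family are independent;
* `h57_separating_top` : a subalgebra of `G → Qb` (`G` finite) that separates points is `⊤`.
-/

set_option autoImplicit false

noncomputable section

namespace Fermat.Agent.S19

local notation "Qb" => AlgebraicClosure ℚ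
local notation "Γℚ" => (AlgebraicClosure ℚ ≃ₐ[ℚ] AlgebraicClosure ℚ)

attribute [local instance] h57_isAlgebraicQb h57_isGaloisQb

variable {G : Type*} [MulAction Γℚ G]

theorem h57_artin_aux {ι : Type*} (h : ι → G → Qb)
    (heq : ∀ i (σ : Γℚ), h26_conj σ (h i) = h i) (hli : LinearIndependent ℚ h) :
    ∀ n : ℕ, ∀ (s : Finset ι) (a : ι → Qb), (∀ i, a i ≠ 0 → i ∈ s) → s.card = n →
      ∑ i ∈ s, a i • h i = 0 → ∀ i, a i = 0 := by
  classical
  intro n
  induction n using Nat.strong_induction_on with
  | _ n ih =>
    intro s a hsupp hcard hrel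
    by_contra ha
    obtain ⟨i₀, hi₀⟩ := not_forall.1 ha
    have hi₀s : i₀ ∈ s := hsupp i₀ hi₀
    set b : ι → Qb := fun i => (a i₀)⁻¹ * a i with hb
    have hb0 : b i₀ = 1 := inv_mul_cancel₀ hi₀
    have hbrel : ∑ i ∈ s, b i • h i = 0 := by
      have : ∑ i ∈ s, b i • h i = (a i₀)⁻¹ • ∑ i ∈ s, a i • h i := by
        rw [Finset.smul_sum]; refine Finset.sum_congr rfl fun i _ => ?_
        rw [smul_smul]
      rw [this, hrel, smul_zero]
    have hbsupp : ∀ i, b i ≠ 0 → i ∈ s := by
      intro i hi
      apply hsupp
      intro h0; apply hi; simp [hb, h0]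
    have hσb : ∀ (σ : Γℚ) i, σ (b i) = b i := by
      intro σ
      set d : ι → Qb := fun i => σ (b i) - b i with hd
      have hdrel : ∑ i ∈ s.erase i₀, d i • h i = 0 := by
        have h1 : ∑ i ∈ s, σ (b i) • h i = 0 := by
          have := congrArg (h26_conj σ) hbrel
          rw [h57_conj_sum, h57_conj_zero] at this
          rw [← this]; refine Finset.sum_congr rfl fun i _ => ?_
          rw [h57_conj_smul, heq i σ]
        have h2 : ∑ i ∈ s, d i • h i = 0 := by
          simp only [hd, sub_smul, Finset.sum_sub_distrib, h1, hbrel, sub_zero]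
        rw [← Finset.add_sum_erase s _ hi₀s] at h2
        have h3 : d i₀ = 0 := by simp [hd, hb0]
        rw [h3, zero_smul, zero_add] at h2
        exact h2
      have hdsupp : ∀ i, d i ≠ 0 → i ∈ s.erase i₀ := by
        intro i hi
        refine Finset.mem_erase.2 ⟨?_, hbsupp i ?_⟩
        · rintro rfl; apply hi; simp [hd, hb0]
        · intro h0; apply hi; simp [hd, h0]
      have hdcard : (s.erase i₀).card < n := by
        rw [← hcard]; exact Finset.card_erase_lt_of_mem hi₀s
      have := ih _ hdcard (s.erase i₀) d hdsupp rfl hdrel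
      intro i
      exact sub_eq_zero.1 (this i)
    have hbq : ∀ i, ∃ q : ℚ, algebraMap ℚ Qb q = b i := fun i =>
      h57_fixed_rat fun σ => hσb σ i
    choose q hq using hbq
    have hqrel : ∑ i ∈ s, q i • h i = 0 := by
      rw [← hbrel]; refine Finset.sum_congr rfl fun i _ => ?_
      rw [← hq i, algebraMap_smul]
    have hq0 := (linearIndependent_iff'.1 hli) s q hqrel i₀ hi₀s
    have : b i₀ = 0 := by rw [← hq i₀, hq0, map_zero]
    rw [hb0] at this; exact one_ne_zero this

/-- **Artin's lemma** for equivariant functions. -/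
theorem h57_artin {ι : Type*} (h : ι → G → Qb)
    (heq : ∀ i (σ : Γℚ), h26_conj σ (h i) = h i) (hli : LinearIndependent ℚ h) :
    LinearIndependent Qb h := by
  classical
  rw [linearIndependent_iff']
  intro s a ha i hi
  set a' : ι → Qb := fun j => if j ∈ s then a j else 0 with ha'
  have h1 : ∑ j ∈ s, a' j • h j = 0 := by
    rw [← ha]; refine Finset.sum_congr rfl fun j hj => ?_
    simp [ha', hj]
  have h2 := h57_artin_aux h heq hli s.card s a' (fun j hj => by
    by_contra hjs; apply hj; simp [ha', hjs]) rfl h1 i
  simpa [ha', hi] using h2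

omit [MulAction Γℚ G] in
/-- Products of an independent family of functions are independent on the product. -/
theorem h57_tensor_indep {G' : Type*} {ι κ : Type*} [Finite ι] [Finite κ] {K : Type*} [Field K]
    (u : ι → G → K) (w : κ → G' → K)
    (hu : LinearIndependent K u) (hw : LinearIndependent K w) :
    LinearIndependent K (fun p : ι × κ => fun x : G × G' => u p.1 x.1 * w p.2 x.2) := by
  classical
  cases nonempty_fintype ι
  cases nonempty_fintype κ
  rw [Fintype.linearIndependent_iff]
  intro a ha
  have hu' := Fintype.linearIndependent_iff.1 hu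
  have hw' := Fintype.linearIndependent_iff.1 hw
  -- for fixed y, the coefficients Σ_j a (i,j) w j y vanish
  have h1 : ∀ (y : G') (i : ι), ∑ j, a (i, j) * w j y = 0 := by
    intro y
    apply hu'
    funext x
    have := congrFun ha (x, y)
    simp only [Finset.sum_apply, Pi.smul_apply, smul_eq_mul, Pi.zero_apply] at this ⊢
    rw [← this, Fintype.sum_prod_type]
    refine Finset.sum_congr rfl fun i _ => ?_
    rw [Finset.sum_mul]
    refine Finset.sum_congr rfl fun j _ => by ring
  rintro ⟨i, j⟩
  have h2 : ∑ j, a (i, j) • w j = 0 := by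
    funext y
    simp only [Finset.sum_apply, Pi.smul_apply, smul_eq_mul, Pi.zero_apply]
    exact h1 y i
  exact hw' (fun j => a (i, j)) h2 j

omit [MulAction Γℚ G] in
/-- A subalgebra of `G → K` (`G` finite) that separates points is everything. -/
theorem h57_separating_top [Finite G] {K : Type*} [Field K] (B : Subalgebra K (G → K))
    (hsep : ∀ x y : G, x ≠ y → ∃ f ∈ B, f x ≠ f y) : B = ⊤ := by
  classical
  cases nonempty_fintype G
  have hchoice : ∀ x y : G, ∃ f ∈ B, x ≠ y → f x ≠ f y := by
    intro x y
    by_cases hxy : x = y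
    · exact ⟨0, B.zero_mem, fun h => absurd hxy h⟩
    · obtain ⟨f, hf, h⟩ := hsep x y hxy
      exact ⟨f, hf, fun _ => h⟩
  choose c hcB hc using hchoice
  -- indicator functions
  let δ : G → G → K := fun x =>
    ∏ y ∈ Finset.univ.erase x,
      ((c x y - algebraMap K (G → K) (c x y y)) * algebraMap K (G → K) ((c x y x - c x y y)⁻¹))
  have hδB : ∀ x, δ x ∈ B := by
    intro x
    refine Subalgebra.prod_mem _ fun y _ => ?_
    exact B.mul_mem (B.sub_mem (hcB x y) (B.algebraMap_mem _)) (B.algebraMap_mem _)
  have hδ : ∀ x z, δ x z = if z = x then 1 else 0 := by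
    intro x z
    simp only [δ, Finset.prod_apply, Pi.mul_apply, Pi.sub_apply, Pi.algebraMap_apply,
      Algebra.algebraMap_self, RingHom.id_apply]
    split_ifs with hzx
    · subst hzx
      refine Finset.prod_eq_one fun y hy => ?_
      have hne : z ≠ y := (Finset.ne_of_mem_erase hy).symm
      exact mul_inv_cancel₀ (sub_ne_zero.2 (hc z y hne))
    · exact Finset.prod_eq_zero (Finset.mem_erase.2 ⟨hzx, Finset.mem_univ z⟩) (by simp)
  rw [eq_top_iff]
  intro f _
  have hf : f = ∑ x, f x • δ x := by
    funext z
    simp only [Finset.sum_apply, Pi.smul_apply, smul_eq_mul, hδ]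
    simp
  rw [hf]
  exact Subalgebra.sum_mem _ fun x _ => B.smul_mem (hδB x) _

end Fermat.Agent.S19
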