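import Mathlib
import Fermat.Prelude.Def_GaloisRep_Flat
import Fermat.Agent.S28.ZlBasics
import Fermat.Agent.S19.h26_Defs

/-!
# S19, block A1/A2 (helper57): base layer for `h26_order_of_coords`

* lemmas on `h26_conj σ f`, the semilinear action of `Γℚ` on functions `G → Qb`;
* `h57_Rbar A₀` : the subring of `Qb` of elements integral at every conjugate of `A₀`;
* integrality / bounded-denominator lemmas, fixed field of `Γℚ`.
-/

set_option autoImplicit false

noncomputable section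

namespace Fermat.Agent.S19

open Polynomial

local notation "Qb" => AlgebraicClosure ℚ
local notation "Γℚ" => (AlgebraicClosure ℚ ≃ₐ[ℚ] AlgebraicClosure ℚ)

theorem h57_isAlgebraicQb : Algebra.IsAlgebraic ℚ (AlgebraicClosure ℚ) :=
  AlgebraicClosure.isAlgebraic ℚ

theorem h57_isGaloisQb : IsGalois ℚ (AlgebraicClosure ℚ) :=
  haveI := h57_isAlgebraicQb
  haveI : IsAlgClosure ℚ (AlgebraicClosure ℚ) := ⟨inferInstance, inferInstance⟩
  haveI : Normal ℚ (AlgebraicClosure ℚ) := IsAlgClosure.normal ℚ (AlgebraicClosure ℚ)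
  { }

attribute [local instance] h57_isAlgebraicQb h57_isGaloisQb

/-- Elements of `Qb` all of whose conjugates lie in `A₀`. -/
def h57_Rbar (A₀ : ValuationSubring Qb) : Subring Qb where
  carrier := {a | ∀ σ : Γℚ, σ a ∈ A₀}
  mul_mem' ha hb σ := by rw [map_mul]; exact A₀.mul_mem _ _ (ha σ) (hb σ)
  one_mem' σ := by rw [map_one]; exact A₀.one_mem
  add_mem' ha hb σ := by rw [map_add]; exact A₀.add_mem _ _ (ha σ) (hb σ)
  zero_mem' σ := by rw [map_zero]; exact A₀.zero_mem
  neg_mem' ha σ := by rw [map_neg]; exact A₀.neg_mem _ (ha σ)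

theorem h57_mem_Rbar {A₀ : ValuationSubring Qb} {a : Qb} :
    a ∈ h57_Rbar A₀ ↔ ∀ σ : Γℚ, σ a ∈ A₀ := Iff.rfl

theorem h57_Rbar_le {A₀ : ValuationSubring Qb} {a : Qb} (ha : a ∈ h57_Rbar A₀) : a ∈ A₀ := by
  simpa using ha 1

theorem h57_Rbar_stable {A₀ : ValuationSubring Qb} {a : Qb} (ha : a ∈ h57_Rbar A₀) (σ : Γℚ) :
    σ a ∈ h57_Rbar A₀ := fun τ => by
  have := ha (τ * σ)
  simpa using this

theorem h57_Rbar_rat {A₀ : ValuationSubring Qb} {q : ℚ} (hq : algebraMap ℚ Qb q ∈ A₀) :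
    algebraMap ℚ Qb q ∈ h57_Rbar A₀ := fun σ => by
  rw [σ.commutes]; exact hq

/-- A valuation subring contains everything integral over it. -/
theorem h57_mem_of_isIntegral (A₀ : ValuationSubring Qb) {x : Qb} (hx : IsIntegral ↥A₀ x) :
    x ∈ A₀ := by
  obtain ⟨y, hy⟩ := (IsIntegrallyClosed.isIntegral_iff (R := ↥A₀) (K := Qb)).1 hx
  rw [← hy]; exact y.2

/-- A root of a monic polynomial with coefficients in `A₀` lies in `A₀`. -/
theorem h57_root_mem (A₀ : ValuationSubring Qb) (g : Polynomial Qb) (hg : g.Monic)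
    (hc : ∀ i, g.coeff i ∈ A₀) {θ : Qb} (hθ : g.eval θ = 0) : θ ∈ A₀ := by
  apply h57_mem_of_isIntegral
  have hc' : (↑g.coeffs : Set Qb) ⊆ A₀.toSubring := by
    intro a ha
    obtain ⟨i, -, rfl⟩ := (Polynomial.mem_coeffs_iff).1 (by simpa using ha)
    exact hc i
  refine ⟨g.toSubring A₀.toSubring hc', (Polynomial.monic_toSubring g _ hc').2 hg, ?_⟩
  have h1 : (g.toSubring A₀.toSubring hc').map A₀.toSubring.subtype = g :=
    Polynomial.map_toSubring g _ hc'
  rw [← Polynomial.eval_map]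
  have : algebraMap ↥A₀ Qb = A₀.toSubring.subtype := rfl
  rw [this, h1]; exact hθ

/-- `Rbar` is integrally closed in `Qb` (for monic polynomials with coefficients in `Rbar`). -/
theorem h57_Rbar_root (A₀ : ValuationSubring Qb) (g : Polynomial Qb) (hg : g.Monic)
    (hc : ∀ i, g.coeff i ∈ h57_Rbar A₀) {θ : Qb} (hθ : g.eval θ = 0) : θ ∈ h57_Rbar A₀ := by
  intro σ
  refine h57_root_mem A₀ (g.map (σ : Qb →+* Qb)) (hg.map _) ?_ ?_
  · intro i; rw [Polynomial.coeff_map]; exact hc i σ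
  · rw [Polynomial.eval_map]
    have := Polynomial.eval₂_at_apply (p := g) (σ : Qb →+* Qb) θ
    simp only [RingHom.coe_coe] at this
    rw [this, hθ, map_zero]

/-- The fixed field of `Γℚ` is `ℚ`. -/
theorem h57_fixed_rat {a : Qb} (ha : ∀ σ : Γℚ, σ a = a) : ∃ q : ℚ, algebraMap ℚ Qb q = a := by
  have := (InfiniteGalois.mem_bot_iff_fixed (k := ℚ) (K := Qb) a).2 ha
  exact IntermediateField.mem_bot.1 this

/-- Bounded denominators: every element of `Qb` becomes integral at `A₀` after multiplication by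
a power of `ℓ` (the valuation of `A₀` has rank one). -/
theorem h57_exists_pow_mul_mem (ℓ : ℕ) [Fact ℓ.Prime] (A₀ : ValuationSubring Qb)
    (hR : ∀ q : ℚ, algebraMap ℚ Qb q ∈ A₀ ↔ q ∈ GaloisRep.ratLocalizedAt ℓ) (a : Qb) :
    ∃ N : ℕ, (ℓ : Qb) ^ N * a ∈ A₀ := by
  have hℓ : ℓ.Prime := Fact.out
  have halg : IsAlgebraic ℤ a :=
    (IsFractionRing.isAlgebraic_iff ℤ ℚ Qb).2 (Algebra.IsAlgebraic.isAlgebraic a)
  obtain ⟨d, hd0, hd⟩ := halg.exists_integral_multiple
  have hda : d • a ∈ A₀ := h57_mem_of_isIntegral A₀ hd.tower_top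
  have hfin : FiniteMultiplicity (ℓ : ℤ) d := by
    rw [Int.finiteMultiplicity_iff]
    refine ⟨?_, hd0⟩
    simpa using hℓ.ne_one
  obtain ⟨u, hu, hnd⟩ := hfin.exists_eq_pow_mul_and_not_dvd
  refine ⟨multiplicity (ℓ : ℤ) d, ?_⟩
  have hu0 : (u : Qb) ≠ 0 := by
    have : u ≠ 0 := by rintro rfl; exact hnd (dvd_zero _)
    exact_mod_cast this
  have h1 : algebraMap ℚ Qb ((1 : ℤ) / (u : ℤ) : ℚ) ∈ A₀ :=
    (hR _).2 (by exact_mod_cast Fermat.Agent.S28.h34_div_mem_ratLocalizedAt ℓ 1 u hnd)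
  have h2 : (ℓ : Qb) ^ multiplicity (ℓ : ℤ) d * a
      = algebraMap ℚ Qb ((1 : ℤ) / (u : ℤ) : ℚ) * (d • a) := by
    have hd' : (d : Qb) = (ℓ : Qb) ^ multiplicity (ℓ : ℤ) d * (u : Qb) := by
      conv_lhs => rw [hu]
      push_cast; rfl
    rw [zsmul_eq_mul, hd']
    simp only [Int.cast_one, map_div₀, map_one, map_intCast]
    field_simp
  rw [h2]
  exact A₀.mul_mem _ _ h1 hda

/-! ### The semilinear action `h26_conj` on functions -/

section conj

variable {G : Type*} [MulAction Γℚ G]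

theorem h57_conj_apply (σ : Γℚ) (f : G → Qb) (x : G) :
    h26_conj σ f x = σ (f (σ⁻¹ • x)) := rfl

theorem h57_conj_add (σ : Γℚ) (f g : G → Qb) :
    h26_conj σ (f + g) = h26_conj σ f + h26_conj σ g := by
  funext x; simp [h26_conj]

theorem h57_conj_mul (σ : Γℚ) (f g : G → Qb) :
    h26_conj σ (f * g) = h26_conj σ f * h26_conj σ g := by
  funext x; simp [h26_conj]

theorem h57_conj_neg (σ : Γℚ) (f : G → Qb) : h26_conj σ (-f) = -h26_conj σ f := by
  funext x; simp [h26_conj]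

theorem h57_conj_zero (σ : Γℚ) : h26_conj σ (0 : G → Qb) = 0 := by
  funext x; simp [h26_conj]

theorem h57_conj_one (σ : Γℚ) : h26_conj σ (1 : G → Qb) = 1 := by
  funext x; simp [h26_conj]

theorem h57_conj_smul (σ : Γℚ) (a : Qb) (f : G → Qb) :
    h26_conj σ (a • f) = σ a • h26_conj σ f := by
  funext x; simp [h26_conj]

theorem h57_conj_sum {ι : Type*} (s : Finset ι) (σ : Γℚ) (f : ι → G → Qb) :
    h26_conj σ (∑ i ∈ s, f i) = ∑ i ∈ s, h26_conj σ (f i) := by
  classical
  induction s using Finset.induction_on with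
  | empty => simp [h57_conj_zero]
  | insert a s ha ih => rw [Finset.sum_insert ha, Finset.sum_insert ha, h57_conj_add, ih]

theorem h57_conj_id (f : G → Qb) : h26_conj 1 f = f := by
  funext x; simp [h26_conj]

theorem h57_conj_comp (σ τ : Γℚ) (f : G → Qb) :
    h26_conj (σ * τ) f = h26_conj σ (h26_conj τ f) := by
  funext x; simp [h26_conj, mul_smul]

/-- `f` is fixed by `σ` iff it is `σ`-equivariant. -/
theorem h57_conj_eq_iff (σ : Γℚ) (f : G → Qb) :
    h26_conj σ f = f ↔ ∀ x, f (σ • x) = σ (f x) := by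
  constructor
  · intro h x
    have := congrFun h (σ • x)
    simp only [h26_conj, inv_smul_smul] at this
    exact this.symm
  · intro h; funext x
    have := h (σ⁻¹ • x)
    simp only [smul_inv_smul] at this
    simp [h26_conj, this]

end conj

end Fermat.Agent.S19
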