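import Fermat.Agent.S19.h57_OrdProps

/-!
# S19, block A2 (helper57): the order `H = Lam^Γ` - comultiplication
-/

set_option autoImplicit false

noncomputable section

namespace Fermat.Agent.S19

open Polynomial

local notation "Qb" => AlgebraicClosure ℚ
local notation "Γℚ" => (AlgebraicClosure ℚ ≃ₐ[ℚ] AlgebraicClosure ℚ)

attribute [local instance] h57_isAlgebraicQb h57_isGaloisQb

/-- `ℚ` is the fraction field of `ℤ_(ℓ)`. -/
theorem h57_isFractionRing (ℓ : ℕ) : IsFractionRing ↥(GaloisRep.ratLocalizedAt ℓ) ℚ := by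
  refine IsFractionRing.of_field ↥(GaloisRep.ratLocalizedAt ℓ) ℚ fun z => ?_
  have hnum : ((z.num : ℤ) : ℚ) ∈ GaloisRep.ratLocalizedAt ℓ := by
    show ((z.num : ℤ) : ℚ).den.Coprime ℓ
    simp
  have hden : ((z.den : ℕ) : ℚ) ∈ GaloisRep.ratLocalizedAt ℓ := by
    show ((z.den : ℕ) : ℚ).den.Coprime ℓ
    simp
  refine ⟨⟨_, hnum⟩, ⟨_, hden⟩, ?_⟩
  show z = (z.num : ℚ) / (z.den : ℚ)
  exact (Rat.num_div_den z).symm

theorem h57_R_smul_apply (ℓ : ℕ) (r : ↥(GaloisRep.ratLocalizedAt ℓ)) {X : Type*} (f : X → Qb)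
    (x : X) : (r • f) x = algebraMap ℚ Qb (r : ℚ) * f x := by
  rw [Pi.smul_apply, Algebra.smul_def]
  rfl

variable {G : Type} [AddCommGroup G] [DistribMulAction Γℚ G]

/-- the multiplicative set of pure tensors `h₁(x) h₂(y)` -/
def h57_P2 {R : Type*} [CommRing R] [Algebra R Qb] (H : Subalgebra R (G → Qb)) :
    Submonoid (G × G → Qb) where
  carrier := {f | ∃ h₁ ∈ H, ∃ h₂ ∈ H, f = fun p => h₁ p.1 * h₂ p.2}
  mul_mem' := by
    rintro _ _ ⟨h₁, hh₁, h₂, hh₂, rfl⟩ ⟨k₁, hk₁, k₂, hk₂, rfl⟩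
    exact ⟨h₁ * k₁, H.mul_mem hh₁ hk₁, h₂ * k₂, H.mul_mem hh₂ hk₂, by
      funext p; simp [mul_mul_mul_comm]⟩
  one_mem' := ⟨1, H.one_mem, 1, H.one_mem, by funext p; simp⟩

variable (ℓ : ℕ) (A₀ : ValuationSubring Qb)
  (hR : ∀ q : ℚ, q ∈ GaloisRep.ratLocalizedAt ℓ → algebraMap ℚ Qb q ∈ A₀) (C : Set (G → Qb))

/-- Step A+B: `Δf` lies in the `A₀`-span of the pure tensors of `H`, for `f ∈ Lam`. -/
theorem h57_comul_span_A
    (hCT : ∀ c ∈ C, c ∈ Submodule.span ↥(h57_Rbar A₀) (h57_H ℓ A₀ hR C : Set (G → Qb)))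
    (hCadd : ∀ c ∈ C, (fun p : G × G => c (p.1 + p.2)) ∈
      Algebra.adjoin A₀ (((fun (c' : G → Qb) (p : G × G) => c' p.1) '' C) ∪
        ((fun (c' : G → Qb) (p : G × G) => c' p.2) '' C)))
    {f : G → Qb} (hf : f ∈ h57_Lam A₀ C) :
    (fun p : G × G => f (p.1 + p.2)) ∈
      Submodule.span ↥A₀ ((h57_P2 (h57_H ℓ A₀ hR C) : Submonoid (G × G → Qb)) : Set (G × G → Qb)) := by
  set P2 := h57_P2 (h57_H ℓ A₀ hR C) with hP2
  have hspan : Subalgebra.toSubmodule (Algebra.adjoin ↥A₀ (P2 : Set (G × G → Qb)))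
      = Submodule.span ↥A₀ (P2 : Set (G × G → Qb)) := by
    rw [Algebra.adjoin_eq_span]
    congr 1
    exact congrArg _ (Submonoid.closure_eq P2)
  rw [← hspan]
  -- generators
  have hfst : ∀ g ∈ Submodule.span ↥(h57_Rbar A₀) (h57_H ℓ A₀ hR C : Set (G → Qb)),
      (fun p : G × G => g p.1) ∈ Submodule.span ↥A₀ (P2 : Set (G × G → Qb)) := by
    intro g hg
    induction hg using Submodule.span_induction with
    | mem h hh =>
      exact Submodule.subset_span ⟨h, hh, 1, Subalgebra.one_mem _, by funext p; simp⟩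
    | zero => exact Submodule.zero_mem _
    | add u v _ _ hu hv => exact Submodule.add_mem _ hu hv
    | smul a u _ hu =>
      exact Submodule.smul_mem _ (⟨(a : Qb), h57_Rbar_le a.2⟩ : ↥A₀) hu
  have hsnd : ∀ g ∈ Submodule.span ↥(h57_Rbar A₀) (h57_H ℓ A₀ hR C : Set (G → Qb)),
      (fun p : G × G => g p.2) ∈ Submodule.span ↥A₀ (P2 : Set (G × G → Qb)) := by
    intro g hg
    induction hg using Submodule.span_induction with
    | mem h hh =>
      exact Submodule.subset_span ⟨1, Subalgebra.one_mem _, h, hh, by funext p; simp⟩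
    | zero => exact Submodule.zero_mem _
    | add u v _ _ hu hv => exact Submodule.add_mem _ hu hv
    | smul a u _ hu =>
      exact Submodule.smul_mem _ (⟨(a : Qb), h57_Rbar_le a.2⟩ : ↥A₀) hu
  have hgen : Algebra.adjoin ↥A₀ (((fun (c' : G → Qb) (p : G × G) => c' p.1) '' C) ∪
        ((fun (c' : G → Qb) (p : G × G) => c' p.2) '' C))
      ≤ Algebra.adjoin ↥A₀ (P2 : Set (G × G → Qb)) := by
    apply Algebra.adjoin_le
    rintro _ (⟨c, hc, rfl⟩ | ⟨c, hc, rfl⟩)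
    · have := hfst c (hCT c hc)
      rw [← hspan] at this
      exact this
    · have := hsnd c (hCT c hc)
      rw [← hspan] at this
      exact this
  induction hf using Algebra.adjoin_induction with
  | mem c hc => exact hgen (hCadd c hc)
  | algebraMap r =>
    have : (fun p : G × G => (algebraMap ↥(h57_Rbar A₀) (G → Qb) r) (p.1 + p.2))
        = algebraMap ↥A₀ (G × G → Qb) ⟨(r : Qb), h57_Rbar_le r.2⟩ := rfl
    rw [this]; exact Subalgebra.algebraMap_mem _ _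
  | add u v _ _ hu hv => exact Subalgebra.add_mem _ hu hv
  | mul u v _ _ hu hv => exact Subalgebra.mul_mem _ hu hv

/-- **comultiplication**: `Δh` is an `R`-combination of pure tensors of `H`. -/
theorem h57_H_comul [Fact ℓ.Prime] [Finite G]
    (hR' : ∀ q : ℚ, algebraMap ℚ Qb q ∈ A₀ → q ∈ GaloisRep.ratLocalizedAt ℓ)
    (hCT : ∀ c ∈ C, c ∈ Submodule.span ↥(h57_Rbar A₀) (h57_H ℓ A₀ hR C : Set (G → Qb)))
    (hCadd : ∀ c ∈ C, (fun p : G × G => c (p.1 + p.2)) ∈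
      Algebra.adjoin A₀ (((fun (c' : G → Qb) (p : G × G) => c' p.1) '' C) ∪
        ((fun (c' : G → Qb) (p : G × G) => c' p.2) '' C)))
    (hfg : (Subalgebra.toSubmodule (h57_H ℓ A₀ hR C)).FG)
    {h : G → Qb} (hh : h ∈ h57_H ℓ A₀ hR C) :
    (fun p : G × G => h (p.1 + p.2)) ∈
      Submodule.span (GaloisRep.ratLocalizedAt ℓ)
        {f : G × G → Qb | ∃ h₁ ∈ h57_H ℓ A₀ hR C, ∃ h₂ ∈ h57_H ℓ A₀ hR C,
          f = fun p => h₁ p.1 * h₂ p.2} := by
  classical
  set H := h57_H ℓ A₀ hR C with hH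
  have hPID : IsPrincipalIdealRing ↥(GaloisRep.ratLocalizedAt ℓ) :=
    Fermat.Agent.S28.ratLocalizedAt_isPrincipalIdealRing ℓ
  have hfin : Module.Finite ↥(GaloisRep.ratLocalizedAt ℓ) ↥(Subalgebra.toSubmodule H) :=
    Module.Finite.iff_fg.2 hfg
  have htf : Module.IsTorsionFree ↥(GaloisRep.ratLocalizedAt ℓ)
      ↥(Subalgebra.toSubmodule H) := by
    refine ⟨fun r hr x y hxy => ?_⟩
    have hr0 : algebraMap ℚ Qb (r : ℚ) ≠ 0 := by
      have h1 : r ≠ 0 := hr.ne_zero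
      have h2 : (r : ℚ) ≠ 0 := fun h => h1 (Subtype.ext h)
      simpa using h2
    apply Subtype.ext
    funext g
    have h3 := congrFun (congrArg Subtype.val hxy) g
    have h4 : (r • (x : G → Qb)) g = (r • (y : G → Qb)) g := h3
    rw [h57_R_smul_apply, h57_R_smul_apply] at h4
    exact mul_left_cancel₀ hr0 h4
  let b := Module.Free.chooseBasis ↥(GaloisRep.ratLocalizedAt ℓ) ↥(Subalgebra.toSubmodule H)
  let hb : Module.Free.ChooseBasisIndex ↥(GaloisRep.ratLocalizedAt ℓ)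
      ↥(Subalgebra.toSubmodule H) → G → Qb :=
    fun i => ((b i : ↥(Subalgebra.toSubmodule H)) : G → Qb)
  have hbH : ∀ i, hb i ∈ H := fun i => (b i).2
  have hbeq : ∀ i (σ : Γℚ) (x : G), hb i (σ • x) = σ (hb i x) := fun i σ x =>
    h57_H_equiv ℓ A₀ hR C (hbH i) σ x
  -- independence of the basis over `Qb`
  have hliR : LinearIndependent ↥(GaloisRep.ratLocalizedAt ℓ) hb :=
    b.linearIndependent.map' (Subalgebra.toSubmodule H).subtype (Submodule.ker_subtype _)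
  have hfrac := h57_isFractionRing ℓ
  have hliQ : LinearIndependent ℚ hb :=
    (LinearIndependent.iff_fractionRing ↥(GaloisRep.ratLocalizedAt ℓ) ℚ).1 hliR
  have hliQb : LinearIndependent Qb hb := h57_artin hb (fun i σ => (hbH i).2 σ) hliQ
  let hb2 : Module.Free.ChooseBasisIndex ↥(GaloisRep.ratLocalizedAt ℓ)
      ↥(Subalgebra.toSubmodule H) × Module.Free.ChooseBasisIndex ↥(GaloisRep.ratLocalizedAt ℓ)
      ↥(Subalgebra.toSubmodule H) → G × G → Qb := fun q p => hb q.1 p.1 * hb q.2 p.2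
  have hli2 : LinearIndependent Qb hb2 := h57_tensor_indep hb hb hliQb hliQb
  -- expansion of elements of `H`
  have hexp : ∀ k ∈ H, ∃ c : Module.Free.ChooseBasisIndex ↥(GaloisRep.ratLocalizedAt ℓ)
      ↥(Subalgebra.toSubmodule H) → ↥(GaloisRep.ratLocalizedAt ℓ),
      ∀ x, k x = ∑ i, algebraMap ℚ Qb (c i : ℚ) * hb i x := by
    intro k hk
    refine ⟨fun i => b.repr ⟨k, hk⟩ i, fun x => ?_⟩
    have h1 := congrArg (fun z : ↥(Subalgebra.toSubmodule H) => (z : G → Qb) x)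
      (b.sum_repr ⟨k, hk⟩)
    simp only [Submodule.coe_sum, Submodule.coe_smul, Finset.sum_apply] at h1
    rw [← h1]
    refine Finset.sum_congr rfl fun i _ => ?_
    exact h57_R_smul_apply ℓ _ _ x
  -- Step C
  have hP2le : Submodule.span ↥A₀ ((h57_P2 H : Submonoid (G × G → Qb)) : Set (G × G → Qb))
      ≤ Submodule.span ↥A₀ (Set.range hb2) := by
    rw [Submodule.span_le]
    rintro _ ⟨h₁, hh₁, h₂, hh₂, rfl⟩
    obtain ⟨c₁, hc₁⟩ := hexp h₁ hh₁
    obtain ⟨c₂, hc₂⟩ := hexp h₂ hh₂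
    have hmem : ∀ q : Module.Free.ChooseBasisIndex ↥(GaloisRep.ratLocalizedAt ℓ)
        ↥(Subalgebra.toSubmodule H) × Module.Free.ChooseBasisIndex ↥(GaloisRep.ratLocalizedAt ℓ)
        ↥(Subalgebra.toSubmodule H),
        algebraMap ℚ Qb (c₁ q.1 : ℚ) * algebraMap ℚ Qb (c₂ q.2 : ℚ) ∈ A₀ := fun q =>
      A₀.mul_mem _ _ (hR _ (c₁ q.1).2) (hR _ (c₂ q.2).2)
    have hsum : (fun p : G × G => h₁ p.1 * h₂ p.2)
        = ∑ q, (⟨_, hmem q⟩ : ↥A₀) • hb2 q := by
      funext p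
      rw [Finset.sum_apply, hc₁ p.1, hc₂ p.2, Finset.sum_mul_sum, Fintype.sum_prod_type]
      refine Finset.sum_congr rfl fun i _ => Finset.sum_congr rfl fun j _ => ?_
      show _ = (algebraMap ℚ Qb (c₁ i : ℚ) * algebraMap ℚ Qb (c₂ j : ℚ)) * (hb i p.1 * hb j p.2)
      ring
    rw [hsum]
    exact Submodule.sum_mem _ fun q _ => Submodule.smul_mem _ _ (Submodule.subset_span ⟨q, rfl⟩)
  -- Step D
  have hΔ := hP2le (h57_comul_span_A ℓ A₀ hR C hCT hCadd hh.1)
  obtain ⟨a, ha⟩ := (Submodule.mem_span_range_iff_exists_fun ↥A₀).1 hΔ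
  have h1 : ∑ q, (a q : Qb) • hb2 q = fun p : G × G => h (p.1 + p.2) := ha
  -- Step E
  have hafix : ∀ (σ : Γℚ) q, σ (a q : Qb) = (a q : Qb) := by
    intro σ
    have h2 : h26_conj σ (fun p : G × G => h (p.1 + p.2))
        = fun p : G × G => h (p.1 + p.2) := by
      rw [h57_conj_eq_iff]
      intro p
      show h (σ • p.1 + σ • p.2) = σ (h (p.1 + p.2))
      rw [← smul_add]
      exact h57_H_equiv ℓ A₀ hR C hh σ _
    have h3 : ∀ q, h26_conj σ (hb2 q) = hb2 q := by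
      intro q
      rw [h57_conj_eq_iff]
      intro p
      show hb q.1 (σ • p.1) * hb q.2 (σ • p.2) = σ (hb q.1 p.1 * hb q.2 p.2)
      rw [map_mul, hbeq, hbeq]
    have h4 : ∑ q, σ (a q : Qb) • hb2 q = fun p : G × G => h (p.1 + p.2) := by
      have := congrArg (h26_conj σ) h1
      rw [h57_conj_sum, h2] at this
      rw [← this]
      refine Finset.sum_congr rfl fun q _ => ?_
      rw [h57_conj_smul, h3]
    have h5 : ∑ q, (σ (a q : Qb) - (a q : Qb)) • hb2 q = 0 := by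
      simp only [sub_smul, Finset.sum_sub_distrib, h4, h1, sub_self]
    intro q
    exact sub_eq_zero.1 (Fintype.linearIndependent_iff.1 hli2 _ h5 q)
  -- Step F
  have har : ∀ q, ∃ r : GaloisRep.ratLocalizedAt ℓ, (a q : Qb) = algebraMap ℚ Qb (r : ℚ) :=
    fun q => h57_fixed_mem_R ℓ A₀ hR' (a q).2 (fun σ => hafix σ q)
  choose r hr using har
  have hfinal : (fun p : G × G => h (p.1 + p.2)) = ∑ q, r q • hb2 q := by
    rw [← h1]
    refine Finset.sum_congr rfl fun q _ => ?_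
    funext p
    rw [h57_R_smul_apply, ← hr q]
    rfl
  rw [hfinal]
  exact Submodule.sum_mem _ fun q _ => Submodule.smul_mem _ _
    (Submodule.subset_span ⟨hb q.1, hbH q.1, hb q.2, hbH q.2, rfl⟩)

end Fermat.Agent.S19
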