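import Fermat.Agent.S19.h57_TraceStep
import Fermat.Agent.S19.h57_OrdArtin

/-!
# S19, block A1/A2 (helper57): `Lam = Rbar[C]`, the order `H = Lam^Γ`, and `Lam = Rbar · H`

* `h57_IntRing 𝒜` : the ring of `𝒜`-integers, and `h26_trace` (skeleton statement A1 TRACE,
  VERBATIM from helper26's `skel/h26_SkelHopf.lean`);
* `h57_Lam`, `h57_H`;
* `h57_trace_all` : a function of `Lam` fixed by `Gal(Qb/K')`, `K'` good, is in `Rbar · H`;
* `h57_Lam_le_T` : `Lam = Rbar · H` once `C ⊆ Rbar · H`.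
-/

set_option autoImplicit false

noncomputable section

namespace Fermat.Agent.S19

open Polynomial

local notation "Qb" => AlgebraicClosure ℚ
local notation "Γℚ" => (AlgebraicClosure ℚ ≃ₐ[ℚ] AlgebraicClosure ℚ)

theorem h57_Int_Rbar (𝒜 : Set (ValuationSubring Qb)) (A₀ : ValuationSubring Qb) (hA₀ : A₀ ∈ 𝒜)
    (h𝒜stab : ∀ (σ : Γℚ), ∀ A ∈ 𝒜, A.comap (σ : Qb →+* Qb) ∈ 𝒜) {a : Qb}
    (ha : h26_Int 𝒜 a) : a ∈ h57_Rbar A₀ := fun σ => by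
  have := ha _ (h𝒜stab σ A₀ hA₀)
  exact this

/-- The ring of `𝒜`-integers of `Qb`. -/
def h57_IntRing (𝒜 : Set (ValuationSubring Qb)) : Subring Qb where
  carrier := {a | h26_Int 𝒜 a}
  mul_mem' ha hb A hA := A.mul_mem _ _ (ha A hA) (hb A hA)
  one_mem' A _ := A.one_mem
  add_mem' ha hb A hA := A.add_mem _ _ (ha A hA) (hb A hA)
  zero_mem' A _ := A.zero_mem
  neg_mem' ha A hA := A.neg_mem _ (ha A hA)

theorem h57_IntRing_stable (𝒜 : Set (ValuationSubring Qb))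
    (h𝒜stab : ∀ (σ : Γℚ), ∀ A ∈ 𝒜, A.comap (σ : Qb →+* Qb) ∈ 𝒜) :
    ∀ a ∈ h57_IntRing 𝒜, ∀ σ : Γℚ, σ a ∈ h57_IntRing 𝒜 := fun a ha σ A hA => by
  have := ha _ (h𝒜stab σ A hA)
  exact this

theorem h57_IntRing_root (𝒜 : Set (ValuationSubring Qb)) :
    ∀ g : Polynomial Qb, g.Monic → (∀ i, g.coeff i ∈ h57_IntRing 𝒜) →
      ∀ θ : Qb, g.eval θ = 0 → θ ∈ h57_IntRing 𝒜 := fun g hg hc _ hθ A hA =>
  h57_root_mem A g hg (fun i => hc i A hA) hθ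

/-- **(A1 TRACE)** the trace lemma: an element of a Galois-stable module over the `𝒜`-integers
which is fixed by the Galois group of an `ℓ`-good field is an integral combination of
Galois-fixed elements of the module.  (Skeleton statement of helper26, verbatim.) -/
theorem h26_trace (𝒜 : Set (ValuationSubring Qb))
    (h𝒜stab : ∀ (σ : Γℚ), ∀ A ∈ 𝒜, A.comap (σ : Qb →+* Qb) ∈ 𝒜)
    {G : Type} [MulAction Γℚ G]
    (Λ : AddSubgroup (G → Qb))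
    (hΛsmul : ∀ a : Qb, h26_Int 𝒜 a → ∀ f ∈ Λ, (fun x => a * f x) ∈ Λ)
    (hΛstab : ∀ (σ : Γℚ), ∀ f ∈ Λ, h26_conj σ f ∈ Λ)
    (K' : IntermediateField ℚ Qb) (hK' : h26_LGood 𝒜 K')
    (f : G → Qb) (hf : f ∈ Λ)
    (hfix : ∀ σ : Γℚ, (∀ a ∈ K', σ a = a) → h26_conj σ f = f) :
    ∃ (n : ℕ) (a : Fin n → Qb) (h : Fin n → G → Qb), (∀ i, h26_Int 𝒜 (a i)) ∧
      (∀ i, h i ∈ Λ) ∧ (∀ i (σ : Γℚ), h26_conj σ (h i) = h i) ∧
      f = fun x => ∑ i, a i * h i x := by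
  let Lam : Submodule ↥(h57_IntRing 𝒜) (G → Qb) :=
    { carrier := Λ
      add_mem' := fun ha hb => Λ.add_mem ha hb
      zero_mem' := Λ.zero_mem
      smul_mem' := fun a f hf => hΛsmul a a.2 f hf }
  let S : Set (G → Qb) := {h | h ∈ Λ ∧ ∀ σ : Γℚ, h26_conj σ h = h}
  have key : ∀ K' : IntermediateField ℚ Qb, h26_LGood 𝒜 K' →
      ∀ f ∈ Lam, (∀ σ : Γℚ, (∀ a ∈ K', σ a = a) → h26_conj σ f = f) →
        f ∈ Submodule.span ↥(h57_IntRing 𝒜) S := by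
    intro K' hK'
    induction hK' with
    | bot =>
      intro f hf hfix
      refine Submodule.subset_span ⟨hf, fun σ => hfix σ ?_⟩
      intro a ha
      obtain ⟨q, rfl⟩ := IntermediateField.mem_bot.1 ha
      exact σ.commutes q
    | step K' θ g _ hg hgK hgI hθ hd0 hdI ih =>
      intro f hf hfix
      exact h57_trace_step (h57_IntRing 𝒜) (h57_IntRing_stable 𝒜 h𝒜stab) (h57_IntRing_root 𝒜)
        Lam _ (fun σ f hf => hΛstab σ f hf) K' θ g hg hgK hgI hθ hd0 hdI ih f hf hfix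
  obtain ⟨n, c, g, hg⟩ := Submodule.mem_span_set'.1 (key K' hK' f hf hfix)
  refine ⟨n, fun i => (c i : Qb), fun i => (g i : G → Qb), fun i => (c i).2,
    fun i => (g i).2.1, fun i σ => (g i).2.2 σ, ?_⟩
  rw [← hg]
  funext x
  simp only [Finset.sum_apply]
  rfl

variable {G : Type} [AddCommGroup G] [DistribMulAction Γℚ G]

/-- `Lam := Rbar[C]`. -/
def h57_Lam (A₀ : ValuationSubring Qb) (C : Set (G → Qb)) :
    Subalgebra ↥(h57_Rbar A₀) (G → Qb) :=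
  Algebra.adjoin ↥(h57_Rbar A₀) C

theorem h57_Lam_conj (A₀ : ValuationSubring Qb) (C : Set (G → Qb))
    (hCstab : ∀ σ : Γℚ, ∀ c ∈ C, h26_conj σ c ∈ C) (σ : Γℚ) {f : G → Qb}
    (hf : f ∈ h57_Lam A₀ C) : h26_conj σ f ∈ h57_Lam A₀ C := by
  induction hf using Algebra.adjoin_induction with
  | mem c hc => exact Algebra.subset_adjoin (hCstab σ c hc)
  | algebraMap r =>
    have : h26_conj σ (algebraMap ↥(h57_Rbar A₀) (G → Qb) r)
        = algebraMap ↥(h57_Rbar A₀) (G → Qb) ⟨σ r, h57_Rbar_stable r.2 σ⟩ := rfl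
    rw [this]; exact Subalgebra.algebraMap_mem _ _
  | add f g _ _ hf hg => rw [h57_conj_add]; exact Subalgebra.add_mem _ hf hg
  | mul f g _ _ hf hg => rw [h57_conj_mul]; exact Subalgebra.mul_mem _ hf hg

omit [AddCommGroup G] [DistribMulAction Γℚ G] in
theorem h57_Lam_val (A₀ : ValuationSubring Qb) (C : Set (G → Qb))
    (hC : ∀ c ∈ C, ∀ x, c x ∈ h57_Rbar A₀) {f : G → Qb}
    (hf : f ∈ h57_Lam A₀ C) (x : G) : f x ∈ h57_Rbar A₀ := by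
  induction hf using Algebra.adjoin_induction with
  | mem c hc => exact hC c hc x
  | algebraMap r => exact r.2
  | add f g _ _ hf hg => exact Subring.add_mem _ hf hg
  | mul f g _ _ hf hg => exact Subring.mul_mem _ hf hg

/-- `H` := the equivariant elements of `Lam`, an `R`-subalgebra. -/
def h57_H (ℓ : ℕ) (A₀ : ValuationSubring Qb)
    (hR : ∀ q : ℚ, q ∈ GaloisRep.ratLocalizedAt ℓ → algebraMap ℚ Qb q ∈ A₀)
    (C : Set (G → Qb)) : Subalgebra (GaloisRep.ratLocalizedAt ℓ) (G → Qb) where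
  carrier := {f | f ∈ h57_Lam A₀ C ∧ ∀ σ : Γℚ, h26_conj σ f = f}
  mul_mem' := fun {f g} hf hg => ⟨Subalgebra.mul_mem _ hf.1 hg.1, fun σ => by
    rw [h57_conj_mul, hf.2 σ, hg.2 σ]⟩
  add_mem' := fun {f g} hf hg => ⟨Subalgebra.add_mem _ hf.1 hg.1, fun σ => by
    rw [h57_conj_add, hf.2 σ, hg.2 σ]⟩
  one_mem' := ⟨Subalgebra.one_mem _, fun σ => h57_conj_one σ⟩
  zero_mem' := ⟨Subalgebra.zero_mem _, fun σ => h57_conj_zero σ⟩
  algebraMap_mem' := fun r => by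
    refine ⟨?_, fun σ => ?_⟩
    · have : algebraMap (GaloisRep.ratLocalizedAt ℓ) (G → Qb) r
          = algebraMap ↥(h57_Rbar A₀) (G → Qb)
            ⟨algebraMap ℚ Qb (r : ℚ), h57_Rbar_rat (hR _ r.2)⟩ := rfl
      rw [this]; exact Subalgebra.algebraMap_mem _ _
    · funext x
      show σ (algebraMap ℚ Qb (r : ℚ)) = algebraMap ℚ Qb (r : ℚ)
      exact σ.commutes _

theorem h57_mem_H (ℓ : ℕ) (A₀ : ValuationSubring Qb)
    (hR : ∀ q : ℚ, q ∈ GaloisRep.ratLocalizedAt ℓ → algebraMap ℚ Qb q ∈ A₀)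
    (C : Set (G → Qb)) (f : G → Qb) :
    f ∈ h57_H ℓ A₀ hR C ↔ f ∈ h57_Lam A₀ C ∧ ∀ σ : Γℚ, h26_conj σ f = f := Iff.rfl

/-- The trace lemma along a good tower. -/
theorem h57_trace_all (ℓ : ℕ) (𝒜 : Set (ValuationSubring Qb)) (A₀ : ValuationSubring Qb)
    (hA₀ : A₀ ∈ 𝒜) (h𝒜stab : ∀ (σ : Γℚ), ∀ A ∈ 𝒜, A.comap (σ : Qb →+* Qb) ∈ 𝒜)
    (hR : ∀ q : ℚ, q ∈ GaloisRep.ratLocalizedAt ℓ → algebraMap ℚ Qb q ∈ A₀)
    (C : Set (G → Qb)) (hCstab : ∀ σ : Γℚ, ∀ c ∈ C, h26_conj σ c ∈ C)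
    (K' : IntermediateField ℚ Qb) (hK' : h26_LGood 𝒜 K') :
    ∀ f ∈ h57_Lam A₀ C, (∀ σ : Γℚ, (∀ a ∈ K', σ a = a) → h26_conj σ f = f) →
      f ∈ Submodule.span ↥(h57_Rbar A₀) (h57_H ℓ A₀ hR C : Set (G → Qb)) := by
  induction hK' with
  | bot =>
    intro f hf hfix
    refine Submodule.subset_span ⟨hf, fun σ => hfix σ ?_⟩
    intro a ha
    obtain ⟨q, rfl⟩ := IntermediateField.mem_bot.1 ha
    exact σ.commutes q
  | step K' θ g _ hg hgK hgI hθ hd0 hdI ih =>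
    intro f hf hfix
    exact h57_trace_step (h57_Rbar A₀) (fun a ha σ => h57_Rbar_stable ha σ)
      (fun g hg hc _ hθ => h57_Rbar_root A₀ g hg hc hθ)
      (Subalgebra.toSubmodule (h57_Lam A₀ C)) _
      (fun σ f hf => h57_Lam_conj A₀ C hCstab σ hf) K' θ g hg hgK
      (fun i => h57_Int_Rbar 𝒜 A₀ hA₀ h𝒜stab (hgI i)) hθ hd0
      (h57_Int_Rbar 𝒜 A₀ hA₀ h𝒜stab hdI) ih f hf hfix

/-- `Rbar · H` is a subalgebra: it equals `Rbar[H]`. -/
theorem h57_span_H_eq (ℓ : ℕ) (A₀ : ValuationSubring Qb)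
    (hR : ∀ q : ℚ, q ∈ GaloisRep.ratLocalizedAt ℓ → algebraMap ℚ Qb q ∈ A₀)
    (C : Set (G → Qb)) :
    Subalgebra.toSubmodule (Algebra.adjoin ↥(h57_Rbar A₀) (h57_H ℓ A₀ hR C : Set (G → Qb)))
      = Submodule.span ↥(h57_Rbar A₀) (h57_H ℓ A₀ hR C : Set (G → Qb)) := by
  rw [Algebra.adjoin_eq_span]
  congr 1
  exact congrArg _ (Submonoid.closure_eq (h57_H ℓ A₀ hR C).toSubmonoid)

/-- `Lam = Rbar · H` once the generators are in `Rbar · H`. -/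
theorem h57_Lam_le_T (ℓ : ℕ) (A₀ : ValuationSubring Qb)
    (hR : ∀ q : ℚ, q ∈ GaloisRep.ratLocalizedAt ℓ → algebraMap ℚ Qb q ∈ A₀)
    (C : Set (G → Qb))
    (hCT : ∀ c ∈ C, c ∈ Submodule.span ↥(h57_Rbar A₀) (h57_H ℓ A₀ hR C : Set (G → Qb)))
    {f : G → Qb} (hf : f ∈ h57_Lam A₀ C) :
    f ∈ Submodule.span ↥(h57_Rbar A₀) (h57_H ℓ A₀ hR C : Set (G → Qb)) := by
  rw [← h57_span_H_eq]
  have hle : h57_Lam A₀ C ≤ Algebra.adjoin ↥(h57_Rbar A₀) (h57_H ℓ A₀ hR C : Set (G → Qb)) := by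
    apply Algebra.adjoin_le
    intro c hc
    have := hCT c hc
    rw [← h57_span_H_eq] at this
    exact this
  exact hle hf

end Fermat.Agent.S19
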