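import Fermat.Agent.S19.h57_OrdDefs

/-!
# S19, block A2 (helper57): the order `H = Lam^Γ` - counit, span, finite generation
-/

set_option autoImplicit false

noncomputable section

namespace Fermat.Agent.S19

open Polynomial

local notation "Qb" => AlgebraicClosure ℚ
local notation "Γℚ" => (AlgebraicClosure ℚ ≃ₐ[ℚ] AlgebraicClosure ℚ)

attribute [local instance] h57_isAlgebraicQb h57_isGaloisQb

variable {G : Type} [AddCommGroup G] [DistribMulAction Γℚ G]
variable (ℓ : ℕ) (A₀ : ValuationSubring Qb)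
  (hR : ∀ q : ℚ, q ∈ GaloisRep.ratLocalizedAt ℓ → algebraMap ℚ Qb q ∈ A₀) (C : Set (G → Qb))

theorem h57_H_equiv {h : G → Qb} (hh : h ∈ h57_H ℓ A₀ hR C) (σ : Γℚ) (x : G) :
    h (σ • x) = σ (h x) := (h57_conj_eq_iff σ h).1 (hh.2 σ) x

theorem h57_H_val (hC : ∀ c ∈ C, ∀ x, c x ∈ h57_Rbar A₀) {h : G → Qb}
    (hh : h ∈ h57_H ℓ A₀ hR C) (x : G) : h x ∈ h57_Rbar A₀ :=
  h57_Lam_val A₀ C hC hh.1 x

/-- a `Γℚ`-fixed element of `A₀` comes from `R`. -/
theorem h57_fixed_mem_R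
    (hR' : ∀ q : ℚ, algebraMap ℚ Qb q ∈ A₀ → q ∈ GaloisRep.ratLocalizedAt ℓ) {a : Qb}
    (ha : a ∈ A₀) (hfix : ∀ σ : Γℚ, σ a = a) :
    ∃ r : GaloisRep.ratLocalizedAt ℓ, a = algebraMap ℚ Qb (r : ℚ) := by
  obtain ⟨q, hq⟩ := h57_fixed_rat hfix
  exact ⟨⟨q, hR' q (by rw [hq]; exact ha)⟩, hq.symm⟩

theorem h57_H_counit
    (hR' : ∀ q : ℚ, algebraMap ℚ Qb q ∈ A₀ → q ∈ GaloisRep.ratLocalizedAt ℓ)
    (hC : ∀ c ∈ C, ∀ x, c x ∈ h57_Rbar A₀) {h : G → Qb} (hh : h ∈ h57_H ℓ A₀ hR C) :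
    ∃ r : GaloisRep.ratLocalizedAt ℓ, h 0 = algebraMap ℚ Qb (r : ℚ) := by
  refine h57_fixed_mem_R ℓ A₀ hR' (h57_Rbar_le (h57_H_val ℓ A₀ hR C hC hh 0)) fun σ => ?_
  have := h57_H_equiv ℓ A₀ hR C hh σ 0
  rw [smul_zero] at this
  exact this.symm

theorem h57_H_span [Finite G] (hCsep : ∀ x y : G, (∀ c ∈ C, c x = c y) → x = y)
    (hCT : ∀ c ∈ C, c ∈ Submodule.span ↥(h57_Rbar A₀) (h57_H ℓ A₀ hR C : Set (G → Qb))) :
    Submodule.span Qb (h57_H ℓ A₀ hR C : Set (G → Qb)) = ⊤ := by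
  set B := Algebra.adjoin Qb (h57_H ℓ A₀ hR C : Set (G → Qb)) with hB
  have hBs : Subalgebra.toSubmodule B
      = Submodule.span Qb (h57_H ℓ A₀ hR C : Set (G → Qb)) := by
    rw [hB, Algebra.adjoin_eq_span]
    congr 1
    exact congrArg _ (Submonoid.closure_eq (h57_H ℓ A₀ hR C).toSubmonoid)
  have hCB : ∀ c ∈ C, c ∈ B := by
    intro c hc
    have h1 := Submodule.span_le_restrictScalars ↥(h57_Rbar A₀) Qb
      (h57_H ℓ A₀ hR C : Set (G → Qb)) (hCT c hc)
    have : c ∈ Subalgebra.toSubmodule B := by rw [hBs]; exact h1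
    exact this
  have htop : B = ⊤ := by
    apply h57_separating_top
    intro x y hxy
    by_contra hne
    apply hxy
    apply hCsep
    intro c hc
    by_contra hcxy
    exact hne ⟨c, hCB c hc, hcxy⟩
  rw [← hBs, htop]
  exact Algebra.top_toSubmodule

theorem h57_H_fg [Fact ℓ.Prime] [Finite G]
    (hR' : ∀ q : ℚ, algebraMap ℚ Qb q ∈ A₀ → q ∈ GaloisRep.ratLocalizedAt ℓ)
    (hC : ∀ c ∈ C, ∀ x, c x ∈ h57_Rbar A₀)
    (hspan : Submodule.span Qb (h57_H ℓ A₀ hR C : Set (G → Qb)) = ⊤) :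
    (Subalgebra.toSubmodule (h57_H ℓ A₀ hR C)).FG := by
  classical
  cases nonempty_fintype G
  have : IsPrincipalIdealRing ↥(GaloisRep.ratLocalizedAt ℓ) :=
    Fermat.Agent.S28.ratLocalizedAt_isPrincipalIdealRing ℓ
  -- a finite spanning subset of `H`
  have hfg : (Submodule.span Qb (h57_H ℓ A₀ hR C : Set (G → Qb))).FG := by
    rw [hspan]; exact Module.Finite.fg_top
  obtain ⟨T, hTH, hT⟩ := (Submodule.fg_span_iff_fg_span_finset_subset _).1 hfg
  have hTtop : Submodule.span Qb (T : Set (G → Qb)) = ⊤ := by rw [← hT, hspan]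
  -- the pairing map
  let Ψ₀ : (G → Qb) →ₗ[Qb] (T → Qb) :=
    { toFun := fun f t => ∑ x, f x * (t : G → Qb) x
      map_add' := fun f g => by
        funext t; simp [add_mul, Finset.sum_add_distrib]
      map_smul' := fun a f => by
        funext t; simp [Finset.mul_sum, mul_assoc] }
  let Ψ : (G → Qb) →ₗ[↥(GaloisRep.ratLocalizedAt ℓ)] (T → Qb) :=
    Ψ₀.restrictScalars ↥(GaloisRep.ratLocalizedAt ℓ)
  have hΨ : ∀ f t, Ψ f t = ∑ x, f x * (t : G → Qb) x := fun f t => rfl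
  have hΨinj : Function.Injective Ψ := by
    rw [injective_iff_map_eq_zero]
    intro f hf
    let L : (G → Qb) →ₗ[Qb] Qb :=
      { toFun := fun u => ∑ x, f x * u x
        map_add' := fun u v => by simp [mul_add, Finset.sum_add_distrib]
        map_smul' := fun a u => by
          simp [Finset.mul_sum, mul_left_comm] }
    have hker : Submodule.span Qb (T : Set (G → Qb)) ≤ LinearMap.ker L := by
      rw [Submodule.span_le]
      intro t ht
      have := congrFun hf ⟨t, ht⟩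
      exact this
    rw [hTtop] at hker
    funext x
    have h1 : L (Pi.single x 1) = 0 := hker Submodule.mem_top
    have h2 : L (Pi.single x 1) = f x := by
      show ∑ y, f y * (Pi.single x (1 : Qb) : G → Qb) y = f x
      simp [Pi.single_apply]
    rw [← h2, h1]; rfl
  -- the image of `H` lies in the lattice `R^T`
  let ι : (T → ↥(GaloisRep.ratLocalizedAt ℓ)) →ₗ[↥(GaloisRep.ratLocalizedAt ℓ)] (T → Qb) :=
    (Algebra.linearMap ↥(GaloisRep.ratLocalizedAt ℓ) Qb).compLeft T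
  have hle : (Subalgebra.toSubmodule (h57_H ℓ A₀ hR C)).map Ψ ≤ LinearMap.range ι := by
    rintro _ ⟨f, hf, rfl⟩
    have hpair : ∀ t : T, ∃ r : GaloisRep.ratLocalizedAt ℓ,
        ∑ x, f x * (t : G → Qb) x = algebraMap ℚ Qb (r : ℚ) := by
      intro t
      have ht : (t : G → Qb) ∈ h57_H ℓ A₀ hR C := hTH t.2
      refine h57_fixed_mem_R ℓ A₀ hR' ?_ fun σ => ?_
      · exact h57_Rbar_le (Subring.sum_mem _ fun x _ => Subring.mul_mem _
          (h57_H_val ℓ A₀ hR C hC hf x) (h57_H_val ℓ A₀ hR C hC ht x))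
      · rw [map_sum]
        have h1 : ∀ x, σ (f x * (t : G → Qb) x) = f (σ • x) * (t : G → Qb) (σ • x) := by
          intro x
          rw [map_mul, h57_H_equiv ℓ A₀ hR C hf σ x, h57_H_equiv ℓ A₀ hR C ht σ x]
        simp only [h1]
        exact Fintype.sum_equiv (MulAction.toPerm σ) _ _ (fun x => rfl)
    choose r hr using hpair
    refine ⟨r, ?_⟩
    funext t
    rw [hΨ, hr t]
    rfl
  have hfgι : (LinearMap.range ι).FG := by
    rw [LinearMap.range_eq_map]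
    exact Submodule.FG.map _ Module.Finite.fg_top
  have : IsNoetherian ↥(GaloisRep.ratLocalizedAt ℓ) (LinearMap.range ι) :=
    isNoetherian_of_fg_of_noetherian _ hfgι
  exact Submodule.fg_of_fg_map_injective Ψ hΨinj (Submodule.FG.of_le_of_isNoetherian hle)

end Fermat.Agent.S19
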