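import Fermat.Agent.S19.h57_OrdComul

/-!
# S19, block A2 ORDER (helper57): `h26_order_of_coords`

Skeleton statement of helper26 (`skel/h26_SkelHopf.lean`), verbatim: a finite Galois-stable set
`C` of `A₀`-integral coordinate functions on a finite Galois module `G`, defined over `ℓ`-good
fields, separating points and closed under the group law over `A₀`, gives a Hopf order
`H ⊆ Map(G, Qb)` over `ℤ_(ℓ)`.

`H` is the ring of Galois-equivariant elements of `Rbar[C]`, `Rbar` the ring of elements of `Qb`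
all of whose conjugates lie in `A₀`.  Ingredients: the trace lemma (`h57_trace_all`,
`Rbar[C] = Rbar · H`), Artin independence (`h57_artin`), the pairing trick for finite generation
(helper43), and the identification of the coefficients of `Δh` as Galois-fixed elements of `A₀`.
-/

set_option autoImplicit false

noncomputable section

namespace Fermat.Agent.S19

local notation "Qb" => AlgebraicClosure ℚ
local notation "Γℚ" => (AlgebraicClosure ℚ ≃ₐ[ℚ] AlgebraicClosure ℚ)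

/-- **(A2 ORDER)** coordinates give a Hopf order. -/
theorem h26_order_of_coords (ℓ : ℕ) [Fact ℓ.Prime]
    (𝒜 : Set (ValuationSubring Qb)) (A₀ : ValuationSubring Qb) (hA₀ : A₀ ∈ 𝒜)
    (h𝒜stab : ∀ (σ : Γℚ), ∀ A ∈ 𝒜, A.comap (σ : Qb →+* Qb) ∈ 𝒜)
    (h𝒜R : ∀ q : ℚ, algebraMap ℚ Qb q ∈ A₀ ↔ q ∈ GaloisRep.ratLocalizedAt ℓ)
    {G : Type} [AddCommGroup G] [Finite G] [DistribMulAction Γℚ G]
    (C : Set (G → Qb)) (hCfin : C.Finite)
    (hCstab : ∀ (σ : Γℚ), ∀ c ∈ C, (fun x => σ (c (σ⁻¹ • x))) ∈ C)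
    (hCgood : ∀ c ∈ C, ∃ K' : IntermediateField ℚ Qb, h26_LGood 𝒜 K' ∧
      ∀ σ : Γℚ, (∀ a ∈ K', σ a = a) → ∀ x, c (σ • x) = σ (c x))
    (hCint : ∀ c ∈ C, ∀ x, c x ∈ A₀)
    (hCsep : ∀ x y : G, (∀ c ∈ C, c x = c y) → x = y)
    (hCadd : ∀ c ∈ C, (fun p : G × G => c (p.1 + p.2)) ∈
      Algebra.adjoin A₀ (((fun (c' : G → Qb) (p : G × G) => c' p.1) '' C) ∪
        ((fun (c' : G → Qb) (p : G × G) => c' p.2) '' C))) :
    ∃ H : Subalgebra (GaloisRep.ratLocalizedAt ℓ) (G → Qb), h26_IsHopfOrder ℓ H := by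
  have _ := hCfin
  have hR : ∀ q : ℚ, q ∈ GaloisRep.ratLocalizedAt ℓ → algebraMap ℚ Qb q ∈ A₀ :=
    fun q hq => (h𝒜R q).2 hq
  have hR' : ∀ q : ℚ, algebraMap ℚ Qb q ∈ A₀ → q ∈ GaloisRep.ratLocalizedAt ℓ :=
    fun q hq => (h𝒜R q).1 hq
  have hCstab' : ∀ σ : Γℚ, ∀ c ∈ C, h26_conj σ c ∈ C := hCstab
  -- the values of the coordinates are integral at every conjugate of `A₀`
  have hC : ∀ c ∈ C, ∀ x, c x ∈ h57_Rbar A₀ := by
    intro c hc x σ
    have := hCint _ (hCstab σ c hc) (σ • x)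
    simpa using this
  -- trace lemma: the coordinates are `Rbar`-combinations of equivariant functions
  have hCT : ∀ c ∈ C, c ∈ Submodule.span ↥(h57_Rbar A₀) (h57_H ℓ A₀ hR C : Set (G → Qb)) := by
    intro c hc
    obtain ⟨K', hK', hfix⟩ := hCgood c hc
    exact h57_trace_all ℓ 𝒜 A₀ hA₀ h𝒜stab hR C hCstab' K' hK' c (Algebra.subset_adjoin hc)
      (fun σ hσ => (h57_conj_eq_iff σ c).2 (hfix σ hσ))
  have hspan := h57_H_span ℓ A₀ hR C hCsep hCT
  have hfg := h57_H_fg ℓ A₀ hR C hR' hC hspan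
  exact ⟨h57_H ℓ A₀ hR C,
    ⟨fun h hh σ x => h57_H_equiv ℓ A₀ hR C hh σ x, hfg, hspan,
      fun h hh => h57_H_counit ℓ A₀ hR C hR' hC hh,
      fun h hh => h57_H_comul ℓ A₀ hR C hR' hCT hCadd hfg hh⟩⟩

end Fermat.Agent.S19
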