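import Fermat.Agent.S19.h57_OrdBase

/-!
# S19, block A1 (helper57): the trace step

`h57_trace_step`: if every function of a `Γℚ`-stable `Rbar`-module `Lam` that is fixed by
`Gal(Qb/K')` lies in `T`, then the same holds for `Gal(Qb/K'(θ))`, provided `θ` is a root of a
monic `g` over `K'` with coefficients in `Rbar` and `g'(θ)` a unit of `Rbar`.
No minimal polynomials: the conjugates of `θ` are the orbit of `θ` under `Gal(Qb/K')`.
-/

set_option autoImplicit false

noncomputable section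

namespace Fermat.Agent.S19

open Polynomial

local notation "Qb" => AlgebraicClosure ℚ
local notation "Γℚ" => (AlgebraicClosure ℚ ≃ₐ[ℚ] AlgebraicClosure ℚ)

/-- Coefficients of a product of `X - C x`, `x` in a subring, lie in the subring. -/
theorem h57_coeff_prod_mem {K : Type*} [Field K] (R : Subring K) (s : Finset K)
    (hs : ∀ x ∈ s, x ∈ R) (j : ℕ) : (∏ x ∈ s, (X - C x)).coeff j ∈ R := by
  have h : (∏ x ∈ s, (X - C x)) ∈ Polynomial.liftsRing R.subtype := by
    refine Subring.prod_mem _ fun x hx => ?_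
    refine Subring.sub_mem _ ?_ ?_
    · exact (lifts_iff_liftsRing _ _).1 (X_mem_lifts _)
    · exact (lifts_iff_liftsRing _ _).1 (C_mem_lifts R.subtype ⟨x, hs x hx⟩)
  obtain ⟨y, hy⟩ := (lifts_iff_coeff_lifts _).1 ((lifts_iff_liftsRing _ _).2 h) j
  rw [← hy]; exact y.2

theorem h57_inv_fix (τ : Γℚ) {a : Qb} (h : τ a = a) : τ⁻¹ a = a := by
  conv_lhs => rw [← h]
  exact τ.symm_apply_apply a

variable {G : Type*} [MulAction Γℚ G]

omit [MulAction Γℚ G] in
/-- an automorphism fixing `K'` and `θ` fixes `K' ⊔ ℚ⟮θ⟯` (restated without the action) -/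
theorem h57_fix_sup' (K' : IntermediateField ℚ Qb) (θ : Qb) (σ : Γℚ)
    (hσ : ∀ a ∈ K', σ a = a) (hθ : σ θ = θ) :
    ∀ a ∈ K' ⊔ IntermediateField.adjoin ℚ {θ}, σ a = a := by
  let E : IntermediateField ℚ Qb :=
    { toSubalgebra :=
        { carrier := {a | σ a = a}
          mul_mem' := fun {a b} (ha : σ a = a) (hb : σ b = b) =>
            show σ (a * b) = a * b by rw [map_mul, ha, hb]
          add_mem' := fun {a b} (ha : σ a = a) (hb : σ b = b) =>
            show σ (a + b) = a + b by rw [map_add, ha, hb]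
          one_mem' := map_one σ
          zero_mem' := map_zero σ
          algebraMap_mem' := fun q => σ.commutes q }
      inv_mem' := fun a (ha : σ a = a) =>
        show σ a⁻¹ = a⁻¹ by rw [map_inv₀, ha] }
  have h1 : K' ≤ E := fun a ha => hσ a ha
  have h2 : IntermediateField.adjoin ℚ {θ} ≤ E := by
    rw [IntermediateField.adjoin_le_iff, Set.singleton_subset_iff]
    exact hθ
  intro a ha
  exact (sup_le h1 h2) ha

theorem h57_trace_step (Ri : Subring Qb)
    (hRiσ : ∀ a ∈ Ri, ∀ σ : Γℚ, σ a ∈ Ri)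
    (hRiroot : ∀ g : Polynomial Qb, g.Monic → (∀ i, g.coeff i ∈ Ri) →
      ∀ θ : Qb, g.eval θ = 0 → θ ∈ Ri)
    (Lam T : Submodule ↥Ri (G → Qb))
    (hLam : ∀ σ : Γℚ, ∀ f ∈ Lam, h26_conj σ f ∈ Lam)
    (K' : IntermediateField ℚ Qb) (θ : Qb) (g : Polynomial Qb)
    (hg : g.Monic) (hgK : ∀ i, g.coeff i ∈ K') (hgI : ∀ i, g.coeff i ∈ Ri)
    (hθ : g.eval θ = 0) (hd0 : g.derivative.eval θ ≠ 0)
    (hdI : (g.derivative.eval θ)⁻¹ ∈ Ri)
    (IH : ∀ f ∈ Lam, (∀ σ : Γℚ, (∀ a ∈ K', σ a = a) → h26_conj σ f = f) → f ∈ T)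
    (f : G → Qb) (hf : f ∈ Lam)
    (hfix : ∀ σ : Γℚ, (∀ a ∈ K' ⊔ IntermediateField.adjoin ℚ {θ}, σ a = a) → h26_conj σ f = f) :
    f ∈ T := by
  classical
  have hg0 : g ≠ 0 := hg.ne_zero
  have hgσ : ∀ σ : Γℚ, (∀ a ∈ K', σ a = a) → g.map (σ : Qb →+* Qb) = g := by
    intro σ hσ; ext i; rw [coeff_map]; exact hσ _ (hgK i)
  have hrootσ : ∀ σ : Γℚ, (∀ a ∈ K', σ a = a) → ∀ r, g.eval r = 0 → g.eval (σ r) = 0 := by
    intro σ hσ r hr
    have h1 := Polynomial.eval₂_at_apply (p := g) (σ : Qb →+* Qb) r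
    simp only [RingHom.coe_coe] at h1
    rw [← Polynomial.eval_map, hgσ σ hσ] at h1
    rw [h1, hr, map_zero]
  set S : Finset Qb := g.roots.toFinset.filter
    (fun r => ∃ σ : Γℚ, (∀ a ∈ K', σ a = a) ∧ σ θ = r) with hS
  have hmemS : ∀ r, r ∈ S ↔ ∃ σ : Γℚ, (∀ a ∈ K', σ a = a) ∧ σ θ = r := by
    intro r
    rw [hS, Finset.mem_filter, Multiset.mem_toFinset, mem_roots hg0]
    constructor
    · exact fun h => h.2
    · rintro ⟨σ, hσ, rfl⟩
      exact ⟨hrootσ σ hσ θ hθ, σ, hσ, rfl⟩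
  have hθS : θ ∈ S := (hmemS θ).2 ⟨1, fun _ _ => rfl, rfl⟩
  have hSσ : ∀ σ : Γℚ, (∀ a ∈ K', σ a = a) → ∀ r ∈ S, σ r ∈ S := by
    intro σ hσ r hr
    obtain ⟨τ, hτ, rfl⟩ := (hmemS r).1 hr
    exact (hmemS _).2 ⟨σ * τ, fun a ha => by simp [hτ a ha, hσ a ha], rfl⟩
  have hSimg : ∀ σ : Γℚ, (∀ a ∈ K', σ a = a) → S.image σ = S := by
    intro σ hσ
    apply Finset.eq_of_subset_of_card_le
    · intro x hx
      obtain ⟨r, hr, rfl⟩ := Finset.mem_image.1 hx
      exact hSσ σ hσ r hr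
    · rw [Finset.card_image_of_injective _ σ.injective]
  have hSroot : ∀ s ∈ S, g.eval s = 0 := by
    intro s hs
    obtain ⟨σ, hσ, rfl⟩ := (hmemS s).1 hs
    exact hrootσ σ hσ θ hθ
  have hSR : ∀ s ∈ S, s ∈ Ri := fun s hs =>
    hRiroot g hg hgI s (hSroot s hs)
  have hθR : θ ∈ Ri := hSR θ hθS
  -- chosen automorphisms
  have hτex : ∀ r : Qb, ∃ τ : Γℚ, (∀ a ∈ K', τ a = a) ∧ (r ∈ S → τ θ = r) := by
    intro r
    by_cases hr : r ∈ S
    · obtain ⟨τ, hτ, h⟩ := (hmemS r).1 hr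
      exact ⟨τ, hτ, fun _ => h⟩
    · exact ⟨1, fun _ _ => rfl, fun h => absurd h hr⟩
  choose τ hτK hτθ using hτex
  -- Lagrange data
  set P : Qb → Polynomial Qb := fun r => ∏ s ∈ S.erase r, (X - C s) with hP
  set c : Qb → Qb := fun r => (P r).eval r with hc
  have hc0 : ∀ r, c r ≠ 0 := by
    intro r
    simp only [hc, hP, eval_prod, eval_sub, eval_X, eval_C]
    exact Finset.prod_ne_zero_iff.2 fun s hs => sub_ne_zero.2 (Finset.ne_of_mem_erase hs).symm
  have hPσ : ∀ σ : Γℚ, (∀ a ∈ K', σ a = a) → ∀ r, (P r).map (σ : Qb →+* Qb) = P (σ r) := by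
    intro σ hσ r
    have h : S.erase (σ r) = (S.erase r).image σ := by
      rw [Finset.image_erase σ.injective, hSimg σ hσ]
    simp only [hP, Polynomial.map_prod, Polynomial.map_sub, map_X, map_C, RingHom.coe_coe]
    rw [h, Finset.prod_image (fun x _ y _ hxy => σ.injective hxy)]
  have hcσ : ∀ σ : Γℚ, (∀ a ∈ K', σ a = a) → ∀ r, σ (c r) = c (σ r) := by
    intro σ hσ r
    simp only [hc]
    rw [← hPσ σ hσ r, eval_map]
    have h1 := Polynomial.eval₂_at_apply (p := P r) (σ : Qb →+* Qb) r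
    simp only [RingHom.coe_coe] at h1
    exact h1.symm
  set e : Qb → ℕ → Qb := fun r j => (P r).coeff j * (c r)⁻¹ with he
  have heσ : ∀ σ : Γℚ, (∀ a ∈ K', σ a = a) → ∀ r j, σ (e r j) = e (σ r) j := by
    intro σ hσ r j
    simp only [he, map_mul, map_inv₀, hcσ σ hσ r]
    rw [← hPσ σ hσ r, coeff_map]; rfl
  have hPR : ∀ r j, (P r).coeff j ∈ Ri := fun r j =>
    h57_coeff_prod_mem _ _ (fun x hx => hSR x (Finset.mem_of_mem_erase hx)) j
  have hcθ : (c θ)⁻¹ ∈ Ri := by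
    have hdvd : (∏ s ∈ S, (X - C s)) ∣ g := by
      have h1 : S.val ≤ g.roots := by
        rw [Multiset.le_iff_subset S.nodup]
        intro x hx
        exact (mem_roots hg0).2 (hSroot x hx)
      exact (Multiset.prod_X_sub_C_dvd_iff_le_roots hg0 S.val).2 h1
    obtain ⟨h, hh⟩ := hdvd
    have hmon : (∏ s ∈ S, (X - C s : Polynomial Qb)).Monic :=
      monic_prod_of_monic _ _ fun s _ => monic_X_sub_C s
    have hhm : h.Monic := hmon.of_mul_monic_left (hh ▸ hg)
    have hder : g.derivative.eval θ = c θ * h.eval θ := by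
      rw [hh, ← Finset.mul_prod_erase S _ hθS]
      simp [hc, hP, derivative_mul, mul_assoc]
    have hhθ : h.eval θ ∈ Ri := by
      rw [(IsAlgClosed.splits h).eval_eq_prod_roots_of_monic hhm]
      refine Subring.multiset_prod_mem _ _ ?_
      intro a ha
      obtain ⟨b, hb, rfl⟩ := Multiset.mem_map.1 ha
      refine Subring.sub_mem _ hθR ?_
      have hb' : h.eval b = 0 := (mem_roots hhm.ne_zero).1 hb
      exact hRiroot g hg hgI b (by rw [hh, eval_mul, hb', mul_zero])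
    have hh0 : h.eval θ ≠ 0 := by
      intro h0; apply hd0; rw [hder, h0, mul_zero]
    have : (c θ)⁻¹ = h.eval θ * (g.derivative.eval θ)⁻¹ := by
      rw [hder]; field_simp [hc0 θ]
    rw [this]; exact Subring.mul_mem _ hhθ hdI
  have hcR : ∀ r ∈ S, (c r)⁻¹ ∈ Ri := by
    intro r hr
    have h1 : c r = τ r (c θ) := by rw [hcσ (τ r) (hτK r) θ, hτθ r hr]
    rw [h1, ← map_inv₀]
    exact hRiσ _ hcθ _
  have heR : ∀ r ∈ S, ∀ j, e r j ∈ Ri := fun r hr j =>
    Subring.mul_mem _ (hPR r j) (hcR r hr)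
  -- the components
  set v : ℕ → G → Qb := fun j => ∑ r ∈ S, e r j • h26_conj (τ r) f with hv
  have hvLam : ∀ j, v j ∈ Lam := by
    intro j
    refine Submodule.sum_mem _ fun r hr => ?_
    exact Lam.smul_mem ⟨e r j, heR r hr j⟩ (hLam (τ r) f hf)
  have hfixθ : ∀ σ : Γℚ, (∀ a ∈ K', σ a = a) → σ θ = θ → h26_conj σ f = f :=
    fun σ hσ hσθ => hfix σ (h57_fix_sup' K' θ σ hσ hσθ)
  have hvfix : ∀ j, ∀ σ : Γℚ, (∀ a ∈ K', σ a = a) → h26_conj σ (v j) = v j := by
    intro j σ hσ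
    simp only [hv]
    rw [h57_conj_sum]
    have hterm : ∀ r ∈ S, h26_conj σ (e r j • h26_conj (τ r) f)
        = e (σ r) j • h26_conj (τ (σ r)) f := by
      intro r hr
      rw [h57_conj_smul, heσ σ hσ, ← h57_conj_comp]
      congr 1
      have hρ : h26_conj ((τ (σ r))⁻¹ * (σ * τ r)) f = f := by
        apply hfixθ
        · intro a ha
          show (τ (σ r))⁻¹ (σ (τ r a)) = a
          rw [hτK r a ha, hσ a ha]
          exact h57_inv_fix _ (hτK (σ r) a ha)
        · show (τ (σ r))⁻¹ (σ (τ r θ)) = θ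
          rw [hτθ r hr]
          exact (AlgEquiv.symm_apply_eq _).2 (hτθ (σ r) (hSσ σ hσ r hr)).symm
      calc h26_conj (σ * τ r) f
          = h26_conj (τ (σ r) * ((τ (σ r))⁻¹ * (σ * τ r))) f := by rw [mul_inv_cancel_left]
        _ = h26_conj (τ (σ r)) f := by rw [h57_conj_comp, hρ]
    rw [Finset.sum_congr rfl hterm]
    have := Finset.sum_image (s := S) (f := fun r => e r j • h26_conj (τ r) f) (g := σ)
      (fun x _ y _ h => σ.injective h)
    rw [hSimg σ hσ] at this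
    exact this.symm
  have hsum : f = ∑ j ∈ Finset.range S.card, (θ ^ j) • v j := by
    simp only [hv, Finset.smul_sum, smul_smul]
    rw [Finset.sum_comm]
    simp only [← Finset.sum_smul]
    have hcoef : ∀ r ∈ S, ∑ j ∈ Finset.range S.card, θ ^ j * e r j = if r = θ then 1 else 0 := by
      intro r hr
      have hdeg : (P r).natDegree < S.card := by
        simp only [hP]
        rw [natDegree_prod_of_monic _ _ (fun s _ => monic_X_sub_C s)]
        simp only [natDegree_X_sub_C, Finset.sum_const, smul_eq_mul, mul_one]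
        rw [Finset.card_erase_of_mem hr]
        exact Nat.sub_lt (Finset.card_pos.2 ⟨r, hr⟩) one_pos
      have h1 := eval_eq_sum_range' hdeg θ
      have h2 : ∑ j ∈ Finset.range S.card, θ ^ j * e r j = (P r).eval θ * (c r)⁻¹ := by
        rw [h1, Finset.sum_mul]
        refine Finset.sum_congr rfl fun j _ => ?_
        simp only [he]; ring
      rw [h2]
      split_ifs with hrθ
      · subst hrθ; exact mul_inv_cancel₀ (hc0 r)
      · have h3 : (P r).eval θ = 0 := by
          simp only [hP, eval_prod, eval_sub, eval_X, eval_C]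
          exact Finset.prod_eq_zero (Finset.mem_erase.2 ⟨Ne.symm hrθ, hθS⟩) (sub_self θ)
        rw [h3, zero_mul]
    rw [Finset.sum_congr rfl (fun r hr => by rw [hcoef r hr])]
    simp only [ite_smul, one_smul, zero_smul, Finset.sum_ite_eq', hθS, if_true]
    exact (hfixθ (τ θ) (hτK θ) (hτθ θ hθS)).symm
  rw [hsum]
  refine Submodule.sum_mem _ fun j _ => ?_
  exact T.smul_mem ⟨θ ^ j, Subring.pow_mem _ hθR j⟩ (IH (v j) (hvLam j) (hvfix j))

end Fermat.Agent.S19
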