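import Mathlib

/-!
# S19 / MODCHART, generic algebra (helper59)

`h59_mc_integral`: if `jN` satisfies a monic relation over `ℤ[j]` whose coefficients have
degree `≤ D` in `j`, and `j * x ^ c = u` with `x, u` in a valuation ring `O`, then
`x ^ (c * D) * jN ∈ O`.  (For `c = 0` this is: `j ∈ O → jN ∈ O`.)
-/

set_option autoImplicit false

namespace Fermat.Agent.S19

open Polynomial

/-- an integer polynomial of degree `≤ D` in `j`, times `x ^ (c * D)`, lies in `O` as soon as
`x ∈ O` and `j * x ^ c ∈ O`. -/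
theorem h59_mc_coeff_mem {F : Type*} [Field F] (O : ValuationSubring F) (x j : F) (c : ℕ)
    (hx : x ∈ O) (hu : j * x ^ c ∈ O) (p : Polynomial ℤ) (D : ℕ) (hD : p.natDegree ≤ D) :
    Polynomial.eval₂ (Int.castRingHom F) j p * x ^ (c * D) ∈ O := by
  rw [Polynomial.eval₂_eq_sum_range' (Int.castRingHom F) (Nat.lt_succ_of_le hD) j,
    Finset.sum_mul]
  refine Subring.sum_mem O.toSubring fun a ha => ?_
  have ha' : a ≤ D := Nat.lt_succ_iff.mp (Finset.mem_range.mp ha)
  have h1 : (Int.castRingHom F) (p.coeff a) * j ^ a * x ^ (c * D)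
      = (Int.castRingHom F) (p.coeff a) * ((j * x ^ c) ^ a * x ^ (c * (D - a))) := by
    have h2 : c * D = c * a + c * (D - a) := by
      rw [← Nat.mul_add, Nat.add_sub_cancel' ha']
    rw [h2, pow_add, mul_pow, ← pow_mul]
    ring
  rw [h1]
  have h3 : (Int.castRingHom F) (p.coeff a) ∈ O := by
    rw [eq_intCast]
    exact intCast_mem O _
  exact O.mul_mem _ _ h3 (O.mul_mem _ _ (pow_mem hu a) (pow_mem hx _))

/-- **the regularity lemma.** -/
theorem h59_mc_integral {F : Type*} [Field F] (O : ValuationSubring F) (x j jN : F) (c : ℕ)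
    (hx : x ∈ O) (hu : j * x ^ c ∈ O)
    (Pm : Polynomial (Polynomial ℤ)) (hPm : Pm.Monic)
    (hroot : Polynomial.eval₂ (Polynomial.eval₂RingHom (Int.castRingHom F) j) jN Pm = 0)
    (D : ℕ) (hD : ∀ i, (Pm.coeff i).natDegree ≤ D) :
    x ^ (c * D) * jN ∈ O := by
  set n := Pm.natDegree with hn
  set w := x ^ (c * D) * jN with hw
  set φ : Polynomial ℤ →+* F := Polynomial.eval₂RingHom (Int.castRingHom F) j with hφ
  -- the coefficients of the relation for `w`
  set a : ℕ → F := fun i => φ (Pm.coeff i) * x ^ (c * D * (n - i)) with ha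
  have hsum : ∑ i ∈ Finset.range (n + 1), a i * w ^ i = 0 := by
    have h0 : ∑ i ∈ Finset.range (n + 1), φ (Pm.coeff i) * jN ^ i = 0 := by
      rw [← Polynomial.eval₂_eq_sum_range]
      exact hroot
    have h1 : ∑ i ∈ Finset.range (n + 1), a i * w ^ i
        = x ^ (c * D * n) * ∑ i ∈ Finset.range (n + 1), φ (Pm.coeff i) * jN ^ i := by
      rw [Finset.mul_sum]
      refine Finset.sum_congr rfl fun i hi => ?_
      have hi' : i ≤ n := Nat.lt_succ_iff.mp (Finset.mem_range.mp hi)
      have h2 : c * D * n = c * D * (n - i) + c * D * i := by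
        rw [← Nat.mul_add, Nat.sub_add_cancel hi']
      rw [ha, hw, h2, pow_add, mul_pow, ← pow_mul]
      ring
    rw [h1, h0, mul_zero]
  have han : a n = 1 := by
    rw [ha]
    simp only [Nat.sub_self, Nat.mul_zero, pow_zero, mul_one]
    have : Pm.coeff n = 1 := hPm.coeff_natDegree
    rw [this, map_one]
  have hai : ∀ i, i < n → a i ∈ O := by
    intro i hi
    have h1 : a i = (Polynomial.eval₂ (Int.castRingHom F) j (Pm.coeff i) * x ^ (c * D))
        * x ^ (c * D * (n - i - 1)) := by
      have h2 : c * D * (n - i) = c * D + c * D * (n - i - 1) := by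
        have h3 : n - i = 1 + (n - i - 1) := by omega
        calc c * D * (n - i) = c * D * (1 + (n - i - 1)) := by rw [← h3]
          _ = c * D + c * D * (n - i - 1) := by rw [Nat.mul_add, Nat.mul_one]
      rw [ha]
      simp only
      rw [h2, pow_add, ← mul_assoc]
      rfl
    rw [h1]
    exact O.mul_mem _ _ (h59_mc_coeff_mem O x j c hx hu _ D (hD i)) (pow_mem hx _)
  -- `w` is integral over the valuation ring `O`
  by_contra hwO
  have hw0 : w ≠ 0 := fun h => hwO (h ▸ O.zero_mem)
  have hwinv : w⁻¹ ∈ O := (O.mem_or_inv_mem w).resolve_left hwO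
  have hn0 : n ≠ 0 := by
    intro h0
    rw [h0, zero_add, Finset.sum_range_one, pow_zero, mul_one, ← h0, han] at hsum
    exact one_ne_zero hsum
  rw [Finset.sum_range_succ, han, one_mul] at hsum
  have hwn : w ^ n = - ∑ i ∈ Finset.range n, a i * w ^ i := eq_neg_of_add_eq_zero_right hsum
  have hw1 : w = - ∑ i ∈ Finset.range n, a i * (w⁻¹) ^ (n - 1 - i) := by
    have h1 : w = w ^ n * (w⁻¹) ^ (n - 1) := by
      have : w ^ n = w * w ^ (n - 1) := by
        rw [← pow_succ']
        congr 1
        omega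
      rw [this, mul_assoc, ← mul_pow, mul_inv_cancel₀ hw0, one_pow, mul_one]
    have h4 : (∑ i ∈ Finset.range n, a i * w ^ i) * (w⁻¹) ^ (n - 1)
        = ∑ i ∈ Finset.range n, a i * (w⁻¹) ^ (n - 1 - i) := by
      rw [Finset.sum_mul]
      refine Finset.sum_congr rfl fun i hi => ?_
      have hi' : i < n := Finset.mem_range.mp hi
      have h2 : (w⁻¹) ^ (n - 1) = (w⁻¹) ^ i * (w⁻¹) ^ (n - 1 - i) := by
        rw [← pow_add]
        congr 1
        omega
      have h3 : w ^ i * (w⁻¹) ^ i = 1 := by
        rw [← mul_pow, mul_inv_cancel₀ hw0, one_pow]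
      calc a i * w ^ i * (w⁻¹) ^ (n - 1)
          = a i * (w ^ i * (w⁻¹) ^ i) * (w⁻¹) ^ (n - 1 - i) := by
            rw [h2]; ring
        _ = a i * (w⁻¹) ^ (n - 1 - i) := by rw [h3, mul_one]
    calc w = w ^ n * (w⁻¹) ^ (n - 1) := h1
      _ = -((∑ i ∈ Finset.range n, a i * w ^ i) * (w⁻¹) ^ (n - 1)) := by rw [hwn, neg_mul]
      _ = - ∑ i ∈ Finset.range n, a i * (w⁻¹) ^ (n - 1 - i) := by rw [h4]
  apply hwO
  rw [hw1]
  refine O.neg_mem _ (Subring.sum_mem O.toSubring fun i hi => ?_)
  exact O.mul_mem _ _ (hai i (Finset.mem_range.mp hi)) (pow_mem hwinv _)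

/-! ### Transport of integer relations along ring homomorphisms -/

theorem h59_mc_evalHom_comp {S T : Type*} [CommRing S] [CommRing T] (f : S →+* T) (j : S) :
    f.comp (Polynomial.eval₂RingHom (Int.castRingHom S) j)
      = Polynomial.eval₂RingHom (Int.castRingHom T) (f j) := by
  apply Polynomial.ringHom_ext
  · intro a
    simp
  · simp

theorem h59_mc_root_transport {S T : Type*} [CommRing S] [CommRing T] (f : S →+* T) (j jN : S)
    (Pm : Polynomial (Polynomial ℤ))
    (h : Polynomial.eval₂ (Polynomial.eval₂RingHom (Int.castRingHom S) j) jN Pm = 0) :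
    Polynomial.eval₂ (Polynomial.eval₂RingHom (Int.castRingHom T) (f j)) (f jN) Pm = 0 := by
  have h1 := congrArg f h
  rw [map_zero, Polynomial.hom_eval₂, h59_mc_evalHom_comp] at h1
  exact h1

theorem h59_mc_root_descend {S T : Type*} [CommRing S] [CommRing T] (f : S →+* T)
    (hf : Function.Injective f) (j jN : S) (j' jN' : T) (hj : f j = j') (hjN : f jN = jN')
    (Pm : Polynomial (Polynomial ℤ))
    (h : Polynomial.eval₂ (Polynomial.eval₂RingHom (Int.castRingHom T) j') jN' Pm = 0) :
    Polynomial.eval₂ (Polynomial.eval₂RingHom (Int.castRingHom S) j) jN Pm = 0 := by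
  subst hj hjN
  apply hf
  rw [map_zero, Polynomial.hom_eval₂, h59_mc_evalHom_comp]
  exact h

theorem h59_mc_eval₂_hom {S T : Type*} [CommRing S] [CommRing T] (f : S →+* T) (x : S)
    (pu : Polynomial ℤ) :
    f (Polynomial.eval₂ (Int.castRingHom S) x pu) = Polynomial.eval₂ (Int.castRingHom T) (f x) pu := by
  rw [Polynomial.hom_eval₂, RingHom.ext_int (f.comp (Int.castRingHom S)) (Int.castRingHom T)]

theorem h59_mc_rel_transport {S T : Type*} [CommRing S] [CommRing T] (f : S →+* T) (j x : S)
    (c : ℕ) (pu : Polynomial ℤ) (h : j * x ^ c = Polynomial.eval₂ (Int.castRingHom S) x pu) :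
    f j * f x ^ c = Polynomial.eval₂ (Int.castRingHom T) (f x) pu := by
  rw [← h59_mc_eval₂_hom, ← h, map_mul, map_pow]

theorem h59_mc_rel_descend {S T : Type*} [CommRing S] [CommRing T] (f : S →+* T)
    (hf : Function.Injective f) (j x : S) (j' x' : T) (hj : f j = j') (hx : f x = x')
    (c : ℕ) (pu : Polynomial ℤ) (h : j' * x' ^ c = Polynomial.eval₂ (Int.castRingHom T) x' pu) :
    j * x ^ c = Polynomial.eval₂ (Int.castRingHom S) x pu := by
  subst hj hx
  apply hf
  rw [h59_mc_eval₂_hom, map_mul, map_pow]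
  exact h

/-- an integer polynomial in an element of a subring lies in the subring. -/
theorem h59_mc_eval₂_mem {F : Type*} [Field F] (O : ValuationSubring F) (x : F) (hx : x ∈ O)
    (pu : Polynomial ℤ) : Polynomial.eval₂ (Int.castRingHom F) x pu ∈ O := by
  rw [Polynomial.eval₂_eq_sum_range]
  refine Subring.sum_mem O.toSubring fun i _ => ?_
  refine O.mul_mem _ _ ?_ (pow_mem hx i)
  rw [eq_intCast]
  exact intCast_mem O _

/-- an integer polynomial in an element of a subring lies in the subring (general form). -/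
theorem h59_mc_eval₂_mem_subring {F : Type*} [CommRing F] (O : Subring F) (x : F) (hx : x ∈ O)
    (pu : Polynomial ℤ) : Polynomial.eval₂ (Int.castRingHom F) x pu ∈ O := by
  rw [Polynomial.eval₂_eq_sum_range]
  refine Subring.sum_mem O fun i _ => ?_
  refine O.mul_mem ?_ (pow_mem hx i)
  rw [eq_intCast]
  exact intCast_mem O _

end Fermat.Agent.S19
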