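import Fermat.Agent.S17.h35_GalDescent
import Fermat.Prelude.Def_AlgebraicCurve_BaseChangeGalois

/-!
# S19, row X4 RATNORM: Galois-fixed functions have rational coordinates (helper76)

`F` a field over `ℚ̄` with a semilinear action `gal` of `Gal(ℚ̄/ℚ)`, `x`, `y` Galois-fixed,
`x` transcendental, `1, y, …, y^(n-1)` a `ℚ̄(x)`-basis of `F`.  Then every Galois-fixed `f`
satisfies `f · q(x) = ∑ p_i(x) y^i` with `q ≠ 0`, `p_i` polynomials with RATIONAL coefficients
(`h76_fixed_rat_coords`).

Proof: the `ℚ̄`-space of coefficient vectors `(Q, P)` (degrees `< D`) with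
`f · Q(x) = ∑ P_i(x) y^i` is nonzero and stable under the coefficientwise Galois action, hence
has a rational basis (`h35_descent_basis_galois`).

`h76_pv v` is the polynomial with coefficient vector `v : Fin D → R`.
-/

set_option autoImplicit false

noncomputable section

open AlgebraicCurve Polynomial IntermediateField

namespace Fermat.Agent.S19

local notation "Qb" => AlgebraicClosure ℚ
local notation "Γℚ" => (AlgebraicClosure ℚ ≃ₐ[ℚ] AlgebraicClosure ℚ)

/-! ### Polynomials from coefficient vectors -/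

/-- the polynomial with coefficient vector `v` -/
def h76_pv {R : Type*} [Semiring R] {D : ℕ} (v : Fin D → R) : R[X] :=
  ∑ s : Fin D, Polynomial.monomial (s : ℕ) (v s)

theorem h76_pv_coeff {R : Type*} [Semiring R] {D : ℕ} (v : Fin D → R) (s : Fin D) :
    (h76_pv v).coeff (s : ℕ) = v s := by
  classical
  unfold h76_pv
  rw [Polynomial.finsetSum_coeff, Finset.sum_eq_single s]
  · rw [Polynomial.coeff_monomial, if_pos rfl]
  · intro t _ hts
    rw [Polynomial.coeff_monomial, if_neg]
    exact fun h => hts (Fin.ext h)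
  · intro h
    exact absurd (Finset.mem_univ s) h

theorem h76_pv_coeff_of_le {R : Type*} [Semiring R] {D : ℕ} (v : Fin D → R) (m : ℕ)
    (hm : D ≤ m) : (h76_pv v).coeff m = 0 := by
  classical
  unfold h76_pv
  rw [Polynomial.finsetSum_coeff]
  refine Finset.sum_eq_zero fun t _ => ?_
  rw [Polynomial.coeff_monomial, if_neg]
  have := t.2
  omega

theorem h76_pv_eq_zero {R : Type*} [Semiring R] {D : ℕ} (v : Fin D → R) (h : h76_pv v = 0) :
    v = 0 := by
  funext s
  rw [← h76_pv_coeff v s, h, Polynomial.coeff_zero, Pi.zero_apply]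

theorem h76_pv_zero {R : Type*} [Semiring R] {D : ℕ} : h76_pv (0 : Fin D → R) = 0 := by
  unfold h76_pv
  simp

theorem h76_pv_map {R S : Type*} [Semiring R] [Semiring S] (φ : R →+* S) {D : ℕ}
    (v : Fin D → R) : (h76_pv v).map φ = h76_pv (fun s => φ (v s)) := by
  unfold h76_pv
  rw [Polynomial.map_sum]
  exact Finset.sum_congr rfl fun s _ => Polynomial.map_monomial φ

theorem h76_pv_aeval {R A : Type*} [CommSemiring R] [Semiring A] [Algebra R A] {D : ℕ}
    (v : Fin D → R) (x : A) : aeval x (h76_pv v) = ∑ s : Fin D, v s • x ^ (s : ℕ) := by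
  unfold h76_pv
  rw [map_sum]
  refine Finset.sum_congr rfl fun s _ => ?_
  rw [Polynomial.aeval_monomial, Algebra.smul_def]

theorem h76_pv_of_coeff {R : Type*} [Semiring R] (p : R[X]) {D : ℕ} (hD : p.natDegree < D) :
    h76_pv (fun s : Fin D => p.coeff (s : ℕ)) = p := by
  ext m
  by_cases hm : m < D
  · exact h76_pv_coeff (fun s : Fin D => p.coeff (s : ℕ)) ⟨m, hm⟩
  · rw [h76_pv_coeff_of_le _ m (by omega), Polynomial.coeff_eq_zero_of_natDegree_lt (by omega)]

/-! ### Denominators -/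

section Den

variable {K F : Type*} [Field K] [Field F] [Algebra K F]

theorem h76_aeval_mem_adjoin (x : F) (P : K[X]) : aeval x P ∈ K⟮x⟯ :=
  IntermediateField.algebra_adjoin_le_adjoin K {x} (Polynomial.aeval_mem_adjoin_singleton K x)

/-- every element of a field spanned over `K(x)` by the powers of `y` is
`(∑ P_i(x) y^i) / Q(x)` with polynomials over `K`. -/
theorem h76_exists_den_pow {x y : F} {n : ℕ}
    (hspan : Submodule.span K⟮x⟯ (Set.range fun i : Fin n => y ^ (i : ℕ)) = ⊤) (f : F) :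
    ∃ (Q : K[X]) (P : Fin n → K[X]), aeval x Q ≠ 0 ∧
      f * aeval x Q = ∑ i, aeval x (P i) * y ^ (i : ℕ) := by
  classical
  have hf : f ∈ Submodule.span K⟮x⟯ (Set.range fun i : Fin n => y ^ (i : ℕ)) := by
    rw [hspan]
    exact Submodule.mem_top
  induction hf using Submodule.span_induction with
  | mem z hz =>
    obtain ⟨i, rfl⟩ := hz
    refine ⟨1, fun j => if j = i then 1 else 0, ?_, ?_⟩
    · rw [map_one]
      exact one_ne_zero
    · rw [map_one, mul_one, Finset.sum_eq_single i]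
      · simp
      · intro j _ hj
        simp [hj]
      · intro h
        exact absurd (Finset.mem_univ i) h
  | zero => exact ⟨1, fun _ => 0, by rw [map_one]; exact one_ne_zero, by simp⟩
  | add z w _ _ hz hw =>
    obtain ⟨Q1, P1, hQ1, h1⟩ := hz
    obtain ⟨Q2, P2, hQ2, h2⟩ := hw
    refine ⟨Q1 * Q2, fun i => P1 i * Q2 + P2 i * Q1, ?_, ?_⟩
    · rw [map_mul]
      exact mul_ne_zero hQ1 hQ2
    · have h3 : (z + w) * aeval x (Q1 * Q2) =
          (z * aeval x Q1) * aeval x Q2 + (w * aeval x Q2) * aeval x Q1 := by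
        rw [map_mul]
        ring
      rw [h3, h1, h2, Finset.sum_mul, Finset.sum_mul, ← Finset.sum_add_distrib]
      refine Finset.sum_congr rfl fun i _ => ?_
      rw [map_add, map_mul, map_mul]
      ring
  | smul a z _ hz =>
    obtain ⟨Q1, P1, hQ1, h1⟩ := hz
    obtain ⟨r, s, hrs⟩ := (IntermediateField.mem_adjoin_simple_iff K (a : F)).mp a.2
    have hsm : a • z = (a : F) * z := by
      rw [Algebra.smul_def]
      rfl
    by_cases hs : aeval x s = 0
    · refine ⟨1, fun _ => 0, by rw [map_one]; exact one_ne_zero, ?_⟩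
      have ha : (a : F) = 0 := by rw [hrs, hs, div_zero]
      rw [hsm, ha, zero_mul, zero_mul]
      simp
    · refine ⟨s * Q1, fun i => r * P1 i, ?_, ?_⟩
      · rw [map_mul]
        exact mul_ne_zero hs hQ1
      · have h3 : a • z * aeval x (s * Q1) = aeval x r * (z * aeval x Q1) := by
          rw [hsm, hrs, map_mul]
          field_simp
        rw [h3, h1, Finset.mul_sum]
        refine Finset.sum_congr rfl fun i _ => ?_
        rw [map_mul]
        ring

end Den

/-! ### Descent -/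

section Desc

variable {F : Type*} [Field F] [Algebra Qb F] (gal : Γℚ →* SemilinearAut Qb F)

theorem h76_gal_smul
    (hgal : ∀ (σ : Γℚ) (a : Qb), gal σ • algebraMap Qb F a = algebraMap Qb F (σ a))
    (σ : Γℚ) (a : Qb) (z : F) : gal σ • (a • z) = σ a • (gal σ • z) := by
  rw [Algebra.smul_def, Algebra.smul_def, smul_mul', hgal]

/-- **(FIXED ⟹ RATIONAL COORDINATES)** -/
theorem h76_fixed_rat_coords
    (hgal : ∀ (σ : Γℚ) (a : Qb), gal σ • algebraMap Qb F a = algebraMap Qb F (σ a))
    {x y : F} (hxtr : Transcendental Qb x) (hxfix : ∀ σ, gal σ • x = x)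
    (hyfix : ∀ σ, gal σ • y = y) {n : ℕ}
    (hli : LinearIndependent Qb⟮x⟯ (fun i : Fin n => y ^ (i : ℕ)))
    (hspan : Submodule.span Qb⟮x⟯ (Set.range fun i : Fin n => y ^ (i : ℕ)) = ⊤)
    (f : F) (hf : ∀ σ, gal σ • f = f) :
    ∃ (q : ℚ[X]) (p : Fin n → ℚ[X]), q ≠ 0 ∧
      f * aeval x (q.map (algebraMap ℚ Qb)) =
        ∑ i, aeval x ((p i).map (algebraMap ℚ Qb)) * y ^ (i : ℕ) := by
  classical
  obtain ⟨Q, P, hQ, hQP⟩ := h76_exists_den_pow (K := Qb) hspan f
  obtain ⟨D, hQD, hPD⟩ : ∃ D : ℕ, Q.natDegree < D ∧ ∀ i, (P i).natDegree < D := by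
    refine ⟨Q.natDegree + ∑ i, (P i).natDegree + 1, by omega, fun i => ?_⟩
    have := Finset.single_le_sum (f := fun j => (P j).natDegree)
      (fun j _ => Nat.zero_le _) (Finset.mem_univ i)
    omega
  -- the coefficient space
  let e : Fin D ⊕ (Fin n × Fin D) → F :=
    Sum.elim (fun s => f * x ^ (s : ℕ)) (fun is => -(x ^ (is.2 : ℕ) * y ^ (is.1 : ℕ)))
  let T : (Fin D ⊕ (Fin n × Fin D) → Qb) →ₗ[Qb] F := Fintype.linearCombination Qb e
  have hT : ∀ v : Fin D ⊕ (Fin n × Fin D) → Qb,
      T v = f * aeval x (h76_pv fun s => v (Sum.inl s)) -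
        ∑ i, aeval x (h76_pv fun s => v (Sum.inr (i, s))) * y ^ (i : ℕ) := by
    intro v
    have h1 : T v = ∑ j, v j • e j := Fintype.linearCombination_apply Qb e v
    rw [h1, Fintype.sum_sum_type, Fintype.sum_prod_type, h76_pv_aeval, sub_eq_add_neg,
      ← Finset.sum_neg_distrib, Finset.mul_sum]
    congr 1
    · refine Finset.sum_congr rfl fun s _ => ?_
      simp only [e, Sum.elim_inl]
      rw [mul_smul_comm]
    · refine Finset.sum_congr rfl fun i _ => ?_
      rw [h76_pv_aeval, Finset.sum_mul, ← Finset.sum_neg_distrib]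
      refine Finset.sum_congr rfl fun s _ => ?_
      simp only [e, Sum.elim_inr]
      rw [smul_neg, smul_mul_assoc]
  have hefix : ∀ (σ : Γℚ) j, gal σ • e j = e j := by
    intro σ j
    rcases j with s | ⟨i, s⟩
    · simp only [e, Sum.elim_inl]
      rw [smul_mul', smul_pow', hf, hxfix]
    · simp only [e, Sum.elim_inr]
      rw [smul_neg, smul_mul', smul_pow', smul_pow', hxfix, hyfix]
  let W : Submodule Qb (Fin D ⊕ (Fin n × Fin D) → Qb) := LinearMap.ker T
  have hW : ∀ (σ : Γℚ), ∀ v ∈ W, (fun j => σ (v j)) ∈ W := by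
    intro σ v hv
    have hv0 : T v = 0 := hv
    show T (fun j => σ (v j)) = 0
    have h1 : T (fun j => σ (v j)) = ∑ j, σ (v j) • e j :=
      Fintype.linearCombination_apply Qb e _
    have h2 : T v = ∑ j, v j • e j := Fintype.linearCombination_apply Qb e v
    have h3 : ∑ j, σ (v j) • e j = gal σ • ∑ j, v j • e j := by
      rw [Finset.smul_sum]
      refine Finset.sum_congr rfl fun j _ => ?_
      rw [h76_gal_smul gal hgal, hefix]
    rw [h1, h3, ← h2, hv0, smul_zero]
  -- the coefficient vector of `(Q, P)`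
  let v0 : Fin D ⊕ (Fin n × Fin D) → Qb :=
    Sum.elim (fun s => Q.coeff (s : ℕ)) (fun is => (P is.1).coeff (is.2 : ℕ))
  have hv0W : v0 ∈ W := by
    show T v0 = 0
    rw [hT]
    simp only [v0, Sum.elim_inl, Sum.elim_inr]
    rw [h76_pv_of_coeff Q hQD, hQP, sub_eq_zero]
    refine Finset.sum_congr rfl fun i _ => ?_
    rw [h76_pv_of_coeff (P i) (hPD i)]
  have hv0 : v0 ≠ 0 := by
    intro h0
    apply hQ
    have hQ0 : Q = 0 := by
      rw [← h76_pv_of_coeff Q hQD]
      have : (fun s : Fin D => Q.coeff (s : ℕ)) = 0 := by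
        funext s
        exact congrFun h0 (Sum.inl s)
      rw [this, h76_pv_zero]
    rw [hQ0, map_zero]
  have hpos : 0 < Module.finrank Qb W :=
    Module.finrank_pos_iff_exists_ne_zero.mpr
      ⟨⟨v0, hv0W⟩, fun h => hv0 (congrArg Subtype.val h)⟩
  have hGal : IsGalois ℚ Qb := by
    have h1 : Algebra.IsAlgebraic ℚ Qb := AlgebraicClosure.isAlgebraic ℚ
    have h2 : IsAlgClosure ℚ Qb := ⟨inferInstance, inferInstance⟩
    have h3 : Normal ℚ Qb := IsAlgClosure.normal ℚ Qb
    exact { }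
  obtain ⟨b, hbli, hbspan⟩ := Fermat.Agent.S17.h35_descent_basis_galois (k := ℚ) (K := Qb) W hW
  let c : Fin D ⊕ (Fin n × Fin D) → ℚ := b ⟨0, hpos⟩
  have hcW : (fun j => algebraMap ℚ Qb (c j)) ∈ W := by
    rw [← hbspan]
    exact Submodule.subset_span ⟨⟨0, hpos⟩, rfl⟩
  have hc0 : (fun j => algebraMap ℚ Qb (c j)) ≠ 0 := hbli.ne_zero ⟨0, hpos⟩
  have hTc : T (fun j => algebraMap ℚ Qb (c j)) = 0 := hcW
  rw [hT] at hTc
  have hmapq : (h76_pv fun s : Fin D => algebraMap ℚ Qb (c (Sum.inl s))) =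
      (h76_pv fun s : Fin D => c (Sum.inl s)).map (algebraMap ℚ Qb) :=
    (h76_pv_map (algebraMap ℚ Qb) _).symm
  have hmapp : ∀ i : Fin n, (h76_pv fun s : Fin D => algebraMap ℚ Qb (c (Sum.inr (i, s)))) =
      (h76_pv fun s : Fin D => c (Sum.inr (i, s))).map (algebraMap ℚ Qb) :=
    fun i => (h76_pv_map (algebraMap ℚ Qb) _).symm
  rw [hmapq] at hTc
  simp only [hmapp] at hTc
  refine ⟨h76_pv fun s : Fin D => c (Sum.inl s), fun i => h76_pv fun s : Fin D =>
    c (Sum.inr (i, s)), ?_, sub_eq_zero.mp hTc⟩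
  intro hq0
  rw [hq0, Polynomial.map_zero, map_zero, mul_zero, zero_sub, neg_eq_zero] at hTc
  -- all the `p i` vanish
  have hg : ∀ i : Fin n,
      aeval x ((h76_pv fun s : Fin D => c (Sum.inr (i, s))).map (algebraMap ℚ Qb)) = 0 := by
    have h1 : ∑ i : Fin n,
        (⟨aeval x ((h76_pv fun s : Fin D => c (Sum.inr (i, s))).map (algebraMap ℚ Qb)),
          h76_aeval_mem_adjoin x _⟩ : Qb⟮x⟯) • y ^ (i : ℕ) = 0 := by
      rw [← hTc]
      refine Finset.sum_congr rfl fun i _ => ?_
      rw [Algebra.smul_def]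
      rfl
    intro i
    have h2 := (Fintype.linearIndependent_iff.mp hli) _ h1 i
    exact congrArg Subtype.val h2
  apply hc0
  funext j
  rcases j with s | ⟨i, s⟩
  · have h1 := h76_pv_eq_zero _ hq0
    have h2 : c (Sum.inl s) = 0 := congrFun h1 s
    rw [h2, map_zero, Pi.zero_apply]
  · have h1 : (h76_pv fun s : Fin D => c (Sum.inr (i, s))).map (algebraMap ℚ Qb) = 0 :=
      (transcendental_iff_injective.mp hxtr) (by rw [hg i, map_zero])
    have h2 : (h76_pv fun s : Fin D => c (Sum.inr (i, s))) = 0 :=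
      (Polynomial.map_eq_zero (algebraMap ℚ Qb)).mp h1
    have h3 : c (Sum.inr (i, s)) = 0 := congrFun (h76_pv_eq_zero _ h2) s
    rw [h3, map_zero, Pi.zero_apply]

end Desc

end Fermat.Agent.S19

end
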