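import Mathlib

/-!
# S19, row X4 RATNORM: two elementary lemmas (helper76, Mathlib only)

* `h76_int_kernel` : a relation over a field `k` of characteristic `ℓ` between the columns of an
  integer matrix gives an integer relation modulo `ℓ` whose coefficients are not all divisible by
  `ℓ` (a `k`-relation between vectors with coordinates in the prime field comes from an
  `𝔽_ℓ`-relation);
* `h76_rat_normal` : a nonzero vector of rational numbers is, up to a factor prime to `ℓ`, a power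
  of `ℓ` times an integer vector whose entries are not all divisible by `ℓ`.
-/

set_option autoImplicit false

noncomputable section

namespace Fermat.Agent.S19

/-- **(INT-KERNEL)** a nontrivial `k`-relation between the columns of an integer matrix
(`char k = ℓ`) gives an integer relation modulo `ℓ` with a coefficient prime to `ℓ`. -/
theorem h76_int_kernel {k : Type*} [Field k] (ℓ : ℕ) [Fact ℓ.Prime] [CharP k ℓ] {r n : ℕ}
    (Mz : Matrix (Fin r) (Fin n) ℤ) (lam : Fin n → k) (hlam : lam ≠ 0)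
    (h : ∀ s, ∑ i, (Mz s i : k) * lam i = 0) :
    ∃ c : Fin n → ℤ, (∃ i, ¬ (ℓ : ℤ) ∣ c i) ∧ ∀ s, (ℓ : ℤ) ∣ ∑ i, Mz s i * c i := by
  classical
  let Mb : Matrix (Fin r) (Fin n) (ZMod ℓ) := Mz.map (Int.castRingHom (ZMod ℓ))
  -- a nonzero kernel vector over `ZMod ℓ`
  have hker : ∃ v : Fin n → ZMod ℓ, v ≠ 0 ∧ Mb.mulVec v = 0 := by
    by_contra hno
    push Not at hno
    have hinj : Function.Injective Mb.mulVecLin := by
      rw [← LinearMap.ker_eq_bot, Submodule.eq_bot_iff]
      intro v hv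
      by_contra hv0
      exact hno v hv0 (by simpa using hv)
    obtain ⟨g, hg⟩ := LinearMap.exists_leftInverse_of_injective Mb.mulVecLin
      (LinearMap.ker_eq_bot.mpr hinj)
    let L : Matrix (Fin n) (Fin r) (ZMod ℓ) := LinearMap.toMatrix' g
    have hLM : L * Mb = 1 := by
      have h1 : LinearMap.toMatrix' (g.comp Mb.mulVecLin) = 1 := by
        rw [hg, LinearMap.toMatrix'_id]
      rw [LinearMap.toMatrix'_comp, ← Matrix.toLin'_apply', LinearMap.toMatrix'_toLin'] at h1
      exact h1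
    let φ : ZMod ℓ →+* k := ZMod.castHom (dvd_refl ℓ) k
    have hLMk : L.map φ * Mb.map φ = 1 := by
      rw [← Matrix.map_mul, hLM, Matrix.map_one _ (map_zero φ) (map_one φ)]
    have hMbk : Mb.map φ = Mz.map (Int.castRingHom k) := by
      ext s i
      simp [Mb, φ]
    have hzero : (Mz.map (Int.castRingHom k)).mulVec lam = 0 := by
      funext s
      simpa [Matrix.mulVec, dotProduct] using h s
    apply hlam
    have h2 : (L.map φ * Mb.map φ).mulVec lam = lam := by rw [hLMk, Matrix.one_mulVec]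
    rw [← h2, ← Matrix.mulVec_mulVec, hMbk, hzero, Matrix.mulVec_zero]
  obtain ⟨v, hv0, hv⟩ := hker
  refine ⟨fun i => ((v i).val : ℤ), ?_, fun s => ?_⟩
  · obtain ⟨i, hi⟩ : ∃ i, v i ≠ 0 := by
      by_contra hall
      push Not at hall
      exact hv0 (funext hall)
    refine ⟨i, fun hdvd => hi ?_⟩
    have h1 : (((v i).val : ℤ) : ZMod ℓ) = 0 := (ZMod.intCast_zmod_eq_zero_iff_dvd _ ℓ).mpr hdvd
    simpa using h1
  · rw [← ZMod.intCast_zmod_eq_zero_iff_dvd]
    have h1 := congrFun hv s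
    simp only [Matrix.mulVec, dotProduct, Pi.zero_apply] at h1
    push_cast
    rw [← h1]
    refine Finset.sum_congr rfl fun i _ => ?_
    simp [Mb]

/-- **(RAT-NORMAL)** normal form of a nonzero rational vector at `ℓ`. -/
theorem h76_rat_normal {ι : Type*} [Fintype ι] (ℓ : ℕ) [Fact ℓ.Prime] (v : ι → ℚ) (hv : v ≠ 0) :
    ∃ (m : ℤ) (N : ℕ) (w : ι → ℤ), ¬ ℓ ∣ N ∧ (∃ i, ¬ (ℓ : ℤ) ∣ w i) ∧
      ∀ i, (N : ℚ) * v i = (ℓ : ℚ) ^ m * w i := by
  classical
  have hℓ : ℓ.Prime := Fact.out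
  have hℓ0 : (ℓ : ℚ) ≠ 0 := by exact_mod_cast hℓ.ne_zero
  -- clear denominators
  let N0 : ℕ := ∏ i, (v i).den
  have hN0 : N0 ≠ 0 := Finset.prod_ne_zero_iff.mpr fun i _ => (v i).den_nz
  have hu : ∀ i, ∃ u : ℤ, (N0 : ℚ) * v i = u := by
    intro i
    refine ⟨(v i).num * ∏ j ∈ Finset.univ.erase i, ((v j).den : ℤ), ?_⟩
    have h1 : N0 = (v i).den * ∏ j ∈ Finset.univ.erase i, (v j).den :=
      (Finset.mul_prod_erase Finset.univ (fun j => (v j).den) (Finset.mem_univ i)).symm
    have h2 : ((v i).den : ℚ) * v i = (v i).num := by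
      have := Rat.mul_den_eq_num (v i)
      rw [mul_comm]
      exact this
    rw [h1]
    push_cast
    rw [mul_right_comm, h2]
  choose u hu using hu
  have hu0 : u ≠ 0 := by
    intro h0
    apply hv
    funext i
    have h1 := hu i
    rw [h0, Pi.zero_apply, Int.cast_zero] at h1
    have hN0' : (N0 : ℚ) ≠ 0 := by exact_mod_cast hN0
    exact (mul_eq_zero.mp h1).resolve_left hN0'
  -- the power of `ℓ` in the content of `u`
  obtain ⟨i₀, hi₀⟩ : ∃ i, u i ≠ 0 := by
    by_contra hall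
    push Not at hall
    exact hu0 (funext hall)
  have hex : ∃ e : ℕ, (∀ i, (ℓ : ℤ) ^ e ∣ u i) ∧ ∃ i, ¬ (ℓ : ℤ) ^ (e + 1) ∣ u i := by
    -- the set of exponents dividing all entries is bounded
    have hbound : ∀ e : ℕ, (∀ i, (ℓ : ℤ) ^ e ∣ u i) → e ≤ (u i₀).natAbs := by
      intro e he
      have h1 : (ℓ : ℤ) ^ e ∣ u i₀ := he i₀
      have h2 : ℓ ^ e ∣ (u i₀).natAbs := by
        have := Int.natAbs_dvd_natAbs.mpr h1
        simpa [Int.natAbs_pow] using this
      have h3 : ℓ ^ e ≤ (u i₀).natAbs := Nat.le_of_dvd (Int.natAbs_pos.mpr hi₀) h2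
      exact (Nat.lt_pow_self hℓ.one_lt).le.trans h3
    by_contra hno
    push Not at hno
    have hall : ∀ e : ℕ, ∀ i, (ℓ : ℤ) ^ e ∣ u i := by
      intro e
      induction e with
      | zero => intro i; simp
      | succ e ih => exact hno e ih
    have := hbound ((u i₀).natAbs + 1) (hall _)
    omega
  obtain ⟨e, he, i₁, hi₁⟩ := hex
  choose w hw using he
  -- the power of `ℓ` in `N0`
  obtain ⟨a, N, hN, hN0eq⟩ : ∃ a N : ℕ, ¬ ℓ ∣ N ∧ N0 = ℓ ^ a * N := by
    obtain ⟨a, N, hN, h⟩ := Nat.exists_eq_pow_mul_and_not_dvd hN0 ℓ hℓ.ne_one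
    exact ⟨a, N, hN, h⟩
  refine ⟨(e : ℤ) - a, N, w, hN, ⟨i₁, fun hdvd => hi₁ ?_⟩, fun i => ?_⟩
  · rw [hw i₁, pow_succ]
    exact mul_dvd_mul_left _ hdvd
  · have h1 := hu i
    rw [hN0eq, hw i] at h1
    push_cast at h1
    rw [zpow_sub₀ hℓ0, zpow_natCast, zpow_natCast]
    field_simp
    linear_combination h1

end Fermat.Agent.S19

end
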