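import Fermat.Agent.S28.ZlBasics

/-!
# S19 / C5 BASIS, core (SAT): `ℓ`-saturated rational bases in pivot form (Mathlib + `ℤ_(ℓ)`)

`V` a finite-dimensional `ℚ`-subspace of a coordinate space `ι → ℚ` whose elements have bounded
`ℓ`-denominators.  Then `V` has a basis `b_1, …, b_n` with all coordinates in
`ℤ_(ℓ) = GaloisRep.ratLocalizedAt ℓ` which is in `ℓ`-adic echelon form: there are pivots
`piv_1, …, piv_n` with `b_j (piv_l) = 0` for `l < j` and `b_j (piv_j)` a unit.  Consequently the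
images of the `b_j` under any ring homomorphism `ℤ_(ℓ) → k` to a field are `k`-linearly
independent (reduction mod `ℓ`, extended to any field of characteristic `ℓ`).

* `h82_exists_primitive` : a nonzero vector with bounded denominators has a primitive multiple;
* `h82_sat_pivots` : the echelon basis;
* `h82_pivot_independent` : independence of the images of an echelon family;
* `h82_sat_basis` : the basis statement.
-/

set_option autoImplicit false

noncomputable section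

namespace Fermat.Agent.S19

open Fermat.Agent.S28

section Prim

variable (ℓ : ℕ) [Fact ℓ.Prime] {ι : Type*}

/-- an element of `ℤ_(ℓ)` not divisible by `ℓ` is a unit. -/
theorem h82_isUnit_of_not_dvd (x : ↥(GaloisRep.ratLocalizedAt ℓ)) (hx : ¬ ((ℓ : ℕ) : ↥(GaloisRep.ratLocalizedAt ℓ)) ∣ x) : IsUnit x := by
  have hx0 : x ≠ 0 := fun h => hx (h ▸ dvd_zero _)
  obtain ⟨n, hn⟩ := ratLocalizedAt_associated_pow ℓ x hx0
  rcases Nat.eq_zero_or_pos n with rfl | hpos
  · rw [pow_zero] at hn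
    exact hn.isUnit_iff.mp isUnit_one
  · exfalso
    apply hx
    exact (dvd_pow_self _ hpos.ne').trans hn.dvd

/-- **primitive multiples**: a nonzero rational vector with bounded `ℓ`-denominators has a
rational multiple with coordinates in `ℤ_(ℓ)`, one of which is a unit. -/
theorem h82_exists_primitive (v : ι → ℚ) (hv : v ≠ 0)
    (hbdd : ∃ m : ℕ, ∀ i, (ℓ : ℚ) ^ m * v i ∈ GaloisRep.ratLocalizedAt ℓ) :
    ∃ (w : ι → ↥(GaloisRep.ratLocalizedAt ℓ)) (c : ℚ), c ≠ 0 ∧ (∀ i, ((w i : ↥(GaloisRep.ratLocalizedAt ℓ)) : ℚ) = c * v i) ∧ ∃ i₀, IsUnit (w i₀) := by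
  classical
  have hℓ : ℓ.Prime := Fact.out
  have hℓ0 : (ℓ : ℚ) ≠ 0 := Nat.cast_ne_zero.mpr hℓ.ne_zero
  obtain ⟨m, hm⟩ := hbdd
  -- the integral vector `w0 = ℓ^m v`
  let w0 : ι → ↥(GaloisRep.ratLocalizedAt ℓ) := fun i => ⟨(ℓ : ℚ) ^ m * v i, hm i⟩
  obtain ⟨i₁, hi₁⟩ : ∃ i₁, v i₁ ≠ 0 := by
    by_contra h
    push Not at h
    exact hv (funext h)
  have hw0i₁ : w0 i₁ ≠ 0 := by
    intro h
    have := congrArg Subtype.val h
    simp only [w0, ZeroMemClass.coe_zero, mul_eq_zero] at this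
    rcases this with h | h
    · exact pow_ne_zero m hℓ0 h
    · exact hi₁ h
  obtain ⟨n₁, hn₁⟩ := ratLocalizedAt_associated_pow ℓ (w0 i₁) hw0i₁
  have hndvd : ¬ ((ℓ : ℕ) : ↥(GaloisRep.ratLocalizedAt ℓ)) ^ (n₁ + 1) ∣ w0 i₁ := by
    intro hd
    have h2 : ((ℓ : ℕ) : ↥(GaloisRep.ratLocalizedAt ℓ)) ^ (n₁ + 1) ∣ ((ℓ : ℕ) : ↥(GaloisRep.ratLocalizedAt ℓ)) ^ n₁ := hd.trans hn₁.symm.dvd
    have hprime := ratLocalizedAt_prime ℓ
    rw [pow_succ] at h2
    obtain ⟨c, hc⟩ := h2
    have h3 : ((ℓ : ℕ) : ↥(GaloisRep.ratLocalizedAt ℓ)) ^ n₁ * 1 = ((ℓ : ℕ) : ↥(GaloisRep.ratLocalizedAt ℓ)) ^ n₁ * (((ℓ : ℕ) : ↥(GaloisRep.ratLocalizedAt ℓ)) * c) := by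
      rw [mul_one, ← mul_assoc]
      exact hc
    have h4 := mul_left_cancel₀ (pow_ne_zero n₁ hprime.ne_zero) h3
    exact hprime.not_isUnit (IsUnit.of_mul_eq_one _ h4.symm)
  -- the largest common power
  let P : ℕ → Prop := fun e => ∀ i, ((ℓ : ℕ) : ↥(GaloisRep.ratLocalizedAt ℓ)) ^ e ∣ w0 i
  have hP0 : P 0 := fun i => by rw [pow_zero]; exact one_dvd _
  set e₀ := Nat.findGreatest P n₁ with he₀
  have hPe₀ : P e₀ := Nat.findGreatest_spec (P := P) (Nat.zero_le n₁) hP0
  have hnP : ¬ P (e₀ + 1) := by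
    intro hP1
    by_cases hlt : e₀ + 1 ≤ n₁
    · have := Nat.le_findGreatest (P := P) hlt hP1
      omega
    · have hle : e₀ ≤ n₁ := Nat.findGreatest_le n₁
      have heq : e₀ = n₁ := by omega
      rw [heq] at hP1
      exact hndvd (hP1 i₁)
  choose w hw using hPe₀
  obtain ⟨i₀, hi₀⟩ : ∃ i₀, ¬ ((ℓ : ℕ) : ↥(GaloisRep.ratLocalizedAt ℓ)) ^ (e₀ + 1) ∣ w0 i₀ := by
    by_contra h
    push Not at h
    exact hnP h
  refine ⟨w, (ℓ : ℚ) ^ m / (ℓ : ℚ) ^ e₀, div_ne_zero (pow_ne_zero m hℓ0) (pow_ne_zero e₀ hℓ0),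
    fun i => ?_, i₀, ?_⟩
  · have h1 := congrArg Subtype.val (hw i)
    simp only [w0] at h1
    push_cast at h1
    rw [div_mul_eq_mul_div, h1]
    field_simp
  · apply h82_isUnit_of_not_dvd
    intro hd
    apply hi₀
    rw [hw i₀, pow_succ]
    exact mul_dvd_mul_left _ hd

end Prim

section Pivots

variable (ℓ : ℕ) [Fact ℓ.Prime] {ι : Type*}

/-- **(SAT), echelon form.** -/
theorem h82_sat_pivots : ∀ (n : ℕ) (V : Submodule ℚ (ι → ℚ)), FiniteDimensional ℚ V →
    Module.finrank ℚ V = n →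
    (∀ v ∈ V, ∃ m : ℕ, ∀ i, (ℓ : ℚ) ^ m * v i ∈ GaloisRep.ratLocalizedAt ℓ) →
    ∃ (b : Fin n → ι → ↥(GaloisRep.ratLocalizedAt ℓ)) (piv : Fin n → ι),
      (∀ j, (fun i => ((b j i : ↥(GaloisRep.ratLocalizedAt ℓ)) : ℚ)) ∈ V) ∧
      (∀ j l, l < j → b j (piv l) = 0) ∧ (∀ j, IsUnit (b j (piv j))) := by
  intro n
  induction n with
  | zero =>
    intro V _ _ _
    exact ⟨Fin.elim0, Fin.elim0, fun j => j.elim0, fun j => j.elim0, fun j => j.elim0⟩
  | succ n ih =>
    intro V hfin hrank hbdd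
    -- a nonzero vector
    have hpos : 0 < Module.finrank ℚ V := by omega
    obtain ⟨v, hv⟩ := Module.finrank_pos_iff_exists_ne_zero.mp hpos
    have hv0 : (v : ι → ℚ) ≠ 0 := fun h => hv (Subtype.ext h)
    obtain ⟨w, c, hc, hw, i₀, hi₀⟩ := h82_exists_primitive ℓ (v : ι → ℚ) hv0 (hbdd v v.2)
    have hwV : (fun i => ((w i : ↥(GaloisRep.ratLocalizedAt ℓ)) : ℚ)) ∈ V := by
      have : (fun i => ((w i : ↥(GaloisRep.ratLocalizedAt ℓ)) : ℚ)) = c • (v : ι → ℚ) := by
        funext i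
        rw [hw i, Pi.smul_apply, smul_eq_mul]
      rw [this]
      exact V.smul_mem c v.2
    have hwi₀ : ((w i₀ : ↥(GaloisRep.ratLocalizedAt ℓ)) : ℚ) ≠ 0 := by
      intro h
      have : w i₀ = 0 := Subtype.ext h
      rw [this] at hi₀
      exact not_isUnit_zero hi₀
    -- the hyperplane
    let V' : Submodule ℚ (ι → ℚ) := V ⊓ LinearMap.ker (LinearMap.proj (R := ℚ) (φ := fun _ => ℚ) i₀)
    have hV'le : V' ≤ V := inf_le_left
    have hV'mem : ∀ u ∈ V', u i₀ = 0 := fun u hu => LinearMap.mem_ker.mp hu.2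
    have hV'fin : FiniteDimensional ℚ V' := Submodule.finiteDimensional_of_le hV'le
    have hlt : V' < V := by
      refine lt_of_le_of_ne hV'le (fun h => ?_)
      have : (fun i => ((w i : ↥(GaloisRep.ratLocalizedAt ℓ)) : ℚ)) ∈ V' := by rw [h]; exact hwV
      exact hwi₀ (hV'mem _ this)
    have h1 : Module.finrank ℚ V' < n + 1 := by
      have := Submodule.finrank_lt_finrank_of_lt hlt
      omega
    have h2 : V ≤ V' ⊔ Submodule.span ℚ {(fun i => ((w i : ↥(GaloisRep.ratLocalizedAt ℓ)) : ℚ))} := by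
      intro u hu
      have hdec : u = (u - (u i₀ / ((w i₀ : ↥(GaloisRep.ratLocalizedAt ℓ)) : ℚ)) • (fun i => ((w i : ↥(GaloisRep.ratLocalizedAt ℓ)) : ℚ))) +
          (u i₀ / ((w i₀ : ↥(GaloisRep.ratLocalizedAt ℓ)) : ℚ)) • (fun i => ((w i : ↥(GaloisRep.ratLocalizedAt ℓ)) : ℚ)) := by
        rw [sub_add_cancel]
      rw [hdec]
      refine Submodule.add_mem _ (Submodule.mem_sup_left ⟨?_, ?_⟩)
        (Submodule.mem_sup_right (Submodule.smul_mem _ _ (Submodule.mem_span_singleton_self _)))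
      · exact V.sub_mem hu (V.smul_mem _ hwV)
      · refine LinearMap.mem_ker.mpr ?_
        rw [LinearMap.proj_apply, Pi.sub_apply, Pi.smul_apply, smul_eq_mul,
          div_mul_cancel₀ _ hwi₀, sub_self]
    have h3 : Module.finrank ℚ V ≤ Module.finrank ℚ V' + 1 := by
      have hle := Submodule.finrank_mono h2
      have hadd := Submodule.finrank_add_le_finrank_add_finrank V'
        (Submodule.span ℚ {(fun i => ((w i : ↥(GaloisRep.ratLocalizedAt ℓ)) : ℚ))})
      have hs := finrank_span_singleton (K := ℚ) (v := (fun i => ((w i : ↥(GaloisRep.ratLocalizedAt ℓ)) : ℚ)))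
        (fun h => hwi₀ (congrFun h i₀))
      omega
    have hrank' : Module.finrank ℚ V' = n := by omega
    obtain ⟨b', piv', hb'V, hb'tri, hb'unit⟩ := ih V' hV'fin hrank'
      (fun u hu => hbdd u (hV'le hu))
    refine ⟨Fin.cons w b', Fin.cons i₀ piv', ?_, ?_, ?_⟩
    · intro j
      refine Fin.cases ?_ (fun j' => ?_) j
      · simpa using hwV
      · simpa using hV'le (hb'V j')
    · intro j l
      refine Fin.cases ?_ (fun j' => ?_) j
      · intro h
        exact absurd h (Fin.not_lt_zero l)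
      · refine Fin.cases ?_ (fun l' => ?_) l
        · intro _
          rw [Fin.cons_succ, Fin.cons_zero]
          exact Subtype.ext (hV'mem _ (hb'V j'))
        · intro h
          rw [Fin.cons_succ, Fin.cons_succ]
          exact hb'tri j' l' (Fin.succ_lt_succ_iff.mp h)
    · intro j
      refine Fin.cases ?_ (fun j' => ?_) j
      · simpa using hi₀
      · simpa using hb'unit j'

omit [Fact ℓ.Prime] in
/-- an echelon family stays linearly independent under any ring homomorphism to a field. -/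
theorem h82_pivot_independent {n : ℕ} (b : Fin n → ι → ↥(GaloisRep.ratLocalizedAt ℓ)) (piv : Fin n → ι)
    (htri : ∀ j l, l < j → b j (piv l) = 0) (hunit : ∀ j, IsUnit (b j (piv j)))
    {k : Type*} [Field k] (ψ : ↥(GaloisRep.ratLocalizedAt ℓ) →+* k) :
    LinearIndependent k (fun j => fun i => ψ (b j i)) := by
  classical
  rw [Fintype.linearIndependent_iff]
  intro a ha
  have key : ∀ m : ℕ, ∀ j : Fin n, (j : ℕ) < m → a j = 0 := by
    intro m
    induction m with
    | zero => intro j hj; exact absurd hj (Nat.not_lt_zero _)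
    | succ m ihm =>
      intro j hj
      by_cases hjm : (j : ℕ) < m
      · exact ihm j hjm
      · have hjm' : (j : ℕ) = m := by omega
        have h1 := congrFun ha (piv j)
        rw [Finset.sum_apply] at h1
        simp only [Pi.smul_apply, smul_eq_mul] at h1
        rw [Finset.sum_eq_single j] at h1
        · have hne : ψ (b j (piv j)) ≠ 0 := ((hunit j).map ψ).ne_zero
          exact (mul_eq_zero.mp h1).resolve_right hne
        · intro j' _ hj'
          rcases lt_or_gt_of_ne hj' with hlt | hgt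
          · rw [ihm j' (by have : (j' : ℕ) < j := hlt; omega), zero_mul]
          · rw [htri j' j hgt, map_zero, mul_zero]
        · intro h
          exact absurd (Finset.mem_univ j) h
  intro j
  exact key (j + 1) j (Nat.lt_succ_self _)

/-- **(SAT)** an `ℓ`-saturated basis: coordinates in `ℤ_(ℓ)`, and independent images under every
ring homomorphism from `ℤ_(ℓ)` to a field. -/
theorem h82_sat_basis (V : Submodule ℚ (ι → ℚ)) [FiniteDimensional ℚ V]
    (hbdd : ∀ v ∈ V, ∃ m : ℕ, ∀ i, (ℓ : ℚ) ^ m * v i ∈ GaloisRep.ratLocalizedAt ℓ) :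
    ∃ (b : Fin (Module.finrank ℚ V) → ι → ↥(GaloisRep.ratLocalizedAt ℓ)) (piv : Fin (Module.finrank ℚ V) → ι),
      (∀ j, (fun i => ((b j i : ↥(GaloisRep.ratLocalizedAt ℓ)) : ℚ)) ∈ V) ∧
      LinearIndependent ℚ (fun j => fun i => ((b j i : ↥(GaloisRep.ratLocalizedAt ℓ)) : ℚ)) ∧
      Submodule.span ℚ (Set.range fun j => fun i => ((b j i : ↥(GaloisRep.ratLocalizedAt ℓ)) : ℚ)) = V ∧
      (∀ j l, l < j → b j (piv l) = 0) ∧ (∀ j, IsUnit (b j (piv j))) := by
  obtain ⟨b, piv, hbV, htri, hunit⟩ := h82_sat_pivots ℓ (Module.finrank ℚ V) V inferInstance rfl hbdd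
  have hli : LinearIndependent ℚ (fun j => fun i => ((b j i : ↥(GaloisRep.ratLocalizedAt ℓ)) : ℚ)) :=
    h82_pivot_independent ℓ b piv htri hunit (GaloisRep.ratLocalizedAt ℓ).subtype
  refine ⟨b, piv, hbV, hli, ?_, htri, hunit⟩
  apply Submodule.eq_of_le_of_finrank_eq
  · rw [Submodule.span_le]
    rintro _ ⟨j, rfl⟩
    exact hbV j
  · rw [finrank_span_eq_card hli, Fintype.card_fin]

end Pivots

end Fermat.Agent.S19

end
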