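import Fermat.Agent.S27.RRFull
import Fermat.Agent.S27.h68_RRCons

/-!
# Curve layer for S19 (EXIST, goodness (G1)) : non-special points for a finite family of classes
(helper92)

`K` algebraically closed, `F / K` a function field with a chart `x`, `g = h75_genus K x`.
For a FINITE set `C` of divisors of degree `0` there are `g` distinct places `T_1, …, T_g`,
avoiding a finite set and pairwise finitely many places depending on the earlier ones, with
`l(D + T_1 + ⋯ + T_g) = 1` for EVERY `D ∈ C` simultaneously
(`h92_exists_nonspecial_family`; the case `C = {0}` is `h68_exists_nonspecial`).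

`h92_sub_point_generic` is the step: for a finite family of divisors, all but finitely many
places `Q` lower every `l(E)` by exactly one (truncated at `0`).

Also: `h92_exists_unique_effective` : if `l(D) = 1` (any `D`, not necessarily effective) there
is exactly one effective divisor linearly equivalent to `D` (the divisor `E_x` of the S19
coordinates), and `h92_effective_apply` : it is `D + div f` for any nonzero `f ∈ L(D)`.
-/

set_option autoImplicit false

open AlgebraicCurve

namespace Fermat.Agent.S19

open Fermat.Agent.S18 Fermat.Agent.S27 Fermat.Agent.S24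

variable {K F : Type*} [Field K] [Field F] [Algebra K F] [IsAlgClosed K]

/-- `l(W - D) ≤ g` for a canonical divisor `W` and `deg D = 0`. -/
theorem h92_finrank_canonical_sub_le {x : F} (hx : h75_IsChart K x) {W : Divisor K F}
    (hW : h68_IsCanonical x W) (D : Divisor K F) (hD : Divisor.degree D = 0) :
    Module.finrank K ↥(riemannRochSpace (W - D)) ≤ h75_genus K x := by
  have h1 := hW (W - D)
  rw [sub_sub_cancel, map_sub, h68_canonical_degree hx hW, hD] at h1
  have h2 : Module.finrank K ↥(riemannRochSpace D) ≤ 1 := by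
    rcases h68_rr_deg_zero hx D hD with h | ⟨h, -⟩ <;> omega
  omega

/-- removing a point never raises `l`. -/
theorem h92_finrank_sub_point_le {x : F} (hx : h75_IsChart K x) (E : Divisor K F)
    (Q : Place K F) :
    Module.finrank K ↥(riemannRochSpace (E - Finsupp.single Q 1)) ≤
      Module.finrank K ↥(riemannRochSpace E) := by
  have h := (h68_rr_point hx (E - Finsupp.single Q 1) Q).1
  rwa [sub_add_cancel] at h

/-- **generic point step**: for a finite family `𝓔` of divisors, all places `Q` outside a finite
set lower every `l(E)`, `E ∈ 𝓔`, by exactly one (truncated at `0`). -/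
theorem h92_sub_point_generic {x : F} (hx : h75_IsChart K x) (𝓔 : Finset (Divisor K F)) :
    ∃ B : Finset (Place K F), ∀ Q : Place K F, Q ∉ B → ∀ E ∈ 𝓔,
      Module.finrank K ↥(riemannRochSpace (E - Finsupp.single Q 1)) =
        Module.finrank K ↥(riemannRochSpace E) - 1 := by
  classical
  have hsec : ∀ E : Divisor K F, ∃ h : F, h ∈ riemannRochSpace E ∧
      (h ≠ 0 ∨ Module.finrank K ↥(riemannRochSpace E) = 0) := by
    intro E
    have hfin := (h75_riemann hx E).1
    by_cases h0 : Module.finrank K ↥(riemannRochSpace E) = 0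
    · exact ⟨0, Submodule.zero_mem _, Or.inr h0⟩
    · obtain ⟨h, hh⟩ := Module.finrank_pos_iff_exists_ne_zero.mp (Nat.pos_of_ne_zero h0)
      exact ⟨h, h.2, Or.inl fun h' => hh (Subtype.ext h')⟩
  choose sec hsecmem hsec0 using hsec
  have hbadE : ∀ E : Divisor K F,
      ({Q : Place K F | Q.ord (sec E) ≠ 0} ∪ ↑E.support : Set (Place K F)).Finite := by
    intro E
    refine Set.Finite.union ?_ (Finset.finite_toSet _)
    by_cases h0 : sec E = 0
    · have : {Q : Place K F | Q.ord (sec E) ≠ 0} = ∅ := by
        ext Q
        simp [h0, Place.ord_zero]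
      rw [this]
      exact Set.finite_empty
    · exact h75_finite_ord_ne hx (sec E) h0
  have hbad : (⋃ E ∈ 𝓔, ({Q : Place K F | Q.ord (sec E) ≠ 0} ∪ ↑E.support :
      Set (Place K F))).Finite :=
    Set.Finite.biUnion 𝓔.finite_toSet fun E _ => hbadE E
  refine ⟨hbad.toFinset, fun Q hQ E hE => ?_⟩
  rw [Set.Finite.mem_toFinset] at hQ
  have hQ1 : Q.ord (sec E) = 0 := by
    by_contra h'
    exact hQ (Set.mem_biUnion (Finset.mem_coe.mpr hE) (Or.inl h'))
  have hQ2 : E Q = 0 := by
    by_contra h'
    exact hQ (Set.mem_biUnion (Finset.mem_coe.mpr hE)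
      (Or.inr (Finset.mem_coe.mpr (Finsupp.mem_support_iff.mpr h'))))
  rcases hsec0 E with hne | hzero
  · have := h68_rr_sub_point hx E (hsecmem E) hne Q hQ1 hQ2
    omega
  · have := h92_finrank_sub_point_le hx E Q
    omega

/-- **non-special points for a finite family**: `g` distinct places in general position with
`l(D + ∑ T_j) = 1` for every `D` of the finite family `C` of divisors of degree `0`. -/
theorem h92_exists_nonspecial_family {x : F} (hx : h75_IsChart K x)
    (C : Finset (Divisor K F)) (hC : ∀ D ∈ C, Divisor.degree D = 0)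
    (S : Finset (Place K F))
    (R : Place K F → Place K F → Prop) (hR : ∀ P : Place K F, {Q : Place K F | ¬ R P Q}.Finite) :
    ∃ T : Fin (h75_genus K x) → Place K F, Function.Injective T ∧ (∀ j, T j ∉ S) ∧
      (∀ i j, i < j → R (T i) (T j)) ∧
      ∀ D ∈ C, Module.finrank K
        ↥(riemannRochSpace (D + ∑ j, Finsupp.single (T j) (1 : ℤ))) = 1 := by
  classical
  obtain ⟨W, hW⟩ := h68_exists_canonical hx
  have hinf := h68_infinite_places hx
  have key : ∀ j : ℕ, j ≤ h75_genus K x → ∃ T : Fin j → Place K F, Function.Injective T ∧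
      (∀ i, T i ∉ S) ∧ (∀ i i', i < i' → R (T i) (T i')) ∧
      ∀ D ∈ C, Module.finrank K
        ↥(riemannRochSpace (W - D - ∑ i, Finsupp.single (T i) (1 : ℤ))) + j ≤
          h75_genus K x := by
    intro j
    induction j with
    | zero =>
      intro _
      refine ⟨Fin.elim0, fun i => i.elim0, fun i => i.elim0, fun i => i.elim0, ?_⟩
      intro D hD
      rw [Finset.univ_eq_empty, Finset.sum_empty, sub_zero, add_zero]
      exact h92_finrank_canonical_sub_le hx hW D (hC D hD)
    | succ j ih =>
      intro hj
      obtain ⟨T, hTinj, hTS, hTR, hTf⟩ := ih (by omega)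
      -- a nonzero section for every member of the family whose space is nonzero
      have hsec : ∀ D : Divisor K F, ∃ h : F,
          h ∈ riemannRochSpace (W - D - ∑ i, Finsupp.single (T i) (1 : ℤ)) ∧
          (h ≠ 0 ∨ Module.finrank K
            ↥(riemannRochSpace (W - D - ∑ i, Finsupp.single (T i) (1 : ℤ))) = 0) := by
        intro D
        have hfin := (h75_riemann hx (W - D - ∑ i, Finsupp.single (T i) (1 : ℤ))).1
        by_cases h0 : Module.finrank K
            ↥(riemannRochSpace (W - D - ∑ i, Finsupp.single (T i) (1 : ℤ))) = 0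
        · exact ⟨0, Submodule.zero_mem _, Or.inr h0⟩
        · obtain ⟨h, hh⟩ := Module.finrank_pos_iff_exists_ne_zero.mp (Nat.pos_of_ne_zero h0)
          exact ⟨h, h.2, Or.inl fun h' => hh (Subtype.ext h')⟩
      choose sec hsecmem hsec0 using hsec
      have hbadD : ∀ D : Divisor K F, ({Q : Place K F | Q.ord (sec D) ≠ 0} ∪
          ↑(W - D - ∑ i, Finsupp.single (T i) (1 : ℤ)).support : Set (Place K F)).Finite := by
        intro D
        refine Set.Finite.union ?_ (Finset.finite_toSet _)
        by_cases h0 : sec D = 0
        · have : {Q : Place K F | Q.ord (sec D) ≠ 0} = ∅ := by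
            ext Q
            simp [h0, Place.ord_zero]
          rw [this]
          exact Set.finite_empty
        · exact h75_finite_ord_ne hx (sec D) h0
      -- the finite set to avoid
      have hbad : (↑S ∪ Set.range T ∪ (⋃ i, {Q : Place K F | ¬ R (T i) Q}) ∪
          (⋃ D ∈ C, ({Q : Place K F | Q.ord (sec D) ≠ 0} ∪
            ↑(W - D - ∑ i, Finsupp.single (T i) (1 : ℤ)).support : Set (Place K F))) :
          Set (Place K F)).Finite := by
        refine Set.Finite.union (Set.Finite.union (Set.Finite.union
          S.finite_toSet (Set.finite_range T)) (Set.finite_iUnion fun i => hR (T i))) ?_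
        exact Set.Finite.biUnion C.finite_toSet fun D _ => hbadD D
      obtain ⟨Q, hQ⟩ := hbad.infinite_compl.nonempty
      rw [Set.mem_compl_iff] at hQ
      simp only [Set.mem_union, not_or] at hQ
      obtain ⟨⟨⟨hQS, hQT⟩, hQR⟩, hQC⟩ := hQ
      have hQS' : Q ∉ S := fun h' => hQS (Finset.mem_coe.mpr h')
      have hQR' : ∀ i, R (T i) Q := fun i => by
        by_contra h'
        exact hQR (Set.mem_iUnion.mpr ⟨i, h'⟩)
      have hQD : ∀ D ∈ C, Q.ord (sec D) = 0 ∧
          (W - D - ∑ i, Finsupp.single (T i) (1 : ℤ)) Q = 0 := by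
        intro D hD
        constructor
        · by_contra h'
          exact hQC (Set.mem_biUnion (Finset.mem_coe.mpr hD) (Or.inl h'))
        · by_contra h'
          exact hQC (Set.mem_biUnion (Finset.mem_coe.mpr hD)
            (Or.inr (Finset.mem_coe.mpr (Finsupp.mem_support_iff.mpr h'))))
      have e1 : ∀ i : Fin j, (Fin.snoc T Q : Fin (j + 1) → Place K F) (Fin.castSucc i) = T i :=
        fun i => Fin.snoc_castSucc (α := fun _ => Place K F) Q T i
      have e2 : (Fin.snoc T Q : Fin (j + 1) → Place K F) (Fin.last j) = Q :=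
        Fin.snoc_last (α := fun _ => Place K F) Q T
      refine ⟨Fin.snoc T Q, Fin.snoc_injective_of_injective hTinj hQT, ?_, ?_, ?_⟩
      · intro i
        induction i using Fin.lastCases with
        | last => rw [e2]; exact hQS'
        | cast i => rw [e1]; exact hTS i
      · intro i i' hii'
        induction i' using Fin.lastCases with
        | last =>
          induction i using Fin.lastCases with
          | last => exact absurd hii' (lt_irrefl _)
          | cast i => rw [e2, e1]; exact hQR' i
        | cast i' =>
          induction i using Fin.lastCases with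
          | last => exact absurd hii' (not_lt.mpr (Fin.le_last _))
          | cast i =>
            rw [e1, e1]
            exact hTR i i' (by simpa using hii')
      · intro D hD
        rw [Fin.sum_univ_castSucc, e2, Finset.sum_congr rfl (fun i _ => by rw [e1 i]), ← sub_sub]
        have hold := hTf D hD
        rcases hsec0 D with hne | hzero
        · have := h68_rr_sub_point hx (W - D - ∑ i, Finsupp.single (T i) (1 : ℤ))
            (hsecmem D) hne Q (hQD D hD).1 (hQD D hD).2
          omega
        · have := h92_finrank_sub_point_le hx (W - D - ∑ i, Finsupp.single (T i) (1 : ℤ)) Q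
          omega
  obtain ⟨T, hTinj, hTS, hTR, hTf⟩ := key (h75_genus K x) le_rfl
  refine ⟨T, hTinj, hTS, hTR, fun D hD => ?_⟩
  have h0 : Module.finrank K
      ↥(riemannRochSpace (W - D - ∑ i, Finsupp.single (T i) (1 : ℤ))) = 0 := by
    have := hTf D hD
    omega
  have h1 := hW (D + ∑ i, Finsupp.single (T i) (1 : ℤ))
  rw [← sub_sub, h0, map_add, hC D hD, map_sum] at h1
  have h2 : ∀ i : Fin (h75_genus K x),
      Divisor.degree (Finsupp.single (T i) (1 : ℤ) : Divisor K F) = 1 := by
    intro i
    rw [Divisor.degree_single, h75_deg_eq_one hx (T i)]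
    simp
  rw [Finset.sum_congr rfl (fun i _ => h2 i)] at h1
  simp only [Finset.sum_const, Finset.card_univ, Fintype.card_fin, nsmul_eq_mul, mul_one,
    Nat.cast_zero, add_zero, zero_add] at h1
  have h3 : (Module.finrank K
      ↥(riemannRochSpace (D + ∑ i, Finsupp.single (T i) (1 : ℤ))) : ℤ) = 1 := by
    rw [h1]
    ring
  exact_mod_cast h3

omit [IsAlgClosed K] in
/-- two nonzero sections of a divisor with `l(D) = 1` have the same divisor. -/
theorem h92_ord_eq_of_finrank_one {D : Divisor K F}
    (h1 : Module.finrank K ↥(riemannRochSpace D) = 1) {f f' : F}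
    (hf : f ∈ riemannRochSpace D) (hf0 : f ≠ 0) (hf' : f' ∈ riemannRochSpace D) (hf'0 : f' ≠ 0)
    (P : Place K F) : P.ord f' = P.ord f := by
  obtain ⟨v, -, hv⟩ := finrank_eq_one_iff'.mp h1
  obtain ⟨c, hc⟩ := hv ⟨f, hf⟩
  obtain ⟨c', hc'⟩ := hv ⟨f', hf'⟩
  have hcf : algebraMap K F c * (v : F) = f := by
    have := congrArg Subtype.val hc
    rwa [Submodule.coe_smul, Algebra.smul_def] at this
  have hcf' : algebraMap K F c' * (v : F) = f' := by
    have := congrArg Subtype.val hc'
    rwa [Submodule.coe_smul, Algebra.smul_def] at this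
  have hv0 : (v : F) ≠ 0 := by
    intro h0
    rw [h0, mul_zero] at hcf
    exact hf0 hcf.symm
  have hc0 : algebraMap K F c ≠ 0 := by
    intro h0
    rw [h0, zero_mul] at hcf
    exact hf0 hcf.symm
  have hc'0 : algebraMap K F c' ≠ 0 := by
    intro h0
    rw [h0, zero_mul] at hcf'
    exact hf'0 hcf'.symm
  rw [← hcf, ← hcf', P.ord_mul hc0 hv0, P.ord_mul hc'0 hv0, h35_ord_algebraMap, h35_ord_algebraMap]

/-- **the effective divisor of a class with `l = 1`**: for `l(D) = 1` there is exactly one
effective divisor linearly equivalent to `D`. -/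
theorem h92_exists_unique_effective {x : F} (hx : h75_IsChart K x) (D : Divisor K F)
    (h1 : Module.finrank K ↥(riemannRochSpace D) = 1) :
    ∃! E : Divisor K F, 0 ≤ E ∧ E - D ∈ Divisor.principal (K := K) (F := F) := by
  have hfin := (h75_riemann hx D).1
  obtain ⟨f, hf⟩ := Module.finrank_pos_iff_exists_ne_zero.mp (by omega :
    0 < Module.finrank K ↥(riemannRochSpace D))
  have hf0 : (f : F) ≠ 0 := fun h => hf (Subtype.ext h)
  obtain ⟨Df, hDf⟩ := h7_exists_div hx (f : F) hf0
  refine ⟨D + Df, ⟨?_, ?_⟩, ?_⟩
  · rw [Finsupp.le_def]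
    intro v
    rw [Finsupp.add_apply, hDf v]
    rcases (mem_riemannRochSpace_iff.mp f.2) v with h | h
    · exact absurd h hf0
    · simp only [Finsupp.coe_zero, Pi.zero_apply]
      omega
  · rw [add_sub_cancel_left]
    exact ⟨(f : F), hf0, hDf⟩
  · rintro E ⟨hE, f', hf'0, hf'⟩
    have hf'mem : f' ∈ riemannRochSpace D := by
      rw [mem_riemannRochSpace_iff]
      intro v
      right
      have h2 := hf' v
      have h3 := Finsupp.le_def.mp hE v
      rw [Finsupp.sub_apply] at h2
      simp only [Finsupp.coe_zero, Pi.zero_apply] at h3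
      omega
    ext v
    have h2 := hf' v
    rw [Finsupp.sub_apply] at h2
    rw [Finsupp.add_apply, hDf v, ← h92_ord_eq_of_finrank_one h1 f.2 hf0 hf'mem hf'0 v]
    omega

omit [IsAlgClosed K] in
/-- the effective divisor of a class with `l(D) = 1` is `D + div f` for any nonzero section. -/
theorem h92_effective_apply {D : Divisor K F}
    (h1 : Module.finrank K ↥(riemannRochSpace D) = 1) {E : Divisor K F} (hE : 0 ≤ E)
    (hED : E - D ∈ Divisor.principal (K := K) (F := F)) {f : F}
    (hf : f ∈ riemannRochSpace D) (hf0 : f ≠ 0) (P : Place K F) : E P = D P + P.ord f := by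
  obtain ⟨f', hf'0, hf'⟩ := hED
  have hf'mem : f' ∈ riemannRochSpace D := by
    rw [mem_riemannRochSpace_iff]
    intro v
    right
    have h2 := hf' v
    have h3 := Finsupp.le_def.mp hE v
    rw [Finsupp.sub_apply] at h2
    simp only [Finsupp.coe_zero, Pi.zero_apply] at h3
    omega
  have h2 := hf' P
  rw [Finsupp.sub_apply] at h2
  rw [← h92_ord_eq_of_finrank_one h1 hf hf0 hf'mem hf'0 P]
  omega

end Fermat.Agent.S19
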